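/-
PROJECT LR (S41), package [NONEIS] (helper3), part 1: the abstract group theory.

`J` an abelian group with an action of a group `G`, `p` a prime.  `AbsIrr G J p`: the `p`-torsion
of `J` is nonzero and has no proper nonzero `G`-stable subgroup.
* `le_fixSub_of_pow_mem`: a normal subgroup `H` of `G` all of whose elements have `p`-th power
  acting trivially on `J[p]` (`# J[p] = p ^ 2`, in fact any power of `p`) acts trivially on `J[p]`
  (fixed points of `p`-groups + irreducibility);
* `smul_eq_or_smul_eq_neg`: if the kernel of a character `χ : G →* A` (`A` commutative) acts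
  trivially on `J[p]` and `χ σ ^ 2 = 1` then `σ` acts on `J[p]` as `1` or as `-1`.
-/
import Mathlib

set_option autoImplicit false
set_option linter.style.haveILetI false

namespace Fermat.Agent.LR.NonEis

/-- abstract irreducibility of the `p`-torsion of `J` under `G` -/
def AbsIrr (G : Type*) [Group G] (J : Type*) [AddCommGroup J] [DistribMulAction G J]
    (p : ℕ) : Prop :=
  (∃ P : J, P ≠ 0 ∧ p • P = 0) ∧
  ∀ U : AddSubgroup J, (∀ u ∈ U, p • u = 0) → (∀ (g : G), ∀ u ∈ U, g • u ∈ U) →
    (∀ u ∈ U, u = 0) ∨ (∀ P : J, p • P = 0 → P ∈ U)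

variable {G : Type*} [Group G] {J : Type*} [AddCommGroup J] [DistribMulAction G J] {p : ℕ}

theorem nsmul_smul_eq_zero (g : G) {P : J} (hP : p • P = 0) : p • g • P = 0 := by
  rw [← smul_comm g p P, hP, smul_zero]

/-- the subgroup of `G` acting trivially on the `p`-torsion of `J` -/
def fixSub (G : Type*) [Group G] (J : Type*) [AddCommGroup J] [DistribMulAction G J]
    (p : ℕ) : Subgroup G where
  carrier := {g | ∀ P : J, p • P = 0 → g • P = P}
  one_mem' := fun P _ => one_smul _ _
  mul_mem' := fun {a b} ha hb P hP => by rw [mul_smul, hb P hP, ha P hP]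
  inv_mem' := fun {a} ha P hP => by rw [inv_smul_eq_iff, ha P hP]

theorem mem_fixSub_iff {g : G} : g ∈ fixSub G J p ↔ ∀ P : J, p • P = 0 → g • P = P := Iff.rfl

instance fixSub_normal : (fixSub G J p).Normal where
  conj_mem := fun n hn g P hP => by
    rw [mul_smul, mul_smul, hn _ (nsmul_smul_eq_zero g⁻¹ hP), smul_inv_smul]

/-- **fixed points of `p`-groups + irreducibility**: a normal subgroup all of whose elements have
`p`-th power acting trivially on `J[p]` acts trivially on `J[p]`. -/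
theorem le_fixSub_of_pow_mem (hp : p.Prime) {n : ℕ} (hn : n ≠ 0)
    (hcard : Nat.card {P : J // p • P = 0} = p ^ n)
    (hirr : AbsIrr G J p) (H : Subgroup G) [hH : H.Normal]
    (hpow : ∀ h ∈ H, h ^ p ∈ fixSub G J p) : H ≤ fixSub G J p := by
  classical
  haveI : Fact p.Prime := ⟨hp⟩
  -- the action of `G` on the `p`-torsion
  letI actV : MulAction G {P : J // p • P = 0} :=
    { smul := fun g P => ⟨g • P.1, nsmul_smul_eq_zero g P.2⟩
      one_smul := fun P => Subtype.ext (one_smul _ _)
      mul_smul := fun a b P => Subtype.ext (mul_smul _ _ _) }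
  have hsmul : ∀ (g : G) (P : {P : J // p • P = 0}), (g • P).1 = g • P.1 := fun _ _ => rfl
  haveI : Finite {P : J // p • P = 0} := by
    apply Nat.finite_of_card_ne_zero
    rw [hcard]
    exact pow_ne_zero _ hp.ne_zero
  set ρ : G →* Equiv.Perm {P : J // p • P = 0} := MulAction.toPermHom G _ with hρ
  set Γ : Subgroup (Equiv.Perm {P : J // p • P = 0}) := H.map ρ with hΓ
  have hΓp : IsPGroup p Γ := by
    rintro ⟨γ, hγ⟩
    obtain ⟨h, hh, rfl⟩ := Subgroup.mem_map.mp hγ
    refine ⟨1, ?_⟩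
    apply Subtype.ext
    rw [pow_one, Subgroup.coe_pow, Subgroup.coe_one, ← map_pow]
    apply Equiv.ext
    intro P
    apply Subtype.ext
    show (h ^ p) • P.1 = P.1
    exact hpow h hh P.1 P.2
  have h0 : (⟨0, smul_zero p⟩ : {P : J // p • P = 0}) ∈ MulAction.fixedPoints Γ _ := by
    rintro ⟨γ, hγ⟩
    obtain ⟨h, hh, rfl⟩ := Subgroup.mem_map.mp hγ
    apply Subtype.ext
    show h • (0 : J) = 0
    exact smul_zero h
  obtain ⟨b, hb, hb0⟩ := hΓp.exists_fixed_point_of_prime_dvd_card_of_fixed_point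
    {P : J // p • P = 0} (by rw [hcard]; exact dvd_pow_self p hn) h0
  -- the fixed subgroup
  let U : AddSubgroup J :=
    { carrier := {P | p • P = 0 ∧ ∀ h ∈ H, h • P = P}
      zero_mem' := ⟨smul_zero _, fun h _ => smul_zero h⟩
      add_mem' := fun {x y} hx hy => ⟨by rw [smul_add, hx.1, hy.1, add_zero],
        fun h hh => by rw [smul_add, hx.2 h hh, hy.2 h hh]⟩
      neg_mem' := fun {x} hx => ⟨by rw [smul_neg, hx.1, neg_zero],
        fun h hh => by rw [smul_neg, hx.2 h hh]⟩ }
  have hU1 : ∀ u ∈ U, p • u = 0 := fun u hu => hu.1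
  have hU2 : ∀ (g : G), ∀ u ∈ U, g • u ∈ U := by
    intro g u hu
    refine ⟨nsmul_smul_eq_zero g hu.1, fun h hh => ?_⟩
    have h1 : g⁻¹ * h * g ∈ H := by
      have := hH.conj_mem h hh g⁻¹
      rwa [inv_inv] at this
    have h2 : h • g • u = g • (g⁻¹ * h * g) • u := by
      rw [← mul_smul, ← mul_smul, mul_assoc, mul_inv_cancel_left]
    rw [h2, hu.2 _ h1]
  have hbU : b.1 ∈ U := by
    refine ⟨b.2, fun h hh => ?_⟩
    have := hb ⟨ρ h, Subgroup.mem_map_of_mem ρ hh⟩
    exact congrArg Subtype.val this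
  rcases hirr.2 U hU1 hU2 with h | h
  · exfalso
    apply hb0
    apply Subtype.ext
    exact (h b.1 hbU).symm
  · intro g hg P hP
    exact (h P hP).2 g hg

/-- **abelian image + irreducibility**: if the kernel of a character `χ` acts trivially on `J[p]`
and `χ σ ^ 2 = 1`, then `σ` acts on `J[p]` as `1` or as `-1`. -/
theorem smul_eq_or_smul_eq_neg (hirr : AbsIrr G J p) {A : Type*} [CommGroup A] (χ : G →* A)
    (htriv : ∀ h : G, χ h = 1 → h ∈ fixSub G J p) (σ : G) (hσ : χ σ ^ 2 = 1) :
    (∀ P : J, p • P = 0 → σ • P = P) ∨ (∀ P : J, p • P = 0 → σ • P = -P) := by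
  let U : AddSubgroup J :=
    { carrier := {P | p • P = 0 ∧ σ • P = P}
      zero_mem' := ⟨smul_zero _, smul_zero σ⟩
      add_mem' := fun {x y} hx hy => ⟨by rw [smul_add, hx.1, hy.1, add_zero],
        by rw [smul_add, hx.2, hy.2]⟩
      neg_mem' := fun {x} hx => ⟨by rw [smul_neg, hx.1, neg_zero], by rw [smul_neg, hx.2]⟩ }
  have hU1 : ∀ u ∈ U, p • u = 0 := fun u hu => hu.1
  have hU2 : ∀ (g : G), ∀ u ∈ U, g • u ∈ U := by
    intro g u hu
    refine ⟨nsmul_smul_eq_zero g hu.1, ?_⟩
    have hk : χ (g⁻¹ * σ * g * σ⁻¹) = 1 := by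
      rw [map_mul, map_mul, map_mul, map_inv, map_inv]
      rw [mul_comm (χ g)⁻¹ (χ σ), mul_assoc (χ σ), inv_mul_cancel, mul_one, mul_inv_cancel]
    have h2 : σ • g • u = g • (g⁻¹ * σ * g * σ⁻¹) • σ • u := by
      rw [← mul_smul, ← mul_smul, ← mul_smul]
      congr 1
      group
    rw [h2, hu.2, htriv _ hk u hu.1]
  have hσσ : ∀ P : J, p • P = 0 → σ • σ • P = P := by
    intro P hP
    rw [← mul_smul]
    refine htriv _ ?_ P hP
    rw [map_mul, ← sq, hσ]
  rcases hirr.2 U hU1 hU2 with h | h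
  · right
    intro P hP
    have hQ : P + σ • P ∈ U := by
      refine ⟨by rw [smul_add, hP, nsmul_smul_eq_zero σ hP, add_zero], ?_⟩
      rw [smul_add, hσσ P hP, add_comm]
    have := h _ hQ
    exact (neg_eq_of_add_eq_zero_right this).symm
  · left
    intro P hP
    exact (h P hP).2

end Fermat.Agent.LR.NonEis
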