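/-
PROJECT LR (S41), package [NONEIS] (helper3), part 2: the abstract theorem for `G_ℚ`.

`J` an abelian group with an action of `G_ℚ` whose `p`-torsion (`p` odd) has `p ^ 2` elements, is
fixed by an open subgroup and is irreducible; `a : ℕ → ℤ` and a finite set `B` of primes such that
every Frobenius element `φ` at a prime `ℓ ∉ B` satisfies `φ² - a_ℓ φ + ℓ = 0` on `J[p]` and
"`φ = c` on `J[p]` implies `c² ≡ ℓ mod p`".  Then for every modulus `d` and finite set `S` there is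
a prime `ℓ ≡ 1 mod d`, `ℓ ∉ S ∪ B`, with `a_ℓ ≢ ℓ + 1 mod p`
(Frobenius density theorem + fixed points of `p`-groups + Dirichlet's theorem).
-/
import Mathlib
import Fermat.Agent.LR.NONEIS_helper3_Group
import Fermat.Agent.Density.Open_helper4
import Fermat.Agent.GR.DET_lead_Cyc

set_option autoImplicit false
set_option linter.style.haveILetI false
set_option linter.unusedSectionVars false

namespace Fermat.Agent.LR.NonEis

open Fermat.Agent.TW.Kill

/-- `Ω = AlgebraicClosure ℚ`. -/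
local notation "Ω" => AlgebraicClosure ℚ
/-- `GQ = Gal(Ω/ℚ)`. -/
local notation "GQ" => (AlgebraicClosure ℚ ≃ₐ[ℚ] AlgebraicClosure ℚ)

section General

variable {G : Type*} [Group G] {J : Type*} [AddCommGroup J] [DistribMulAction G J] {p : ℕ}

/-- on `n`-torsion, `a • x` only depends on `a` modulo `n` -/
theorem zsmul_congr_of_dvd {n : ℕ} {a b : ℤ} {x : J} (hx : n • x = 0) (hab : (n : ℤ) ∣ a - b) :
    a • x = b • x := by
  obtain ⟨c, hc⟩ := hab
  have h1 : a = b + (n : ℤ) * c := by rw [← hc]; ring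
  rw [h1, add_smul, mul_comm, mul_smul, natCast_zsmul, hx, smul_zero, add_zero]

/-- an element satisfying `φ² - a φ + q = 0` on `J[p]` with `a ≡ 2`, `q ≡ 1 mod p` has `p`-th power
acting trivially on `J[p]`. -/
theorem pow_mem_fixSub_of_rel (φ : G) (a q : ℤ) (ha : (p : ℤ) ∣ a - 2) (hq : (p : ℤ) ∣ q - 1)
    (hrel : ∀ P : J, p • P = 0 → φ • φ • P - a • φ • P + q • P = 0) :
    φ ^ p ∈ fixSub G J p := by
  intro P hP
  have hφP : p • φ • P = 0 := nsmul_smul_eq_zero φ hP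
  have h1 : φ • φ • P - (φ • P + φ • P) + P = 0 := by
    have := hrel P hP
    rw [zsmul_congr_of_dvd hφP ha, zsmul_congr_of_dvd hP hq, one_zsmul, two_zsmul] at this
    exact this
  have hν : φ • (φ • P - P) = φ • P - P := by
    rw [smul_sub]
    have h2 : φ • φ • P - φ • P - (φ • P - P) = φ • φ • P - (φ • P + φ • P) + P := by abel
    exact sub_eq_zero.mp (h2.trans h1)
  have hk : ∀ k : ℕ, φ ^ k • P = P + k • (φ • P - P) := by
    intro k
    induction k with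
    | zero => rw [pow_zero, one_smul, zero_smul, add_zero]
    | succ k ih =>
      rw [pow_succ', mul_smul, ih, smul_add, smul_comm φ k, hν, succ_nsmul]
      abel
  rw [hk p, smul_sub, hφP, hP, sub_zero, add_zero]

/-- equality of cyclic subgroups in a quotient passes to every quotient of that quotient -/
theorem zpowers_map_eq_of_zpowers_mk_eq {M : Type*} [Group M] (N : Subgroup G) [N.Normal]
    (f : G →* M) (hN : N ≤ f.ker) {a b : G}
    (h : Subgroup.zpowers (QuotientGroup.mk' N a) = Subgroup.zpowers (QuotientGroup.mk' N b)) :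
    Subgroup.zpowers (f a) = Subgroup.zpowers (f b) := by
  have h1 : ∀ x : G, Subgroup.zpowers (f x) =
      (Subgroup.zpowers (QuotientGroup.mk' N x)).map (QuotientGroup.lift N f hN) := by
    intro x
    rw [MonoidHom.map_zpowers]
    rfl
  rw [h1, h1, h]

end General

section Rat

variable {J : Type*} [AddCommGroup J] [DistribMulAction GQ J] {p : ℕ}

/-- an open normal subgroup of `G_ℚ` acting trivially on `J[p]` and on the `D`-th roots of
unity -/
theorem exists_open_normal_le (hp : p.Prime) {n : ℕ}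
    (hcard : Nat.card {P : J // p • P = 0} = p ^ n)
    (hcont : ∀ P : J, p • P = 0 → ∃ L : IntermediateField ℚ Ω, FiniteDimensional ℚ L ∧
      ∀ σ : GQ, (∀ a ∈ L, σ a = a) → σ • P = P) (D : ℕ) [NeZero D] :
    ∃ N : Subgroup GQ, N.Normal ∧ IsOpen (N : Set GQ) ∧ N ≤ fixSub GQ J p ∧
      N ≤ (cyc D).ker := by
  classical
  haveI : Finite {P : J // p • P = 0} := by
    apply Nat.finite_of_card_ne_zero
    rw [hcard]
    exact pow_ne_zero _ hp.ne_zero
  choose L hLfin hLfix using fun v : {P : J // p • P = 0} => hcont v.1 v.2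
  obtain ⟨Lc, hLcfin, hLc⟩ := exists_finiteDimensional_cyc_eq_one D
  haveI : ∀ v, FiniteDimensional ℚ (L v) := hLfin
  haveI : FiniteDimensional ℚ Lc := hLcfin
  set K₀ : IntermediateField ℚ Ω := (⨆ v, L v) ⊔ Lc with hK₀
  haveI : FiniteDimensional ℚ ↥(⨆ v, L v) := IntermediateField.finiteDimensional_iSup_of_finite
  haveI : FiniteDimensional ℚ K₀ := IntermediateField.finiteDimensional_sup _ _
  haveI : IsGalois ℚ Ω := IsAlgClosure.isGalois ℚ Ω
  set K : IntermediateField ℚ Ω := IntermediateField.normalClosure ℚ K₀ Ω with hK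
  haveI : FiniteDimensional ℚ K := normalClosure.is_finiteDimensional ℚ K₀ Ω
  haveI : Normal ℚ K := normalClosure.normal ℚ K₀ Ω
  haveI : IsGalois ℚ K := ⟨⟩
  have hle : K₀ ≤ K := IntermediateField.le_normalClosure K₀
  refine ⟨K.fixingSubgroup, IsGalois.fixingSubgroup_normal_of_isGalois K,
    IntermediateField.fixingSubgroup_isOpen K, ?_, ?_⟩
  · intro σ hσ P hP
    rw [IntermediateField.mem_fixingSubgroup_iff] at hσ
    refine hLfix ⟨P, hP⟩ σ fun a ha => hσ a (hle ?_)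
    exact (le_sup_left : (⨆ v, L v) ≤ K₀) ((le_iSup L ⟨P, hP⟩) ha)
  · intro σ hσ
    rw [MonoidHom.mem_ker]
    apply hLc σ
    rw [IntermediateField.mem_fixingSubgroup_iff] at hσ ⊢
    exact fun a ha => hσ a (hle ((le_sup_right : Lc ≤ K₀) ha))

/-- **[NONEIS], abstract form.** -/
theorem exists_prime_of_absIrr (hp : p.Prime) (hp2 : p ≠ 2)
    (hcard : Nat.card {P : J // p • P = 0} = p ^ 2)
    (hcont : ∀ P : J, p • P = 0 → ∃ L : IntermediateField ℚ Ω, FiniteDimensional ℚ L ∧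
      ∀ σ : GQ, (∀ a ∈ L, σ a = a) → σ • P = P)
    (hirr : AbsIrr GQ J p) (a : ℕ → ℤ) (B : Finset ℕ)
    (hrel : ∀ ℓ : ℕ, ℓ.Prime → ℓ ∉ B → ∀ A : ValuationSubring Ω, A.LiesOverPrime ℓ →
      ∀ σ : GQ, A.IsFrobeniusAt σ ℓ → ∀ P : J, p • P = 0 →
        σ • σ • P - a ℓ • σ • P + (ℓ : ℤ) • P = 0)
    (hdet : ∀ ℓ : ℕ, ℓ.Prime → ℓ ∉ B → ∀ A : ValuationSubring Ω, A.LiesOverPrime ℓ →
      ∀ σ : GQ, A.IsFrobeniusAt σ ℓ → ∀ c : ℤ, (∀ P : J, p • P = 0 → σ • P = c • P) →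
        (p : ℤ) ∣ c ^ 2 - ℓ)
    (d : ℕ) (hd : 0 < d) (S : Finset ℕ) :
    ∃ ℓ : ℕ, ℓ.Prime ∧ ℓ ∉ S ∧ ℓ ∉ B ∧ ℓ ≡ 1 [MOD d] ∧ ¬ (p : ℤ) ∣ a ℓ - (ℓ + 1) := by
  classical
  by_contra hno
  have hneg : ∀ ℓ : ℕ, ℓ.Prime → ℓ ∉ S → ℓ ∉ B → ℓ ≡ 1 [MOD d] → (p : ℤ) ∣ a ℓ - (ℓ + 1) := by
    intro ℓ h1 h2 h3 h4
    by_contra h5
    exact hno ⟨ℓ, h1, h2, h3, h4, h5⟩
  set D : ℕ := d * p with hD
  have hD0 : D ≠ 0 := Nat.mul_ne_zero hd.ne' hp.ne_zero
  haveI : NeZero D := ⟨hD0⟩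
  obtain ⟨N, hNn, hNo, hNfix, hNcyc⟩ := exists_open_normal_le hp hcard hcont D
  haveI : N.Normal := hNn
  set T : Finset ℕ := S ∪ B ∪ D.primeFactors with hT
  obtain ⟨ζ, hζ⟩ := exists_primitiveRoot D
  -- Step A: the kernel of the cyclotomic character mod `D` has `p`-th powers in `fixSub`
  have hpow : ∀ h ∈ (cyc D).ker, h ^ p ∈ fixSub GQ J p := by
    intro h hh
    rw [MonoidHom.mem_ker] at hh
    obtain ⟨q, hq, hqT, hall⟩ :=
      Fermat.Agent.Density.exists_prime_frobenius_conj_algClosure N hNo h T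
    haveI : Fact q.Prime := ⟨hq⟩
    have hP₀ : (padicPlace q).LiesOverPrime q := padicPlace_liesOverPrime q
    obtain ⟨φ, hφ⟩ := exists_isFrobeniusAt (padicPlace q) hq hP₀
    obtain ⟨τ, hτ⟩ := (hall _ hP₀).2 φ hφ
    have hqS : q ∉ S := fun h => hqT (by rw [hT]; simp [h])
    have hqB : q ∉ B := fun h => hqT (by rw [hT]; simp [h])
    have hqD : ¬ q ∣ D := fun h => hqT (by
      rw [hT]
      exact Finset.mem_union_right _ (Nat.mem_primeFactors.mpr ⟨hq, h, hD0⟩))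
    -- `φ` is in the kernel of the cyclotomic character
    have hcycφ : cyc D φ = 1 := by
      have h1 := zpowers_map_eq_of_zpowers_mk_eq N (cyc D) hNcyc hτ
      have h2 : cyc D (τ * h * τ⁻¹) = 1 := by
        rw [map_mul, map_mul, hh, mul_one, map_inv, mul_inv_cancel]
      rw [h2, Subgroup.zpowers_one_eq_bot, Subgroup.zpowers_eq_bot] at h1
      exact h1
    have hfix : φ ζ = ζ := (cyc_eq_one_iff D φ).mp hcycφ ζ hζ.pow_eq_one
    have hdvd : D ∣ q - 1 := dvd_sub_one_of_isFrobeniusAt hq hqD hP₀ hφ hζ hfix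
    have hq1 : 1 ≤ q := hq.one_lt.le
    have hqd : q ≡ 1 [MOD d] := by
      have : d ∣ q - 1 := (Dvd.intro _ rfl : d ∣ D).trans hdvd
      exact ((Nat.modEq_iff_dvd' hq1).mpr this).symm
    have hqp : (p : ℤ) ∣ (q : ℤ) - 1 := by
      have : p ∣ q - 1 := (Dvd.intro_left _ rfl : p ∣ D).trans hdvd
      have h3 : ((q - 1 : ℕ) : ℤ) = (q : ℤ) - 1 := by push_cast [hq1]; ring
      rw [← h3]
      exact Int.natCast_dvd_natCast.mpr this
    have haq : (p : ℤ) ∣ a q - 2 := by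
      have h4 := hneg q hq hqS hqB hqd
      have h5 : a q - 2 = (a q - (q + 1)) + ((q : ℤ) - 1) := by ring
      rw [h5]
      exact dvd_add h4 hqp
    have hφp : φ ^ p ∈ fixSub GQ J p :=
      pow_mem_fixSub_of_rel φ (a q) (q : ℤ) haq hqp (hrel q hq hqB _ hP₀ φ hφ)
    -- transfer to `τ h τ⁻¹`
    have h6 := zpowers_map_eq_of_zpowers_mk_eq N (QuotientGroup.mk' (fixSub GQ J p))
      (by rw [QuotientGroup.ker_mk']; exact hNfix) hτ
    have h7 : QuotientGroup.mk' (fixSub GQ J p) (τ * h * τ⁻¹) ∈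
        Subgroup.zpowers (QuotientGroup.mk' (fixSub GQ J p) φ) := by
      rw [h6]
      exact Subgroup.mem_zpowers _
    obtain ⟨j, hj⟩ := Subgroup.mem_zpowers_iff.mp h7
    have hφp' : QuotientGroup.mk' (fixSub GQ J p) (φ ^ p) = 1 :=
      (QuotientGroup.eq_one_iff _).mpr hφp
    have h8 : (QuotientGroup.mk' (fixSub GQ J p) (τ * h * τ⁻¹)) ^ p = 1 := by
      rw [← hj, ← zpow_natCast, ← zpow_mul, mul_comm, zpow_mul, zpow_natCast, ← map_pow,
        hφp', one_zpow]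
    rw [← map_pow, QuotientGroup.mk'_apply, QuotientGroup.eq_one_iff, conj_pow] at h8
    have h9 := (fixSub_normal (G := GQ) (J := J) (p := p)).conj_mem _ h8 τ⁻¹
    have h10 : τ⁻¹ * (τ * h ^ p * τ⁻¹) * τ⁻¹⁻¹ = h ^ p := by group
    rwa [h10] at h9
  -- Step B: the kernel of the cyclotomic character acts trivially on `J[p]`
  have htriv : (cyc D).ker ≤ fixSub GQ J p :=
    le_fixSub_of_pow_mem hp two_ne_zero hcard hirr (cyc D).ker hpow
  -- Step C: a Frobenius element at a prime `ℓ ≡ -1 mod D`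
  obtain ⟨ℓ, hℓgt, hℓ, hℓD⟩ := Nat.forall_exists_prime_gt_and_zmodEq (T.sup id) (q := D)
    (a := -1) hD0 (isCoprime_one_left.neg_left)
  have hℓT : ℓ ∉ T := fun h => by
    have : ℓ ≤ T.sup id := Finset.le_sup (f := id) h
    omega
  have hℓB : ℓ ∉ B := fun h => hℓT (by rw [hT]; simp [h])
  have hℓnD : ¬ ℓ ∣ D := fun h => hℓT (by
    rw [hT]
    exact Finset.mem_union_right _ (Nat.mem_primeFactors.mpr ⟨hℓ, h, hD0⟩))
  haveI : Fact ℓ.Prime := ⟨hℓ⟩
  have hP₀ : (padicPlace ℓ).LiesOverPrime ℓ := padicPlace_liesOverPrime ℓ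
  obtain ⟨φ, hφ⟩ := exists_isFrobeniusAt (padicPlace ℓ) hℓ hP₀
  have hℓcast : ((ℓ : ℕ) : ZMod D) = -1 := by
    have := (ZMod.intCast_eq_intCast_iff _ _ D).mpr hℓD
    simpa using this
  have hcycφ : ((cyc D φ : (ZMod D)ˣ) : ZMod D) = ((ℓ : ℕ) : ZMod D) := by
    apply cyc_unique D φ
    intro t ht
    rw [Fermat.Agent.GR.frobenius_apply_rootOfUnity hℓ hℓnD hP₀ hφ ht, ZMod.val_natCast,
      Fermat.Agent.GR.pow_mod_of_pow_eq_one ht]
  have hsq : cyc D φ ^ 2 = 1 := by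
    apply Units.ext
    rw [Units.val_pow_eq_pow_val, hcycφ, hℓcast, Units.val_one]
    ring
  have hpℓ : (p : ℤ) ∣ (ℓ : ℤ) + 1 := by
    have h1 : (D : ℤ) ∣ (ℓ : ℤ) - (-1) := (Int.modEq_iff_dvd.mp hℓD.symm)
    have h2 : (p : ℤ) ∣ (D : ℤ) := by
      rw [hD]
      push_cast
      exact Dvd.intro_left _ rfl
    have h3 : (ℓ : ℤ) + 1 = (ℓ : ℤ) - (-1) := by ring
    rw [h3]
    exact h2.trans h1
  have hcontra : ∀ c : ℤ, c ^ 2 = 1 → (∀ P : J, p • P = 0 → φ • P = c • P) → False := by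
    intro c hc hcP
    have h1 := hdet ℓ hℓ hℓB _ hP₀ φ hφ c hcP
    rw [hc] at h1
    have h2 : (p : ℤ) ∣ 2 := by
      have := dvd_add h1 hpℓ
      have h3 : (1 : ℤ) - ℓ + (ℓ + 1) = 2 := by ring
      rwa [h3] at this
    have h4 : p ∣ 2 := by exact_mod_cast h2
    exact hp2 ((Nat.prime_dvd_prime_iff_eq hp Nat.prime_two).mp h4)
  rcases smul_eq_or_smul_eq_neg hirr (cyc D)
    (fun h hh => htriv (MonoidHom.mem_ker.mpr hh)) φ hsq with h | h
  · exact hcontra 1 (by ring) fun P hP => by rw [h P hP, one_zsmul]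
  · exact hcontra (-1) (by ring) fun P hP => by rw [h P hP, neg_one_zsmul]

end Rat

end Fermat.Agent.LR.NonEis
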