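/-
PROJECT LR (S41), package [NONEIS] (helper3), part 4: "non-Eisenstein ⇐ `ρ̄_{E,p}` irreducible".

`exists_prime_not_eisenstein`: for an elliptic curve `E/ℚ` with integral model `W` and irreducible
mod `p` representation (`p` odd), every modulus `d > 0` and every finite set `S` of primes, there is
a good prime `ℓ ∉ S`, `ℓ ≠ p`, `ℓ ≡ 1 mod d` with `a_ℓ(W) ≢ ℓ + 1 mod p`.
-/
import Mathlib
import Fermat.Agent.LR.NONEIS_helper3_Abstract
import Fermat.Agent.LR.NONEIS_helper3_Det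
import Fermat.Agent.Tate.VC_helper7_Galois
import Fermat.Prelude.Def_FLTPrelim_Modularity

set_option autoImplicit false
set_option linter.style.haveILetI false
set_option linter.unusedSectionVars false

namespace Fermat.Agent.LR.NonEis

open WeierstrassCurve WeierstrassCurve.Affine WeierstrassCurve.Affine.Point
open scoped WeierstrassCurve.Affine

/-- `Ω = AlgebraicClosure ℚ`. -/
local notation "Ω" => AlgebraicClosure ℚ
/-- `GQ = Gal(Ω/ℚ)`. -/
local notation "GQ" => (AlgebraicClosure ℚ ≃ₐ[ℚ] AlgebraicClosure ℚ)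

section Transfer

/-- transfer of abstract irreducibility along an equivariant isomorphism -/
theorem AbsIrr.of_addEquiv {G : Type*} [Group G] {J J' : Type*} [AddCommGroup J]
    [AddCommGroup J'] [DistribMulAction G J] [DistribMulAction G J'] {p : ℕ} (e : J ≃+ J')
    (he : ∀ (g : G) (P : J), e (g • P) = g • e P) (h : AbsIrr G J p) : AbsIrr G J' p := by
  obtain ⟨⟨P, hP0, hP⟩, hall⟩ := h
  refine ⟨⟨e P, fun h0 => hP0 (e.map_eq_zero_iff.mp h0), by rw [← map_nsmul, hP, _root_.map_zero]⟩,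
    fun U' hU1 hU2 => ?_⟩
  have htors : ∀ Q : J, p • Q = 0 ↔ p • e Q = 0 := fun Q => by
    rw [← map_nsmul, e.map_eq_zero_iff]
  rcases hall (U'.comap e.toAddMonoidHom)
    (fun u hu => (htors u).mpr (hU1 _ hu))
    (fun g u hu => by
      show e (g • u) ∈ U'
      rw [he]
      exact hU2 g _ hu) with h | h
  · left
    intro u hu
    have h1 : e.symm u ∈ U'.comap e.toAddMonoidHom := by
      show e (e.symm u) ∈ U'
      rwa [e.apply_symm_apply]
    have := h _ h1
    rwa [e.symm.map_eq_zero_iff] at this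
  · right
    intro Q hQ
    have h1 : p • e.symm Q = 0 := by rw [htors, e.apply_symm_apply, hQ]
    have := h _ h1
    have h2 : e (e.symm Q) ∈ U' := this
    rwa [e.apply_symm_apply] at h2

/-- the Prelude's irreducibility of the mod `p` representation, in the abstract form -/
theorem absIrr_of_galoisRepIsIrreducible (W' : Affine ℚ) (p : ℕ)
    (h : GaloisRepIsIrreducible (K := Ω) ℚ W' p) : AbsIrr GQ (W'⁄Ω).Point p := by
  obtain ⟨hnt, hall⟩ := h
  have hmem : ∀ P : (W'⁄Ω).Point,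
      P ∈ Submodule.torsionBy ℤ (W'⁄Ω).Point (p : ℤ) ↔ p • P = 0 := by
    intro P
    rw [Submodule.mem_torsionBy_iff, natCast_zsmul]
  refine ⟨?_, fun U hU1 hU2 => ?_⟩
  · obtain ⟨x, hx⟩ := exists_ne (0 : Submodule.torsionBy ℤ (W'⁄Ω).Point (p : ℤ))
    exact ⟨x.1, fun h0 => hx (Subtype.ext h0), (hmem x.1).mp x.2⟩
  · set N : Submodule (ZMod p) (Submodule.torsionBy ℤ (W'⁄Ω).Point (p : ℤ)) :=
      AddSubgroup.toZModSubmodule p
        (U.comap (Submodule.torsionBy ℤ (W'⁄Ω).Point (p : ℤ)).subtype.toAddMonoidHom) with hN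
    have hNmem : ∀ x, x ∈ N ↔ x.1 ∈ U := fun x => Iff.rfl
    have hstab : IsGaloisStable ℚ N := by
      intro σ x hx
      rw [hNmem] at hx ⊢
      exact hU2 σ _ hx
    rcases hall N hstab with h | h
    · left
      intro u hu
      have h1 : (⟨u, (hmem u).mpr (hU1 u hu)⟩ :
          Submodule.torsionBy ℤ (W'⁄Ω).Point (p : ℤ)) ∈ N := (hNmem _).mpr hu
      rw [h, Submodule.mem_bot] at h1
      exact congrArg Subtype.val h1
    · right
      intro P hP
      have h1 : (⟨P, (hmem P).mpr hP⟩ :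
          Submodule.torsionBy ℤ (W'⁄Ω).Point (p : ℤ)) ∈ N := by
        rw [h]
        exact Submodule.mem_top
      exact (hNmem _).mp h1

end Transfer

section Congr

variable {F : Type*} [Field F] [DecidableEq F]

/-- the identification of the groups of points of two equal curves -/
noncomputable def pointCongr {W₁ W₂ : Affine F} (h : W₁ = W₂) : W₁.Point ≃+ W₂.Point :=
  h ▸ AddEquiv.refl _

theorem pointCongr_some {W₁ W₂ : Affine F} (h : W₁ = W₂) {x y : F}
    (hxy : W₁.Nonsingular x y) :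
    pointCongr h (Point.some x y hxy) = Point.some x y (h ▸ hxy) := by
  subst h
  rfl

end Congr

section Model

variable (W : WeierstrassCurve ℤ)

theorem baseChange_map_castRingHom :
    ((W.map (Int.castRingHom ℚ)).toAffine⁄Ω) = (W.toAffine⁄Ω) := by
  change (W.map (Int.castRingHom ℚ)).map (algebraMap ℚ Ω) = W.map (algebraMap ℤ Ω)
  rw [WeierstrassCurve.map_map]
  congr 1

theorem smul_pointCongr_castRingHom (σ : GQ)
    (P : ((W.map (Int.castRingHom ℚ)).toAffine⁄Ω).Point) :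
    pointCongr (baseChange_map_castRingHom W) (σ • P) =
      σ • pointCongr (baseChange_map_castRingHom W) P := by
  rcases P with _ | ⟨x, y, hxy⟩
  · have h0 : (Point.zero : ((W.map (Int.castRingHom ℚ)).toAffine⁄Ω).Point) = 0 := rfl
    have h1 : σ • (0 : ((W.map (Int.castRingHom ℚ)).toAffine⁄Ω).Point) = 0 := rfl
    have h2 : σ • (0 : (W.toAffine⁄Ω).Point) = 0 := rfl
    rw [h0, h1, _root_.map_zero, h2]
  · rw [pointCongr_some, Point.algEquiv_smul_def, Point.algEquiv_smul_def, Point.map_some,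
      Point.map_some, pointCongr_some]

end Model

section Final

open Fermat.Agent.S58

variable (E : WeierstrassCurve ℚ) [E.IsElliptic] {W : WeierstrassCurve ℤ}

theorem Δ_ne_zero_of_isIntegralModelOf (hW : W.IsIntegralModelOf E) : W.Δ ≠ 0 := by
  obtain ⟨C, hC⟩ := hW
  intro h0
  have h1 : (C • E).Δ = 0 := by
    rw [hC, WeierstrassCurve.map_Δ, h0, _root_.map_zero]
  rw [WeierstrassCurve.variableChange_Δ] at h1
  rcases mul_eq_zero.mp h1 with h | h
  · exact (pow_ne_zero 12 (Units.ne_zero C.u⁻¹)) h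
  · exact E.isUnit_Δ.ne_zero h

/-- irreducibility of the mod `p` representation of `E`, on the points of the integral model -/
theorem absIrr_of_isIntegralModelOf (hW : W.IsIntegralModelOf E) (p : ℕ)
    (hirr : GaloisRepIsIrreducible (K := Ω) ℚ E p) : AbsIrr GQ (W.toAffine⁄Ω).Point p := by
  obtain ⟨C, hC⟩ := hW
  have h1 : AbsIrr GQ (E.toAffine⁄Ω).Point p := absIrr_of_galoisRepIsIrreducible E p hirr
  have h2 : AbsIrr GQ ((C • E).toAffine⁄Ω).Point p :=
    AbsIrr.of_addEquiv (Fermat.Agent.Tate.vcPtBaseChange E C Ω).symm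
      (fun σ P => by
        apply (Fermat.Agent.Tate.vcPtBaseChange E C Ω).injective
        rw [AddEquiv.apply_symm_apply, ← Fermat.Agent.Tate.smul_vcPtBaseChange,
          AddEquiv.apply_symm_apply]) h1
  have h3 : AbsIrr GQ ((W.map (Int.castRingHom ℚ)).toAffine⁄Ω).Point p := hC ▸ h2
  exact AbsIrr.of_addEquiv (pointCongr (baseChange_map_castRingHom W))
    (smul_pointCongr_castRingHom W) h3

/-- **[NONEIS]: non-Eisenstein ⇐ `ρ̄_{E,p}` irreducible.** For every modulus `d > 0` and every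
finite set `S` there is a prime `ℓ ∉ S`, `ℓ ≠ p`, `ℓ ≡ 1 mod d`, of good reduction for the model
`W`, with `a_ℓ(W) ≢ ℓ + 1 mod p`. -/
theorem exists_prime_not_eisenstein (hW : W.IsIntegralModelOf E) {p : ℕ} (hp : p.Prime)
    (hp2 : p ≠ 2) (hirr : GaloisRepIsIrreducible (K := Ω) ℚ E p) (d : ℕ) (hd : 0 < d)
    (S : Finset ℕ) :
    ∃ ℓ : ℕ, ℓ.Prime ∧ ℓ ∉ S ∧ ℓ ≠ p ∧ ℓ ≡ 1 [MOD d] ∧ W.IsGoodPrimeFor ℓ ∧
      ¬ (p : ℤ) ∣ W.apOfModel ℓ - (ℓ + 1) := by
  classical
  haveI : Fact p.Prime := ⟨hp⟩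
  have hΔ : W.Δ ≠ 0 := Δ_ne_zero_of_isIntegralModelOf E hW
  have hΔΩ : (W.toAffine⁄Ω).Δ ≠ 0 := by
    have h1 : (W.toAffine⁄Ω).Δ = ((W.Δ : ℤ) : Ω) := by
      simp [WeierstrassCurve.baseChange, WeierstrassCurve.map_Δ]
    rw [h1]
    exact_mod_cast hΔ
  have hcard : Nat.card {P : (W.toAffine⁄Ω).Point // p • P = 0} = p ^ 2 :=
    Fermat.Agent.EC.card_torsion_eq hΔΩ hp hp2
  set B : Finset ℕ := insert p W.Δ.natAbs.primeFactors with hB
  have hBgood : ∀ ℓ : ℕ, ℓ.Prime → ℓ ∉ B → ℓ ≠ p ∧ W.IsGoodPrimeFor ℓ := by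
    intro ℓ hℓ hℓB
    rw [hB, Finset.mem_insert, not_or] at hℓB
    refine ⟨hℓB.1, fun hdvd => hℓB.2 ?_⟩
    rw [Nat.mem_primeFactors]
    exact ⟨hℓ, Int.natCast_dvd.mp hdvd, Int.natAbs_ne_zero.mpr hΔ⟩
  obtain ⟨ℓ, hℓ, hℓS, hℓB, hℓd, hℓa⟩ := exists_prime_of_absIrr (J := (W.toAffine⁄Ω).Point) hp hp2
    hcard (fun P _ => asm58_exists_fixingField W P) (absIrr_of_isIntegralModelOf E hW p hirr)
    (fun ℓ => W.apOfModel ℓ) B
    (fun ℓ hℓ hℓB A hA σ hσ P hP => by
      obtain ⟨hℓp, hgood⟩ := hBgood ℓ hℓ hℓB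
      exact e2_frobenius_relation_Qbar W hℓ hgood (asm58_e2FrobRel W hℓ hgood) A hA hσ
        (hp.odd_of_ne_two hp2)
        (fun h => hℓp ((Nat.prime_dvd_prime_iff_eq hℓ hp).mp h)) hP)
    (fun ℓ hℓ hℓB A hA σ hσ c hc => by
      obtain ⟨hℓp, hgood⟩ := hBgood ℓ hℓ hℓB
      exact (dvd_of_frobenius_scalar W hΔ hp2 hℓ hℓp hgood A hA σ hσ c hc).1)
    d hd S
  obtain ⟨hℓp, hgood⟩ := hBgood ℓ hℓ hℓB
  exact ⟨ℓ, hℓ, hℓS, hℓp, hℓd, hgood, hℓa⟩

end Final

end Fermat.Agent.LR.NonEis
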