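/-
LR (level raising, S41) — helper4 — [XFER] part 0: **the four degeneracy maps between
`Hom(Γ₀(N), A)` and `Hom(Γ₀(N q), A)`** (`q` prime, `q ∤ N`, `A` any abelian group):

* `pullA N q A`  = `α^*` : restriction along the inclusion `Γ₀(N q) ≤ Γ₀(N)`;
* `pullB N q hq A` = `β^*` : restriction along `conjDownHom : (a b; c d) ↦ (a, q b; c / q, d)`;
* `pushA N q hq hqN A` = `α_*`, `pushB N q hq hqN A` = `β_*` : the transfers of `xferAlpha`, `xferBeta`
  (GR/XFERD_helper4_Gamma0), the Bezout witness being hidden by choice (and irrelevant: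
  `xferAlpha_transferGrp_eq_pushA`, `xferBeta_transferGrp_eq_pushB`);

all four natural in `A`, `R`-linear, preserving `parabolicHoms`; their restrictions
`pullAPar`, `pullBPar`, `pushAPar`, `pushBPar` to `parabolicHoms R (Gamma0 ·) A`.
-/
import Mathlib
import Fermat.Agent.GR.XFERD_helper4_AlphaT

set_option autoImplicit false
set_option linter.unusedSectionVars false
set_option linter.unnecessarySeqFocus false
set_option linter.style.haveILetI false

namespace Fermat.Agent.LR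

open CongruenceSubgroup ModularForm Matrix ModularCurve.Period Fermat.Agent.X0N Fermat.Agent.GR
open scoped MatrixGroups

/-! ### Restriction of characters along a homomorphism -/

section PullHom

variable {Γ' Γ : Type*} [Group Γ'] [Group Γ] (j : Γ' →* Γ) (A : Type*) [AddCommGroup A]

/-- restriction `Hom(Γ, A) → Hom(Γ', A)` along `j : Γ' → Γ`. -/
def pullHom : (Additive Γ →+ A) →+ (Additive Γ' →+ A) where
  toFun ψ := ψ.comp (MonoidHom.toAdditive j)
  map_zero' := by ext γ; rfl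
  map_add' ψ φ := by ext γ; rfl

variable {A}

@[simp] theorem pullHom_apply (ψ : Additive Γ →+ A) (γ : Γ') :
    pullHom j A ψ (Additive.ofMul γ) = ψ (Additive.ofMul (j γ)) := rfl

theorem pullHom_apply' (ψ : Additive Γ →+ A) (γ : Additive Γ') :
    pullHom j A ψ γ = ψ (Additive.ofMul (j (Additive.toMul γ))) := rfl

/-- naturality in the coefficient group. -/
theorem pullHom_comp {B : Type*} [AddCommGroup B] (f : A →+ B) (ψ : Additive Γ →+ A) :
    pullHom j B (f.comp ψ) = f.comp (pullHom j A ψ) := rfl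

theorem pullHom_smul {R : Type*} [Semiring R] [Module R A] (c : R) (ψ : Additive Γ →+ A) :
    pullHom j A (c • ψ) = c • pullHom j A ψ := rfl

variable (A)

/-- the restriction as an `R`-linear map. -/
def pullHomₗ (R : Type*) [Semiring R] [Module R A] :
    (Additive Γ →+ A) →ₗ[R] (Additive Γ' →+ A) where
  toFun := pullHom j A
  map_add' := map_add _
  map_smul' c ψ := pullHom_smul j c ψ

@[simp] theorem pullHomₗ_apply (R : Type*) [Semiring R] [Module R A] (ψ : Additive Γ →+ A) :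
    pullHomₗ j A R ψ = pullHom j A ψ := rfl

end PullHom

/-! ### The two homomorphisms `Γ₀(N q) → Γ₀(N)` -/

section Homs

variable (N q : ℕ)

theorem Gamma0_mul_le : Gamma0 (N * q) ≤ Gamma0 N := by
  intro γ hγ
  rw [mem_Gamma0_iff_dvd] at hγ ⊢
  push_cast at hγ
  exact dvd_trans (dvd_mul_right _ _) hγ

/-- the inclusion `Γ₀(N q) ≤ Γ₀(N)`. -/
def inclHom : Gamma0 (N * q) →* Gamma0 N := Subgroup.inclusion (Gamma0_mul_le N q)

@[simp] theorem coe_inclHom (γ : Gamma0 (N * q)) :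
    ((inclHom N q γ : Gamma0 N) : SL(2, ℤ)) = (γ : SL(2, ℤ)) := rfl

@[simp] theorem gammaEmb_inclHom (γ : Gamma0 (N * q)) :
    gammaEmb N (inclHom N q γ) = gammaEmb (N * q) γ := rfl

theorem inclHom_injective : Function.Injective (inclHom N q) :=
  Subgroup.inclusion_injective _

variable {N q}

theorem dvd_one_zero_of_mem_Gamma0_mul (γ : Gamma0 (N * q)) :
    (q : ℤ) ∣ ((γ : SL(2, ℤ)) 1 0) := by
  have h1 : ((N * q : ℕ) : ℤ) ∣ (γ : SL(2, ℤ)) 1 0 := (mem_Gamma0_iff_dvd _).mp γ.2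
  push_cast at h1
  exact dvd_trans (dvd_mul_left _ _) h1

theorem xferdConjDiagInv_mem (hq : q ≠ 0) (γ : Gamma0 (N * q)) :
    xferdConjDiagInv q (γ : SL(2, ℤ)) (dvd_one_zero_of_mem_Gamma0_mul γ) ∈ Gamma0 N := by
  have h1 : ((N * q : ℕ) : ℤ) ∣ (γ : SL(2, ℤ)) 1 0 := (mem_Gamma0_iff_dvd _).mp γ.2
  push_cast at h1
  rw [mem_Gamma0_iff_dvd]
  show (N : ℤ) ∣ (γ : SL(2, ℤ)) 1 0 / (q : ℤ)
  obtain ⟨t, ht⟩ := h1
  have hq0 : (q : ℤ) ≠ 0 := by exact_mod_cast hq
  refine ⟨t, ?_⟩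
  rw [ht, mul_comm (N : ℤ), mul_assoc, Int.mul_ediv_cancel_left _ hq0]

variable (N q)

/-- the underlying function of `conjDownHom`. -/
def conjDownFun (hq : q.Prime) (γ : Gamma0 (N * q)) : Gamma0 N :=
  ⟨xferdConjDiagInv q (γ : SL(2, ℤ)) (dvd_one_zero_of_mem_Gamma0_mul γ),
    xferdConjDiagInv_mem hq.ne_zero γ⟩

/-- `diag(1, q) · conjDown γ = γ · diag(1, q)`. -/
theorem heckeMatrix_mul_conjDownFun (hq : q.Prime) (γ : Gamma0 (N * q)) :
    heckeMatrix q 0 * gammaEmb N (conjDownFun N q hq γ) = gammaEmb (N * q) γ * heckeMatrix q 0 :=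
  (((isZMat_heckeMatrix_zero hq.ne_zero).mul (isZMat_gammaEmb _)).eq_iff
    ((isZMat_gammaEmb γ).mul (isZMat_heckeMatrix_zero hq.ne_zero))).mpr
    (utZ_mul_xferdConjDiagInv q _ (dvd_one_zero_of_mem_Gamma0_mul γ))

theorem gammaEmb_conjDownFun (hq : q.Prime) (γ : Gamma0 (N * q)) :
    gammaEmb N (conjDownFun N q hq γ) =
      (heckeMatrix q 0)⁻¹ * gammaEmb (N * q) γ * heckeMatrix q 0 := by
  rw [mul_assoc, ← heckeMatrix_mul_conjDownFun N q hq γ, inv_mul_cancel_left]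

/-- **`conjDown : Γ₀(N q) → Γ₀(N)`, `(a b; c d) ↦ (a, q b; c / q, d)`** (conjugation by
`diag(1, q)⁻¹`, i.e. by `diag(q, 1)`), as a group homomorphism. -/
def conjDownHom (hq : q.Prime) : Gamma0 (N * q) →* Gamma0 N where
  toFun := conjDownFun N q hq
  map_one' := by
    apply gammaEmb_injective N
    rw [gammaEmb_conjDownFun, map_one, map_one, mul_one, inv_mul_cancel]
  map_mul' γ δ := by
    apply gammaEmb_injective N
    rw [map_mul, gammaEmb_conjDownFun, gammaEmb_conjDownFun, gammaEmb_conjDownFun, map_mul]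
    group

theorem coe_conjDownHom (hq : q.Prime) (γ : Gamma0 (N * q)) :
    ((conjDownHom N q hq γ : Gamma0 N) : SL(2, ℤ)) =
      xferdConjDiagInv q (γ : SL(2, ℤ)) (dvd_one_zero_of_mem_Gamma0_mul γ) := rfl

theorem conjDownHom_zero_zero (hq : q.Prime) (γ : Gamma0 (N * q)) :
    ((conjDownHom N q hq γ : Gamma0 N) : SL(2, ℤ)) 0 0 = (γ : SL(2, ℤ)) 0 0 := rfl

theorem conjDownHom_zero_one (hq : q.Prime) (γ : Gamma0 (N * q)) :
    ((conjDownHom N q hq γ : Gamma0 N) : SL(2, ℤ)) 0 1 = (q : ℤ) * (γ : SL(2, ℤ)) 0 1 := rfl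

theorem conjDownHom_one_zero (hq : q.Prime) (γ : Gamma0 (N * q)) :
    ((conjDownHom N q hq γ : Gamma0 N) : SL(2, ℤ)) 1 0 = (γ : SL(2, ℤ)) 1 0 / (q : ℤ) := rfl

theorem conjDownHom_one_one (hq : q.Prime) (γ : Gamma0 (N * q)) :
    ((conjDownHom N q hq γ : Gamma0 N) : SL(2, ℤ)) 1 1 = (γ : SL(2, ℤ)) 1 1 := rfl

/-- `diag(1, q) · conjDown γ = γ · diag(1, q)` in `GL₂(ℝ)`. -/
theorem heckeMatrix_mul_conjDownHom (hq : q.Prime) (γ : Gamma0 (N * q)) :
    heckeMatrix q 0 * gammaEmb N (conjDownHom N q hq γ) = gammaEmb (N * q) γ * heckeMatrix q 0 :=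
  heckeMatrix_mul_conjDownFun N q hq γ

theorem isZMat_heckeDiagMatrix {q : ℕ} (hq : q ≠ 0) : IsZMat (heckeDiagMatrix q) (utZ q 0 1) :=
  isZMat_heckeRep hq none

/-- `diag(q, 1) · γ = conjDown γ · diag(q, 1)` in `GL₂(ℝ)`. -/
theorem heckeDiagMatrix_mul_gammaEmb (hq : q.Prime) (γ : Gamma0 (N * q)) :
    heckeDiagMatrix q * gammaEmb (N * q) γ =
      gammaEmb N (conjDownHom N q hq γ) * heckeDiagMatrix q := by
  refine (((isZMat_heckeDiagMatrix hq.ne_zero).mul (isZMat_gammaEmb γ)).eq_iff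
    ((isZMat_gammaEmb _).mul (isZMat_heckeDiagMatrix hq.ne_zero))).mpr ?_
  rw [utZ_mul_eq_iff]
  have hd := dvd_one_zero_of_mem_Gamma0_mul γ
  refine ⟨?_, ?_, ?_, ?_⟩
  · show (q : ℤ) * (γ : SL(2, ℤ)) 0 0 + 0 * (γ : SL(2, ℤ)) 1 0 = (γ : SL(2, ℤ)) 0 0 * q
    ring
  · show (q : ℤ) * (γ : SL(2, ℤ)) 0 1 + 0 * (γ : SL(2, ℤ)) 1 1 =
      (γ : SL(2, ℤ)) 0 0 * 0 + (q : ℤ) * (γ : SL(2, ℤ)) 0 1 * 1
    ring
  · show 1 * (γ : SL(2, ℤ)) 1 0 = (γ : SL(2, ℤ)) 1 0 / (q : ℤ) * q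
    rw [Int.ediv_mul_cancel hd]; ring
  · show 1 * (γ : SL(2, ℤ)) 1 1 = (γ : SL(2, ℤ)) 1 0 / (q : ℤ) * 0 + (γ : SL(2, ℤ)) 1 1 * 1
    ring

theorem trace_conjDownHom (hq : q.Prime) (γ : Gamma0 (N * q)) :
    (((conjDownHom N q hq γ : Gamma0 N) : SL(2, ℤ)) : Matrix (Fin 2) (Fin 2) ℤ).trace =
      ((γ : SL(2, ℤ)) : Matrix (Fin 2) (Fin 2) ℤ).trace := by
  rw [Matrix.trace_fin_two, Matrix.trace_fin_two]
  rfl

theorem trace_inclHom (γ : Gamma0 (N * q)) :
    (((inclHom N q γ : Gamma0 N) : SL(2, ℤ)) : Matrix (Fin 2) (Fin 2) ℤ).trace =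
      ((γ : SL(2, ℤ)) : Matrix (Fin 2) (Fin 2) ℤ).trace := rfl

end Homs

/-! ### The pull-backs `α^*`, `β^*` -/

section Pull

variable (N q : ℕ) (hq : q.Prime) (A : Type*) [AddCommGroup A]

/-- **`α^*`** : restriction `Hom(Γ₀(N), A) → Hom(Γ₀(N q), A)` along the inclusion. -/
def pullA : (Additive (Gamma0 N) →+ A) →+ (Additive (Gamma0 (N * q)) →+ A) :=
  pullHom (inclHom N q) A

/-- **`β^*`** : restriction `Hom(Γ₀(N), A) → Hom(Γ₀(N q), A)` along
`conjDown : (a b; c d) ↦ (a, q b; c / q, d)`. -/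
def pullB : (Additive (Gamma0 N) →+ A) →+ (Additive (Gamma0 (N * q)) →+ A) :=
  pullHom (conjDownHom N q hq) A

variable {A}

@[simp] theorem pullA_apply (ψ : Additive (Gamma0 N) →+ A) (γ : Gamma0 (N * q)) :
    pullA N q A ψ (Additive.ofMul γ) = ψ (Additive.ofMul (inclHom N q γ)) := rfl

@[simp] theorem pullB_apply (ψ : Additive (Gamma0 N) →+ A) (γ : Gamma0 (N * q)) :
    pullB N q hq A ψ (Additive.ofMul γ) = ψ (Additive.ofMul (conjDownHom N q hq γ)) := rfl

theorem pullA_comp {B : Type*} [AddCommGroup B] (f : A →+ B) (ψ : Additive (Gamma0 N) →+ A) :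
    pullA N q B (f.comp ψ) = f.comp (pullA N q A ψ) := rfl

theorem pullB_comp {B : Type*} [AddCommGroup B] (f : A →+ B)
    (ψ : Additive (Gamma0 N) →+ A) :
    pullB N q hq B (f.comp ψ) = f.comp (pullB N q hq A ψ) := rfl

theorem pullA_mem_parabolicHoms (R : Type*) [Semiring R] [Module R A]
    {ψ : Additive (Gamma0 N) →+ A} (hψ : ψ ∈ parabolicHoms R (Gamma0 N) A) :
    pullA N q A ψ ∈ parabolicHoms R (Gamma0 (N * q)) A := by
  rw [mem_parabolicHoms_iff] at hψ ⊢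
  intro γ hγ
  exact hψ (inclHom N q γ) hγ

theorem pullB_mem_parabolicHoms (R : Type*) [Semiring R] [Module R A]
    {ψ : Additive (Gamma0 N) →+ A} (hψ : ψ ∈ parabolicHoms R (Gamma0 N) A) :
    pullB N q hq A ψ ∈ parabolicHoms R (Gamma0 (N * q)) A := by
  rw [mem_parabolicHoms_iff] at hψ ⊢
  intro γ hγ
  exact hψ (conjDownHom N q hq γ) (by rw [trace_conjDownHom]; exact hγ)

variable (A)

/-- `α^*` as an `R`-linear map. -/
def pullAₗ (R : Type*) [Semiring R] [Module R A] :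
    (Additive (Gamma0 N) →+ A) →ₗ[R] (Additive (Gamma0 (N * q)) →+ A) :=
  pullHomₗ (inclHom N q) A R

/-- `β^*` as an `R`-linear map. -/
def pullBₗ (R : Type*) [Semiring R] [Module R A] :
    (Additive (Gamma0 N) →+ A) →ₗ[R] (Additive (Gamma0 (N * q)) →+ A) :=
  pullHomₗ (conjDownHom N q hq) A R

@[simp] theorem pullAₗ_apply (R : Type*) [Semiring R] [Module R A]
    (ψ : Additive (Gamma0 N) →+ A) : pullAₗ N q A R ψ = pullA N q A ψ := rfl

@[simp] theorem pullBₗ_apply (R : Type*) [Semiring R] [Module R A]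
    (ψ : Additive (Gamma0 N) →+ A) : pullBₗ N q hq A R ψ = pullB N q hq A ψ := rfl

/-- **`α^*` on the parabolic classes.** -/
def pullAPar (R : Type*) [Semiring R] [Module R A] :
    parabolicHoms R (Gamma0 N) A →ₗ[R] parabolicHoms R (Gamma0 (N * q)) A :=
  ((pullAₗ N q A R).comp (parabolicHoms R (Gamma0 N) A).subtype).codRestrict _
    (fun ψ => pullA_mem_parabolicHoms N q R ψ.2)

/-- **`β^*` on the parabolic classes.** -/
def pullBPar (R : Type*) [Semiring R] [Module R A] :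
    parabolicHoms R (Gamma0 N) A →ₗ[R] parabolicHoms R (Gamma0 (N * q)) A :=
  ((pullBₗ N q hq A R).comp (parabolicHoms R (Gamma0 N) A).subtype).codRestrict _
    (fun ψ => pullB_mem_parabolicHoms N q hq R ψ.2)

@[simp] theorem coe_pullAPar (R : Type*) [Semiring R] [Module R A]
    (ψ : parabolicHoms R (Gamma0 N) A) :
    ((pullAPar N q A R ψ : parabolicHoms R (Gamma0 (N * q)) A) :
      Additive (Gamma0 (N * q)) →+ A) = pullA N q A (ψ : Additive (Gamma0 N) →+ A) := rfl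

@[simp] theorem coe_pullBPar (R : Type*) [Semiring R] [Module R A]
    (ψ : parabolicHoms R (Gamma0 N) A) :
    ((pullBPar N q hq A R ψ : parabolicHoms R (Gamma0 (N * q)) A) :
      Additive (Gamma0 (N * q)) →+ A) = pullB N q hq A (ψ : Additive (Gamma0 N) →+ A) := rfl

end Pull

/-! ### The Bezout witness -/

section Bezout

variable {N q : ℕ}

theorem exists_bezout (hq : q.Prime) (hqN : ¬ q ∣ N) :
    ∃ p : ℤ × ℤ, (q : ℤ) * p.1 + N * p.2 = 1 := by
  have hcop : IsCoprime (q : ℤ) (N : ℤ) :=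
    Nat.isCoprime_iff_coprime.mpr ((Nat.Prime.coprime_iff_not_dvd hq).mpr hqN)
  obtain ⟨u, v, huv⟩ := hcop
  exact ⟨(u, v), by simpa [mul_comm] using huv⟩

/-- the chosen Bezout coefficient `x` (`q x + N y = 1`). -/
noncomputable def bezX (hq : q.Prime) (hqN : ¬ q ∣ N) : ℤ := (exists_bezout hq hqN).choose.1

/-- the chosen Bezout coefficient `y` (`q x + N y = 1`). -/
noncomputable def bezY (hq : q.Prime) (hqN : ¬ q ∣ N) : ℤ := (exists_bezout hq hqN).choose.2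

theorem bez_eq (hq : q.Prime) (hqN : ¬ q ∣ N) :
    (q : ℤ) * bezX hq hqN + N * bezY hq hqN = 1 :=
  (exists_bezout hq hqN).choose_spec

end Bezout

/-! ### The push-forwards `α_*`, `β_*` -/

section Push

variable (N q : ℕ) (hq : q.Prime) (hqN : ¬ q ∣ N) (A : Type*) [AddCommGroup A]

/-- **`α_*`** : the transfer (corestriction) `Hom(Γ₀(N q), A) → Hom(Γ₀(N), A)`. -/
noncomputable def pushA : (Additive (Gamma0 (N * q)) →+ A) →+ (Additive (Gamma0 N) →+ A) :=
  (xferAlpha N q (bez_eq hq hqN) hq).transferGrp A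

/-- **`β_*`** : the transfer of the cosets `Γ₀(N q) (1 b; 0 q)`, `Γ₀(N q) γ₁ (q 0; 0 1)`. -/
noncomputable def pushB : (Additive (Gamma0 (N * q)) →+ A) →+ (Additive (Gamma0 N) →+ A) :=
  (xferBeta N q (bez_eq hq hqN) hq).transferGrp A

variable {A}

/-- the Bezout witness is irrelevant (`α`). -/
theorem xferAlpha_transferGrp_eq_pushA {x y : ℤ} (h : (q : ℤ) * x + N * y = 1)
    (ψ : Additive (Gamma0 (N * q)) →+ A) :
    (xferAlpha N q h hq).transferGrp A ψ = pushA N q hq hqN A ψ :=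
  ConjReps.transferGrp_eq_of_same (conjRepsAlpha N q (bez_eq hq hqN) hq) (conjRepsAlpha N q h hq)
    rfl rfl rfl rfl ψ

/-- the Bezout witness is irrelevant (`β`). -/
theorem xferBeta_transferGrp_eq_pushB {x y : ℤ} (h : (q : ℤ) * x + N * y = 1)
    (ψ : Additive (Gamma0 (N * q)) →+ A) :
    (xferBeta N q h hq).transferGrp A ψ = pushB N q hq hqN A ψ :=
  ConjReps.transferGrp_eq_of_same (conjRepsBeta N q (bez_eq hq hqN) hq) (conjRepsBeta N q h hq)
    rfl rfl rfl rfl ψ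

/-- the representatives `1`, `γ₁ T^b` give `α_*` as well. -/
theorem xferAlphaT_transferGrp_eq_pushA {x y : ℤ} (h : (q : ℤ) * x + N * y = 1)
    (ψ : Additive (Gamma0 (N * q)) →+ A) :
    (xferAlphaT N q h hq).transferGrp A ψ = pushA N q hq hqN A ψ := by
  rw [xferAlphaT_transferGrp_eq, xferAlpha_transferGrp_eq_pushA]

theorem pushA_comp {B : Type*} [AddCommGroup B] (f : A →+ B)
    (ψ : Additive (Gamma0 (N * q)) →+ A) :
    pushA N q hq hqN B (f.comp ψ) = f.comp (pushA N q hq hqN A ψ) :=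
  TransferDatum.transferGrp_comp _ f ψ

theorem pushB_comp {B : Type*} [AddCommGroup B] (f : A →+ B)
    (ψ : Additive (Gamma0 (N * q)) →+ A) :
    pushB N q hq hqN B (f.comp ψ) = f.comp (pushB N q hq hqN A ψ) :=
  TransferDatum.transferGrp_comp _ f ψ

theorem pushA_mem_parabolicHoms (R : Type*) [Semiring R] [Module R A]
    {ψ : Additive (Gamma0 (N * q)) →+ A} (hψ : ψ ∈ parabolicHoms R (Gamma0 (N * q)) A) :
    pushA N q hq hqN A ψ ∈ parabolicHoms R (Gamma0 N) A :=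
  xferAlpha_mem_parabolicHoms N q _ hq R hψ

theorem pushB_mem_parabolicHoms (R : Type*) [Semiring R] [Module R A]
    {ψ : Additive (Gamma0 (N * q)) →+ A} (hψ : ψ ∈ parabolicHoms R (Gamma0 (N * q)) A) :
    pushB N q hq hqN A ψ ∈ parabolicHoms R (Gamma0 N) A :=
  xferBeta_mem_parabolicHoms N q _ hq R hψ

/-- **`α_* ∘ T_ℓ = T_ℓ ∘ α_*`**, `ℓ ∤ N q`. -/
theorem pushA_heckeGrpP (ℓ : Nat.Primes) (hℓ : ¬ (ℓ : ℕ) ∣ N * q)
    (ψ : Additive (Gamma0 (N * q)) →+ A) :
    pushA N q hq hqN A (heckeGrpP (N * q) ℓ A ψ) = heckeGrpP N ℓ A (pushA N q hq hqN A ψ) :=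
  xferAlpha_transferGrp_heckeGrpP N q _ hq ℓ hℓ A ψ

/-- **`β_* ∘ T_ℓ = T_ℓ ∘ β_*`**, `ℓ ∤ N q`. -/
theorem pushB_heckeGrpP (ℓ : Nat.Primes) (hℓ : ¬ (ℓ : ℕ) ∣ N * q)
    (ψ : Additive (Gamma0 (N * q)) →+ A) :
    pushB N q hq hqN A (heckeGrpP (N * q) ℓ A ψ) = heckeGrpP N ℓ A (pushB N q hq hqN A ψ) :=
  xferBeta_transferGrp_heckeGrpP N q _ hq ℓ hℓ A ψ

variable (A)

/-- `α_*` as an `R`-linear map. -/
noncomputable def pushAₗ (R : Type*) [Semiring R] [Module R A] :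
    (Additive (Gamma0 (N * q)) →+ A) →ₗ[R] (Additive (Gamma0 N) →+ A) :=
  (xferAlpha N q (bez_eq hq hqN) hq).transferGrpₗ A R

/-- `β_*` as an `R`-linear map. -/
noncomputable def pushBₗ (R : Type*) [Semiring R] [Module R A] :
    (Additive (Gamma0 (N * q)) →+ A) →ₗ[R] (Additive (Gamma0 N) →+ A) :=
  (xferBeta N q (bez_eq hq hqN) hq).transferGrpₗ A R

@[simp] theorem pushAₗ_apply (R : Type*) [Semiring R] [Module R A]
    (ψ : Additive (Gamma0 (N * q)) →+ A) : pushAₗ N q hq hqN A R ψ = pushA N q hq hqN A ψ := rfl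

@[simp] theorem pushBₗ_apply (R : Type*) [Semiring R] [Module R A]
    (ψ : Additive (Gamma0 (N * q)) →+ A) : pushBₗ N q hq hqN A R ψ = pushB N q hq hqN A ψ := rfl

/-- **`α_*` on the parabolic classes.** -/
noncomputable def pushAPar (R : Type*) [Semiring R] [Module R A] :
    parabolicHoms R (Gamma0 (N * q)) A →ₗ[R] parabolicHoms R (Gamma0 N) A :=
  ((pushAₗ N q hq hqN A R).comp (parabolicHoms R (Gamma0 (N * q)) A).subtype).codRestrict _
    (fun ψ => pushA_mem_parabolicHoms N q hq hqN R ψ.2)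

/-- **`β_*` on the parabolic classes.** -/
noncomputable def pushBPar (R : Type*) [Semiring R] [Module R A] :
    parabolicHoms R (Gamma0 (N * q)) A →ₗ[R] parabolicHoms R (Gamma0 N) A :=
  ((pushBₗ N q hq hqN A R).comp (parabolicHoms R (Gamma0 (N * q)) A).subtype).codRestrict _
    (fun ψ => pushB_mem_parabolicHoms N q hq hqN R ψ.2)

@[simp] theorem coe_pushAPar (R : Type*) [Semiring R] [Module R A]
    (ψ : parabolicHoms R (Gamma0 (N * q)) A) :
    ((pushAPar N q hq hqN A R ψ : parabolicHoms R (Gamma0 N) A) : Additive (Gamma0 N) →+ A) =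
      pushA N q hq hqN A (ψ : Additive (Gamma0 (N * q)) →+ A) := rfl

@[simp] theorem coe_pushBPar (R : Type*) [Semiring R] [Module R A]
    (ψ : parabolicHoms R (Gamma0 (N * q)) A) :
    ((pushBPar N q hq hqN A R ψ : parabolicHoms R (Gamma0 N) A) : Additive (Gamma0 N) →+ A) =
      pushB N q hq hqN A (ψ : Additive (Gamma0 (N * q)) →+ A) := rfl

end Push

end Fermat.Agent.LR
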