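/-
PROJECT LR (S41), package [RAISE] (helper2), part 3: **the polynomial Hecke ring and its actions**.

* `polyHom T hT : MvPolynomial σ ℤ →+* E` for a commuting family `T : σ → E` in a ring `E`
  (`polyHom_X`, `polyHom_C`, `polyHom_intertwine`, `polyHom_rename`);
* `LPar N := ↥(parabolicHoms ℤ (Gamma0 N) ℤ)`, `VPar N := ↥(parabolicHoms ℂ (Gamma0 N) ℂ)`,
  `castPar N : LPar N →+ VPar N`;
* `heckeZ N ℓ := heckeParP N ℓ ℤ ℤ`, `heckeC N ℓ := heckeParP N ℓ ℂ ℂ`, their commutativity, the
  ring homomorphisms `heckeRingHomZ N σ`, `heckeRingHomC N σ` from `MvPolynomial σ ℤ` for any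
  family of primes `ι : σ → Nat.Primes`, the compatibility with `castPar`, and
  `span_range_castPar`.
-/
import Mathlib
import Fermat.Agent.GR.MULT1_helper2_Occur
import Fermat.Agent.LR.XFER_helper4_Defs

set_option autoImplicit false
set_option linter.unusedSectionVars false
set_option linter.style.haveILetI false

namespace Fermat.Agent.LR

open MvPolynomial CongruenceSubgroup ModularCurve.Period Fermat.Agent.GR
open scoped MatrixGroups

section PolyHom

variable {σ : Type*} {E : Type*} [Ring E]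

set_option linter.deprecated false in
/-- the ring homomorphism `ℤ[X_i] → E` attached to a commuting family in a ring `E`. -/
noncomputable def polyHom (T : σ → E) (hT : ∀ i j, Commute (T i) (T j)) : MvPolynomial σ ℤ →+* E :=
  letI : CommRing ↥(Algebra.adjoin ℤ (Set.range T)) :=
    Algebra.adjoinCommRingOfComm ℤ (by
      rintro _ ⟨i, rfl⟩ _ ⟨j, rfl⟩
      exact (hT i j).eq)
  (Algebra.adjoin ℤ (Set.range T)).val.toRingHom.comp
    (MvPolynomial.aeval (R := ℤ) (S₁ := ↥(Algebra.adjoin ℤ (Set.range T)))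
      (fun i => ⟨T i, Algebra.subset_adjoin ⟨i, rfl⟩⟩)).toRingHom

@[simp] theorem polyHom_X (T : σ → E) (hT : ∀ i j, Commute (T i) (T j)) (i : σ) :
    polyHom T hT (X i) = T i := by
  unfold polyHom
  simp

@[simp] theorem polyHom_C (T : σ → E) (hT : ∀ i j, Commute (T i) (T j)) (n : ℤ) :
    polyHom T hT (C n) = (n : E) := by
  unfold polyHom
  simp

/-- change of variables. -/
theorem polyHom_rename {τ : Type*} (f : τ → σ) (T : σ → E) (hT : ∀ i j, Commute (T i) (T j))
    (r : MvPolynomial τ ℤ) :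
    polyHom T hT (rename f r) = polyHom (T ∘ f) (fun i j => hT (f i) (f j)) r := by
  have h : (polyHom T hT).comp (rename f : MvPolynomial τ ℤ →ₐ[ℤ] MvPolynomial σ ℤ).toRingHom
      = polyHom (T ∘ f) (fun i j => hT (f i) (f j)) := by
    apply MvPolynomial.ringHom_ext
    · intro n
      simp
    · intro i
      simp
  exact congrArg (fun φ : MvPolynomial τ ℤ →+* E => φ r) h

end PolyHom

section Intertwine

variable {σ : Type*} {S₁ S₂ : Type*} [CommRing S₁] [CommRing S₂] {M₁ M₂ : Type*}
  [AddCommGroup M₁] [AddCommGroup M₂] [Module S₁ M₁] [Module S₂ M₂]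

/-- an additive map intertwining two commuting families intertwines the polynomials in them. -/
theorem polyHom_intertwine (T₁ : σ → Module.End S₁ M₁) (h₁ : ∀ i j, Commute (T₁ i) (T₁ j))
    (T₂ : σ → Module.End S₂ M₂) (h₂ : ∀ i j, Commute (T₂ i) (T₂ j)) (e : M₁ →+ M₂)
    (he : ∀ i x, e (T₁ i x) = T₂ i (e x)) (r : MvPolynomial σ ℤ) (x : M₁) :
    e (polyHom T₁ h₁ r x) = polyHom T₂ h₂ r (e x) := by
  induction r using MvPolynomial.induction_on generalizing x with
  | C n =>
    rw [polyHom_C, polyHom_C, Module.End.intCast_apply, Module.End.intCast_apply, map_zsmul]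
  | add p q hp hq => rw [map_add, map_add, LinearMap.add_apply, LinearMap.add_apply, map_add, hp, hq]
  | mul_X p i hp =>
    rw [map_mul, map_mul, polyHom_X, polyHom_X, Module.End.mul_apply, Module.End.mul_apply, hp, he]

/-- polynomials in a commuting family act on a common eigenvector through the evaluation of the
polynomial at the eigenvalues. -/
theorem polyHom_eigenvector (T₂ : σ → Module.End S₂ M₂) (h₂ : ∀ i j, Commute (T₂ i) (T₂ j))
    (v : M₂) (c : σ → S₂) (hv : ∀ i, T₂ i v = c i • v) (r : MvPolynomial σ ℤ) :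
    polyHom T₂ h₂ r v = (MvPolynomial.eval₂Hom (Int.castRingHom S₂) c r) • v := by
  induction r using MvPolynomial.induction_on with
  | C n =>
    rw [polyHom_C, Module.End.intCast_apply, MvPolynomial.coe_eval₂Hom, MvPolynomial.eval₂_C,
      eq_intCast, Int.cast_smul_eq_zsmul]
  | add p q hp hq => rw [map_add, map_add, LinearMap.add_apply, hp, hq, add_smul]
  | mul_X p i hp =>
    rw [map_mul, map_mul, polyHom_X, Module.End.mul_apply, hv, map_smul, hp,
      MvPolynomial.coe_eval₂Hom, MvPolynomial.eval₂_X, smul_smul, mul_comm]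

end Intertwine

section Lattices

variable (N : ℕ)

/-- the lattice `H¹_par(Γ₀(N), ℤ)`. -/
abbrev LPar : Type := ↥(parabolicHoms ℤ (Gamma0 N) ℤ)

/-- the complex vector space `H¹_par(Γ₀(N), ℂ)`. -/
abbrev VPar : Type := ↥(parabolicHoms ℂ (Gamma0 N) ℂ)

/-- the inclusion of the lattice in the complex vector space. -/
noncomputable def castPar : LPar N →+ VPar N where
  toFun ψ := ⟨(Int.castAddHom ℂ).comp ψ.1, by
    rw [mem_parabolicHoms_iff]
    intro γ hγ
    show ((ψ.1 (Additive.ofMul γ) : ℤ) : ℂ) = 0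
    rw [(mem_parabolicHoms_iff.1 ψ.2) γ hγ, Int.cast_zero]⟩
  map_zero' := by
    apply Subtype.ext
    exact AddMonoidHom.comp_zero _
  map_add' ψ ψ' := by
    apply Subtype.ext
    exact AddMonoidHom.comp_add _ _ _

theorem castPar_coe (ψ : LPar N) : (castPar N ψ).1 = (Int.castAddHom ℂ).comp ψ.1 := rfl

theorem castPar_apply (ψ : LPar N) (γ : Additive (Gamma0 N)) :
    (castPar N ψ).1 γ = ((ψ.1 γ : ℤ) : ℂ) := rfl

theorem castPar_injective : Function.Injective (castPar N) := by
  intro ψ ψ' h
  apply Subtype.ext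
  refine AddMonoidHom.ext fun γ => ?_
  have h1 := congrArg (fun φ : VPar N => φ.1 γ) h
  simp only [castPar_apply] at h1
  exact_mod_cast h1

/-- the Hecke operator at `ℓ` on the lattice. -/
noncomputable abbrev heckeZ (ℓ : Nat.Primes) : Module.End ℤ (LPar N) := heckeParP N ℓ ℤ ℤ

/-- the Hecke operator at `ℓ` on the complex parabolic cohomology. -/
noncomputable abbrev heckeC (ℓ : Nat.Primes) : Module.End ℂ (VPar N) := heckeParP N ℓ ℂ ℂ

theorem castPar_heckeZ (ℓ : Nat.Primes) (ψ : LPar N) :
    castPar N (heckeZ N ℓ ψ) = heckeC N ℓ (castPar N ψ) := by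
  apply Subtype.ext
  rw [castPar_coe, coe_heckeParP, coe_heckeParP, castPar_coe, heckeGrpP_comp]

variable [NeZero N]

theorem heckeZ_commute (ℓ ℓ' : Nat.Primes) : Commute (heckeZ N ℓ) (heckeZ N ℓ') := by
  apply LinearMap.ext
  intro ψ
  apply Subtype.ext
  exact heckeGrpP_comm_of_injective N ℓ ℓ' (Int.castAddHom ℂ) Int.cast_injective
    (mem_parabolicHoms_iff.1 ψ.2)

theorem heckeC_commute (ℓ ℓ' : Nat.Primes) : Commute (heckeC N ℓ) (heckeC N ℓ') :=
  heckeParP_commute ℓ ℓ'

variable {σ : Type*} (ι : σ → Nat.Primes)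

/-- the action of the polynomial ring on the lattice through the Hecke operators at `ι i`. -/
noncomputable def heckeRingHomZ : MvPolynomial σ ℤ →+* Module.End ℤ (LPar N) :=
  polyHom (fun i => heckeZ N (ι i)) (fun i j => heckeZ_commute N (ι i) (ι j))

/-- the action of the polynomial ring on the complex cohomology. -/
noncomputable def heckeRingHomC : MvPolynomial σ ℤ →+* Module.End ℂ (VPar N) :=
  polyHom (fun i => heckeC N (ι i)) (fun i j => heckeC_commute N (ι i) (ι j))

@[simp] theorem heckeRingHomZ_X (i : σ) : heckeRingHomZ N ι (X i) = heckeZ N (ι i) := polyHom_X _ _ i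

@[simp] theorem heckeRingHomC_X (i : σ) : heckeRingHomC N ι (X i) = heckeC N (ι i) := polyHom_X _ _ i

@[simp] theorem heckeRingHomZ_C (n : ℤ) : heckeRingHomZ N ι (C n) = (n : Module.End ℤ (LPar N)) :=
  polyHom_C _ _ n

@[simp] theorem heckeRingHomC_C (n : ℤ) : heckeRingHomC N ι (C n) = (n : Module.End ℂ (VPar N)) :=
  polyHom_C _ _ n

theorem castPar_heckeRingHomZ (r : MvPolynomial σ ℤ) (ψ : LPar N) :
    castPar N (heckeRingHomZ N ι r ψ) = heckeRingHomC N ι r (castPar N ψ) :=
  polyHom_intertwine _ _ _ _ (castPar N) (fun i x => castPar_heckeZ N (ι i) x) r ψ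

theorem heckeRingHomZ_rename {τ : Type*} (f : τ → σ) (r : MvPolynomial τ ℤ) :
    heckeRingHomZ N ι (rename f r) = heckeRingHomZ N (ι ∘ f) r :=
  polyHom_rename f _ _ r

theorem heckeRingHomC_rename {τ : Type*} (f : τ → σ) (r : MvPolynomial τ ℤ) :
    heckeRingHomC N ι (rename f r) = heckeRingHomC N (ι ∘ f) r :=
  polyHom_rename f _ _ r

/-- the lattice spans the complex parabolic cohomology. -/
theorem span_range_castPar : Submodule.span ℂ (Set.range (castPar N)) = ⊤ := by
  rw [eq_top_iff]
  intro φ hφtop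
  clear hφtop
  obtain ⟨x, rfl⟩ := (parTheta ℂ (Gamma0 N) ℂ).surjective φ
  induction x using TensorProduct.induction_on with
  | zero => rw [map_zero]; exact Submodule.zero_mem _
  | tmul c ψ =>
    have h : parTheta ℂ (Gamma0 N) ℂ (c ⊗ₜ ψ) = c • castPar N ψ := by
      apply Subtype.ext
      refine AddMonoidHom.ext fun γ => ?_
      rw [parTheta_tmul_apply, Submodule.coe_smul, AddMonoidHom.smul_apply, castPar_apply,
        zsmul_eq_mul, smul_eq_mul, mul_comm]
    rw [h]
    exact Submodule.smul_mem _ _ (Submodule.subset_span ⟨ψ, rfl⟩)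
  | add x y hx hy =>
    rw [map_add]
    exact Submodule.add_mem _ hx hy

end Lattices

end Fermat.Agent.LR
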