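/-
PROJECT LR (S41, level raising), package [RAISE] (helper2), part 2: **occurrence modulo `p` and
Deligne–Serre lifting for lattices with a commutative ring of operators** (pure algebra).

* `exists_ne_zero_forall_smul_eq_zero`: a finite module `M` with `I • M ≠ M` has a non-zero
  element killed by `I`;
* `exists_notMem_p_smul_of_smul_top_ne_top`: for a lattice `L` with `𝔪 L ≠ L`, `p ∈ 𝔪`, there is
  `w ∈ L ∖ pL` with `𝔪 w ⊆ pL`;
* `smul_top_ne_top_of_eigenvector`: `𝔪 L ≠ L` as soon as `L ⊗ ℂ` contains an eigenvector whose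
  eigencharacter does not take the value `-1` on `𝔪`;
* `exists_eigenvector_lift`: (Deligne–Serre) from `x ∈ X ∖ pX` with `𝔪 x ⊆ pX` to an eigenvector in
  `X ⊗ ℂ` whose eigencharacter has integral values and maps `𝔪` into a maximal ideal of `ℤ̄`.
-/
import Mathlib
import Fermat.Agent.Helper2.EigenChar

set_option autoImplicit false
set_option linter.unusedSectionVars false
set_option linter.style.haveILetI false

namespace Fermat.Agent.LR

open Module Polynomial

section Socle

variable {R : Type*} [CommRing R] {M : Type*} [AddCommGroup M] [Module R M]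

/-- a finite module `M` with `I M ≠ M` contains a non-zero element killed by `I`. -/
theorem exists_ne_zero_forall_smul_eq_zero [Finite M] (I : Ideal R)
    (h : I • (⊤ : Submodule R M) ≠ ⊤) : ∃ w : M, w ≠ 0 ∧ ∀ r ∈ I, r • w = 0 := by
  classical
  -- the chain `Iⁿ M` stabilises
  have hanti : Antitone fun n : ℕ => I ^ n • (⊤ : Submodule R M) := by
    refine antitone_nat_of_succ_le fun n => ?_
    rw [pow_succ', Submodule.mul_smul]
    exact Submodule.smul_le_right
  obtain ⟨n, hn⟩ := IsArtinian.monotone_stabilizes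
    (⟨fun n => OrderDual.toDual (I ^ n • (⊤ : Submodule R M)), fun a b hab => hanti hab⟩ :
      ℕ →o (Submodule R M)ᵒᵈ)
  have hW : I ^ n • (⊤ : Submodule R M) ≤ I • (I ^ n • (⊤ : Submodule R M)) := by
    have h1 := hn (n + 1) (Nat.le_succ n)
    have h2 : I ^ n • (⊤ : Submodule R M) = I ^ (n + 1) • (⊤ : Submodule R M) :=
      congrArg OrderDual.ofDual h1
    rw [← Submodule.mul_smul, ← pow_succ', ← h2]
  have hfg : (I ^ n • (⊤ : Submodule R M)).FG := IsNoetherian.noetherian _
  obtain ⟨c, hc1, hcW⟩ :=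
    Submodule.exists_sub_one_mem_and_smul_eq_zero_of_fg_of_le_smul I _ hfg hW
  -- `c M ≠ 0`
  have hex : ∃ y : M, c • y ≠ 0 := by
    by_contra hall
    push Not at hall
    apply h
    rw [eq_top_iff]
    intro y _
    have hy : y = (-(c - 1)) • y := by
      rw [neg_smul, sub_smul, hall, one_smul, zero_sub, neg_neg]
    rw [hy]
    exact Submodule.smul_mem_smul (I.neg_mem hc1) Submodule.mem_top
  obtain ⟨y, hy⟩ := hex
  have hx : ∀ a ∈ I ^ n, a • c • y = 0 := by
    intro a ha
    rw [smul_comm]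
    exact hcW _ (Submodule.smul_mem_smul ha Submodule.mem_top)
  have hP : ∃ k : ℕ, ∀ a ∈ I ^ k, a • c • y = 0 := ⟨n, hx⟩
  have hk0 : Nat.find hP ≠ 0 := by
    intro h0
    have h1 := Nat.find_spec hP
    rw [h0, pow_zero, Ideal.one_eq_top] at h1
    exact hy (by simpa using h1 1 Submodule.mem_top)
  obtain ⟨k', hk'⟩ := Nat.exists_eq_succ_of_ne_zero hk0
  have hmin : ¬ ∀ a ∈ I ^ k', a • c • y = 0 :=
    Nat.find_min hP (by rw [hk']; exact Nat.lt_succ_self k')
  push Not at hmin
  obtain ⟨a, ha, hane⟩ := hmin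
  refine ⟨a • c • y, hane, fun r hr => ?_⟩
  rw [smul_smul]
  refine Nat.find_spec hP (r * a) ?_
  rw [hk', Nat.succ_eq_add_one, pow_succ']
  exact Ideal.mul_mem_mul hr ha

end Socle

section Occur

variable {R : Type*} [CommRing R] {L : Type*} [AddCommGroup L] [Module R L] [Module.Finite ℤ L]

/-- **occurrence modulo `p`**: a lattice `L` with `𝔪 L ≠ L` (`p ∈ 𝔪`) contains `w ∉ pL` with
`𝔪 w ⊆ pL`. -/
theorem exists_notMem_p_smul_of_smul_top_ne_top {p : ℕ} (hp : p ≠ 0) (𝔪 : Ideal R)
    (hp𝔪 : (p : R) ∈ 𝔪) (h : 𝔪 • (⊤ : Submodule R L) ≠ ⊤) :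
    ∃ w : L, (∀ y : L, w ≠ (p : ℤ) • y) ∧ ∀ r ∈ 𝔪, ∃ y : L, r • w = (p : ℤ) • y := by
  classical
  let P : Submodule R L := LinearMap.range (LinearMap.lsmul R L (p : R))
  have hPmem : ∀ x : L, x ∈ P ↔ ∃ y : L, x = (p : ℤ) • y := by
    intro x
    constructor
    · rintro ⟨y, rfl⟩
      refine ⟨y, ?_⟩
      rw [LinearMap.lsmul_apply, Nat.cast_smul_eq_nsmul, natCast_zsmul]
    · rintro ⟨y, rfl⟩
      refine ⟨y, ?_⟩
      rw [LinearMap.lsmul_apply, Nat.cast_smul_eq_nsmul, natCast_zsmul]
  have hPle : P ≤ 𝔪 • (⊤ : Submodule R L) := by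
    rintro _ ⟨y, rfl⟩
    exact Submodule.smul_mem_smul hp𝔪 Submodule.mem_top
  -- the quotient is finite
  haveI : Module.Finite ℤ (L ⧸ P) :=
    Module.Finite.of_surjective (P.mkQ.restrictScalars ℤ) P.mkQ_surjective
  haveI : Finite (L ⧸ P) := by
    apply Module.finite_of_fg_torsion
    intro x
    obtain ⟨y, rfl⟩ := P.mkQ_surjective x
    refine ⟨⟨(p : ℤ), mem_nonZeroDivisors_of_ne_zero (by exact_mod_cast hp)⟩, ?_⟩
    change (p : ℤ) • P.mkQ y = 0
    rw [← map_zsmul, Submodule.mkQ_apply, Submodule.Quotient.mk_eq_zero, hPmem]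
    exact ⟨y, rfl⟩
  have hne : 𝔪 • (⊤ : Submodule R (L ⧸ P)) ≠ ⊤ := by
    intro htop
    apply h
    rw [eq_top_iff]
    intro x _
    have h1 : P.mkQ x ∈ 𝔪 • (⊤ : Submodule R (L ⧸ P)) := by rw [htop]; exact Submodule.mem_top
    rw [← Submodule.range_mkQ P, ← Submodule.map_top, ← Submodule.map_smul''] at h1
    obtain ⟨x', hx', hxx'⟩ := h1
    have h2 : x - x' ∈ P := by
      rw [← Submodule.Quotient.mk_eq_zero, Submodule.Quotient.mk_sub, ← Submodule.mkQ_apply,
        ← Submodule.mkQ_apply, hxx', sub_self]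
    have h3 : x = (x - x') + x' := by abel
    rw [h3]
    exact Submodule.add_mem _ (hPle h2) hx'
  obtain ⟨wbar, hw0, hw𝔪⟩ := exists_ne_zero_forall_smul_eq_zero 𝔪 hne
  obtain ⟨w, rfl⟩ := P.mkQ_surjective wbar
  refine ⟨w, fun y hy => hw0 ?_, fun r hr => ?_⟩
  · rw [Submodule.mkQ_apply, Submodule.Quotient.mk_eq_zero, hPmem]
    exact ⟨y, hy⟩
  · have h1 := hw𝔪 r hr
    rw [← map_smul, Submodule.mkQ_apply, Submodule.Quotient.mk_eq_zero, hPmem] at h1
    exact h1

/-- `𝔪 L ≠ L` as soon as the complexification of `L` contains an eigenvector whose eigencharacter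
does not take the value `-1` on `𝔪`. -/
theorem smul_top_ne_top_of_eigenvector {V : Type*} [AddCommGroup V] [Module ℂ V]
    (ρ : R →+* Module.End ℂ V) (e : L →+ V) (he : ∀ (r : R) (x : L), e (r • x) = ρ r (e x))
    (v : V) (hv0 : v ≠ 0) (hv : v ∈ Submodule.span ℂ (Set.range e)) (χ : R →+* ℂ)
    (hχ : ∀ r : R, ρ r v = χ r • v) (𝔪 : Ideal R) (h𝔪 : ∀ r ∈ 𝔪, χ r ≠ -1) :
    𝔪 • (⊤ : Submodule R L) ≠ ⊤ := by
  intro htop
  haveI : Module.Finite R L := Module.Finite.of_restrictScalars_finite ℤ R L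
  obtain ⟨r, hr1, hr⟩ := Submodule.exists_sub_one_mem_and_smul_eq_zero_of_fg_of_le_smul 𝔪
    (⊤ : Submodule R L) Module.Finite.fg_top (by rw [htop])
  have hkill : ∀ u ∈ Submodule.span ℂ (Set.range e), ρ r u = 0 := by
    intro u hu
    induction hu using Submodule.span_induction with
    | mem u hu =>
      obtain ⟨x, rfl⟩ := hu
      rw [← he, hr x Submodule.mem_top, map_zero]
    | zero => exact map_zero _
    | add u u' _ _ h1 h2 => rw [map_add, h1, h2, add_zero]
    | smul c u _ h1 => rw [map_smul, h1, smul_zero]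
  have h1 : χ r • v = 0 := by rw [← hχ, hkill v hv]
  have h2 : χ r = 0 := (smul_eq_zero.1 h1).resolve_right hv0
  apply h𝔪 _ hr1
  rw [map_sub, h2, map_one, zero_sub]

end Occur

section Lift

variable {R : Type*} [CommRing R] {X : Type*} [AddCommGroup X] [Module R X] [Module.Finite ℤ X]
  {V : Type*} [AddCommGroup V] [Module ℂ V]

/-- multiplication by `t : R` as a `ℤ`-linear endomorphism. -/
def smulEndInt (X : Type*) [AddCommGroup X] [Module R X] (t : R) : Module.End ℤ X :=
  (LinearMap.lsmul R X t).restrictScalars ℤ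

theorem smulEndInt_apply (t : R) (x : X) : smulEndInt X t x = t • x := rfl

/-- an additive map intertwining two endomorphisms intertwines the integer polynomials in them. -/
theorem aeval_int_intertwine' (e : X →+ V) (φ : Module.End ℤ X) (ψ : Module.End ℂ V)
    (h : ∀ x, e (φ x) = ψ (e x)) (Q : ℤ[X]) (x : X) :
    e (aeval φ Q x) = aeval ψ Q (e x) := by
  induction Q using Polynomial.induction_on generalizing x with
  | C a =>
    rw [aeval_C, aeval_C, Module.algebraMap_end_apply, Module.algebraMap_end_apply, map_zsmul]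
  | add P Q hP hQ => rw [map_add, map_add, LinearMap.add_apply, LinearMap.add_apply, map_add, hP, hQ]
  | monomial n a ih =>
    have e1 : aeval φ (C a * Polynomial.X ^ n * Polynomial.X)
        = aeval φ (C a * Polynomial.X ^ n) * φ := by rw [map_mul, aeval_X]
    have e2 : aeval ψ (C a * Polynomial.X ^ n * Polynomial.X)
        = aeval ψ (C a * Polynomial.X ^ n) * ψ := by rw [map_mul, aeval_X]
    rw [pow_succ, ← mul_assoc, e1, e2, Module.End.mul_apply, Module.End.mul_apply, ih, h]

/-- integer polynomials in an endomorphism act on an eigenvector through the eigenvalue. -/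
theorem aeval_int_eigenvector (ψ : Module.End ℂ V) (g : V) (μ : ℂ) (h : ψ g = μ • g) (Q : ℤ[X]) :
    aeval ψ Q g = aeval μ Q • g := by
  induction Q using Polynomial.induction_on with
  | C a =>
    rw [aeval_C, aeval_C, Module.algebraMap_end_apply, algebraMap_int_eq, eq_intCast,
      Int.cast_smul_eq_zsmul]
  | add P Q hP hQ => rw [map_add, map_add, LinearMap.add_apply, hP, hQ, add_smul]
  | monomial n a ih =>
    have e1 : aeval ψ (C a * Polynomial.X ^ n * Polynomial.X)
        = aeval ψ (C a * Polynomial.X ^ n) * ψ := by rw [map_mul, aeval_X]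
    have e2 : aeval μ (C a * Polynomial.X ^ n * Polynomial.X)
        = aeval μ (C a * Polynomial.X ^ n) * μ := by rw [map_mul, aeval_X]
    rw [pow_succ, ← mul_assoc, e1, e2, Module.End.mul_apply, h, map_smul, ih, smul_smul, mul_comm]

/-- **Deligne–Serre lifting** for a lattice `X` with a commutative ring of operators: an element
`x ∈ X ∖ pX` with `𝔪 x ⊆ pX` (`𝔪` maximal) gives an eigenvector in `X ⊗ ℂ` whose eigencharacter has
values in `ℤ̄` and maps `𝔪` into a maximal ideal of `ℤ̄`. -/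
theorem exists_eigenvector_lift (ρ : R →+* Module.End ℂ V) (e : X →+ V)
    (he : ∀ (r : R) (x : X), e (r • x) = ρ r (e x)) (hinj : Function.Injective e)
    {p : ℕ} (𝔪 : Ideal R) (h𝔪 : 𝔪.IsMaximal)
    (x : X) (hx : ∀ y : X, x ≠ (p : ℤ) • y) (h𝔪x : ∀ r ∈ 𝔪, ∃ y : X, r • x = (p : ℤ) • y) :
    ∃ (g : V) (χ : R →+* integralClosure ℤ ℂ) (𝔪' : Ideal (integralClosure ℤ ℂ)),
      g ∈ Submodule.span ℂ (Set.range e) ∧ g ≠ 0 ∧ 𝔪'.IsMaximal ∧
      (∀ t : R, ρ t g = ((χ t : integralClosure ℤ ℂ) : ℂ) • g) ∧ (∀ r ∈ 𝔪, χ r ∈ 𝔪') := by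
  classical
  haveI : 𝔪.IsPrime := h𝔪.isPrime
  set W : Submodule ℂ V := Submodule.span ℂ (Set.range e) with hWdef
  -- `W` is finite-dimensional
  haveI : FiniteDimensional ℂ W := by
    obtain ⟨S, hS⟩ := (Module.Finite.fg_top : (⊤ : Submodule ℤ X).FG)
    have hle : W ≤ Submodule.span ℂ (e '' (S : Set X)) := by
      rw [hWdef, Submodule.span_le]
      rintro _ ⟨y, rfl⟩
      have hy : y ∈ Submodule.span ℤ (S : Set X) := hS ▸ Submodule.mem_top
      induction hy using Submodule.span_induction with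
      | mem u hu => exact Submodule.subset_span ⟨u, hu, rfl⟩
      | zero => rw [map_zero]; exact Submodule.zero_mem _
      | add u u' _ _ h1 h2 => rw [map_add]; exact Submodule.add_mem _ h1 h2
      | smul c u _ h1 =>
        rw [map_zsmul, ← Int.cast_smul_eq_zsmul ℂ]
        exact Submodule.smul_mem _ _ h1
    haveI : FiniteDimensional ℂ ↥(Submodule.span ℂ (e '' (S : Set X))) :=
      FiniteDimensional.span_of_finite ℂ ((Finset.finite_toSet S).image e)
    exact Submodule.finiteDimensional_of_le hle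
  have hWstab : ∀ (t : R), ∀ u ∈ W, ρ t u ∈ W := by
    intro t u hu
    induction hu using Submodule.span_induction with
    | mem u hu =>
      obtain ⟨y, rfl⟩ := hu
      rw [← he]
      exact Submodule.subset_span ⟨_, rfl⟩
    | zero => rw [map_zero]; exact Submodule.zero_mem _
    | add u u' _ _ h1 h2 => rw [map_add]; exact Submodule.add_mem _ h1 h2
    | smul c u _ h1 => rw [map_smul]; exact Submodule.smul_mem _ _ h1
  let ρW : R →+* Module.End ℂ W :=
    { toFun := fun t => (ρ t).restrict (hWstab t)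
      map_one' := by ext u; simp [LinearMap.restrict_apply]
      map_mul' := fun a b => by ext u; simp [LinearMap.restrict_apply]
      map_zero' := by ext u; simp [LinearMap.restrict_apply]
      map_add' := fun a b => by ext u; simp [LinearMap.restrict_apply] }
  have hρW : ∀ (t : R) (u : W), ((ρW t u : W) : V) = ρ t (u : V) := fun t u => rfl
  have hexW : e x ∈ W := Submodule.subset_span ⟨x, rfl⟩
  have hker : ∀ s : R, ρW s = 0 → s ∈ 𝔪 := by
    intro s hs
    by_contra hsm
    obtain ⟨u, m, hm, hum⟩ := h𝔪.exists_inv hsm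
    obtain ⟨y, hy⟩ := h𝔪x m hm
    have h0 : ρ s (e x) = 0 := by
      have := congrArg (fun φ : Module.End ℂ W => ((φ ⟨e x, hexW⟩ : W) : V)) hs
      simpa [hρW] using this
    have h1 : s • x = 0 := hinj (by rw [he, h0, map_zero])
    apply hx y
    calc x = (1 : R) • x := (one_smul R x).symm
      _ = (u * s + m) • x := by rw [hum]
      _ = (p : ℤ) • y := by rw [add_smul, mul_smul, h1, smul_zero, zero_add, hy]
  obtain ⟨g, χ, hg0, heig, hχS⟩ := Fermat.Agent.Helper2.exists_eigenvector_character ρW 𝔪 hker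
  have heig' : ∀ t : R, ρ t (g : V) = χ t • (g : V) := by
    intro t
    rw [← hρW, heig t, Submodule.coe_smul]
  have hg0' : (g : V) ≠ 0 := fun h => hg0 (Subtype.ext h)
  -- integrality of the eigenvalues
  have hχint : ∀ t : R, χ t ∈ integralClosure ℤ ℂ := by
    intro t
    obtain ⟨P, hPm, hP⟩ :=
      (Algebra.IsIntegral.isIntegral (R := ℤ) (smulEndInt X t) : IsIntegral ℤ (smulEndInt X t))
    have hP' : aeval (smulEndInt X t) P = 0 := hP
    have hkill : ∀ u ∈ W, aeval (ρ t) P u = 0 := by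
      intro u hu
      induction hu using Submodule.span_induction with
      | mem u hu =>
        obtain ⟨y, rfl⟩ := hu
        rw [← aeval_int_intertwine' e (smulEndInt X t) (ρ t) (fun z => he t z) P y, hP',
          LinearMap.zero_apply, map_zero]
      | zero => exact map_zero _
      | add u u' _ _ h1 h2 => rw [map_add, h1, h2, add_zero]
      | smul c u _ h1 => rw [map_smul, h1, smul_zero]
    have h1 := hkill (g : V) g.2
    rw [aeval_int_eigenvector (ρ t) (g : V) (χ t) (heig' t) P] at h1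
    have h2 : aeval (χ t) P = 0 := (smul_eq_zero.1 h1).resolve_right hg0'
    exact ⟨P, hPm, h2⟩
  let χ' : R →+* integralClosure ℤ ℂ := χ.codRestrict (integralClosure ℤ ℂ) hχint
  have hχ' : ∀ t, ((χ' t : integralClosure ℤ ℂ) : ℂ) = χ t := fun t => rfl
  letI : Algebra R (integralClosure ℤ ℂ) := χ'.toAlgebra
  have halg : algebraMap R (integralClosure ℤ ℂ) = χ' := rfl
  haveI : Algebra.IsIntegral R (integralClosure ℤ ℂ) := by
    refine ⟨fun z => ?_⟩
    have hz : IsIntegral ℤ z := Algebra.IsIntegral.isIntegral z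
    exact hz.tower_top
  have hkerle : RingHom.ker (algebraMap R (integralClosure ℤ ℂ)) ≤ 𝔪 := by
    intro s hs
    by_contra hsm
    apply hχS s hsm
    rw [RingHom.mem_ker, halg] at hs
    rw [← hχ' s, hs]
    rfl
  obtain ⟨𝔪', hmax', hcomap⟩ := Ideal.exists_ideal_over_maximal_of_isIntegral 𝔪 hkerle
  refine ⟨(g : V), χ', 𝔪', g.2, hg0', hmax', fun t => ?_, fun r hr => ?_⟩
  · rw [hχ' t]; exact heig' t
  · have : r ∈ 𝔪'.comap (algebraMap R (integralClosure ℤ ℂ)) := hcomap ▸ hr
    exact this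

end Lift

end Fermat.Agent.LR
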