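/-
PROJECT LR (S41, level raising), package [INST] (helper7), part (c): **the START on the lattice** —
from a non-zero eigenspace `eigenPar N ℂ a` in the parabolic homomorphisms of level `N`, a maximal
ideal `𝔪f ∋ p` of `ℤ̄` and the level-raising congruence `a_q ^ 2 ≡ (q + 1) ^ 2 mod 𝔪f`, an element
`w ∈ L ∖ pL` of the lattice `L = H¹_par(Γ₀(N), ℤ)` which is killed modulo `p` by the prime-to-`N q`
Hecke ideal `χ⁻¹(𝔪f)` and by `T_q - ε (q + 1)` for a sign `ε`.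
-/
import Mathlib
import Fermat.Agent.GR.MULT1_helper2_Field
import Fermat.Agent.GR.BETTI_lead_Par
import Fermat.Agent.LR.RAISE_helper2_Hecke
import Fermat.Agent.LR.RAISE_helper2_Lift

set_option autoImplicit false
set_option linter.unusedSectionVars false
set_option linter.style.haveILetI false

open CongruenceSubgroup

namespace Fermat.Agent.LR

open Fermat.Agent.GR MvPolynomial

/-- **(c) occurrence on the lattice at level `N`**. -/
theorem exists_occ (N q p : ℕ) [NeZero N] (hq : q.Prime) (hp : p.Prime) (a : Nat.Primes → ℂ)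
    (ha : eigenPar N ℂ a ≠ ⊥)
    (𝔪f : Ideal (integralClosure ℤ ℂ)) (h𝔪f : 𝔪f.IsMaximal)
    (hp𝔪f : (p : integralClosure ℤ ℂ) ∈ 𝔪f)
    (hLR : ∃ z : integralClosure ℤ ℂ, (z : ℂ) = a ⟨q, hq⟩ ∧
      z ^ 2 - ((q : integralClosure ℤ ℂ) + 1) ^ 2 ∈ 𝔪f) :
    ∃ χ : MvPolynomial {ℓ : Nat.Primes // ¬ (ℓ : ℕ) ∣ N * q} ℤ →+* integralClosure ℤ ℂ,
      (∀ ℓ, ((χ (MvPolynomial.X ℓ) : integralClosure ℤ ℂ) : ℂ) = a ℓ.1) ∧
      ∃ (w : LPar N) (ε : ℤ), ε * ε = 1 ∧ (∀ y : LPar N, w ≠ (p : ℤ) • y) ∧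
        (∀ r, χ r ∈ 𝔪f → ∃ y : LPar N, heckeRingHomZ N Subtype.val r w = (p : ℤ) • y) ∧
        ∃ t : LPar N, heckeZ N ⟨q, hq⟩ w - (ε * ((q : ℤ) + 1)) • w = (p : ℤ) • t := by
  classical
  haveI : 𝔪f.IsPrime := h𝔪f.isPrime
  -- the integral eigenvalues
  let aint : Nat.Primes → integralClosure ℤ ℂ := fun ℓ => ⟨a ℓ, isIntegral_of_eigenPar_ne_bot ha ℓ⟩
  have haint : ∀ ℓ, ((aint ℓ : integralClosure ℤ ℂ) : ℂ) = a ℓ := fun ℓ => rfl
  -- the index types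
  let ιp : Option {ℓ : Nat.Primes // ¬ (ℓ : ℕ) ∣ N * q} → Nat.Primes :=
    fun o => Option.elim o ⟨q, hq⟩ Subtype.val
  have hιsome : ιp ∘ (some : {ℓ : Nat.Primes // ¬ (ℓ : ℕ) ∣ N * q} → _) = Subtype.val := rfl
  -- the characters
  let χp : MvPolynomial (Option {ℓ : Nat.Primes // ¬ (ℓ : ℕ) ∣ N * q}) ℤ →+* integralClosure ℤ ℂ :=
    MvPolynomial.eval₂Hom (Int.castRingHom (integralClosure ℤ ℂ)) (fun o => aint (ιp o))
  let χ : MvPolynomial {ℓ : Nat.Primes // ¬ (ℓ : ℕ) ∣ N * q} ℤ →+* integralClosure ℤ ℂ :=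
    MvPolynomial.eval₂Hom (Int.castRingHom (integralClosure ℤ ℂ)) (fun ℓ => aint ℓ.1)
  have hχX : ∀ ℓ, χ (MvPolynomial.X ℓ) = aint ℓ.1 := fun ℓ => by
    simp only [χ, MvPolynomial.coe_eval₂Hom, MvPolynomial.eval₂_X]
  have hχpX : ∀ o, χp (MvPolynomial.X o) = aint (ιp o) := fun o => by
    simp only [χp, MvPolynomial.coe_eval₂Hom, MvPolynomial.eval₂_X]
  have hχpC : ∀ n : ℤ, χp (MvPolynomial.C n) = (n : integralClosure ℤ ℂ) := fun n => by
    rw [eq_intCast (MvPolynomial.C : ℤ →+* MvPolynomial _ ℤ) n, map_intCast]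
  have hχrename : ∀ r, χp (MvPolynomial.rename some r) = χ r := by
    intro r
    have h : χp.comp (MvPolynomial.rename some :
        MvPolynomial {ℓ : Nat.Primes // ¬ (ℓ : ℕ) ∣ N * q} ℤ →ₐ[ℤ] _).toRingHom = χ := by
      apply MvPolynomial.ringHom_ext
      · intro n
        simp [χp, χ]
      · intro i
        simp [χp, χ, ιp]
    exact congrArg (fun φ : MvPolynomial {ℓ : Nat.Primes // ¬ (ℓ : ℕ) ∣ N * q} ℤ →+* _ => φ r) h
  refine ⟨χ, fun ℓ => by rw [hχX], ?_⟩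
  -- the maximal ideal of the polynomial ring
  let 𝔪p : Ideal (MvPolynomial (Option {ℓ : Nat.Primes // ¬ (ℓ : ℕ) ∣ N * q}) ℤ) :=
    Ideal.comap χp 𝔪f
  have hp𝔪p : ((p : ℕ) : MvPolynomial (Option {ℓ : Nat.Primes // ¬ (ℓ : ℕ) ∣ N * q}) ℤ) ∈ 𝔪p := by
    show χp _ ∈ 𝔪f
    rw [map_natCast]
    exact hp𝔪f
  -- the module structure on the lattice
  letI : Module (MvPolynomial (Option {ℓ : Nat.Primes // ¬ (ℓ : ℕ) ∣ N * q}) ℤ) (LPar N) :=
    Module.compHom (LPar N) (heckeRingHomZ N ιp)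
  have hsmul : ∀ (r : MvPolynomial (Option {ℓ : Nat.Primes // ¬ (ℓ : ℕ) ∣ N * q}) ℤ) (x : LPar N),
      r • x = heckeRingHomZ N ιp r x := fun r x => rfl
  -- the eigenvector
  obtain ⟨ψ, hψ, hψ0⟩ := (Submodule.ne_bot_iff _).1 ha
  rw [mem_eigenPar] at hψ
  let v : VPar N := ⟨ψ, hψ.1⟩
  have hv0 : v ≠ 0 := fun h => hψ0 (congrArg Subtype.val h)
  have hv : ∀ ℓ : Nat.Primes, heckeC N ℓ v = a ℓ • v := fun ℓ => by
    apply Subtype.ext
    rw [coe_heckeParP]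
    exact hψ.2 ℓ
  have hvspan : v ∈ Submodule.span ℂ (Set.range (castPar N)) := by
    rw [span_range_castPar]
    exact Submodule.mem_top
  have hχeig : ∀ r, heckeRingHomC N ιp r v
      = ((algebraMap (integralClosure ℤ ℂ) ℂ).comp χp) r • v := by
    intro r
    have h1 := polyHom_eigenvector (fun o => heckeC N (ιp o))
      (fun i j => heckeC_commute N (ιp i) (ιp j)) v (fun o => a (ιp o)) (fun o => hv (ιp o)) r
    have h2 : MvPolynomial.eval₂Hom (Int.castRingHom ℂ) (fun o => a (ιp o))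
        = (algebraMap (integralClosure ℤ ℂ) ℂ).comp χp := by
      apply MvPolynomial.ringHom_ext
      · intro n
        simp [χp]
      · intro i
        simp [χp, aint]
    rw [← h2]
    exact h1
  have hne : 𝔪p • (⊤ : Submodule (MvPolynomial (Option {ℓ : Nat.Primes // ¬ (ℓ : ℕ) ∣ N * q}) ℤ)
      (LPar N)) ≠ ⊤ := by
    refine smul_top_ne_top_of_eigenvector (heckeRingHomC N ιp) (castPar N)
      (fun r x => castPar_heckeRingHomZ N ιp r x) v hv0 hvspan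
      ((algebraMap (integralClosure ℤ ℂ) ℂ).comp χp) hχeig 𝔪p ?_
    intro r hr hneg
    apply h𝔪f.ne_top
    rw [Ideal.eq_top_iff_one]
    have h1 : χp r = -1 := by
      apply Subtype.ext
      exact hneg
    have h2 : χp r ∈ 𝔪f := hr
    rw [h1] at h2
    simpa using 𝔪f.neg_mem h2
  obtain ⟨w, hw, hw𝔪⟩ := exists_notMem_p_smul_of_smul_top_ne_top hp.ne_zero 𝔪p hp𝔪p hne
  -- the sign
  obtain ⟨z, hz, hz𝔪⟩ := hLR
  have hzq : z = aint ⟨q, hq⟩ := Subtype.ext hz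
  have hfac : (z - ((q : integralClosure ℤ ℂ) + 1)) * (z + ((q : integralClosure ℤ ℂ) + 1)) ∈ 𝔪f := by
    have : (z - ((q : integralClosure ℤ ℂ) + 1)) * (z + ((q : integralClosure ℤ ℂ) + 1))
        = z ^ 2 - ((q : integralClosure ℤ ℂ) + 1) ^ 2 := by ring
    rw [this]
    exact hz𝔪
  have hε : ∃ ε : ℤ, ε * ε = 1 ∧
      z - ((ε * ((q : ℤ) + 1) : ℤ) : integralClosure ℤ ℂ) ∈ 𝔪f := by
    rcases Ideal.IsPrime.mem_or_mem inferInstance hfac with h | h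
    · refine ⟨1, by norm_num, ?_⟩
      have : ((1 * ((q : ℤ) + 1) : ℤ) : integralClosure ℤ ℂ) = (q : integralClosure ℤ ℂ) + 1 := by
        push_cast
        ring
      rw [this]
      exact h
    · refine ⟨-1, by norm_num, ?_⟩
      have : z - (((-1) * ((q : ℤ) + 1) : ℤ) : integralClosure ℤ ℂ)
          = z + ((q : integralClosure ℤ ℂ) + 1) := by
        push_cast
        ring
      rw [this]
      exact h
  obtain ⟨ε, hεε, hεm⟩ := hε
  refine ⟨w, ε, hεε, hw, ?_, ?_⟩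
  · intro r hr
    have hmem : MvPolynomial.rename some r ∈ 𝔪p := by
      show χp _ ∈ 𝔪f
      rw [hχrename]
      exact hr
    obtain ⟨y, hy⟩ := hw𝔪 _ hmem
    refine ⟨y, ?_⟩
    rw [← hy, hsmul, heckeRingHomZ_rename, hιsome]
  · have hmem : (MvPolynomial.X none - MvPolynomial.C (ε * ((q : ℤ) + 1)) :
        MvPolynomial (Option {ℓ : Nat.Primes // ¬ (ℓ : ℕ) ∣ N * q}) ℤ) ∈ 𝔪p := by
      show χp _ ∈ 𝔪f
      rw [map_sub, hχpX, hχpC]
      have : ιp none = ⟨q, hq⟩ := rfl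
      rw [this, ← hzq]
      exact hεm
    obtain ⟨t, ht⟩ := hw𝔪 _ hmem
    refine ⟨t, ?_⟩
    rw [← ht, hsmul, map_sub, heckeRingHomZ_X, heckeRingHomZ_C, LinearMap.sub_apply,
      Module.End.intCast_apply]
    rfl

end Fermat.Agent.LR
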