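/-
PROJECT LR (S41, level raising), package [INST] (helper7), part (T5): **the END on forms** — from a
non-zero eigenspace `eigenPar (N*q) ℂ a'` in the parabolic homomorphisms of level `N q` with
`a'_q ^ 2 = 1` and the congruence of `a'` with the curve `W` modulo a maximal ideal `𝔪' ∋ p` of `ℤ̄`,
the conclusion of `S41` (a normalized eigenform `g` of level `N q`, new at `q`, congruent to `W`).
-/
import Mathlib
import Fermat.Agent.GR.MULT1_helper2_Extra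
import Fermat.Agent.S49_Eigenform
import Fermat.Prelude.Def_FreyPackage_LevelRaising

set_option autoImplicit false
set_option linter.unusedSectionVars false

open CongruenceSubgroup ModularFormClass

namespace Fermat.Agent.LR

open Fermat.Agent.GR

/-- **(T5)**: the conclusion of `S41` from an eigensystem occurring in the parabolic homomorphisms of
level `N q`. -/
theorem s41_of_eigenPar {N q p : ℕ} [NeZero N] (hq : q.Prime) (W : WeierstrassCurve ℤ)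
    (a' : Nat.Primes → ℂ) (h : eigenPar (N * q) ℂ a' ≠ ⊥) (hq2 : a' ⟨q, hq⟩ ^ 2 = 1)
    (𝔪' : Ideal (integralClosure ℤ ℂ)) (hmax : 𝔪'.IsMaximal)
    (hp𝔪' : (p : integralClosure ℤ ℂ) ∈ 𝔪')
    (hc : ∀ (ℓ : ℕ) (hℓ : ℓ.Prime), W.IsGoodPrimeFor ℓ → ¬ ℓ ∣ N * q → ℓ ≠ p →
      ∃ z : integralClosure ℤ ℂ, (z : ℂ) = a' ⟨ℓ, hℓ⟩ ∧
        z - ((W.apOfModel ℓ : ℤ) : integralClosure ℤ ℂ) ∈ 𝔪') :
    ∃ (g : CuspForm (CongruenceSubgroup.Gamma0 (N * q)) 2)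
      (𝔪' : Ideal (integralClosure ℤ ℂ)),
      g.IsNormalizedEigenform ∧ 𝔪'.IsMaximal ∧ (p : integralClosure ℤ ℂ) ∈ 𝔪' ∧
      (∀ ℓ : ℕ, ℓ.Prime → W.IsGoodPrimeFor ℓ → ¬ ℓ ∣ N * q → ℓ ≠ p →
        ∃ a : integralClosure ℤ ℂ, (a : ℂ) = ModularFormClass.qCoeff g ℓ ∧
          a - ((W.apOfModel ℓ : ℤ) : integralClosure ℤ ℂ) ∈ 𝔪') ∧
      g.IsNewAt q := by
  classical
  haveI : NeZero (N * q) := ⟨Nat.mul_ne_zero (NeZero.ne N) hq.ne_zero⟩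
  obtain ⟨f₀, hf0, hf₀⟩ := exists_eigenForm_of_eigenPar_ne_bot h
  rw [mem_eigenForms] at hf₀
  set lam : ℕ → ℂ := fun n => if hn : n.Prime then a' ⟨n, hn⟩ else 0 with hlam
  have hlamp : ∀ (n : ℕ) (hn : n.Prime), lam n = a' ⟨n, hn⟩ := fun n hn => by
    simp only [hlam, dif_pos hn]
  obtain ⟨g, hg, hgq⟩ := Fermat.Agent.S49E.exists_isNormalizedEigenform_of_eigenvector f₀ hf0 lam
    (fun ℓ hℓ hℓN => by
      have h1 := hf₀ ⟨ℓ, hℓ⟩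
      rw [heckeOpP_of_not_dvd (ℓ := ⟨ℓ, hℓ⟩) hℓN] at h1
      rw [hlamp ℓ hℓ]
      exact h1)
    (fun ℓ hℓ hℓN => by
      have h1 := hf₀ ⟨ℓ, hℓ⟩
      rw [heckeOpP_of_dvd (ℓ := ⟨ℓ, hℓ⟩) hℓN] at h1
      rw [hlamp ℓ hℓ]
      exact h1)
  refine ⟨g, 𝔪', hg, hmax, hp𝔪', ?_, ?_⟩
  · intro ℓ hℓ hgood hℓNq hℓp
    obtain ⟨z, hz, hz𝔪⟩ := hc ℓ hℓ hgood hℓNq hℓp
    exact ⟨z, by rw [hz, hgq ℓ hℓ, hlamp ℓ hℓ], hz𝔪⟩
  · show ModularFormClass.qCoeff g q ^ 2 = 1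
    rw [hgq q hq, hlamp q hq]
    exact hq2

end Fermat.Agent.LR
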