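/-
PROJECT LR (S41), package [NONEIS] (helper3), part 5: the eigenform side.

`exists_prime_qCoeff_not_eisenstein`: in the situation of S41 (a weight-2 eigenform `f` of level
`N` congruent modulo a maximal ideal `𝔪 ∋ p` to the curve, `ρ̄_{E,p}` irreducible, `p` odd), for
every modulus `d > 0` and every finite set `S` there is a prime `ℓ ∉ S`, `ℓ ∤ N`, `ℓ ≠ p`,
`ℓ ≡ 1 mod d`, good for the model, with `a_ℓ(f) - (ℓ + 1) ∉ 𝔪`: the maximal ideal of the Hecke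
algebra attached to `(f, 𝔪)` is not Eisenstein.
-/
import Mathlib
import Fermat.Agent.LR.NONEIS_helper3_Main

set_option autoImplicit false

namespace Fermat.Agent.LR.NonEis

open WeierstrassCurve WeierstrassCurve.Affine WeierstrassCurve.Affine.Point

/-- an integer prime to `p` is a unit modulo any proper ideal containing `p` -/
theorem intCast_notMem_of_not_dvd {A : Type*} [CommRing A] {𝔪 : Ideal A} (h𝔪 : 𝔪 ≠ ⊤) {p : ℕ}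
    (hp : p.Prime) (hpm : (p : A) ∈ 𝔪) {n : ℤ} (hn : ¬ (p : ℤ) ∣ n) : (n : A) ∉ 𝔪 := by
  intro hmem
  apply h𝔪
  rw [Ideal.eq_top_iff_one]
  have hcop : IsCoprime (p : ℤ) n :=
    (Nat.prime_iff_prime_int.mp hp).coprime_iff_not_dvd.mpr hn
  obtain ⟨u, v, huv⟩ := hcop
  have h1 : (1 : A) = (u : A) * (p : A) + (v : A) * (n : A) := by
    have := congrArg (Int.cast : ℤ → A) huv
    push_cast at this
    rw [← this]
  rw [h1]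
  exact 𝔪.add_mem (𝔪.mul_mem_left _ hpm) (𝔪.mul_mem_left _ hmem)

/-- **[NONEIS], eigenform form**: the maximal ideal attached to `(f, 𝔪)` is not Eisenstein. -/
theorem exists_prime_qCoeff_not_eisenstein
    (E : WeierstrassCurve ℚ) [E.IsElliptic] {W : WeierstrassCurve ℤ} (hW : W.IsIntegralModelOf E)
    {p N : ℕ} (hp : p.Prime) (hp2 : p ≠ 2) (hN : 0 < N)
    (hirr : GaloisRepIsIrreducible (K := AlgebraicClosure ℚ) ℚ E p)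
    (f : CuspForm (CongruenceSubgroup.Gamma0 N) 2) (𝔪 : Ideal (integralClosure ℤ ℂ))
    (hmax : 𝔪.IsMaximal) (hpm : (p : integralClosure ℤ ℂ) ∈ 𝔪)
    (hcong : ∀ ℓ : ℕ, ℓ.Prime → W.IsGoodPrimeFor ℓ → ¬ ℓ ∣ N → ℓ ≠ p →
      ∃ a : integralClosure ℤ ℂ, (a : ℂ) = ModularFormClass.qCoeff f ℓ ∧
        a - ((W.apOfModel ℓ : ℤ) : integralClosure ℤ ℂ) ∈ 𝔪)
    (d : ℕ) (hd : 0 < d) (S : Finset ℕ) :
    ∃ ℓ : ℕ, ℓ.Prime ∧ ℓ ∉ S ∧ ℓ ≠ p ∧ ¬ ℓ ∣ N ∧ ℓ ≡ 1 [MOD d] ∧ W.IsGoodPrimeFor ℓ ∧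
      ¬ (p : ℤ) ∣ W.apOfModel ℓ - (ℓ + 1) ∧
      ∃ a : integralClosure ℤ ℂ, (a : ℂ) = ModularFormClass.qCoeff f ℓ ∧
        a - ((W.apOfModel ℓ : ℤ) : integralClosure ℤ ℂ) ∈ 𝔪 ∧
        a - ((ℓ : integralClosure ℤ ℂ) + 1) ∉ 𝔪 := by
  classical
  obtain ⟨ℓ, hℓ, hℓS, hℓp, hℓd, hgood, hℓa⟩ :=
    exists_prime_not_eisenstein E hW hp hp2 hirr d hd (S ∪ N.primeFactors)
  have hℓS' : ℓ ∉ S := fun h => hℓS (Finset.mem_union_left _ h)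
  have hℓN : ¬ ℓ ∣ N := fun h =>
    hℓS (Finset.mem_union_right _ (Nat.mem_primeFactors.mpr ⟨hℓ, h, hN.ne'⟩))
  obtain ⟨a, ha, ham⟩ := hcong ℓ hℓ hgood hℓN hℓp
  refine ⟨ℓ, hℓ, hℓS', hℓp, hℓN, hℓd, hgood, hℓa, a, ha, ham, fun hmem => ?_⟩
  have h1 := intCast_notMem_of_not_dvd (A := integralClosure ℤ ℂ) hmax.ne_top hp hpm hℓa
  apply h1
  have h2 : ((W.apOfModel ℓ - (ℓ + 1) : ℤ) : integralClosure ℤ ℂ) =
      (a - ((ℓ : integralClosure ℤ ℂ) + 1)) - (a - ((W.apOfModel ℓ : ℤ) : integralClosure ℤ ℂ)) := by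
    push_cast
    ring
  rw [h2]
  exact 𝔪.sub_mem hmem ham

/-- **[NONEIS] in the shape (G) of the LR architecture**: for all positive `N`, `q`, `D` there is a
prime `ℓ ∤ N q p`, good for the model, `ℓ ≡ 1 mod D`, with `a_ℓ(W) ≢ ℓ + 1 mod p`. -/
theorem exists_prime_noneis_G
    (E : WeierstrassCurve ℚ) [E.IsElliptic] {W : WeierstrassCurve ℤ} (hW : W.IsIntegralModelOf E)
    {p : ℕ} (hp : p.Prime) (hp2 : p ≠ 2)
    (hirr : GaloisRepIsIrreducible (K := AlgebraicClosure ℚ) ℚ E p)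
    (N q : ℕ) (hN : 0 < N) (hq : 0 < q) (D : ℕ) (hD : 0 < D) :
    ∃ ℓ : ℕ, ℓ.Prime ∧ W.IsGoodPrimeFor ℓ ∧ ¬ ℓ ∣ N * q * p ∧ ℓ ≡ 1 [MOD D] ∧
      ¬ (p : ℤ) ∣ W.apOfModel ℓ - (ℓ + 1) := by
  obtain ⟨ℓ, hℓ, hℓS, -, hℓd, hgood, hℓa⟩ :=
    exists_prime_not_eisenstein E hW hp hp2 hirr D hD (N * q * p).primeFactors
  refine ⟨ℓ, hℓ, hgood, fun h => hℓS (Nat.mem_primeFactors.mpr ⟨hℓ, h, ?_⟩), hℓd, hℓa⟩
  exact Nat.mul_ne_zero (Nat.mul_ne_zero hN.ne' hq.ne') hp.ne_zero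

end Fermat.Agent.LR.NonEis
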