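/-
LR (level raising, S41) — helper9 — [AMALG] part 4: **generation**: `Δ = ⟨Γ₀(N), g⁻¹ Γ₀(N) g⟩`
(`g = diag(q, 1)`) is the whole group `Γ₀(N)[1/q]`: every `m ∈ GL₂(ℚ)` of determinant `1` of the
form `q^{-k} Z`, `Z` integral with `N ∣ Z₁₀`, lies in `Δ`.  Induction on `k`: multiplying on the
right by a suitable element of `Γ₀(N)` and then by a suitable element of `g⁻¹ Γ₀(N) g` lowers `k`.
-/
import Mathlib
import Fermat.Agent.LR.AMALG_helper9_Glue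

set_option autoImplicit false
set_option linter.unusedSectionVars false

open Matrix CongruenceSubgroup

open scoped MatrixGroups

namespace Fermat.Agent.LR

noncomputable section

section Arith

variable {q : ℕ}

/-- solving a linear congruence modulo a prime. -/
theorem exists_dvd_mul_add (hq : q.Prime) {α : ℤ} (hα : ¬ (q : ℤ) ∣ α) (β : ℤ) :
    ∃ t : ℤ, (q : ℤ) ∣ α * t + β := by
  have hqp : Prime (q : ℤ) := Nat.prime_iff_prime_int.mp hq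
  have hcop : IsCoprime α (q : ℤ) := (hqp.coprime_iff_not_dvd.mpr hα).symm
  obtain ⟨u, v, huv⟩ := hcop
  refine ⟨-β * u, ⟨β * v, ?_⟩⟩
  have : α * (-β * u) + β = β * (1 - u * α) := by ring
  rw [this, ← huv]
  ring

/-- the matrix `(1 + N t, t; N, 1) ∈ Γ₀(N)`. -/
def colMat (N : ℕ) (t : ℤ) : SL(2, ℤ) :=
  ⟨!![1 + (N : ℤ) * t, t; (N : ℤ), 1], by rw [Matrix.det_fin_two_of]; ring⟩

theorem colMat_mem (N : ℕ) (t : ℤ) : colMat N t ∈ Gamma0 N := by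
  rw [mem_Gamma0_iff_dvd']
  exact dvd_refl _

/-- the matrix `(1, 1; N t, 1 + N t) ∈ Γ₀(N)`. -/
def colMat' (N : ℕ) (t : ℤ) : SL(2, ℤ) :=
  ⟨!![1, 1; (N : ℤ) * t, 1 + (N : ℤ) * t], by rw [Matrix.det_fin_two_of]; ring⟩

theorem colMat'_mem (N : ℕ) (t : ℤ) : colMat' N t ∈ Gamma0 N := by
  rw [mem_Gamma0_iff_dvd']
  exact Dvd.intro _ rfl

theorem mul_colMat_apply (N : ℕ) (t : ℤ) (Z : Matrix (Fin 2) (Fin 2) ℤ) :
    (Z * ((colMat N t : SL(2, ℤ)) : Matrix (Fin 2) (Fin 2) ℤ)) 0 0 =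
        Z 0 0 * (1 + (N : ℤ) * t) + Z 0 1 * (N : ℤ) ∧
      (Z * ((colMat N t : SL(2, ℤ)) : Matrix (Fin 2) (Fin 2) ℤ)) 1 0 =
        Z 1 0 * (1 + (N : ℤ) * t) + Z 1 1 * (N : ℤ) := by
  constructor <;> simp [colMat, Matrix.mul_apply, Fin.sum_univ_two]

theorem mul_colMat'_apply (N : ℕ) (t : ℤ) (Z : Matrix (Fin 2) (Fin 2) ℤ) :
    (Z * ((colMat' N t : SL(2, ℤ)) : Matrix (Fin 2) (Fin 2) ℤ)) 0 1 =
        Z 0 0 + Z 0 1 * (1 + (N : ℤ) * t) ∧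
      (Z * ((colMat' N t : SL(2, ℤ)) : Matrix (Fin 2) (Fin 2) ℤ)) 1 1 =
        Z 1 0 + Z 1 1 * (1 + (N : ℤ) * t) := by
  constructor <;> simp [colMat', Matrix.mul_apply, Fin.sum_univ_two]

/-- a matrix which is singular modulo `q` can be multiplied on the right by an element of `Γ₀(N)`
so that its first column vanishes modulo `q`. -/
theorem exists_Gamma0_first_col {N : ℕ} (hq : q.Prime) (hqN : ¬ q ∣ N)
    (Z : Matrix (Fin 2) (Fin 2) ℤ) (hdet : (q : ℤ) ∣ Z.det) :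
    ∃ X : SL(2, ℤ), X ∈ Gamma0 N ∧
      (q : ℤ) ∣ (Z * (X : Matrix (Fin 2) (Fin 2) ℤ)) 0 0 ∧
      (q : ℤ) ∣ (Z * (X : Matrix (Fin 2) (Fin 2) ℤ)) 1 0 := by
  have hqp : Prime (q : ℤ) := Nat.prime_iff_prime_int.mp hq
  have hqN' : ¬ (q : ℤ) ∣ (N : ℤ) := fun h => hqN (Int.natCast_dvd_natCast.mp h)
  rw [Matrix.det_fin_two] at hdet
  by_cases ha : (q : ℤ) ∣ Z 0 0
  · by_cases hc : (q : ℤ) ∣ Z 1 0
    · refine ⟨1, one_mem _, ?_, ?_⟩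
      · simpa using ha
      · simpa using hc
    · -- `q ∤ c`
      have hα : ¬ (q : ℤ) ∣ Z 1 0 * (N : ℤ) := fun h =>
        (hqp.dvd_or_dvd h).elim hc hqN'
      obtain ⟨t, ht⟩ := exists_dvd_mul_add hq hα (Z 1 0 + Z 1 1 * (N : ℤ))
      have h2 : (q : ℤ) ∣ Z 1 0 * (1 + (N : ℤ) * t) + Z 1 1 * (N : ℤ) := by
        have : Z 1 0 * (N : ℤ) * t + (Z 1 0 + Z 1 1 * (N : ℤ)) =
            Z 1 0 * (1 + (N : ℤ) * t) + Z 1 1 * (N : ℤ) := by ring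
        rwa [this] at ht
      refine ⟨colMat N t, colMat_mem N t, ?_, ?_⟩
      · rw [(mul_colMat_apply N t Z).1]
        have h3 : Z 1 0 * (Z 0 0 * (1 + (N : ℤ) * t) + Z 0 1 * (N : ℤ)) =
            Z 0 0 * (Z 1 0 * (1 + (N : ℤ) * t) + Z 1 1 * (N : ℤ)) -
              (N : ℤ) * (Z 0 0 * Z 1 1 - Z 0 1 * Z 1 0) := by ring
        have h4 : (q : ℤ) ∣ Z 1 0 * (Z 0 0 * (1 + (N : ℤ) * t) + Z 0 1 * (N : ℤ)) := by
          rw [h3]
          exact dvd_sub (Dvd.dvd.mul_left h2 _) (Dvd.dvd.mul_left hdet _)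
        exact (hqp.dvd_or_dvd h4).resolve_left hc
      · rw [(mul_colMat_apply N t Z).2]
        exact h2
  · -- `q ∤ a`
    have hα : ¬ (q : ℤ) ∣ Z 0 0 * (N : ℤ) := fun h =>
      (hqp.dvd_or_dvd h).elim ha hqN'
    obtain ⟨t, ht⟩ := exists_dvd_mul_add hq hα (Z 0 0 + Z 0 1 * (N : ℤ))
    have h2 : (q : ℤ) ∣ Z 0 0 * (1 + (N : ℤ) * t) + Z 0 1 * (N : ℤ) := by
      have : Z 0 0 * (N : ℤ) * t + (Z 0 0 + Z 0 1 * (N : ℤ)) =
          Z 0 0 * (1 + (N : ℤ) * t) + Z 0 1 * (N : ℤ) := by ring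
      rwa [this] at ht
    refine ⟨colMat N t, colMat_mem N t, ?_, ?_⟩
    · rw [(mul_colMat_apply N t Z).1]
      exact h2
    · rw [(mul_colMat_apply N t Z).2]
      have h3 : Z 0 0 * (Z 1 0 * (1 + (N : ℤ) * t) + Z 1 1 * (N : ℤ)) =
          Z 1 0 * (Z 0 0 * (1 + (N : ℤ) * t) + Z 0 1 * (N : ℤ)) +
            (N : ℤ) * (Z 0 0 * Z 1 1 - Z 0 1 * Z 1 0) := by ring
      have h4 : (q : ℤ) ∣ Z 0 0 * (Z 1 0 * (1 + (N : ℤ) * t) + Z 1 1 * (N : ℤ)) := by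
        rw [h3]
        exact dvd_add (Dvd.dvd.mul_left h2 _) (Dvd.dvd.mul_left hdet _)
      exact (hqp.dvd_or_dvd h4).resolve_left ha

/-- a matrix which is singular modulo `q` can be multiplied on the right by an element of `Γ₀(N)`
so that its second column vanishes modulo `q`. -/
theorem exists_Gamma0_second_col {N : ℕ} (hq : q.Prime) (hqN : ¬ q ∣ N)
    (Z : Matrix (Fin 2) (Fin 2) ℤ) (hdet : (q : ℤ) ∣ Z.det) :
    ∃ X : SL(2, ℤ), X ∈ Gamma0 N ∧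
      (q : ℤ) ∣ (Z * (X : Matrix (Fin 2) (Fin 2) ℤ)) 0 1 ∧
      (q : ℤ) ∣ (Z * (X : Matrix (Fin 2) (Fin 2) ℤ)) 1 1 := by
  have hqp : Prime (q : ℤ) := Nat.prime_iff_prime_int.mp hq
  have hqN' : ¬ (q : ℤ) ∣ (N : ℤ) := fun h => hqN (Int.natCast_dvd_natCast.mp h)
  rw [Matrix.det_fin_two] at hdet
  by_cases hb : (q : ℤ) ∣ Z 0 1
  · by_cases hd : (q : ℤ) ∣ Z 1 1
    · refine ⟨1, one_mem _, ?_, ?_⟩
      · simpa using hb
      · simpa using hd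
    · -- `q ∤ d`
      have hα : ¬ (q : ℤ) ∣ Z 1 1 * (N : ℤ) := fun h =>
        (hqp.dvd_or_dvd h).elim hd hqN'
      obtain ⟨t, ht⟩ := exists_dvd_mul_add hq hα (Z 1 0 + Z 1 1)
      have h2 : (q : ℤ) ∣ Z 1 0 + Z 1 1 * (1 + (N : ℤ) * t) := by
        have : Z 1 1 * (N : ℤ) * t + (Z 1 0 + Z 1 1) =
            Z 1 0 + Z 1 1 * (1 + (N : ℤ) * t) := by ring
        rwa [this] at ht
      refine ⟨colMat' N t, colMat'_mem N t, ?_, ?_⟩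
      · rw [(mul_colMat'_apply N t Z).1]
        have h3 : Z 1 1 * (Z 0 0 + Z 0 1 * (1 + (N : ℤ) * t)) =
            Z 0 1 * (Z 1 0 + Z 1 1 * (1 + (N : ℤ) * t)) +
              (Z 0 0 * Z 1 1 - Z 0 1 * Z 1 0) := by ring
        have h4 : (q : ℤ) ∣ Z 1 1 * (Z 0 0 + Z 0 1 * (1 + (N : ℤ) * t)) := by
          rw [h3]
          exact dvd_add (Dvd.dvd.mul_left h2 _) hdet
        exact (hqp.dvd_or_dvd h4).resolve_left hd
      · rw [(mul_colMat'_apply N t Z).2]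
        exact h2
  · -- `q ∤ b`
    have hα : ¬ (q : ℤ) ∣ Z 0 1 * (N : ℤ) := fun h =>
      (hqp.dvd_or_dvd h).elim hb hqN'
    obtain ⟨t, ht⟩ := exists_dvd_mul_add hq hα (Z 0 0 + Z 0 1)
    have h2 : (q : ℤ) ∣ Z 0 0 + Z 0 1 * (1 + (N : ℤ) * t) := by
      have : Z 0 1 * (N : ℤ) * t + (Z 0 0 + Z 0 1) =
          Z 0 0 + Z 0 1 * (1 + (N : ℤ) * t) := by ring
      rwa [this] at ht
    refine ⟨colMat' N t, colMat'_mem N t, ?_, ?_⟩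
    · rw [(mul_colMat'_apply N t Z).1]
      exact h2
    · rw [(mul_colMat'_apply N t Z).2]
      have h3 : Z 0 1 * (Z 1 0 + Z 1 1 * (1 + (N : ℤ) * t)) =
          Z 1 1 * (Z 0 0 + Z 0 1 * (1 + (N : ℤ) * t)) -
            (Z 0 0 * Z 1 1 - Z 0 1 * Z 1 0) := by ring
      have h4 : (q : ℤ) ∣ Z 0 1 * (Z 1 0 + Z 1 1 * (1 + (N : ℤ) * t)) := by
        rw [h3]
        exact dvd_sub (Dvd.dvd.mul_left h2 _) hdet
      exact (hqp.dvd_or_dvd h4).resolve_left hb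

end Arith

/-! ### generation -/

section Gen

variable {N q : ℕ} [NeZero q]

theorem Rep.of_smul {k : ℕ} {Z : Matrix (Fin 2) (Fin 2) ℤ} {m : GL (Fin 2) ℚ}
    (h : Rep q (k + 1) ((q : ℤ) • Z) m) : Rep q k Z m := by
  have hq : (q : ℚ) ≠ 0 := Nat.cast_ne_zero.mpr (NeZero.ne q)
  unfold Rep at h ⊢
  rw [h, pow_succ, mul_inv, ← smul_smul, inv_smul_castQ_smul q hq]

theorem det_gS : (gS q).det = (q : ℤ) := by
  simp [gS, Matrix.det_fin_two_of]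

theorem det_gD : (gD q).det = (q : ℤ) := by
  simp [gD, Matrix.det_fin_two_of]

/-- if the first column of `Z` vanishes modulo `q` then `Z * diag(1, q) = q • U`. -/
theorem exists_mul_gS_eq_smul {Z : Matrix (Fin 2) (Fin 2) ℤ} (h0 : (q : ℤ) ∣ Z 0 0)
    (h1 : (q : ℤ) ∣ Z 1 0) :
    Z * gS q = (q : ℤ) • !![Z 0 0 / (q : ℤ), Z 0 1; Z 1 0 / (q : ℤ), Z 1 1] := by
  ext i j
  fin_cases i <;> fin_cases j
  · show (Z * gS q) 0 0 = (q : ℤ) * (Z 0 0 / (q : ℤ))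
    rw [Int.mul_ediv_cancel' h0]
    simp [gS, Matrix.mul_apply, Fin.sum_univ_two]
  · show (Z * gS q) 0 1 = (q : ℤ) * Z 0 1
    simp [gS, Matrix.mul_apply, Fin.sum_univ_two, mul_comm]
  · show (Z * gS q) 1 0 = (q : ℤ) * (Z 1 0 / (q : ℤ))
    rw [Int.mul_ediv_cancel' h1]
    simp [gS, Matrix.mul_apply, Fin.sum_univ_two]
  · show (Z * gS q) 1 1 = (q : ℤ) * Z 1 1
    simp [gS, Matrix.mul_apply, Fin.sum_univ_two, mul_comm]

/-- if the second column of `Z` vanishes modulo `q` then `Z * diag(q, 1) = q • W`. -/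
theorem exists_mul_gD_eq_smul {Z : Matrix (Fin 2) (Fin 2) ℤ} (h0 : (q : ℤ) ∣ Z 0 1)
    (h1 : (q : ℤ) ∣ Z 1 1) :
    Z * gD q = (q : ℤ) • !![Z 0 0, Z 0 1 / (q : ℤ); Z 1 0, Z 1 1 / (q : ℤ)] := by
  ext i j
  fin_cases i <;> fin_cases j
  · show (Z * gD q) 0 0 = (q : ℤ) * Z 0 0
    simp [gD, Matrix.mul_apply, Fin.sum_univ_two, mul_comm]
  · show (Z * gD q) 0 1 = (q : ℤ) * (Z 0 1 / (q : ℤ))
    rw [Int.mul_ediv_cancel' h0]
    simp [gD, Matrix.mul_apply, Fin.sum_univ_two]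
  · show (Z * gD q) 1 0 = (q : ℤ) * Z 1 0
    simp [gD, Matrix.mul_apply, Fin.sum_univ_two, mul_comm]
  · show (Z * gD q) 1 1 = (q : ℤ) * (Z 1 1 / (q : ℤ))
    rw [Int.mul_ediv_cancel' h1]
    simp [gD, Matrix.mul_apply, Fin.sum_univ_two]

theorem mem_Delta_of_rep_aux (hq : q.Prime) (hcop : Nat.Coprime N q) (k : ℕ) :
    ∀ (m : GL (Fin 2) ℚ) (Z : Matrix (Fin 2) (Fin 2) ℤ), Rep q k Z m →
      Z.det = (q : ℤ) ^ (2 * k) → (N : ℤ) ∣ Z 1 0 → m ∈ Delta N q := by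
  have hq0 : (q : ℤ) ≠ 0 := Int.natCast_ne_zero.mpr (NeZero.ne q)
  have hqN : ¬ q ∣ N := by
    intro h
    have h1 : q ∣ Nat.gcd N q := Nat.dvd_gcd h dvd_rfl
    rw [hcop] at h1
    exact hq.one_lt.ne' (Nat.dvd_one.mp h1)
  have hcop' : IsCoprime (N : ℤ) (q : ℤ) := Nat.isCoprime_iff_coprime.mpr hcop
  induction k with
  | zero =>
    intro m Z hrep hdet hN
    have hdet1 : Z.det = 1 := by simpa using hdet
    have hmem : (⟨Z, hdet1⟩ : SL(2, ℤ)) ∈ Gamma0 N :=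
      (mem_Gamma0_iff_dvd' (⟨Z, hdet1⟩ : SL(2, ℤ))).mpr hN
    have : m = embA N ⟨⟨Z, hdet1⟩, hmem⟩ := by
      apply Units.ext
      rw [coe_embA]
      unfold Rep at hrep
      rw [hrep, pow_zero, inv_one, one_smul]
    rw [this]
    exact embA_mem_Delta N q _
  | succ k ih =>
    intro m Z hrep hdet hN
    -- first column
    have hqdet : (q : ℤ) ∣ Z.det := by
      rw [hdet]
      exact dvd_pow_self _ (by omega)
    obtain ⟨X, hXN, hX0, hX1⟩ := exists_Gamma0_first_col hq hqN Z hqdet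
    set Z₁ : Matrix (Fin 2) (Fin 2) ℤ := Z * (X : Matrix (Fin 2) (Fin 2) ℤ) with hZ₁
    have hZ₁det : Z₁.det = (q : ℤ) ^ (2 * (k + 1)) := by
      rw [hZ₁, Matrix.det_mul, X.det_coe, mul_one, hdet]
    have hXN' : (N : ℤ) ∣ X 1 0 := (mem_Gamma0_iff_dvd' X).mp hXN
    have hZ₁N : (N : ℤ) ∣ Z₁ 1 0 := by
      have : Z₁ 1 0 = Z 1 0 * X 0 0 + Z 1 1 * X 1 0 := by
        simp [hZ₁, Matrix.mul_apply, Fin.sum_univ_two]
      rw [this]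
      exact dvd_add (Dvd.dvd.mul_right hN _) (Dvd.dvd.mul_left hXN' _)
    set U : Matrix (Fin 2) (Fin 2) ℤ :=
      !![Z₁ 0 0 / (q : ℤ), Z₁ 0 1; Z₁ 1 0 / (q : ℤ), Z₁ 1 1] with hU
    have hZ₁U : Z₁ * gS q = (q : ℤ) • U := exists_mul_gS_eq_smul hX0 hX1
    have hUdet : U.det = (q : ℤ) ^ (2 * k + 1) := by
      have h1 : (Z₁ * gS q).det = ((q : ℤ) • U).det := by rw [hZ₁U]
      rw [Matrix.det_mul, Matrix.det_smul, hZ₁det, det_gS, Fintype.card_fin] at h1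
      have h2 : (q : ℤ) ^ 2 * U.det = (q : ℤ) ^ 2 * (q : ℤ) ^ (2 * k + 1) := by
        rw [← h1]; ring
      exact mul_left_cancel₀ (pow_ne_zero 2 hq0) h2
    have hUN : (N : ℤ) ∣ U 1 0 := by
      show (N : ℤ) ∣ Z₁ 1 0 / (q : ℤ)
      obtain ⟨c, hc⟩ := hX1
      rw [hc, Int.mul_ediv_cancel_left _ hq0]
      rw [hc] at hZ₁N
      exact hcop'.dvd_of_dvd_mul_left hZ₁N
    -- second column
    have hqdetU : (q : ℤ) ∣ U.det := by
      rw [hUdet]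
      exact dvd_pow_self _ (by omega)
    obtain ⟨Y, hYN, hY0, hY1⟩ := exists_Gamma0_second_col hq hqN U hqdetU
    set U₁ : Matrix (Fin 2) (Fin 2) ℤ := U * (Y : Matrix (Fin 2) (Fin 2) ℤ) with hU₁
    have hU₁det : U₁.det = (q : ℤ) ^ (2 * k + 1) := by
      rw [hU₁, Matrix.det_mul, Y.det_coe, mul_one, hUdet]
    have hYN' : (N : ℤ) ∣ Y 1 0 := (mem_Gamma0_iff_dvd' Y).mp hYN
    have hU₁N : (N : ℤ) ∣ U₁ 1 0 := by
      have : U₁ 1 0 = U 1 0 * Y 0 0 + U 1 1 * Y 1 0 := by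
        simp [hU₁, Matrix.mul_apply, Fin.sum_univ_two]
      rw [this]
      exact dvd_add (Dvd.dvd.mul_right hUN _) (Dvd.dvd.mul_left hYN' _)
    set W : Matrix (Fin 2) (Fin 2) ℤ :=
      !![U₁ 0 0, U₁ 0 1 / (q : ℤ); U₁ 1 0, U₁ 1 1 / (q : ℤ)] with hW
    have hU₁W : U₁ * gD q = (q : ℤ) • W := exists_mul_gD_eq_smul hY0 hY1
    have hWdet : W.det = (q : ℤ) ^ (2 * k) := by
      have h1 : (U₁ * gD q).det = ((q : ℤ) • W).det := by rw [hU₁W]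
      rw [Matrix.det_mul, Matrix.det_smul, hU₁det, det_gD, Fintype.card_fin] at h1
      have h2 : (q : ℤ) ^ 2 * W.det = (q : ℤ) ^ 2 * (q : ℤ) ^ (2 * k) := by
        rw [← h1]; ring
      exact mul_left_cancel₀ (pow_ne_zero 2 hq0) h2
    have hWN : (N : ℤ) ∣ W 1 0 := hU₁N
    -- the representation
    have hrep1 : Rep q (k + 1) Z₁ (m * embA N ⟨X, hXN⟩) := hrep.mul_embA N ⟨X, hXN⟩
    have hrep2 : Rep q (k + 1 + 1)
        (Z₁ * gS q * (Y : Matrix (Fin 2) (Fin 2) ℤ) * gD q)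
        (m * embA N ⟨X, hXN⟩ * embB N q ⟨Y, hYN⟩) := hrep1.mul_embB N ⟨Y, hYN⟩
    have hprod : Z₁ * gS q * (Y : Matrix (Fin 2) (Fin 2) ℤ) * gD q =
        (q : ℤ) • ((q : ℤ) • W) := by
      rw [hZ₁U, Matrix.smul_mul, Matrix.smul_mul, ← hU₁, hU₁W]
    rw [hprod] at hrep2
    have hrep3 : Rep q k W (m * embA N ⟨X, hXN⟩ * embB N q ⟨Y, hYN⟩) :=
      hrep2.of_smul.of_smul
    have hmem := ih _ W hrep3 hWdet hWN
    rw [Subgroup.mul_mem_cancel_right _ (embB_mem_Delta N q _),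
      Subgroup.mul_mem_cancel_right _ (embA_mem_Delta N q _)] at hmem
    exact hmem

/-- **generation**: every `m = q^{-k} Z ∈ GL₂(ℚ)` of determinant `1`, `Z` integral with
`N ∣ Z₁₀`, lies in `Δ = ⟨Γ₀(N), g⁻¹ Γ₀(N) g⟩`. -/
theorem mem_Delta_of_rep (hq : q.Prime) (hcop : Nat.Coprime N q) {k : ℕ} {m : GL (Fin 2) ℚ}
    {Z : Matrix (Fin 2) (Fin 2) ℤ} (hrep : Rep q k Z m)
    (hdet : (m : Matrix (Fin 2) (Fin 2) ℚ).det = 1) (hN : (N : ℤ) ∣ Z 1 0) :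
    m ∈ Delta N q := by
  have hq' : (q : ℚ) ≠ 0 := Nat.cast_ne_zero.mpr (NeZero.ne q)
  refine mem_Delta_of_rep_aux hq hcop k m Z hrep ?_ hN
  unfold Rep at hrep
  rw [hrep, Matrix.det_smul, Fintype.card_fin] at hdet
  have h1 : (castQ Z).det = ((Z.det : ℤ) : ℚ) := by
    have := (algebraMap ℤ ℚ).map_det Z
    rw [RingHom.mapMatrix_apply] at this
    rw [castQ, ← this]
    simp
  rw [h1] at hdet
  have h3 : ((q : ℚ) ^ k) ^ 2 ≠ 0 := pow_ne_zero 2 (pow_ne_zero k hq')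
  rw [inv_pow] at hdet
  have h4 : ((q : ℚ) ^ k) ^ 2 = ((Z.det : ℤ) : ℚ) := (inv_mul_eq_one₀ h3).mp hdet
  have h5 : ((Z.det : ℤ) : ℚ) = (((q : ℤ) ^ (2 * k) : ℤ) : ℚ) := by
    rw [← h4]
    push_cast
    ring
  exact_mod_cast h5

/-! ### the group `Γ₀(N)[1/q]` -/

theorem det_castQ (Z : Matrix (Fin 2) (Fin 2) ℤ) : (castQ Z).det = ((Z.det : ℤ) : ℚ) := by
  have := (algebraMap ℤ ℚ).map_det Z
  rw [RingHom.mapMatrix_apply] at this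
  rw [castQ, ← this]
  simp

theorem Rep.det_eq {k : ℕ} {Z : Matrix (Fin 2) (Fin 2) ℤ} {m : GL (Fin 2) ℚ}
    (hrep : Rep q k Z m) (hdet : (m : Matrix (Fin 2) (Fin 2) ℚ).det = 1) :
    Z.det = (q : ℤ) ^ (2 * k) := by
  have hq' : (q : ℚ) ≠ 0 := Nat.cast_ne_zero.mpr (NeZero.ne q)
  unfold Rep at hrep
  rw [hrep, Matrix.det_smul, Fintype.card_fin, det_castQ] at hdet
  have h3 : ((q : ℚ) ^ k) ^ 2 ≠ 0 := pow_ne_zero 2 (pow_ne_zero k hq')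
  rw [inv_pow] at hdet
  have h4 : ((q : ℚ) ^ k) ^ 2 = ((Z.det : ℤ) : ℚ) := (inv_mul_eq_one₀ h3).mp hdet
  have h5 : ((Z.det : ℤ) : ℚ) = (((q : ℤ) ^ (2 * k) : ℤ) : ℚ) := by
    rw [← h4]
    push_cast
    ring
  exact_mod_cast h5

theorem Rep.one : Rep q 0 1 (1 : GL (Fin 2) ℚ) := by
  unfold Rep
  rw [pow_zero, inv_one, one_smul, Units.val_one]
  ext i j
  fin_cases i <;> fin_cases j <;> simp [castQ]

theorem Rep.mul {k k' : ℕ} {Z Z' : Matrix (Fin 2) (Fin 2) ℤ} {m m' : GL (Fin 2) ℚ}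
    (h : Rep q k Z m) (h' : Rep q k' Z' m') : Rep q (k + k') (Z * Z') (m * m') := by
  unfold Rep at h h' ⊢
  rw [Units.val_mul, h, h', Matrix.smul_mul, Matrix.mul_smul, smul_smul, castQ_mul, pow_add,
    mul_inv]

theorem Rep.inv {k : ℕ} {Z : Matrix (Fin 2) (Fin 2) ℤ} {m : GL (Fin 2) ℚ}
    (h : Rep q k Z m) (hdet : (m : Matrix (Fin 2) (Fin 2) ℚ).det = 1) :
    Rep q k Z.adjugate m⁻¹ := by
  have hq' : (q : ℚ) ≠ 0 := Nat.cast_ne_zero.mpr (NeZero.ne q)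
  have hZdet := h.det_eq hdet
  unfold Rep at h ⊢
  rw [Matrix.coe_units_inv]
  apply Matrix.inv_eq_right_inv
  rw [h, Matrix.smul_mul, Matrix.mul_smul, smul_smul, ← castQ_mul, Matrix.mul_adjugate, hZdet]
  ext i j
  simp only [castQ, Matrix.smul_apply, Matrix.map_apply, Matrix.one_apply, smul_eq_mul]
  by_cases hij : i = j
  · subst hij
    simp only [if_true, mul_one]
    push_cast
    rw [← mul_inv, ← pow_add, ← two_mul]
    exact inv_mul_cancel₀ (pow_ne_zero _ hq')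
  · simp [hij]

variable (N q)

/-- `Γ₀(N)[1/q] ⊂ GL₂(ℚ)`: matrices of determinant `1` of the form `q^{-k} Z`, `Z` integral with
`N ∣ Z₁₀`. -/
def Gamma0Away : Subgroup (GL (Fin 2) ℚ) where
  carrier := {m | ∃ (k : ℕ) (Z : Matrix (Fin 2) (Fin 2) ℤ), Rep q k Z m ∧
    (m : Matrix (Fin 2) (Fin 2) ℚ).det = 1 ∧ (N : ℤ) ∣ Z 1 0}
  one_mem' := ⟨0, 1, Rep.one, by simp, by simp⟩
  mul_mem' := by
    rintro m m' ⟨k, Z, hrep, hdet, hN⟩ ⟨k', Z', hrep', hdet', hN'⟩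
    refine ⟨k + k', Z * Z', hrep.mul hrep', ?_, ?_⟩
    · rw [Units.val_mul, Matrix.det_mul, hdet, hdet', one_mul]
    · have : (Z * Z') 1 0 = Z 1 0 * Z' 0 0 + Z 1 1 * Z' 1 0 := by
        simp [Matrix.mul_apply, Fin.sum_univ_two]
      rw [this]
      exact dvd_add (Dvd.dvd.mul_right hN _) (Dvd.dvd.mul_left hN' _)
  inv_mem' := by
    rintro m ⟨k, Z, hrep, hdet, hN⟩
    refine ⟨k, Z.adjugate, hrep.inv hdet, ?_, ?_⟩
    · rw [Matrix.coe_units_inv, Matrix.det_nonsing_inv, hdet, Ring.inverse_one]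
    · rw [Matrix.adjugate_fin_two]
      show (N : ℤ) ∣ -Z 1 0
      exact (dvd_neg).mpr hN

variable {N q}

theorem mem_Gamma0Away_iff {m : GL (Fin 2) ℚ} :
    m ∈ Gamma0Away N q ↔ ∃ (k : ℕ) (Z : Matrix (Fin 2) (Fin 2) ℤ), Rep q k Z m ∧
      (m : Matrix (Fin 2) (Fin 2) ℚ).det = 1 ∧ (N : ℤ) ∣ Z 1 0 := Iff.rfl

theorem det_embA (γ : ↥(Gamma0 N)) :
    ((embA N γ : GL (Fin 2) ℚ) : Matrix (Fin 2) (Fin 2) ℚ).det = 1 := by
  rw [coe_embA, det_castQ, (γ : SL(2, ℤ)).det_coe]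
  simp

theorem det_embB (γ : ↥(Gamma0 N)) :
    ((embB N q γ : GL (Fin 2) ℚ) : Matrix (Fin 2) (Fin 2) ℚ).det = 1 := by
  rw [embB_apply, Units.val_mul, Units.val_mul, Matrix.det_mul, Matrix.det_mul, det_embA, mul_one,
    ← Matrix.det_mul, ← Units.val_mul, inv_mul_cancel, Units.val_one, Matrix.det_one]

/-- **`Δ = ⟨Γ₀(N), g⁻¹ Γ₀(N) g⟩ = Γ₀(N)[1/q]`.** -/
theorem Delta_eq_Gamma0Away (hq : q.Prime) (hcop : Nat.Coprime N q) :
    Delta N q = Gamma0Away N q := by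
  apply le_antisymm
  · refine sup_le ?_ ?_
    · rintro _ ⟨γ, rfl⟩
      refine ⟨0, ((γ : SL(2, ℤ)) : Matrix (Fin 2) (Fin 2) ℤ), ?_, det_embA γ,
        (mem_Gamma0_iff_dvd' _).mp γ.2⟩
      unfold Rep
      rw [coe_embA, pow_zero, inv_one, one_smul]
    · rintro _ ⟨γ, rfl⟩
      refine ⟨1, gS q * ((γ : SL(2, ℤ)) : Matrix (Fin 2) (Fin 2) ℤ) * gD q, ?_, det_embB γ, ?_⟩
      · unfold Rep
        rw [coe_embB, pow_one]
      · rw [gS_mul_mul_gD]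
        show (N : ℤ) ∣ (q : ℤ) * (q : ℤ) * (γ : SL(2, ℤ)) 1 0
        exact Dvd.dvd.mul_left ((mem_Gamma0_iff_dvd' _).mp γ.2) _
  · rintro m ⟨k, Z, hrep, hdet, hN⟩
    exact mem_Delta_of_rep hq hcop hrep hdet hN

end Gen

end

end Fermat.Agent.LR
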