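/-
LR (level raising, S41) — helper9 — assembly of **(I) = [AMALG] + [CSP] + [EIS]**:
under the congruence subgroup hypothesis `CSPHypA N q A` for `Δ = Γ₀(N)[1/q]`, a pair
`(x, y) ∈ Hom(Γ₀(N), A)²` in the kernel of `α^* + β^*` (i.e. `x γ + y (a, q b; c / q, d) = 0` on
`Γ₀(N q)`) is Eisenstein: `T_ℓ x = (ℓ + 1) x`, `T_ℓ y = (ℓ + 1) y` for all primes `ℓ ∤ N`,
`ℓ ≡ 1 mod D`.
-/
import Mathlib
import Fermat.Agent.LR.AMALG_helper9_Gen
import Fermat.Agent.LR.EIS_helper9_Cong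

set_option autoImplicit false
set_option linter.unusedSectionVars false

open Matrix CongruenceSubgroup Fermat.Agent.GR

open scoped MatrixGroups

namespace Fermat.Agent.LR

noncomputable section

/-- **the congruence subgroup hypothesis** for homomorphisms `Δ = Γ₀(N)[1/q] → A`: every such
homomorphism is trivial on (the two copies of) `Γ₀(N) ∩ Γ(D)` for some `D > 0`. -/
def CSPHypA (N q : ℕ) [NeZero q] (A : Type*) [AddCommGroup A] : Prop :=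
  ∀ Φ : ↥(Delta N q) →* Multiplicative A, ∃ D : ℕ, 0 < D ∧
    ∀ γ : ↥(Gamma0 N), (γ : SL(2, ℤ)) ∈ Gamma D →
      Φ ⟨embA N γ, embA_mem_Delta N q γ⟩ = 1 ∧ Φ ⟨embB N q γ, embB_mem_Delta N q γ⟩ = 1

/-- the congruence subgroup hypothesis with coefficients `𝔽_p`. -/
def CSPHyp (N q p : ℕ) [NeZero q] : Prop := CSPHypA N q (ZMod p)

variable {N q : ℕ} [NeZero q] {A : Type*} [AddCommGroup A]

/-- **(I), conditional on [CSP]**: the kernel of `α^* + β^*` on `Hom(Γ₀(N), A)²` is Eisenstein. -/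
theorem ihara_eisenstein_of_csp (hq : q.Prime) (hcop : Nat.Coprime N q) (hcsp : CSPHypA N q A)
    (x y : Additive ↥(Gamma0 N) →+ A)
    (hxy : ∀ (γ : SL(2, ℤ)) (hγN : γ ∈ Gamma0 N) (hγ : (q : ℤ) ∣ γ 1 0),
      x (Additive.ofMul (⟨γ, hγN⟩ : ↥(Gamma0 N))) +
        y (Additive.ofMul (⟨conjDownSL q γ hγ, conjDownSL_mem N q hγN hγ hcop⟩ : ↥(Gamma0 N))) =
          0) :
    ∃ D : ℕ, 0 < D ∧ ∀ ℓ : Nat.Primes, ¬ (ℓ : ℕ) ∣ N → (ℓ : ℕ) ≡ 1 [MOD D] →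
      heckeGrpP N ℓ A x = ((ℓ : ℕ) + 1) • x ∧ heckeGrpP N ℓ A y = ((ℓ : ℕ) + 1) • y := by
  obtain ⟨Φ, hΦA, hΦB⟩ := exists_hom_Delta N q hq hcop
    (AddMonoidHom.toMultiplicativeRight x) (AddMonoidHom.toMultiplicativeRight (-y)) (by
      intro γ hγN hγ
      show Multiplicative.ofAdd (x (Additive.ofMul (⟨γ, hγN⟩ : ↥(Gamma0 N)))) =
        Multiplicative.ofAdd ((-y) (Additive.ofMul
          (⟨conjDownSL q γ hγ, conjDownSL_mem N q hγN hγ hcop⟩ : ↥(Gamma0 N))))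
      congr 1
      rw [AddMonoidHom.neg_apply, eq_neg_iff_add_eq_zero]
      exact hxy γ hγN hγ)
  obtain ⟨D, hD, hΦD⟩ := hcsp Φ
  refine ⟨D, hD, fun ℓ hℓN hℓD => ⟨?_, ?_⟩⟩
  · refine heckeGrpP_eq_smul_of_congruence x (fun γ hγ => ?_) ℓ hℓN hℓD
    have h1 := (hΦD γ hγ).1
    rw [hΦA γ] at h1
    exact h1
  · refine heckeGrpP_eq_smul_of_congruence y (fun γ hγ => ?_) ℓ hℓN hℓD
    have h1 := (hΦD γ hγ).2
    rw [hΦB γ] at h1
    have h2 : (-y) (Additive.ofMul γ) = 0 := h1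
    rw [AddMonoidHom.neg_apply, neg_eq_zero] at h2
    exact h2

end

end Fermat.Agent.LR
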