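/-
LR (level raising, S41) — helper9 — **(I) on the parabolic `ℤ`-lattices**, conditional on [CSP]:
if `φ₁, φ₂ ∈ Hom(Γ₀(N), ℤ)` satisfy `α^* φ₁ + β^* φ₂ ∈ p · Hom(Γ₀(N q), ℤ)`, then there is
`D > 0` such that for every prime `ℓ ∤ N`, `ℓ ≡ 1 mod D`:
`T_ℓ φᵢ - (ℓ + 1) φᵢ ∈ p · Hom(Γ₀(N), ℤ)` (and in `p · Hom_par` if `φᵢ` is parabolic).
-/
import Mathlib
import Fermat.Agent.LR.IHARA_helper9_Assemble
import Fermat.Agent.LR.XFER_helper4_Defs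

set_option autoImplicit false
set_option linter.unusedSectionVars false

open Matrix CongruenceSubgroup Fermat.Agent.GR ModularCurve.Period

open scoped MatrixGroups

namespace Fermat.Agent.LR

noncomputable section

/-- dividing an integer valued homomorphism all of whose values are divisible by `p`. -/
theorem exists_eq_smul_of_forall_dvd {G : Type*} [AddZeroClass G] {p : ℤ}
    (θ : G →+ ℤ) (h : ∀ γ, p ∣ θ γ) : ∃ ψ : G →+ ℤ, θ = p • ψ := by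
  refine ⟨{ toFun := fun γ => θ γ / p
            map_zero' := by simp
            map_add' := fun γ δ => by
              rw [map_add]
              exact Int.add_ediv_of_dvd_left (h γ) }, ?_⟩
  ext γ
  show θ γ = p • (θ γ / p)
  rw [smul_eq_mul, Int.mul_ediv_cancel' (h γ)]

variable {N q p : ℕ} [NeZero q]

/-- membership of `Γ₀(N q)`. -/
theorem mem_Gamma0_mul_of_dvd (hcop : Nat.Coprime N q) {γ : SL(2, ℤ)} (hγN : γ ∈ Gamma0 N)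
    (hγ : (q : ℤ) ∣ γ 1 0) : γ ∈ Gamma0 (N * q) := by
  rw [mem_Gamma0_iff_dvd'] at hγN ⊢
  push_cast
  have hcop' : IsCoprime (N : ℤ) (q : ℤ) := Nat.isCoprime_iff_coprime.mpr hcop
  exact hcop'.mul_dvd hγN hγ

/-- **(I) for homomorphisms with values in `ℤ`**, conditional on [CSP]. -/
theorem ihara_int_of_csp (hq : q.Prime) (hqN : ¬ q ∣ N) (hcsp : CSPHyp N q p)
    (φ₁ φ₂ : Additive ↥(Gamma0 N) →+ ℤ)
    (h : ∀ γ : ↥(Gamma0 (N * q)), (p : ℤ) ∣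
      pullA N q ℤ φ₁ (Additive.ofMul γ) + pullB N q hq ℤ φ₂ (Additive.ofMul γ)) :
    ∃ D : ℕ, 0 < D ∧ ∀ ℓ : Nat.Primes, ¬ (ℓ : ℕ) ∣ N → (ℓ : ℕ) ≡ 1 [MOD D] →
      ∃ ψ₁ ψ₂ : Additive ↥(Gamma0 N) →+ ℤ,
        heckeGrpP N ℓ ℤ φ₁ - (((ℓ : ℕ) + 1 : ℕ) : ℤ) • φ₁ = (p : ℤ) • ψ₁ ∧
        heckeGrpP N ℓ ℤ φ₂ - (((ℓ : ℕ) + 1 : ℕ) : ℤ) • φ₂ = (p : ℤ) • ψ₂ := by
  have hcop : Nat.Coprime N q := ((Nat.Prime.coprime_iff_not_dvd hq).mpr hqN).symm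
  set c : ℤ →+ ZMod p := Int.castAddHom (ZMod p) with hc
  obtain ⟨D, hD, hDℓ⟩ := ihara_eisenstein_of_csp hq hcop hcsp (c.comp φ₁) (c.comp φ₂) (by
    intro γ hγN hγ
    have hmem := mem_Gamma0_mul_of_dvd hcop hγN hγ
    have h1 := h ⟨γ, hmem⟩
    rw [pullA_apply, pullB_apply] at h1
    have h2 : (((φ₁ (Additive.ofMul (inclHom N q ⟨γ, hmem⟩)) +
        φ₂ (Additive.ofMul (conjDownHom N q hq ⟨γ, hmem⟩)) : ℤ)) : ZMod p) = 0 :=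
      (ZMod.intCast_zmod_eq_zero_iff_dvd _ _).mpr h1
    rw [Int.cast_add] at h2
    exact h2)
  refine ⟨D, hD, fun ℓ hℓN hℓD => ?_⟩
  obtain ⟨h1, h2⟩ := hDℓ ℓ hℓN hℓD
  rw [heckeGrpP_comp] at h1 h2
  have key : ∀ φ : Additive ↥(Gamma0 N) →+ ℤ,
      c.comp (heckeGrpP N ℓ ℤ φ) = ((ℓ : ℕ) + 1) • c.comp φ →
      ∃ ψ : Additive ↥(Gamma0 N) →+ ℤ,
        heckeGrpP N ℓ ℤ φ - (((ℓ : ℕ) + 1 : ℕ) : ℤ) • φ = (p : ℤ) • ψ := by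
    intro φ hφ
    apply exists_eq_smul_of_forall_dvd
    intro γ
    rw [← ZMod.intCast_zmod_eq_zero_iff_dvd]
    have h3 := congrArg (fun f : Additive ↥(Gamma0 N) →+ ZMod p => f γ) hφ
    simp only [AddMonoidHom.comp_apply, AddMonoidHom.smul_apply, hc, Int.coe_castAddHom] at h3
    rw [AddMonoidHom.sub_apply, AddMonoidHom.smul_apply, Int.cast_sub, h3, smul_eq_mul,
      Int.cast_mul]
    simp
  obtain ⟨ψ₁, hψ₁⟩ := key φ₁ h1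
  obtain ⟨ψ₂, hψ₂⟩ := key φ₂ h2
  exact ⟨ψ₁, ψ₂, hψ₁, hψ₂⟩

/-- **(I) on the parabolic lattices** `L_M = parabolicHoms ℤ (Gamma0 M) ℤ`, conditional on [CSP]:
the shape consumed by `IharaHyp` of `LR/RAISE_helper2_Abstract`. -/
theorem ihara_par_of_csp (hq : q.Prime) (hqN : ¬ q ∣ N) (hp : p ≠ 0) (hcsp : CSPHyp N q p)
    (φ₁ φ₂ : ↥(parabolicHoms ℤ (Gamma0 N) ℤ)) (y : ↥(parabolicHoms ℤ (Gamma0 (N * q)) ℤ))
    (h : pullAPar N q ℤ ℤ φ₁ + pullBPar N q hq ℤ ℤ φ₂ = (p : ℤ) • y) :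
    ∃ D : ℕ, 0 < D ∧ ∀ ℓ : Nat.Primes, ¬ (ℓ : ℕ) ∣ N → (ℓ : ℕ) ≡ 1 [MOD D] →
      ∃ ψ₁ ψ₂ : ↥(parabolicHoms ℤ (Gamma0 N) ℤ),
        heckeParP N ℓ ℤ ℤ φ₁ - (((ℓ : ℕ) + 1 : ℕ) : ℤ) • φ₁ = (p : ℤ) • ψ₁ ∧
        heckeParP N ℓ ℤ ℤ φ₂ - (((ℓ : ℕ) + 1 : ℕ) : ℤ) • φ₂ = (p : ℤ) • ψ₂ := by
  have hp' : (p : ℤ) ≠ 0 := by exact_mod_cast hp
  obtain ⟨D, hD, hDℓ⟩ := ihara_int_of_csp hq hqN hcsp
    (φ₁ : Additive ↥(Gamma0 N) →+ ℤ) (φ₂ : Additive ↥(Gamma0 N) →+ ℤ) (by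
      intro γ
      have h1 := congrArg (fun z : ↥(parabolicHoms ℤ (Gamma0 (N * q)) ℤ) =>
        (z : Additive ↥(Gamma0 (N * q)) →+ ℤ) (Additive.ofMul γ)) h
      simp only [Submodule.coe_add, coe_pullAPar, coe_pullBPar, AddMonoidHom.add_apply,
        Submodule.coe_smul, AddMonoidHom.smul_apply] at h1
      rw [h1]
      exact Dvd.intro _ rfl)
  refine ⟨D, hD, fun ℓ hℓN hℓD => ?_⟩
  obtain ⟨ψ₁, ψ₂, h1, h2⟩ := hDℓ ℓ hℓN hℓD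
  -- `ψᵢ` is parabolic since `p ψᵢ` is
  have hpar : ∀ (φ : ↥(parabolicHoms ℤ (Gamma0 N) ℤ)) (ψ : Additive ↥(Gamma0 N) →+ ℤ),
      heckeGrpP N ℓ ℤ (φ : Additive ↥(Gamma0 N) →+ ℤ) -
        (((ℓ : ℕ) + 1 : ℕ) : ℤ) • (φ : Additive ↥(Gamma0 N) →+ ℤ) = (p : ℤ) • ψ →
      ψ ∈ parabolicHoms ℤ (Gamma0 N) ℤ := by
    intro φ ψ hψ
    have hmem : (p : ℤ) • ψ ∈ parabolicHoms ℤ (Gamma0 N) ℤ := by
      rw [← hψ]
      exact Submodule.sub_mem _ (heckeGrpP_mem_parabolicHoms N ℓ ℤ φ.2)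
        (Submodule.smul_mem _ _ φ.2)
    rw [mem_parabolicHoms_iff] at hmem ⊢
    intro γ hγ
    have h3 := hmem γ hγ
    rw [AddMonoidHom.smul_apply, smul_eq_mul] at h3
    exact (mul_eq_zero.mp h3).resolve_left hp'
  refine ⟨⟨ψ₁, hpar φ₁ ψ₁ h1⟩, ⟨ψ₂, hpar φ₂ ψ₂ h2⟩, ?_, ?_⟩
  · apply Subtype.ext
    simpa using h1
  · apply Subtype.ext
    simpa using h2

end

end Fermat.Agent.LR
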