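/-
PROJECT LR (S41, level raising), package [RAISE] (helper2), part 1: **the abstract congruence-module
argument** (pure algebra, Mathlib only).

Setting: `L`, `L'` lattices (`L'` finite free over `ℤ`) with an action of a commutative ring `R`
(the Hecke algebra away from the level), `i : L × L → L'` (the two degeneracy maps),
`j : L' → L × L` (the two traces), `j ∘ i = [[q+1, T], [T, q+1]]`, bilinear forms `B`, `B'` with
`j` adjoint to `i`, a maximal ideal `𝔪 ∋ p` of `R`, and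
* (IHARA) the kernel of `i` modulo `p` has no `𝔪`-part;
* a vector `w ∈ L ∖ pL` with `𝔪 w ⊆ pL` and `T w ≡ ε (q+1) w` modulo `p` (`ε = ± 1`).
Conclusion (`exists_new_eigenvector_mod`): there is `x ∈ ker j`, `x ∉ pL'`, with
`𝔪 x ⊆ p (ker j)`: the system of eigenvalues `𝔪` occurs in the `q`-new lattice `ker j` modulo `p`.
-/
import Mathlib

set_option autoImplicit false
set_option linter.unusedSectionVars false

namespace Fermat.Agent.LR

open Module

section Basic

variable {R : Type*} [CommRing R] {p : ℕ} {𝔪 : Ideal R}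

/-- integers prime to `p` are outside a proper ideal containing `p`. -/
theorem intCast_notMem_of_not_dvd (hp : p.Prime) (h𝔪 : 𝔪 ≠ ⊤) (hp𝔪 : (p : R) ∈ 𝔪) {m : ℤ}
    (hm : ¬ (p : ℤ) ∣ m) : (m : R) ∉ 𝔪 := by
  intro hmem
  have hcop : IsCoprime (p : ℤ) m :=
    (Int.isCoprime_iff_gcd_eq_one).2 (by
      have := (Nat.Prime.coprime_iff_not_dvd hp).2 (fun h => hm (by
        have := Int.natCast_dvd_natCast.2 h
        exact this.trans (Int.natAbs_dvd.2 dvd_rfl)))
      simpa [Int.gcd, Nat.Coprime] using this)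
  obtain ⟨u, v, huv⟩ := hcop
  apply h𝔪
  rw [Ideal.eq_top_iff_one]
  have h1 : ((u * (p : ℤ) + v * m : ℤ) : R) = 1 := by rw [huv]; simp
  rw [← h1]
  push_cast
  exact 𝔪.add_mem (𝔪.mul_mem_left _ hp𝔪) (𝔪.mul_mem_left _ hmem)

end Basic

section Raise

variable {R : Type*} [CommRing R] {L L' : Type*} [AddCommGroup L] [AddCommGroup L']
  [Module R L] [Module R L']

/-- **(IHARA)**: the kernel of `i` modulo `p` has no `𝔪`-part. -/
def IharaHyp (p : ℕ) (𝔪 : Ideal R) (i : L × L →ₗ[R] L') : Prop :=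
  ∀ a : L × L, (∃ y : L', i a = (p : ℤ) • y) →
    ∃ r : R, r ∉ 𝔪 ∧ ∃ b : L × L, r • a = (p : ℤ) • b

variable {p : ℕ} {𝔪 : Ideal R} {i : L × L →ₗ[R] L'}

theorem intCast_smul_eq (n : ℤ) (x : L') : (n : R) • x = n • x := Int.cast_smul_eq_zsmul R n x

/-- under (IHARA): if `p x` is in the image of `i`, then `r x` is, for some `r ∉ 𝔪`. -/
theorem IharaHyp.exists_smul_mem_range_of_p [IsTorsionFree ℤ L'] (hp : p.Prime)
    (hI : IharaHyp p 𝔪 i) {x : L'}
    (hx : (p : ℤ) • x ∈ LinearMap.range i) : ∃ r : R, r ∉ 𝔪 ∧ r • x ∈ LinearMap.range i := by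
  obtain ⟨a, ha⟩ := hx
  obtain ⟨r, hr, b, hb⟩ := hI a ⟨x, ha⟩
  refine ⟨r, hr, b, ?_⟩
  have h1 : (p : ℤ) • i b = (p : ℤ) • (r • x) := by
    rw [← map_zsmul, ← hb, map_smul, ha, smul_comm]
  have hp0 : (p : ℤ) ≠ 0 := by exact_mod_cast hp.ne_zero
  exact smul_right_injective L' hp0 h1

/-- under (IHARA): every element of the saturation of the image of `i` is mapped into the image
by some `r ∉ 𝔪`. -/
theorem IharaHyp.exists_smul_mem_range [IsTorsionFree ℤ L'] (hp : p.Prime) (h𝔪 : 𝔪.IsPrime)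
    (hp𝔪 : (p : R) ∈ 𝔪) (hI : IharaHyp p 𝔪 i) :
    ∀ (n : ℕ) (x : L'), n ≠ 0 → (n : ℤ) • x ∈ LinearMap.range i →
      ∃ r : R, r ∉ 𝔪 ∧ r • x ∈ LinearMap.range i := by
  intro n
  induction n using Nat.strong_induction_on with
  | _ n ih =>
    intro x hn hx
    by_cases hpn : p ∣ n
    · obtain ⟨n', rfl⟩ := hpn
      have hn' : n' ≠ 0 := fun h => hn (by rw [h, mul_zero])
      have hlt : n' < p * n' := by
        have := hp.one_lt
        nlinarith [Nat.pos_of_ne_zero hn']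
      have h1 : (p : ℤ) • ((n' : ℤ) • x) ∈ LinearMap.range i := by
        rw [smul_smul]; exact_mod_cast hx
      obtain ⟨r₁, hr₁, h2⟩ := hI.exists_smul_mem_range_of_p hp h1
      rw [smul_comm] at h2
      obtain ⟨r₂, hr₂, h3⟩ := ih n' hlt (r₁ • x) hn' h2
      refine ⟨r₂ * r₁, fun h => ?_, by rwa [mul_smul]⟩
      rcases h𝔪.mem_or_mem h with h | h
      · exact hr₂ h
      · exact hr₁ h
    · refine ⟨((n : ℤ) : R), ?_, ?_⟩
      · exact intCast_notMem_of_not_dvd hp h𝔪.ne_top hp𝔪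
          (fun h => hpn (Int.natCast_dvd_natCast.1 h))
      · rw [intCast_smul_eq]; exact hx

/-- the form `a ↦ B(a₁, z₁) + B(a₂, z₂)` on `L × L`, linear in the first variable. -/
def pairTwoL (B : L →ₗ[ℤ] L →ₗ[ℤ] ℤ) (z : L × L) : L × L →ₗ[ℤ] ℤ :=
  (B.flip z.1).comp (LinearMap.fst ℤ L L) + (B.flip z.2).comp (LinearMap.snd ℤ L L)

theorem pairTwoL_apply (B : L →ₗ[ℤ] L →ₗ[ℤ] ℤ) (z a : L × L) :
    pairTwoL B z a = B a.1 z.1 + B a.2 z.2 := rfl

/-- **duality step**: under (IHARA), a perfect pairing on `L'` and adjointness of `i`, `j`, a vector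
`z` whose pairing kills `ker i` is, up to some `s ∉ 𝔪`, in the image of `j`. -/
theorem IharaHyp.exists_adjoint_preimage [Module.Free ℤ L'] [Module.Finite ℤ L']
    (hp : p.Prime) (h𝔪 : 𝔪.IsPrime) (hp𝔪 : (p : R) ∈ 𝔪) (hI : IharaHyp p 𝔪 i)
    (j : L' →ₗ[R] L × L) (B : L →ₗ[ℤ] L →ₗ[ℤ] ℤ) (B' : L' →ₗ[ℤ] L' →ₗ[ℤ] ℤ)
    (hBsa : ∀ (r : R) (x y : L), B (r • x) y = B x (r • y))
    (hBnd : ∀ y : L, (∀ x, B x y = 0) → y = 0)
    (hB' : ∀ φ : L' →ₗ[ℤ] ℤ, ∃ (m : ℤ) (x' : L'), ¬ (p : ℤ) ∣ m ∧ ∀ x, m * φ x = B' x x')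
    (hadj : ∀ (a : L × L) (x' : L'), B' (i a) x' = B a.1 (j x').1 + B a.2 (j x').2)
    (z : L × L) (hz : ∀ a, i a = 0 → B a.1 z.1 + B a.2 z.2 = 0) :
    ∃ s : R, s ∉ 𝔪 ∧ ∃ x' : L', j x' = s • z := by
  classical
  let b : Basis (Module.Free.ChooseBasisIndex ℤ L') ℤ L' := Module.Free.chooseBasis ℤ L'
  let N : Submodule ℤ L' := (LinearMap.range i).restrictScalars ℤ
  obtain ⟨n, snf⟩ := Submodule.smithNormalForm b N
  have hk : ∀ k : Fin n, ∃ r : R, r ∉ 𝔪 ∧ r • snf.bM (snf.f k) ∈ LinearMap.range i := by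
    intro k
    have ha : snf.a k ≠ 0 := by
      intro h0
      have h1 := snf.snf k
      rw [h0, zero_smul] at h1
      exact snf.bN.ne_zero k (Subtype.ext h1)
    have hmem : (snf.a k) • snf.bM (snf.f k) ∈ LinearMap.range i := by
      rw [← snf.snf k]; exact (snf.bN k).2
    have hmem' : ((snf.a k).natAbs : ℤ) • snf.bM (snf.f k) ∈ LinearMap.range i := by
      rcases Int.natAbs_eq (snf.a k) with h | h
      · rw [← h]; exact hmem
      · have h2 : ((snf.a k).natAbs : ℤ) = - snf.a k := by omega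
        rw [h2, neg_smul]; exact (LinearMap.range i).neg_mem hmem
    exact hI.exists_smul_mem_range hp h𝔪 hp𝔪 _ _ (Int.natAbs_ne_zero.2 ha) hmem'
  choose r hr hrmem using hk
  choose c hc using hrmem
  let s : R := ∏ k, r k
  have hs : s ∉ 𝔪 := by
    intro h
    obtain ⟨k, -, hk⟩ := (h𝔪.prod_mem_iff).1 h
    exact hr k hk
  let c' : Fin n → L × L := fun k => (∏ m ∈ Finset.univ.erase k, r m) • c k
  have hc' : ∀ k, i (c' k) = s • snf.bM (snf.f k) := by
    intro k
    simp only [c', map_smul, hc, smul_smul]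
    congr 1
    exact Finset.prod_erase_mul _ _ (Finset.mem_univ k)
  let ψ : L' →ₗ[ℤ] ℤ := ∑ k, (pairTwoL B z (c' k)) • snf.bM.coord (snf.f k)
  have hψ : ∀ a, ψ (i a) = pairTwoL B z (s • a) := by
    intro a
    let m : N := ⟨i a, ⟨a, rfl⟩⟩
    have hcoord : ∀ k, snf.bM.coord (snf.f k) (i a) = snf.a k * snf.bN.repr m k := by
      intro k
      have h1 := snf.repr_apply_embedding_eq_repr_smul m (i := k)
      rw [Basis.coord_apply, show i a = (m : L') from rfl, h1, map_smul, Finsupp.smul_apply,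
        smul_eq_mul]
    have hsum : i a = ∑ k, (snf.bN.repr m k * snf.a k) • snf.bM (snf.f k) := by
      have h1 := congrArg (Subtype.val) (snf.bN.sum_repr m)
      rw [show ((m : N) : L') = i a from rfl] at h1
      rw [← h1, AddSubmonoidClass.coe_finsetSum]
      refine Finset.sum_congr rfl fun k _ => ?_
      rw [Submodule.coe_smul, snf.snf k, smul_smul]
    have hker : i (s • a - ∑ k, (snf.bN.repr m k * snf.a k) • c' k) = 0 := by
      rw [map_sub, map_smul, map_sum, sub_eq_zero]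
      conv_lhs => rw [hsum]
      rw [Finset.smul_sum]
      refine Finset.sum_congr rfl fun k _ => ?_
      rw [map_zsmul, hc', smul_comm]
    have h2 := hz _ hker
    rw [← pairTwoL_apply, map_sub, sub_eq_zero, map_sum] at h2
    rw [h2]
    simp only [ψ, LinearMap.sum_apply, LinearMap.smul_apply, hcoord, map_zsmul, smul_eq_mul]
    refine Finset.sum_congr rfl fun k _ => ?_
    ring
  obtain ⟨m₀, x', hm₀, hx'⟩ := hB' ψ
  refine ⟨(m₀ : R) * s, fun h => ?_, x', ?_⟩
  · rcases h𝔪.mem_or_mem h with h | h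
    · exact intCast_notMem_of_not_dvd hp h𝔪.ne_top hp𝔪 hm₀ h
    · exact hs h
  · have hpair : ∀ a : L × L, B a.1 (j x').1 + B a.2 (j x').2
        = B a.1 (((m₀ : R) * s) • z).1 + B a.2 (((m₀ : R) * s) • z).2 := by
      intro a
      rw [← hadj, ← hx', hψ, pairTwoL_apply, Prod.smul_fst, Prod.smul_snd, Prod.smul_fst,
        Prod.smul_snd, hBsa, hBsa, mul_smul, mul_smul, intCast_smul_eq, intCast_smul_eq,
        map_zsmul, map_zsmul, smul_eq_mul, smul_eq_mul, mul_add]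
    have h1 : (j x').1 = (((m₀ : R) * s) • z).1 := by
      have h := hBnd ((j x').1 - (((m₀ : R) * s) • z).1) (fun x => by
        have := hpair (x, 0)
        simp only [map_zero, LinearMap.zero_apply, add_zero] at this
        rw [map_sub, this, sub_self])
      exact sub_eq_zero.1 h
    have h2 : (j x').2 = (((m₀ : R) * s) • z).2 := by
      have h := hBnd ((j x').2 - (((m₀ : R) * s) • z).2) (fun x => by
        have := hpair (0, x)
        simp only [map_zero, LinearMap.zero_apply, zero_add] at this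
        rw [map_sub, this, sub_self])
      exact sub_eq_zero.1 h
    exact Prod.ext h1 h2

/-- **abstract level raising (congruence module argument)**: under (IHARA) and duality, if the
system of eigenvalues `𝔪` occurs in `L` modulo `p` with `T ≡ ε (q+1)`, it occurs modulo `p` in the
`q`-new lattice `ker j`. -/
theorem exists_new_eigenvector_mod [Module.Free ℤ L'] [Module.Finite ℤ L'] [IsTorsionFree ℤ L]
    (hp : p.Prime) (h𝔪 : 𝔪.IsMaximal) (hp𝔪 : (p : R) ∈ 𝔪) (hI : IharaHyp p 𝔪 i)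
    (j : L' →ₗ[R] L × L) (B : L →ₗ[ℤ] L →ₗ[ℤ] ℤ) (B' : L' →ₗ[ℤ] L' →ₗ[ℤ] ℤ)
    (hBsa : ∀ (r : R) (x y : L), B (r • x) y = B x (r • y))
    (hBnd : ∀ y : L, (∀ x, B x y = 0) → y = 0)
    (hB' : ∀ φ : L' →ₗ[ℤ] ℤ, ∃ (m : ℤ) (x' : L'), ¬ (p : ℤ) ∣ m ∧ ∀ x, m * φ x = B' x x')
    (hadj : ∀ (a : L × L) (x' : L'), B' (i a) x' = B a.1 (j x').1 + B a.2 (j x').2)
    (T : L →+ L) (hTsa : ∀ x y : L, B (T x) y = B x (T y)) (q : ℤ)
    (hji : ∀ a : L × L, j (i a) = ((q + 1) • a.1 + T a.2, T a.1 + (q + 1) • a.2))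
    (w : L) (hw : ∀ y : L, w ≠ (p : ℤ) • y) (hw𝔪 : ∀ r ∈ 𝔪, ∃ y : L, r • w = (p : ℤ) • y)
    (ε : ℤ) (hε : ε * ε = 1) (hT : ∃ t : L, T w - (ε * (q + 1)) • w = (p : ℤ) • t) :
    ∃ x : L', j x = 0 ∧ (∀ y : L', x ≠ (p : ℤ) • y) ∧
      ∀ r ∈ 𝔪, ∃ y : L', j y = 0 ∧ r • x = (p : ℤ) • y := by
  have hp0 : (p : ℤ) ≠ 0 := by exact_mod_cast hp.ne_zero
  have h𝔪p : 𝔪.IsPrime := h𝔪.isPrime
  obtain ⟨t, ht⟩ := hT
  -- the vector `z` and the duality step
  have hz : ∀ a : L × L, i a = 0 → B a.1 ((-ε) • t, t).1 + B a.2 ((-ε) • t, t).2 = 0 := by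
    intro a ha
    have h0 : j (i a) = 0 := by rw [ha, map_zero]
    rw [hji a, Prod.mk_eq_zero] at h0
    obtain ⟨h1, h2⟩ := h0
    have h3 : (p : ℤ) * (B a.1 ((-ε) • t) + B a.2 t) = 0 := by
      have e1 : (p : ℤ) * (B a.1 ((-ε) • t) + B a.2 t)
          = B (a.2 - ε • a.1) ((p : ℤ) • t) := by
        simp only [map_sub, map_zsmul, LinearMap.sub_apply, LinearMap.smul_apply, smul_eq_mul,
          map_neg, neg_smul]
        ring
      have e4 : ∀ x : L, B x (T w - (ε * (q + 1)) • w)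
          = B (T x - (ε * (q + 1)) • x) w := by
        intro x
        calc B x (T w - (ε * (q + 1)) • w)
            = B x (T w) - (ε * (q + 1)) • B x w := by rw [map_sub, map_zsmul]
          _ = B (T x) w - (ε * (q + 1)) • B x w := by rw [hTsa]
          _ = B (T x - (ε * (q + 1)) • x) w := by
            rw [map_sub, map_zsmul, LinearMap.sub_apply, LinearMap.smul_apply]
      have e2 : T (a.2 - ε • a.1) - (ε * (q + 1)) • (a.2 - ε • a.1)
          = ((q + 1) • a.1 + T a.2) - ε • (T a.1 + (q + 1) • a.2) := by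
        rw [map_sub, map_zsmul, smul_sub, smul_add, smul_smul, smul_smul]
        have e3 : ε * (q + 1) * ε = q + 1 := by rw [mul_comm, ← mul_assoc, hε, one_mul]
        rw [e3]
        abel
      rw [e1, ← ht, e4, e2, h1, h2, smul_zero, sub_zero, map_zero, LinearMap.zero_apply]
    rcases mul_eq_zero.1 h3 with h | h
    · exact absurd h hp0
    · exact h
  obtain ⟨s, hs, x'', hx''⟩ := hI.exists_adjoint_preimage hp h𝔪p hp𝔪 j B B' hBsa hBnd hB' hadj
    ((-ε) • t, t) hz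
  -- the old vector
  have hju : j (i (w, (-ε) • w)) = (p : ℤ) • ((-ε) • t, t) := by
    rw [hji]
    have e1 : T w = (p : ℤ) • t + (ε * (q + 1)) • w := by rw [← ht]; abel
    refine Prod.ext ?_ ?_
    · simp only [map_zsmul, Prod.smul_mk, e1, smul_add, smul_smul]
      have e3 : -ε * (ε * (q + 1)) = -(q + 1) := by rw [← mul_assoc, neg_mul, hε]; ring
      rw [e3, neg_smul, mul_comm (-ε) (p : ℤ)]
      abel
    · simp only [Prod.smul_mk, e1, smul_smul]
      rw [mul_comm (q + 1) (-ε), neg_mul, neg_smul]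
      abel
  refine ⟨s • i (w, (-ε) • w) - (p : ℤ) • x'', ?_, ?_, ?_⟩
  · rw [map_sub, map_smul, map_zsmul, hju, hx'', smul_comm, sub_self]
  · intro y hy
    -- `i (s • (w, -ε w)) ∈ p L'`
    have h1 : i (s • (w, (-ε) • w)) = (p : ℤ) • (y + x'') := by
      rw [map_smul, smul_add, ← hy]; abel
    obtain ⟨r, hr, b, hb⟩ := hI _ ⟨_, h1⟩
    have hrs : r * s ∉ 𝔪 := fun h => by
      rcases h𝔪p.mem_or_mem h with h | h
      · exact hr h
      · exact hs h
    obtain ⟨u, m, hm, hum⟩ := h𝔪.exists_inv hrs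
    obtain ⟨y', hy'⟩ := hw𝔪 m hm
    have h2 : (r * s) • w = (p : ℤ) • b.1 := by
      have := congrArg Prod.fst hb
      simpa only [Prod.smul_fst, mul_smul] using this
    apply hw (u • b.1 + y')
    calc w = (1 : R) • w := (one_smul R w).symm
      _ = (u * (r * s) + m) • w := by rw [hum]
      _ = u • ((r * s) • w) + m • w := by rw [add_smul, mul_smul]
      _ = (p : ℤ) • (u • b.1 + y') := by rw [h2, hy', smul_add, smul_comm]
  · intro r hr
    obtain ⟨yr, hyr⟩ := hw𝔪 r hr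
    have hrx : r • (s • i (w, (-ε) • w) - (p : ℤ) • x'')
        = (p : ℤ) • (s • i (yr, (-ε) • yr) - r • x'') := by
      rw [smul_sub, smul_sub, smul_comm r s, ← map_smul i r, Prod.smul_mk, smul_comm r (-ε) w, hyr,
        smul_comm (-ε) (p : ℤ) yr, ← Prod.smul_mk, map_zsmul, smul_comm s (p : ℤ),
        smul_comm r (p : ℤ) x'']
    refine ⟨s • i (yr, (-ε) • yr) - r • x'', ?_, hrx⟩
    have h0 : (p : ℤ) • j (s • i (yr, (-ε) • yr) - r • x'') = 0 := by
      rw [← map_zsmul, ← hrx, map_smul, map_sub, map_smul, map_zsmul, hju, hx'', smul_comm s,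
        sub_self, smul_zero]
    exact (smul_eq_zero.1 h0).resolve_left hp0

end Raise

end Fermat.Agent.LR
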