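/-
LR (level raising, S41) — helper4 — [XFER] part 1: **abstract coset lemmas** relating transfers
(`TransferDatum.transferGrp`), Hecke operators (`HeckeDatum.heckeGrp`) and restrictions
(`pullHom`) of characters:

* `transferGrp_pullHom_eq_card`    : `tr ∘ res = index` (cosets `Γ' s uᵢ`, `uᵢ ∈ Γ`);
* `transferGrp_pullHom_eq_heckeGrp` : `tr ∘ res_j = T` when `s (Γ' αᵢ)` are the cosets of `T`;
* `heckeGrp_pullHom`               : `T' ∘ res_j = res_j ∘ T` (conjugate cosets);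
* `pullHom_transferGrp_option`     : `res ∘ tr = T' + res_W` (the cosets of `tr` are those of `T'`
  and one coset normalised by `Γ'`);
* `transferGrp_pullHom_conj`       : `tr ∘ res_W = tr₂` when `w (Γ' αᵢ) = z Γ' α²_{π i}`, `z` central;
* `pullHom_conj_conj`              : `res_W ∘ res_W = id` when `w² ∈ z Γ'`.
-/
import Mathlib
import Fermat.Agent.LR.XFER_helper4_Defs

set_option autoImplicit false
set_option linter.unusedSectionVars false

namespace Fermat.Agent.LR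

open Fermat.Agent.GR

variable {Γ' Γ₁ Γ G : Type*} [Group Γ'] [Group Γ₁] [Group Γ] [Group G]
  {A : Type*} [AddCommGroup A]

/-! ### `tr ∘ res = index` -/

/-- **`tr ∘ res = index`**: if the cosets of the transfer datum `X` (from `Γ'` to `Γ₁`) are
`Γ' s uᵢ` with `uᵢ ∈ Γ`, where `Γ₁ → Γ` (`j₁`) and `s⁻¹ Γ' s → Γ` (`j₂`), then
`tr (ψ ∘ j₂) = #ι • (ψ ∘ j₁)` for every character `ψ` of `Γ`. -/
theorem transferGrp_pullHom_eq_card {ι : Type*} [Fintype ι] (X : TransferDatum Γ' Γ₁ G ι)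
    (e : Γ →* G) (he : Function.Injective e)
    (j₁ : Γ₁ →* Γ) (hj₁ : ∀ γ, e (j₁ γ) = X.e γ) (j₂ : Γ' →* Γ) (s : G)
    (hj₂ : ∀ γ', X.e' γ' * s = s * e (j₂ γ')) (u : ι → Γ) (hu : ∀ i, X.α i = s * e (u i))
    (ψ : Additive Γ →+ A) :
    X.transferGrp A (pullHom j₂ A ψ) = Fintype.card ι • pullHom j₁ A ψ := by
  have key : ∀ (γ : Γ₁) (i : ι),
      j₂ (X.cocycle γ i) = u i * j₁ γ * (u (X.perm γ i))⁻¹ := by
    intro γ i
    have h1 := X.spec γ i
    rw [hu, hu, ← mul_assoc (X.e' _), hj₂, ← hj₁, mul_assoc, mul_assoc] at h1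
    have h2 := mul_left_cancel h1
    rw [← map_mul, ← map_mul] at h2
    have h3 := he h2
    rw [eq_mul_inv_iff_mul_eq, ← h3]
  refine AddMonoidHom.ext fun γ => ?_
  rw [TransferDatum.transferGrp_apply']
  have h2 : ∀ i, pullHom j₂ A ψ (Additive.ofMul (X.cocycle (Additive.toMul γ) i)) =
      pullHom j₁ A ψ γ + (ψ (Additive.ofMul (u i)) -
        ψ (Additive.ofMul (u (X.perm (Additive.toMul γ) i)))) := by
    intro i
    rw [pullHom_apply, key, ofMul_mul, ofMul_mul, ofMul_inv, map_add, map_add, map_neg,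
      pullHom_apply']
    abel
  rw [Finset.sum_congr rfl fun i _ => h2 i, Finset.sum_add_distrib, Finset.sum_sub_distrib]
  have h3 : ∑ i, ψ (Additive.ofMul (u (X.perm (Additive.toMul γ) i))) =
      ∑ i, ψ (Additive.ofMul (u i)) :=
    Equiv.sum_comp (X.permEquiv (Additive.toMul γ)) (fun i => ψ (Additive.ofMul (u i)))
  rw [h3, sub_self, add_zero, Finset.sum_const, Finset.card_univ]
  rfl

/-! ### `tr ∘ res = T` -/

/-- **`tr ∘ res_j = T`**: `X` a transfer datum from `Γ'` to `Γ`, `D` a Hecke datum of `Γ`,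
`s Γ' s⁻¹ → Γ` (`j`), and `s αᵢ = δᵢ β_{π i}` with `π` a bijection onto the cosets of `D`. -/
theorem transferGrp_pullHom_eq_heckeGrp {ι κ : Type*} [Fintype ι] [Fintype κ]
    (X : TransferDatum Γ' Γ G ι) (D : HeckeDatum Γ G κ) (hD : D.e = X.e)
    (j : Γ' →* Γ) (s : G) (hs : ∀ γ', s * X.e' γ' = X.e (j γ') * s)
    (π : ι ≃ κ) (δ : ι → Γ) (hπ : ∀ i, s * X.α i = X.e (δ i) * D.α (π i))
    (ψ : Additive Γ →+ A) :
    X.transferGrp A (pullHom j A ψ) = D.heckeGrp A ψ := by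
  have key : ∀ (γ : Γ) (i : ι), D.cocycle γ (π i) =
      (δ i)⁻¹ * j (X.cocycle γ i) * δ (X.perm γ i) := by
    intro γ i
    apply D.cocycle_eq (j := π (X.perm γ i))
    have h1 := X.spec γ i
    have h2 : s * X.α i * X.e γ = X.e (j (X.cocycle γ i)) * (s * X.α (X.perm γ i)) := by
      rw [mul_assoc, h1, ← mul_assoc, hs, mul_assoc]
    rw [hπ, hπ] at h2
    rw [hD, map_mul, map_mul, map_inv]
    calc D.α (π i) * X.e γ
        = (X.e (δ i))⁻¹ * (X.e (δ i) * D.α (π i) * X.e γ) := by group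
      _ = (X.e (δ i))⁻¹ * (X.e (j (X.cocycle γ i)) *
            (X.e (δ (X.perm γ i)) * D.α (π (X.perm γ i)))) := by rw [h2]
      _ = _ := by group
  refine AddMonoidHom.ext fun γ => ?_
  rw [TransferDatum.transferGrp_apply', HeckeDatum.heckeGrp_apply', ← Equiv.sum_comp π]
  have h2 : ∀ i, ψ (Additive.ofMul (D.cocycle (Additive.toMul γ) (π i))) =
      pullHom j A ψ (Additive.ofMul (X.cocycle (Additive.toMul γ) i)) +
        (ψ (Additive.ofMul (δ (X.perm (Additive.toMul γ) i))) - ψ (Additive.ofMul (δ i))) := by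
    intro i
    rw [key, ofMul_mul, ofMul_mul, ofMul_inv, map_add, map_add, map_neg, pullHom_apply]
    abel
  rw [Finset.sum_congr rfl fun i _ => h2 i, Finset.sum_add_distrib, Finset.sum_sub_distrib]
  have h3 : ∑ i, ψ (Additive.ofMul (δ (X.perm (Additive.toMul γ) i))) =
      ∑ i, ψ (Additive.ofMul (δ i)) :=
    Equiv.sum_comp (X.permEquiv (Additive.toMul γ)) (fun i => ψ (Additive.ofMul (δ i)))
  rw [h3, sub_self, add_zero]

/-- existence form of `transferGrp_pullHom_eq_heckeGrp`. -/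
theorem transferGrp_pullHom_eq_heckeGrp_of_exists {ι κ : Type*} [Fintype ι] [Fintype κ]
    (X : TransferDatum Γ' Γ G ι) (D : HeckeDatum Γ G κ) (hD : D.e = X.e)
    (j : Γ' →* Γ) (s : G) (hs : ∀ γ', s * X.e' γ' = X.e (j γ') * s)
    (hcard : Fintype.card ι = Fintype.card κ)
    (hex : ∀ i, ∃ (k : κ) (δ : Γ), s * X.α i = X.e δ * D.α k)
    (hdist : ∀ (i i' : ι) (γ : Γ), s * X.α i = X.e γ * (s * X.α i') → i = i')
    (ψ : Additive Γ →+ A) :
    X.transferGrp A (pullHom j A ψ) = D.heckeGrp A ψ := by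
  choose f δ hf using hex
  have hinj : Function.Injective f := by
    intro i i' hi
    have h1 := hf i
    have h2 := hf i'
    rw [hi] at h1
    apply hdist i i' (δ i * (δ i')⁻¹)
    rw [h1, h2, map_mul, map_inv]
    group
  have hbij : Function.Bijective f :=
    (Fintype.bijective_iff_injective_and_card f).mpr ⟨hinj, hcard⟩
  exact transferGrp_pullHom_eq_heckeGrp X D hD j s hs (Equiv.ofBijective f hbij) δ
    (fun i => by rw [Equiv.ofBijective_apply]; exact hf i) ψ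

/-! ### `T' ∘ res = res ∘ T` -/

/-- **`T' ∘ res_j = res_j ∘ T`**: `D'`, `D` Hecke data of `Γ'`, `Γ`, `Θ : G' → G` compatible with
`j : Γ' → Γ`, carrying the cosets of `D'` bijectively to those of `D`. -/
theorem heckeGrp_pullHom {G' κ' κ : Type*} [Group G'] [Fintype κ'] [Fintype κ]
    (D' : HeckeDatum Γ' G' κ') (D : HeckeDatum Γ G κ) (j : Γ' →* Γ) (Θ : G' →* G)
    (hΘ : ∀ γ', Θ (D'.e γ') = D.e (j γ')) (π : κ' ≃ κ) (δ : κ' → Γ)
    (hα : ∀ k, Θ (D'.α k) = D.e (δ k) * D.α (π k)) (ψ : Additive Γ →+ A) :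
    D'.heckeGrp A (pullHom j A ψ) = pullHom j A (D.heckeGrp A ψ) := by
  have key : ∀ (γ : Γ') (k : κ'), D.cocycle (j γ) (π k) =
      (δ k)⁻¹ * j (D'.cocycle γ k) * δ (D'.perm γ k) := by
    intro γ k
    apply D.cocycle_eq (j := π (D'.perm γ k))
    have h1 := congrArg Θ (D'.spec γ k)
    rw [map_mul, map_mul, hΘ, hΘ, hα, hα] at h1
    rw [map_mul, map_mul, map_inv]
    calc D.α (π k) * D.e (j γ)
        = (D.e (δ k))⁻¹ * (D.e (δ k) * D.α (π k) * D.e (j γ)) := by group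
      _ = (D.e (δ k))⁻¹ * (D.e (j (D'.cocycle γ k)) *
            (D.e (δ (D'.perm γ k)) * D.α (π (D'.perm γ k)))) := by rw [h1]
      _ = _ := by group
  refine AddMonoidHom.ext fun γ => ?_
  rw [HeckeDatum.heckeGrp_apply', pullHom_apply', HeckeDatum.heckeGrp_apply, ← Equiv.sum_comp π]
  have h2 : ∀ k, ψ (Additive.ofMul (D.cocycle (j (Additive.toMul γ)) (π k))) =
      pullHom j A ψ (Additive.ofMul (D'.cocycle (Additive.toMul γ) k)) +
        (ψ (Additive.ofMul (δ (D'.perm (Additive.toMul γ) k))) - ψ (Additive.ofMul (δ k))) := by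
    intro k
    rw [key, ofMul_mul, ofMul_mul, ofMul_inv, map_add, map_add, map_neg, pullHom_apply]
    abel
  rw [Finset.sum_congr rfl fun k _ => h2 k, Finset.sum_add_distrib, Finset.sum_sub_distrib]
  have h3 : ∑ k, ψ (Additive.ofMul (δ (D'.perm (Additive.toMul γ) k))) =
      ∑ k, ψ (Additive.ofMul (δ k)) :=
    Equiv.sum_comp (D'.permEquiv (Additive.toMul γ)) (fun k => ψ (Additive.ofMul (δ k)))
  rw [h3, sub_self, add_zero]

/-- existence form of `heckeGrp_pullHom`. -/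
theorem heckeGrp_pullHom_of_exists {G' κ' κ : Type*} [Group G'] [Fintype κ'] [Fintype κ]
    (D' : HeckeDatum Γ' G' κ') (D : HeckeDatum Γ G κ) (j : Γ' →* Γ) (Θ : G' →* G)
    (hΘ : ∀ γ', Θ (D'.e γ') = D.e (j γ')) (hcard : Fintype.card κ' = Fintype.card κ)
    (hex : ∀ k, ∃ (k₂ : κ) (δ : Γ), Θ (D'.α k) = D.e δ * D.α k₂)
    (hdist : ∀ (k k' : κ') (γ : Γ), Θ (D'.α k) = D.e γ * Θ (D'.α k') → k = k')
    (ψ : Additive Γ →+ A) :
    D'.heckeGrp A (pullHom j A ψ) = pullHom j A (D.heckeGrp A ψ) := by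
  choose f δ hf using hex
  have hinj : Function.Injective f := by
    intro k k' hk
    have h1 := hf k
    have h2 := hf k'
    rw [hk] at h1
    apply hdist k k' (δ k * (δ k')⁻¹)
    rw [h1, h2, map_mul, map_inv]
    group
  have hbij : Function.Bijective f :=
    (Fintype.bijective_iff_injective_and_card f).mpr ⟨hinj, hcard⟩
  exact heckeGrp_pullHom D' D j Θ hΘ (Equiv.ofBijective f hbij) δ
    (fun k => by rw [Equiv.ofBijective_apply]; exact hf k) ψ

/-! ### `res ∘ tr = T' + res_W` -/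

/-- **`res ∘ tr = T' + res_W`**: the cosets of the transfer datum `X` (from `Γ'` to `Γ ⊇ Γ'`) are
the cosets of a Hecke datum `D'` of `Γ'` together with one coset `Γ' w` normalised by `Γ'`
(`w γ' = W(γ') w`). -/
theorem pullHom_transferGrp_option {κ : Type*} [Fintype κ]
    (X : TransferDatum Γ' Γ G (Option κ)) (D' : HeckeDatum Γ' G κ) (hD' : D'.e = X.e')
    (j : Γ' →* Γ) (hj : ∀ γ', X.e (j γ') = X.e' γ') (hsome : ∀ b, X.α (some b) = D'.α b)
    (W : Γ' →* Γ') (hW : ∀ γ', X.α none * X.e' γ' = X.e' (W γ') * X.α none)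
    (φ : Additive Γ' →+ A) :
    pullHom j A (X.transferGrp A φ) = D'.heckeGrp A φ + pullHom W A φ := by
  have key1 : ∀ (γ' : Γ') (b : κ), X.cocycle (j γ') (some b) = D'.cocycle γ' b := by
    intro γ' b
    apply X.cocycle_eq (j := some (D'.perm γ' b))
    rw [hsome, hsome, hj, ← hD']
    exact D'.spec γ' b
  have key2 : ∀ γ' : Γ', X.cocycle (j γ') none = W γ' := by
    intro γ'
    apply X.cocycle_eq (j := none)
    rw [hj]
    exact hW γ'
  refine AddMonoidHom.ext fun γ => ?_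
  rw [pullHom_apply', TransferDatum.transferGrp_apply, Fintype.sum_option, AddMonoidHom.add_apply,
    HeckeDatum.heckeGrp_apply', key2, add_comm, pullHom_apply']
  congr 1
  exact Finset.sum_congr rfl fun b _ => by rw [key1]

/-! ### `tr ∘ res_W = tr₂` -/

/-- **`tr ∘ res_W = tr₂`**: `w` normalises `Γ'` (`w γ' = W(γ') w`), and
`w αᵢ = z δᵢ α²_{π i}` with `z` central and `π` a bijection. -/
theorem transferGrp_pullHom_conj {ι ι₂ : Type*} [Fintype ι] [Fintype ι₂]
    (X : TransferDatum Γ' Γ G ι) (X₂ : TransferDatum Γ' Γ G ι₂) (he' : X₂.e' = X.e')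
    (he : X₂.e = X.e) (W : Γ' →* Γ') (w : G) (hW : ∀ γ', w * X.e' γ' = X.e' (W γ') * w)
    (z : G) (hz : ∀ g, z * g = g * z) (π : ι ≃ ι₂) (δ : ι → Γ')
    (hπ : ∀ i, w * X.α i = z * (X.e' (δ i) * X₂.α (π i))) (φ : Additive Γ' →+ A) :
    X.transferGrp A (pullHom W A φ) = X₂.transferGrp A φ := by
  have key : ∀ (γ : Γ) (i : ι), X₂.cocycle γ (π i) =
      (δ i)⁻¹ * W (X.cocycle γ i) * δ (X.perm γ i) := by
    intro γ i
    apply X₂.cocycle_eq (j := π (X.perm γ i))
    have h1 := X.spec γ i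
    have h2 : w * X.α i * X.e γ = X.e' (W (X.cocycle γ i)) * (w * X.α (X.perm γ i)) := by
      rw [mul_assoc, h1, ← mul_assoc, hW, mul_assoc]
    rw [hπ, hπ, ← mul_assoc (X.e' _) z, ← hz, mul_assoc z, mul_assoc z] at h2
    have h3 := mul_left_cancel h2
    rw [he', he, map_mul, map_mul, map_inv]
    calc X₂.α (π i) * X.e γ
        = (X.e' (δ i))⁻¹ * (X.e' (δ i) * X₂.α (π i) * X.e γ) := by group
      _ = (X.e' (δ i))⁻¹ * (X.e' (W (X.cocycle γ i)) *
            (X.e' (δ (X.perm γ i)) * X₂.α (π (X.perm γ i)))) := by rw [h3]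
      _ = _ := by group
  refine AddMonoidHom.ext fun γ => ?_
  rw [TransferDatum.transferGrp_apply', TransferDatum.transferGrp_apply', ← Equiv.sum_comp π]
  have h2 : ∀ i, φ (Additive.ofMul (X₂.cocycle (Additive.toMul γ) (π i))) =
      pullHom W A φ (Additive.ofMul (X.cocycle (Additive.toMul γ) i)) +
        (φ (Additive.ofMul (δ (X.perm (Additive.toMul γ) i))) - φ (Additive.ofMul (δ i))) := by
    intro i
    rw [key, ofMul_mul, ofMul_mul, ofMul_inv, map_add, map_add, map_neg, pullHom_apply]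
    abel
  rw [Finset.sum_congr rfl fun i _ => h2 i, Finset.sum_add_distrib, Finset.sum_sub_distrib]
  have h3 : ∑ i, φ (Additive.ofMul (δ (X.perm (Additive.toMul γ) i))) =
      ∑ i, φ (Additive.ofMul (δ i)) :=
    Equiv.sum_comp (X.permEquiv (Additive.toMul γ)) (fun i => φ (Additive.ofMul (δ i)))
  rw [h3, sub_self, add_zero]

/-! ### `res_W ∘ res_W = id` -/

/-- **`res_W ∘ res_W = id`** when `w² = z m`, `z` central, `m ∈ Γ'`. -/
theorem pullHom_conj_conj (e' : Γ' →* G) (he' : Function.Injective e') (W : Γ' →* Γ') (w : G)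
    (hW : ∀ γ', w * e' γ' = e' (W γ') * w) (z : G) (hz : ∀ g, z * g = g * z) (m : Γ')
    (hww : w * w = z * e' m) (φ : Additive Γ' →+ A) :
    pullHom W A (pullHom W A φ) = φ := by
  have key : ∀ γ' : Γ', W (W γ') = m * γ' * m⁻¹ := by
    intro γ'
    have h1 : w * w * e' γ' = e' (W (W γ')) * (w * w) := by
      rw [mul_assoc, hW, ← mul_assoc, hW, mul_assoc]
    rw [hww, ← mul_assoc (e' _) z, ← hz, mul_assoc z, mul_assoc z] at h1
    have h2 := mul_left_cancel h1
    rw [← map_mul, ← map_mul] at h2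
    have h3 := he' h2
    rw [eq_mul_inv_iff_mul_eq, ← h3]
  refine AddMonoidHom.ext fun γ => ?_
  rw [pullHom_apply', pullHom_apply, key, ofMul_mul, ofMul_mul, ofMul_inv, map_add, map_add,
    map_neg]
  simp

end Fermat.Agent.LR
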