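/-
LR (level raising, S41) — helper4 — [XFER] part 2: **the matrix `j ∘ i`**:
`α_* α^* = q + 1 = β_* β^*`, `α_* β^* = T_q = β_* α^*` on `Hom(Γ₀(N), A)` (`T_q = heckeGrpP N q A`),
and the same on the parabolic classes in the shape consumed by [RAISE].
-/
import Mathlib
import Fermat.Agent.LR.XFER_helper4_Abstract

set_option autoImplicit false
set_option linter.unusedSectionVars false
set_option linter.unnecessarySeqFocus false
set_option linter.style.haveILetI false

namespace Fermat.Agent.LR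

open CongruenceSubgroup ModularForm Matrix ModularCurve.Period Fermat.Agent.X0N Fermat.Agent.GR
open scoped MatrixGroups

variable (N q : ℕ) (hq : q.Prime) (hqN : ¬ q ∣ N) {A : Type*} [AddCommGroup A]

theorem pullHom_id {Γ : Type*} [Group Γ] (ψ : Additive Γ →+ A) :
    pullHom (MonoidHom.id Γ) A ψ = ψ := rfl

/-- **`α_* α^* = q + 1`.** -/
theorem pushA_pullA (ψ : Additive (Gamma0 N) →+ A) :
    pushA N q hq hqN A (pullA N q A ψ) = (q + 1) • ψ := by
  have h := transferGrp_pullHom_eq_card (xferAlpha N q (bez_eq hq hqN) hq) (gammaEmb N)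
    (gammaEmb_injective N) (MonoidHom.id _) (fun _ => rfl) (inclHom N q) 1
    (fun γ' => by rw [mul_one, one_mul]; rfl) (alphaRep N q (bez_eq hq hqN)) (fun _ => rfl) ψ
  rw [Fintype.card_option, Fintype.card_fin, pullHom_id] at h
  exact h

/-- **`β_* β^* = q + 1`.** -/
theorem pushB_pullB (ψ : Additive (Gamma0 N) →+ A) :
    pushB N q hq hqN A (pullB N q hq A ψ) = (q + 1) • ψ := by
  have h := transferGrp_pullHom_eq_card (xferBeta N q (bez_eq hq hqN) hq) (gammaEmb N)
    (gammaEmb_injective N) (MonoidHom.id _) (fun _ => rfl) (conjDownHom N q hq) (heckeMatrix q 0)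
    (fun γ' => (heckeMatrix_mul_conjDownHom N q hq γ').symm) (betaRep N q (bez_eq hq hqN))
    (fun _ => rfl) ψ
  rw [Fintype.card_option, Fintype.card_fin, pullHom_id] at h
  exact h

/-- `T_q` on level `N` (`q ∤ N`). -/
theorem heckeGrpP_prime_eq :
    heckeGrpP N ⟨q, hq⟩ A = (heckeDatumT N q hq hqN).heckeGrp A :=
  heckeGrpP_of_not_dvd (ℓ := ⟨q, hq⟩) A hqN

/-- **`β_* α^* = T_q`.** -/
theorem pushB_pullA (ψ : Additive (Gamma0 N) →+ A) :
    pushB N q hq hqN A (pullA N q A ψ) = heckeGrpP N ⟨q, hq⟩ A ψ := by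
  rw [heckeGrpP_prime_eq N q hq hqN]
  refine transferGrp_pullHom_eq_heckeGrp (xferBeta N q (bez_eq hq hqN) hq)
    (heckeDatumT N q hq hqN) rfl (inclHom N q) 1 (fun γ' => by rw [mul_one, one_mul]; rfl)
    (Equiv.refl _)
    (fun i => match i with
      | none => ⟨alGammaOne N q _ _ (bez_eq hq hqN), alGammaOne_mem (bez_eq hq hqN)⟩
      | some _ => 1) ?_ ψ
  intro i
  cases i with
  | none =>
    rw [one_mul, xferBeta_α_none]
    rfl
  | some b =>
    rw [one_mul, xferBeta_α_some]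
    show heckeMatrix q (b : ℕ) = gammaEmb N 1 * heckeMatrix q (b : ℕ)
    rw [map_one, one_mul]

/-- **`α_* β^* = T_q`.** -/
theorem pushA_pullB (ψ : Additive (Gamma0 N) →+ A) :
    pushA N q hq hqN A (pullB N q hq A ψ) = heckeGrpP N ⟨q, hq⟩ A ψ := by
  rw [heckeGrpP_prime_eq N q hq hqN]
  have hs := isZMat_heckeDiagMatrix hq.ne_zero
  refine transferGrp_pullHom_eq_heckeGrp_of_exists (xferAlpha N q (bez_eq hq hqN) hq)
    (heckeDatumT N q hq hqN) rfl (conjDownHom N q hq) (heckeDiagMatrix q)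
    (fun γ' => heckeDiagMatrix_mul_gammaEmb N q hq γ') rfl ?_ ?_ ψ
  · intro i
    obtain ⟨k, δ, h⟩ := exists_heckeRepZ_mul hq none
      ((alphaRep N q (bez_eq hq hqN) i : Gamma0 N) : SL(2, ℤ))
    have hδ : δ ∈ Gamma0 N :=
      mem_Gamma0_of_heckeRepZ_mul hq hqN h (alphaRep N q (bez_eq hq hqN) i).2
    refine ⟨k, ⟨δ, hδ⟩, ?_⟩
    rw [xferAlpha_α]
    exact (heckeRep_mul_eq_iff hq.ne_zero none k _ _).mpr h
  · intro i i' γ h
    apply alpha_distinct (bez_eq hq hqN) hq
    rw [xferAlpha_α, xferAlpha_α] at h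
    have h1 : heckeDiagMatrix q * gammaEmb N (alphaRep N q (bez_eq hq hqN) i *
        (alphaRep N q (bez_eq hq hqN) i')⁻¹) = gammaEmb N γ * heckeDiagMatrix q := by
      rw [map_mul, map_inv, ← mul_assoc]
      show heckeDiagMatrix q * ((alphaRep N q (bez_eq hq hqN) i : SL(2, ℤ)) : GL (Fin 2) ℝ) *
        (((alphaRep N q (bez_eq hq hqN) i' : SL(2, ℤ)) : GL (Fin 2) ℝ))⁻¹ = _
      rw [h]
      show gammaEmb N γ * (heckeDiagMatrix q *
        ((alphaRep N q (bez_eq hq hqN) i' : SL(2, ℤ)) : GL (Fin 2) ℝ)) *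
        (((alphaRep N q (bez_eq hq hqN) i' : SL(2, ℤ)) : GL (Fin 2) ℝ))⁻¹ = _
      group
    have h2 := ((hs.mul (isZMat_gammaEmb _)).eq_iff ((isZMat_gammaEmb γ).mul hs)).mp h1
    rw [utZ_mul_eq_iff] at h2
    obtain ⟨-, -, h10, -⟩ := h2
    rw [one_mul] at h10
    rw [h10]
    exact dvd_mul_left _ _

/-! ### On the parabolic classes -/

section Par

variable (A) (R : Type*) [Semiring R] [Module R A]

theorem pushAPar_pullAPar (a : parabolicHoms R (Gamma0 N) A) :
    pushAPar N q hq hqN A R (pullAPar N q A R a) = (q + 1) • a :=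
  Subtype.ext (pushA_pullA N q hq hqN (a : Additive (Gamma0 N) →+ A))

theorem pushBPar_pullBPar (a : parabolicHoms R (Gamma0 N) A) :
    pushBPar N q hq hqN A R (pullBPar N q hq A R a) = (q + 1) • a :=
  Subtype.ext (pushB_pullB N q hq hqN (a : Additive (Gamma0 N) →+ A))

theorem pushBPar_pullAPar (a : parabolicHoms R (Gamma0 N) A) :
    pushBPar N q hq hqN A R (pullAPar N q A R a) = heckeParP N ⟨q, hq⟩ A R a :=
  Subtype.ext (pushB_pullA N q hq hqN (a : Additive (Gamma0 N) →+ A))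

theorem pushAPar_pullBPar (a : parabolicHoms R (Gamma0 N) A) :
    pushAPar N q hq hqN A R (pullBPar N q hq A R a) = heckeParP N ⟨q, hq⟩ A R a :=
  Subtype.ext (pushA_pullB N q hq hqN (a : Additive (Gamma0 N) →+ A))

/-- **`i = α^* + β^*`** on the parabolic classes. -/
noncomputable def degI :
    parabolicHoms R (Gamma0 N) A × parabolicHoms R (Gamma0 N) A →ₗ[R]
      parabolicHoms R (Gamma0 (N * q)) A :=
  (pullAPar N q A R).coprod (pullBPar N q hq A R)

/-- **`j = (α_*, β_*)`** on the parabolic classes. -/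
noncomputable def degJ :
    parabolicHoms R (Gamma0 (N * q)) A →ₗ[R]
      parabolicHoms R (Gamma0 N) A × parabolicHoms R (Gamma0 N) A :=
  (pushAPar N q hq hqN A R).prod (pushBPar N q hq hqN A R)

@[simp] theorem degI_apply (a : parabolicHoms R (Gamma0 N) A × parabolicHoms R (Gamma0 N) A) :
    degI N q hq A R a = pullAPar N q A R a.1 + pullBPar N q hq A R a.2 := rfl

@[simp] theorem degJ_apply (x : parabolicHoms R (Gamma0 (N * q)) A) :
    degJ N q hq hqN A R x = (pushAPar N q hq hqN A R x, pushBPar N q hq hqN A R x) := rfl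

/-- **`j ∘ i = [[q + 1, T_q], [T_q, q + 1]]`.** -/
theorem degJ_degI (a : parabolicHoms R (Gamma0 N) A × parabolicHoms R (Gamma0 N) A) :
    degJ N q hq hqN A R (degI N q hq A R a) =
      ((q + 1) • a.1 + heckeParP N ⟨q, hq⟩ A R a.2,
        heckeParP N ⟨q, hq⟩ A R a.1 + (q + 1) • a.2) := by
  rw [degJ_apply, degI_apply, map_add, map_add, pushAPar_pullAPar, pushAPar_pullBPar,
    pushBPar_pullAPar, pushBPar_pullBPar]

end Par

/-- `j ∘ i` with integer scalars (the shape of `RAISE_helper2_Abstract`, `L = parabolicHoms ℤ _ ℤ`). -/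
theorem degJ_degI_int
    (a : parabolicHoms ℤ (Gamma0 N) ℤ × parabolicHoms ℤ (Gamma0 N) ℤ) :
    degJ N q hq hqN ℤ ℤ (degI N q hq ℤ ℤ a) =
      (((q : ℤ) + 1) • a.1 + heckeParP N ⟨q, hq⟩ ℤ ℤ a.2,
        heckeParP N ⟨q, hq⟩ ℤ ℤ a.1 + ((q : ℤ) + 1) • a.2) := by
  rw [degJ_degI]
  have h : ∀ x : parabolicHoms ℤ (Gamma0 N) ℤ, (q + 1) • x = ((q : ℤ) + 1) • x := by
    intro x
    rw [← natCast_zsmul]
    push_cast
    rfl
  rw [h, h]

end Fermat.Agent.LR
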