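/-
LR (level raising, S41) — helper4 — [XFER] part 3: **the degeneracy maps commute with the Hecke
operators away from `q`**:

* `heckeGrpP_pullA`, `heckeGrpP_pullB` : `heckeGrpP (N q) ℓ ∘ α^* = α^* ∘ heckeGrpP N ℓ`, same for
  `β^*`, for every prime `ℓ ≠ q` (`T_ℓ` for `ℓ ∤ N q`, `U_ℓ` for `ℓ ∣ N`);
* `pushA_heckeGrpP_of_dvd`, `pushB_heckeGrpP_of_dvd` : `α_*`, `β_*` commute with `U_ℓ`, `ℓ ∣ N`
  (the case `ℓ ∤ N q` is `pushA_heckeGrpP`, `pushB_heckeGrpP`), and the uniform statements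
  `pushA_heckeGrpP_of_ne`, `pushB_heckeGrpP_of_ne` (`ℓ ≠ q`);
* the same on the parabolic classes.
-/
import Mathlib
import Fermat.Agent.LR.XFER_helper4_JI

set_option autoImplicit false
set_option linter.unusedSectionVars false
set_option linter.unnecessarySeqFocus false
set_option linter.style.haveILetI false

namespace Fermat.Agent.LR

open CongruenceSubgroup ModularForm Matrix ModularCurve.Period Fermat.Agent.X0N Fermat.Agent.GR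
open scoped MatrixGroups

/-! ### Integral matrices -/

theorem heckeRepZ_some (ℓ : ℕ) (b : Fin ℓ) : heckeRepZ ℓ (some b) = utZ 1 ((b : ℕ) : ℤ) ℓ := rfl

theorem heckeRepZ_none (ℓ : ℕ) : heckeRepZ ℓ none = utZ ℓ 0 1 := rfl

theorem coe_upperUni (t : ℤ) : ((upperUni t : SL(2, ℤ)) : Matrix (Fin 2) (Fin 2) ℤ) = utZ 1 t 1 := rfl

/-- `(1 b; 0 ℓ) = (1 t; 0 1) (1 r; 0 ℓ)` with `r = b mod ℓ`. -/
theorem exists_utZ_eq_upperUni_mul {ℓ : ℕ} (hℓ : 0 < ℓ) (b : ℤ) :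
    ∃ (r : Fin ℓ) (t : ℤ), utZ 1 b ℓ =
      ((upperUni t : SL(2, ℤ)) : Matrix (Fin 2) (Fin 2) ℤ) * heckeRepZ ℓ (some r) := by
  have hℓ' : (0 : ℤ) < ℓ := by exact_mod_cast hℓ
  have h0 : 0 ≤ b % (ℓ : ℤ) := Int.emod_nonneg _ hℓ'.ne'
  have h1 : b % (ℓ : ℤ) < ℓ := Int.emod_lt_of_pos _ hℓ'
  have h2 : ((b % (ℓ : ℤ)).toNat : ℤ) = b % (ℓ : ℤ) := Int.toNat_of_nonneg h0
  refine ⟨⟨(b % (ℓ : ℤ)).toNat, by
    have : ((b % (ℓ : ℤ)).toNat : ℤ) < ℓ := by rw [h2]; exact h1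
    exact_mod_cast this⟩, b / (ℓ : ℤ), ?_⟩
  rw [coe_upperUni, heckeRepZ_some, utZ_mul_utZ]
  show utZ 1 b ℓ = utZ (1 * 1) (1 * ((b % (ℓ : ℤ)).toNat : ℤ) + b / (ℓ : ℤ) * ℓ) (1 * ℓ)
  rw [h2, one_mul, one_mul, one_mul]
  have h3 : b % (ℓ : ℤ) + b / (ℓ : ℤ) * ℓ = b := by
    have := Int.emod_add_mul_ediv b ℓ
    linarith
  rw [h3]

theorem utZ_injective {a b d a' b' d' : ℤ} (h : utZ a b d = utZ a' b' d') :
    a = a' ∧ b = b' ∧ d = d' := by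
  have h00 := congrFun (congrFun h 0) 0
  have h01 := congrFun (congrFun h 0) 1
  have h11 := congrFun (congrFun h 1) 1
  simp [utZ] at h00 h01 h11
  exact ⟨h00, h01, h11⟩

/-- the cosets `Γ (q 0; 0 1) βₖ` (`βₖ` the Hecke representatives at `ℓ ≠ q`) are pairwise
distinct. -/
theorem eq_of_utZ_mul_heckeRepZ_eq {ℓ q : ℕ} (hℓ : ℓ.Prime) (hq : 0 < q)
    (hℓq : ¬ (ℓ : ℤ) ∣ (q : ℤ)) {k k' : Option (Fin ℓ)} {γ : SL(2, ℤ)}
    (h : utZ q 0 1 * heckeRepZ ℓ k =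
      (γ : Matrix (Fin 2) (Fin 2) ℤ) * (utZ q 0 1 * heckeRepZ ℓ k')) : k = k' := by
  have hℓp : Prime (ℓ : ℤ) := Nat.prime_iff_prime_int.mp hℓ
  have hq' : (0 : ℤ) < q := by exact_mod_cast hq
  have hℓ' : (1 : ℤ) < ℓ := by exact_mod_cast hℓ.one_lt
  have hApos : ∀ k : Option (Fin ℓ), 0 < repA ℓ k := by
    intro k; cases k <;> simp [repA] <;> omega
  have h' : utZ ((q : ℤ) * repA ℓ k) ((q : ℤ) * repB ℓ k + 0 * repD ℓ k) (1 * repD ℓ k) *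
      ((1 : SL(2, ℤ)) : Matrix (Fin 2) (Fin 2) ℤ) = (γ : Matrix (Fin 2) (Fin 2) ℤ) *
      utZ ((q : ℤ) * repA ℓ k') ((q : ℤ) * repB ℓ k' + 0 * repD ℓ k') (1 * repD ℓ k') := by
    rw [Matrix.SpecialLinearGroup.coe_one, mul_one, ← utZ_mul_utZ, ← utZ_mul_utZ]
    exact h
  rw [utZ_mul_eq_iff] at h'
  obtain ⟨h00, h01, h10, h11⟩ := h'
  simp only [Matrix.SpecialLinearGroup.coe_one, Matrix.one_apply_eq, Matrix.one_apply_ne,
    ne_eq, one_ne_zero, zero_ne_one, not_false_eq_true, mul_one, mul_zero, add_zero,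
    zero_add, zero_mul, one_mul] at h00 h01 h10 h11
  have hdet := SL2_det_eq γ
  have hγ10 : γ 1 0 = 0 := by
    rcases mul_eq_zero.mp h10.symm with h | h
    · exact h
    · exact absurd h (mul_pos hq' (hApos k')).ne'
  rw [hγ10, mul_zero, sub_zero] at hdet
  rw [hγ10, zero_mul, zero_add] at h11
  have h1 : γ 0 0 = 1 ∧ γ 1 1 = 1 := by
    rcases Int.mul_eq_one_iff_eq_one_or_neg_one.mp hdet with h | h
    · exact h
    · exfalso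
      have h2 := mul_pos hq' (hApos k)
      rw [h00, h.1] at h2
      have h3 := mul_pos hq' (hApos k')
      linarith
  rw [h1.1, one_mul] at h00 h01
  rw [h1.2, one_mul] at h11
  have hA : repA ℓ k = repA ℓ k' := mul_left_cancel₀ hq'.ne' h00
  cases k with
  | none =>
    cases k' with
    | none => rfl
    | some b' =>
      exfalso
      simp only [repA] at hA
      omega
  | some b =>
    cases k' with
    | none =>
      exfalso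
      simp only [repA] at hA
      omega
    | some b' =>
      simp only [repB, repD] at h01
      have h2 : (ℓ : ℤ) ∣ (q : ℤ) * (((b : ℕ) : ℤ) - ((b' : ℕ) : ℤ)) :=
        ⟨γ 0 1, by rw [mul_sub, h01]; ring⟩
      have h3 := (hℓp.dvd_or_dvd h2).resolve_left hℓq
      rw [fin_eq_of_dvd_sub b b' h3]

/-! ### `α^*` -/

section PullA

variable (N q : ℕ) (hq : q.Prime) {A : Type*} [AddCommGroup A]

include hq in
theorem not_dvd_mul_of_ne {ℓ : ℕ} (hℓ : ℓ.Prime) (hℓq : ℓ ≠ q) (h : ¬ ℓ ∣ N) : ¬ ℓ ∣ N * q := by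
  intro hd
  rcases (Nat.Prime.dvd_mul hℓ).mp hd with h1 | h1
  · exact h h1
  · exact hℓq ((Nat.prime_dvd_prime_iff_eq hℓ hq).mp h1)

include hq in
/-- **`heckeGrpP (N q) ℓ ∘ α^* = α^* ∘ heckeGrpP N ℓ`** for every prime `ℓ ≠ q`. -/
theorem heckeGrpP_pullA (ℓ : Nat.Primes) (hℓq : (ℓ : ℕ) ≠ q) (ψ : Additive (Gamma0 N) →+ A) :
    heckeGrpP (N * q) ℓ A (pullA N q A ψ) = pullA N q A (heckeGrpP N ℓ A ψ) := by
  by_cases h : (ℓ : ℕ) ∣ N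
  · have h' : (ℓ : ℕ) ∣ N * q := Dvd.dvd.mul_right h q
    rw [heckeGrpP_of_dvd A h', heckeGrpP_of_dvd A h]
    exact heckeGrp_pullHom (heckeDatumU (N * q) ℓ ℓ.2 h') (heckeDatumU N ℓ ℓ.2 h) (inclHom N q)
      (MonoidHom.id _) (fun _ => rfl) (Equiv.refl _) (fun _ => 1)
      (fun k => by
        show heckeMatrix ℓ (k : ℕ) = gammaEmb N 1 * heckeMatrix ℓ (k : ℕ)
        rw [map_one, one_mul]) ψ
  · have h' : ¬ (ℓ : ℕ) ∣ N * q := not_dvd_mul_of_ne N q hq ℓ.2 hℓq h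
    rw [heckeGrpP_of_not_dvd A h', heckeGrpP_of_not_dvd A h]
    exact heckeGrp_pullHom (heckeDatumT (N * q) ℓ ℓ.2 h') (heckeDatumT N ℓ ℓ.2 h) (inclHom N q)
      (MonoidHom.id _) (fun _ => rfl) (Equiv.refl _) (fun _ => 1)
      (fun k => by
        show heckeRep ℓ k = gammaEmb N 1 * heckeRep ℓ k
        rw [map_one, one_mul]) ψ

end PullA

/-! ### `β^*` -/

section PullB

variable (N q : ℕ) (hq : q.Prime) {A : Type*} [AddCommGroup A]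

/-- conjugation by `diag(q, 1)`. -/
noncomputable def conjDiagHom (q : ℕ) : GL (Fin 2) ℝ →* GL (Fin 2) ℝ :=
  (MulAut.conj (heckeDiagMatrix q)).toMonoidHom

theorem conjDiagHom_apply (q : ℕ) (g : GL (Fin 2) ℝ) :
    conjDiagHom q g = heckeDiagMatrix q * g * (heckeDiagMatrix q)⁻¹ := rfl

theorem conjDiagHom_eq_iff (q : ℕ) (g g' : GL (Fin 2) ℝ) :
    conjDiagHom q g = g' ↔ heckeDiagMatrix q * g = g' * heckeDiagMatrix q := by
  rw [conjDiagHom_apply, mul_inv_eq_iff_eq_mul]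

theorem conjDiagHom_gammaEmb (γ' : Gamma0 (N * q)) :
    conjDiagHom q (gammaEmb (N * q) γ') = gammaEmb N (conjDownHom N q hq γ') :=
  (conjDiagHom_eq_iff q _ _).mpr (heckeDiagMatrix_mul_gammaEmb N q hq γ')

include hq in
/-- `diag(q,1) (1 b; 0 ℓ) diag(q,1)⁻¹ = (1 t; 0 1) (1 r; 0 ℓ)`, `q b = t ℓ + r`. -/
theorem exists_conjDiagHom_heckeMatrix {ℓ : ℕ} (hℓ : ℓ.Prime) (b : Fin ℓ) :
    ∃ (r : Fin ℓ) (δ : Gamma0 N),
      conjDiagHom q (heckeRep ℓ (some b)) = gammaEmb N δ * heckeRep ℓ (some r) := by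
  obtain ⟨r, t, hrt⟩ := exists_utZ_eq_upperUni_mul hℓ.pos ((q : ℤ) * ((b : ℕ) : ℤ))
  refine ⟨r, ⟨upperUni t, upperUni_mem N t⟩, ?_⟩
  rw [conjDiagHom_eq_iff]
  refine (((isZMat_heckeDiagMatrix hq.ne_zero).mul (isZMat_heckeRep hℓ.ne_zero (some b))).eq_iff
    (((isZMat_gammaEmb _).mul (isZMat_heckeRep hℓ.ne_zero (some r))).mul
      (isZMat_heckeDiagMatrix hq.ne_zero))).mpr ?_
  show utZ q 0 1 * heckeRepZ ℓ (some b) =
    ((upperUni t : SL(2, ℤ)) : Matrix (Fin 2) (Fin 2) ℤ) * heckeRepZ ℓ (some r) * utZ q 0 1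
  rw [← hrt, heckeRepZ_some, utZ_mul_utZ, utZ_mul_utZ]
  congr 1 <;> ring

include hq in
theorem conjDiagHom_heckeDiagMatrix {ℓ : ℕ} (hℓ : ℓ ≠ 0) :
    conjDiagHom q (heckeRep ℓ none) = gammaEmb N 1 * heckeRep ℓ none := by
  rw [conjDiagHom_eq_iff, map_one, one_mul]
  refine (((isZMat_heckeDiagMatrix hq.ne_zero).mul (isZMat_heckeRep hℓ none)).eq_iff
    ((isZMat_heckeRep hℓ none).mul (isZMat_heckeDiagMatrix hq.ne_zero))).mpr ?_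
  rw [heckeRepZ_none, utZ_mul_utZ, utZ_mul_utZ]
  congr 1 <;> ring

include hq in
theorem conjDiagHom_heckeRep_distinct {ℓ : ℕ} (hℓ : ℓ.Prime) (hℓq : ℓ ≠ q)
    (k k' : Option (Fin ℓ)) (γ : Gamma0 N)
    (h : conjDiagHom q (heckeRep ℓ k) = gammaEmb N γ * conjDiagHom q (heckeRep ℓ k')) :
    k = k' := by
  have hℓq' : ¬ (ℓ : ℤ) ∣ (q : ℤ) := by
    intro hd
    have h1 : ℓ ∣ q := by exact_mod_cast hd
    exact hℓq ((Nat.prime_dvd_prime_iff_eq hℓ hq).mp h1)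
  rw [conjDiagHom_eq_iff, conjDiagHom_apply, mul_assoc, mul_assoc, inv_mul_cancel, mul_one,
    ← mul_assoc] at h
  have h1 := (((isZMat_heckeDiagMatrix hq.ne_zero).mul (isZMat_heckeRep hℓ.ne_zero k)).eq_iff
    (((isZMat_gammaEmb γ).mul (isZMat_heckeDiagMatrix hq.ne_zero)).mul
      (isZMat_heckeRep hℓ.ne_zero k'))).mp h
  rw [mul_assoc] at h1
  exact eq_of_utZ_mul_heckeRepZ_eq hℓ hq.pos hℓq' h1

/-- **`heckeGrpP (N q) ℓ ∘ β^* = β^* ∘ heckeGrpP N ℓ`** for every prime `ℓ ≠ q`. -/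
theorem heckeGrpP_pullB (ℓ : Nat.Primes) (hℓq : (ℓ : ℕ) ≠ q) (ψ : Additive (Gamma0 N) →+ A) :
    heckeGrpP (N * q) ℓ A (pullB N q hq A ψ) = pullB N q hq A (heckeGrpP N ℓ A ψ) := by
  by_cases h : (ℓ : ℕ) ∣ N
  · have h' : (ℓ : ℕ) ∣ N * q := Dvd.dvd.mul_right h q
    rw [heckeGrpP_of_dvd A h', heckeGrpP_of_dvd A h]
    refine heckeGrp_pullHom_of_exists (heckeDatumU (N * q) ℓ ℓ.2 h') (heckeDatumU N ℓ ℓ.2 h)
      (conjDownHom N q hq) (conjDiagHom q) (fun γ' => conjDiagHom_gammaEmb N q hq γ') rfl ?_ ?_ ψ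
    · intro k
      exact exists_conjDiagHom_heckeMatrix N q hq ℓ.2 k
    · intro k k' γ hk
      exact Option.some_injective _
        (conjDiagHom_heckeRep_distinct N q hq ℓ.2 hℓq (some k) (some k') γ hk)
  · have h' : ¬ (ℓ : ℕ) ∣ N * q := not_dvd_mul_of_ne N q hq ℓ.2 hℓq h
    rw [heckeGrpP_of_not_dvd A h', heckeGrpP_of_not_dvd A h]
    refine heckeGrp_pullHom_of_exists (heckeDatumT (N * q) ℓ ℓ.2 h') (heckeDatumT N ℓ ℓ.2 h)
      (conjDownHom N q hq) (conjDiagHom q) (fun γ' => conjDiagHom_gammaEmb N q hq γ') rfl ?_ ?_ ψ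
    · intro k
      cases k with
      | none => exact ⟨none, 1, conjDiagHom_heckeDiagMatrix N q hq ℓ.2.ne_zero⟩
      | some b =>
        obtain ⟨r, δ, hr⟩ := exists_conjDiagHom_heckeMatrix N q hq ℓ.2 b
        exact ⟨some r, δ, hr⟩
    · intro k k' γ hk
      exact conjDiagHom_heckeRep_distinct N q hq ℓ.2 hℓq k k' γ hk

end PullB

/-! ### `α_*`, `β_*` and `U_ℓ`, `ℓ ∣ N` -/

section Push

variable (N q : ℕ) (hq : q.Prime) (hqN : ¬ q ∣ N) {A : Type*} [AddCommGroup A]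

include hqN in
theorem ne_of_dvd_of_not_dvd {ℓ : ℕ} (hℓ : ℓ ∣ N) : q ≠ ℓ := fun h => hqN (h ▸ hℓ)

/-- **`α_* ∘ U_ℓ = U_ℓ ∘ α_*`** for every prime `ℓ ∣ N`. -/
theorem pushA_heckeGrpP_of_dvd (ℓ : Nat.Primes) (hℓ : (ℓ : ℕ) ∣ N)
    (ψ : Additive (Gamma0 (N * q)) →+ A) :
    pushA N q hq hqN A (heckeGrpP (N * q) ℓ A ψ) = heckeGrpP N ℓ A (pushA N q hq hqN A ψ) := by
  have hℓ' : (ℓ : ℕ) ∣ N * q := Dvd.dvd.mul_right hℓ q
  have hne : q ≠ (ℓ : ℕ) := ne_of_dvd_of_not_dvd N q hqN hℓ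
  have hqp : Prime (q : ℤ) := Nat.prime_iff_prime_int.mp hq
  rw [heckeGrpP_of_dvd A hℓ', heckeGrpP_of_dvd A hℓ]
  refine (conjRepsAlpha N q (bez_eq hq hqN) hq).transferGrp_heckeGrp_comm
    (heckeDatumU (N * q) ℓ ℓ.2 hℓ') (heckeDatumU N ℓ ℓ.2 hℓ) rfl rfl ?_ ?_ ψ
  · intro k g₀
    refine ⟨(heckeDatumU N ℓ ℓ.2 hℓ).perm g₀ k, (heckeDatumU N ℓ ℓ.2 hℓ).cocycle g₀ k, ?_⟩
    show heckeRep ℓ (some k) * 1 * gammaEmb N g₀ = 1 * gammaEmb N _ * heckeRep ℓ (some _)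
    rw [mul_one, one_mul]
    exact (heckeDatumU N ℓ ℓ.2 hℓ).spec g₀ k
  · intro k k₂ g₀ δ hk
    change heckeRep ℓ (some k) * 1 * gammaEmb N g₀ =
      gammaEmb (N * q) δ * heckeRep ℓ (some k₂) * 1 at hk
    rw [mul_one, mul_one] at hk
    have h1 := (heckeRep_mul_eq_iff ℓ.2.ne_zero (some k) (some k₂) (g₀ : SL(2, ℤ))
      (δ : SL(2, ℤ))).mp hk
    rw [heckeRepZ, heckeRepZ, utZ_mul_eq_iff] at h1
    obtain ⟨-, -, h10, -⟩ := h1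
    have h2 : ((N * q : ℕ) : ℤ) ∣ (δ : SL(2, ℤ)) 1 0 := (mem_Gamma0_iff_dvd _).mp δ.2
    push_cast at h2
    have h3 : (q : ℤ) ∣ repD ℓ (some k) * (g₀ : SL(2, ℤ)) 1 0 := by
      rw [h10]
      exact Dvd.dvd.mul_right (dvd_trans (dvd_mul_left _ _) h2) _
    exact (hqp.dvd_or_dvd h3).resolve_left (not_dvd_repD ℓ.2 hq hne (some k))

/-- **`β_* ∘ U_ℓ = U_ℓ ∘ β_*`** for every prime `ℓ ∣ N`. -/
theorem pushB_heckeGrpP_of_dvd (ℓ : Nat.Primes) (hℓ : (ℓ : ℕ) ∣ N)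
    (ψ : Additive (Gamma0 (N * q)) →+ A) :
    pushB N q hq hqN A (heckeGrpP (N * q) ℓ A ψ) = heckeGrpP N ℓ A (pushB N q hq hqN A ψ) := by
  have hℓ' : (ℓ : ℕ) ∣ N * q := Dvd.dvd.mul_right hℓ q
  have hne : q ≠ (ℓ : ℕ) := ne_of_dvd_of_not_dvd N q hqN hℓ
  have hqp : Prime (q : ℤ) := Nat.prime_iff_prime_int.mp hq
  have hσ := isZMat_heckeMatrix_zero hq.ne_zero
  rw [heckeGrpP_of_dvd A hℓ', heckeGrpP_of_dvd A hℓ]
  refine (conjRepsBeta N q (bez_eq hq hqN) hq).transferGrp_heckeGrp_comm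
    (heckeDatumU (N * q) ℓ ℓ.2 hℓ') (heckeDatumU N ℓ ℓ.2 hℓ) rfl rfl ?_ ?_ ψ
  · intro k g₀
    show ∃ (b : Fin ℓ) (γ : Gamma0 N),
      heckeRep ℓ (some k) * heckeMatrix q 0 * gammaEmb N g₀ =
        heckeMatrix q 0 * gammaEmb N γ * heckeRep ℓ (some b)
    obtain ⟨r, t, hrt⟩ := exists_utZ_eq_upperUni_mul ℓ.2.pos (((k : ℕ) : ℤ) * (q : ℤ))
    obtain ⟨j, δ₀, h⟩ := exists_heckeRepZ_mul ℓ.2 (some r) (g₀ : SL(2, ℤ))
    obtain ⟨⟨b', rfl⟩, hδ₀⟩ := some_of_heckeRepZ_mul ℓ.2 hℓ h g₀.2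
    refine ⟨b', ⟨upperUni t * δ₀, Subgroup.mul_mem _ (upperUni_mem N t) hδ₀⟩, ?_⟩
    refine ((((isZMat_heckeRep ℓ.2.ne_zero (some k)).mul hσ).mul (isZMat_gammaEmb g₀)).eq_iff
      ((hσ.mul (isZMat_gammaEmb _)).mul (isZMat_heckeRep ℓ.2.ne_zero (some b')))).mpr ?_
    show heckeRepZ ℓ (some k) * utZ 1 0 q * (g₀ : SL(2, ℤ)) =
      utZ 1 0 q * ((upperUni t * δ₀ : SL(2, ℤ)) : Matrix (Fin 2) (Fin 2) ℤ) *
        heckeRepZ ℓ (some b')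
    have e1 : heckeRepZ ℓ (some k) * utZ 1 0 q =
        utZ 1 0 q * utZ 1 (((k : ℕ) : ℤ) * (q : ℤ)) ℓ := by
      rw [heckeRepZ_some, utZ_mul_utZ, utZ_mul_utZ]
      congr 1 <;> ring
    rw [e1, hrt, Matrix.SpecialLinearGroup.coe_mul, mul_assoc, mul_assoc, h, mul_assoc, mul_assoc]
  · intro k k₂ g₀ δ hk
    change heckeRep ℓ (some k) * heckeMatrix q 0 * gammaEmb N g₀ =
      gammaEmb (N * q) δ * heckeRep ℓ (some k₂) * heckeMatrix q 0 at hk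
    have h1 := ((((isZMat_heckeRep ℓ.2.ne_zero (some k)).mul hσ).mul (isZMat_gammaEmb g₀)).eq_iff
      (((isZMat_gammaEmb δ).mul (isZMat_heckeRep ℓ.2.ne_zero (some k₂))).mul hσ)).mp hk
    rw [heckeRepZ, heckeRepZ, utZ_mul_utZ, mul_assoc, utZ_mul_utZ, utZ_mul_eq_iff] at h1
    obtain ⟨-, h01, -, -⟩ := h1
    have h3 : (q : ℤ) ∣ repA ℓ (some k) * 1 * (g₀ : SL(2, ℤ)) 0 1 := by
      have h4 : repA ℓ (some k) * 1 * (g₀ : SL(2, ℤ)) 0 1 =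
          (δ : SL(2, ℤ)) 0 0 * (repA ℓ (some k₂) * 0 + repB ℓ (some k₂) * (q : ℤ)) +
            (δ : SL(2, ℤ)) 0 1 * (repD ℓ (some k₂) * (q : ℤ)) -
          (repA ℓ (some k) * 0 + repB ℓ (some k) * (q : ℤ)) * (g₀ : SL(2, ℤ)) 1 1 := by
        rw [← h01]; ring
      rw [h4]
      refine dvd_sub (dvd_add ?_ ?_) ?_
      · exact Dvd.dvd.mul_left (dvd_add (Dvd.dvd.mul_left (dvd_zero _) _) (dvd_mul_left _ _)) _
      · exact Dvd.dvd.mul_left (dvd_mul_left _ _) _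
      · exact Dvd.dvd.mul_right
          (dvd_add (Dvd.dvd.mul_left (dvd_zero _) _) (dvd_mul_left _ _)) _
    rw [mul_one] at h3
    exact (hqp.dvd_or_dvd h3).resolve_left (not_dvd_repA ℓ.2 hq hne (some k))

/-- **`α_*` commutes with `heckeGrpP ℓ`** for every prime `ℓ ≠ q`. -/
theorem pushA_heckeGrpP_of_ne (ℓ : Nat.Primes) (hℓq : (ℓ : ℕ) ≠ q)
    (ψ : Additive (Gamma0 (N * q)) →+ A) :
    pushA N q hq hqN A (heckeGrpP (N * q) ℓ A ψ) = heckeGrpP N ℓ A (pushA N q hq hqN A ψ) := by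
  by_cases h : (ℓ : ℕ) ∣ N
  · exact pushA_heckeGrpP_of_dvd N q hq hqN ℓ h ψ
  · exact pushA_heckeGrpP N q hq hqN ℓ (not_dvd_mul_of_ne N q hq ℓ.2 hℓq h) ψ

/-- **`β_*` commutes with `heckeGrpP ℓ`** for every prime `ℓ ≠ q`. -/
theorem pushB_heckeGrpP_of_ne (ℓ : Nat.Primes) (hℓq : (ℓ : ℕ) ≠ q)
    (ψ : Additive (Gamma0 (N * q)) →+ A) :
    pushB N q hq hqN A (heckeGrpP (N * q) ℓ A ψ) = heckeGrpP N ℓ A (pushB N q hq hqN A ψ) := by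
  by_cases h : (ℓ : ℕ) ∣ N
  · exact pushB_heckeGrpP_of_dvd N q hq hqN ℓ h ψ
  · exact pushB_heckeGrpP N q hq hqN ℓ (not_dvd_mul_of_ne N q hq ℓ.2 hℓq h) ψ

end Push

/-! ### On the parabolic classes -/

section Par

variable (N q : ℕ) (hq : q.Prime) (hqN : ¬ q ∣ N) (A : Type*) [AddCommGroup A]
  (R : Type*) [Semiring R] [Module R A]

include hq in
theorem heckeParP_pullAPar (ℓ : Nat.Primes) (hℓq : (ℓ : ℕ) ≠ q)
    (a : parabolicHoms R (Gamma0 N) A) :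
    heckeParP (N * q) ℓ A R (pullAPar N q A R a) = pullAPar N q A R (heckeParP N ℓ A R a) :=
  Subtype.ext (heckeGrpP_pullA N q hq ℓ hℓq (a : Additive (Gamma0 N) →+ A))

theorem heckeParP_pullBPar (ℓ : Nat.Primes) (hℓq : (ℓ : ℕ) ≠ q)
    (a : parabolicHoms R (Gamma0 N) A) :
    heckeParP (N * q) ℓ A R (pullBPar N q hq A R a) =
      pullBPar N q hq A R (heckeParP N ℓ A R a) :=
  Subtype.ext (heckeGrpP_pullB N q hq ℓ hℓq (a : Additive (Gamma0 N) →+ A))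

theorem pushAPar_heckeParP (ℓ : Nat.Primes) (hℓq : (ℓ : ℕ) ≠ q)
    (x : parabolicHoms R (Gamma0 (N * q)) A) :
    pushAPar N q hq hqN A R (heckeParP (N * q) ℓ A R x) =
      heckeParP N ℓ A R (pushAPar N q hq hqN A R x) :=
  Subtype.ext (pushA_heckeGrpP_of_ne N q hq hqN ℓ hℓq (x : Additive (Gamma0 (N * q)) →+ A))

theorem pushBPar_heckeParP (ℓ : Nat.Primes) (hℓq : (ℓ : ℕ) ≠ q)
    (x : parabolicHoms R (Gamma0 (N * q)) A) :
    pushBPar N q hq hqN A R (heckeParP (N * q) ℓ A R x) =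
      heckeParP N ℓ A R (pushBPar N q hq hqN A R x) :=
  Subtype.ext (pushB_heckeGrpP_of_ne N q hq hqN ℓ hℓq (x : Additive (Gamma0 (N * q)) →+ A))

/-- `i = α^* + β^*` is Hecke-equivariant away from `q`. -/
theorem heckeParP_degI (ℓ : Nat.Primes) (hℓq : (ℓ : ℕ) ≠ q)
    (a : parabolicHoms R (Gamma0 N) A × parabolicHoms R (Gamma0 N) A) :
    heckeParP (N * q) ℓ A R (degI N q hq A R a) =
      degI N q hq A R (heckeParP N ℓ A R a.1, heckeParP N ℓ A R a.2) := by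
  rw [degI_apply, degI_apply, map_add, heckeParP_pullAPar N q hq A R ℓ hℓq,
    heckeParP_pullBPar N q hq A R ℓ hℓq]

/-- `j = (α_*, β_*)` is Hecke-equivariant away from `q`. -/
theorem degJ_heckeParP (ℓ : Nat.Primes) (hℓq : (ℓ : ℕ) ≠ q)
    (x : parabolicHoms R (Gamma0 (N * q)) A) :
    degJ N q hq hqN A R (heckeParP (N * q) ℓ A R x) =
      (heckeParP N ℓ A R (degJ N q hq hqN A R x).1, heckeParP N ℓ A R (degJ N q hq hqN A R x).2) := by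
  rw [degJ_apply, degJ_apply, pushAPar_heckeParP N q hq hqN A R ℓ hℓq,
    pushBPar_heckeParP N q hq hqN A R ℓ hℓq]

end Par

end Fermat.Agent.LR
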