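/-
LR (level raising, S41) — helper4 — [XFER] part 4: **the Atkin–Lehner pull-back `W^*` at `q` on
`Hom(Γ₀(N q), A)`** (conjugation by `w = γ₁ · diag(q, 1)`, which normalises `Γ₀(N q)`), and

* `pullA_pushB`   : `α^* β_* = U_q + W^*`   (`U_q = heckeGrpP (N q) q`);
* `pushB_atkinW`  : `β_* W^* = α_*`;   `pushA_atkinW` : `α_* W^* = β_*`;
* `atkinW_atkinW` : `W^* W^* = id`;
* `heckeGrpP_new` : on `V_new = ker α_* ∩ ker β_*`: `U_q = − W^*`, `V_new` is stable under `U_q`, and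
  `U_q ∘ U_q = id` there;
* `newSub` : `V_new` as a submodule, stable under `heckeGrpP (N q) ℓ` for EVERY prime `ℓ`.
-/
import Mathlib
import Fermat.Agent.LR.XFER_helper4_Hecke

set_option autoImplicit false
set_option linter.unusedSectionVars false
set_option linter.unnecessarySeqFocus false
set_option linter.style.haveILetI false

namespace Fermat.Agent.LR

open CongruenceSubgroup ModularForm Matrix ModularCurve.Period Fermat.Agent.X0N Fermat.Agent.GR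
open scoped MatrixGroups

/-! ### The scalar matrix `q` -/

/-- the scalar matrix `q = diag(q, 1) · diag(1, q)` in `GL₂(ℝ)`. -/
noncomputable def scalarQ (q : ℕ) : GL (Fin 2) ℝ := heckeDiagMatrix q * heckeMatrix q 0

theorem isZMat_scalarQ {q : ℕ} (hq : q ≠ 0) : IsZMat (scalarQ q) (utZ q 0 q) := by
  have h := (isZMat_heckeDiagMatrix hq).mul (isZMat_heckeMatrix_zero hq)
  rw [utZ_mul_utZ] at h
  have e : utZ ((q : ℤ) * 1) ((q : ℤ) * 0 + 0 * (q : ℤ)) (1 * (q : ℤ)) = utZ q 0 q := by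
    congr 1 <;> ring
  rw [e] at h
  exact h

theorem scalarQ_central {q : ℕ} (hq : q ≠ 0) (g : GL (Fin 2) ℝ) :
    scalarQ q * g = g * scalarQ q := by
  have h1 : ((scalarQ q : GL (Fin 2) ℝ) : Matrix (Fin 2) (Fin 2) ℝ) =
      (q : ℝ) • (1 : Matrix (Fin 2) (Fin 2) ℝ) := by
    rw [isZMat_scalarQ hq]
    ext i j
    fin_cases i <;> fin_cases j <;> simp [utZ]
  apply Units.ext
  rw [Units.val_mul, Units.val_mul, h1, Matrix.smul_mul, Matrix.mul_smul, one_mul, mul_one]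

/-! ### The Atkin–Lehner conjugation -/

section W

variable (N q : ℕ) (hq : q.Prime) (hqN : ¬ q ∣ N)

/-- `γ₁ = (1 −y; N q x) ∈ Γ₀(N)`, `q x + N y = 1`. -/
noncomputable def gOne : Gamma0 N :=
  ⟨alGammaOne N q (bezX hq hqN) (bezY hq hqN) (bez_eq hq hqN), alGammaOne_mem (bez_eq hq hqN)⟩

theorem coe_gOne : ((gOne N q hq hqN : Gamma0 N) : SL(2, ℤ)) =
    alGammaOne N q (bezX hq hqN) (bezY hq hqN) (bez_eq hq hqN) := rfl

theorem gOne_one_zero : ((gOne N q hq hqN : Gamma0 N) : SL(2, ℤ)) 1 0 = N := rfl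

theorem gOne_one_one : ((gOne N q hq hqN : Gamma0 N) : SL(2, ℤ)) 1 1 = (q : ℤ) * bezX hq hqN := rfl

/-- `γ' ↦ γ₁ · conjDown γ' · γ₁⁻¹` with values in `SL₂(ℤ)`. -/
noncomputable def wHomSL : Gamma0 (N * q) →* SL(2, ℤ) :=
  (Gamma0 N).subtype.comp
    ((MulAut.conj (gOne N q hq hqN)).toMonoidHom.comp (conjDownHom N q hq))

theorem wHomSL_apply (γ : Gamma0 (N * q)) :
    wHomSL N q hq hqN γ =
      ((gOne N q hq hqN * conjDownHom N q hq γ * (gOne N q hq hqN)⁻¹ : Gamma0 N) : SL(2, ℤ)) := rfl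

theorem SL2_mul_one_zero (a b : SL(2, ℤ)) : (a * b) 1 0 = a 1 0 * b 0 0 + a 1 1 * b 1 0 := by
  rw [Matrix.SpecialLinearGroup.coe_mul, Matrix.mul_apply, Fin.sum_univ_two]

theorem SL2_mul_one_one (a b : SL(2, ℤ)) : (a * b) 1 1 = a 1 0 * b 0 1 + a 1 1 * b 1 1 := by
  rw [Matrix.SpecialLinearGroup.coe_mul, Matrix.mul_apply, Fin.sum_univ_two]

theorem wHomSL_mem (γ : Gamma0 (N * q)) : wHomSL N q hq hqN γ ∈ Gamma0 (N * q) := by
  rw [wHomSL_apply, mem_Gamma0_iff_dvd]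
  have hcast : ((N * q : ℕ) : ℤ) = (N : ℤ) * (q : ℤ) := by push_cast; ring
  rw [hcast]
  have hN : (N : ℤ) ∣ ((gOne N q hq hqN * conjDownHom N q hq γ * (gOne N q hq hqN)⁻¹ : Gamma0 N) :
      SL(2, ℤ)) 1 0 := (mem_Gamma0_iff_dvd _).mp (Subtype.property _)
  refine (xferd_isCoprime_of_bezout N q (bez_eq hq hqN)).mul_dvd hN ?_
  rw [Subgroup.coe_mul, Subgroup.coe_inv, Subgroup.coe_mul, SL2_mul_inv_one_zero,
    SL2_mul_one_zero, SL2_mul_one_one, gOne_one_zero, gOne_one_one, conjDownHom_zero_one]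
  refine dvd_sub (Dvd.dvd.mul_left (dvd_mul_right _ _) _) (Dvd.dvd.mul_right (dvd_add ?_ ?_) _)
  · exact Dvd.dvd.mul_left (dvd_mul_right _ _) _
  · exact Dvd.dvd.mul_right (dvd_mul_right _ _) _

/-- **the Atkin–Lehner automorphism of `Γ₀(N q)` at `q`**: `γ' ↦ w γ' w⁻¹`, `w = γ₁ · diag(q, 1)`. -/
noncomputable def wHom : Gamma0 (N * q) →* Gamma0 (N * q) :=
  (wHomSL N q hq hqN).codRestrict (Gamma0 (N * q)) (wHomSL_mem N q hq hqN)

theorem coe_wHom (γ : Gamma0 (N * q)) :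
    ((wHom N q hq hqN γ : Gamma0 (N * q)) : SL(2, ℤ)) =
      ((gOne N q hq hqN * conjDownHom N q hq γ * (gOne N q hq hqN)⁻¹ : Gamma0 N) : SL(2, ℤ)) := rfl

theorem gammaEmb_wHom (γ : Gamma0 (N * q)) :
    gammaEmb (N * q) (wHom N q hq hqN γ) =
      gammaEmb N (gOne N q hq hqN * conjDownHom N q hq γ * (gOne N q hq hqN)⁻¹) := rfl

/-- `w = γ₁ · diag(q, 1)`. -/
noncomputable def wMat : GL (Fin 2) ℝ := gammaEmb N (gOne N q hq hqN) * heckeDiagMatrix q

/-- `w γ' = W(γ') w`. -/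
theorem wMat_mul_gammaEmb (γ : Gamma0 (N * q)) :
    wMat N q hq hqN * gammaEmb (N * q) γ =
      gammaEmb (N * q) (wHom N q hq hqN γ) * wMat N q hq hqN := by
  rw [gammaEmb_wHom, map_mul, map_mul, map_inv, wMat, mul_assoc, heckeDiagMatrix_mul_gammaEmb N q hq]
  group

theorem trace_wHom (γ : Gamma0 (N * q)) :
    (((wHom N q hq hqN γ : Gamma0 (N * q)) : SL(2, ℤ)) : Matrix (Fin 2) (Fin 2) ℤ).trace =
      ((γ : SL(2, ℤ)) : Matrix (Fin 2) (Fin 2) ℤ).trace := by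
  rw [coe_wHom, Subgroup.coe_mul, Subgroup.coe_mul, Subgroup.coe_inv,
    Matrix.SpecialLinearGroup.coe_mul, Matrix.SpecialLinearGroup.coe_mul, Matrix.trace_mul_comm,
    ← mul_assoc, ← Matrix.SpecialLinearGroup.coe_mul, inv_mul_cancel,
    Matrix.SpecialLinearGroup.coe_one, one_mul]
  exact trace_conjDownHom N q hq γ

theorem isZMat_wMat : IsZMat (wMat N q hq hqN)
    ((alGammaOne N q (bezX hq hqN) (bezY hq hqN) (bez_eq hq hqN) : Matrix (Fin 2) (Fin 2) ℤ) *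
      utZ q 0 1) :=
  (isZMat_gammaEmb (gOne N q hq hqN)).mul (isZMat_heckeDiagMatrix hq.ne_zero)

/-- `m = γ₁ γ₂ ∈ Γ₀(N q)`: `w² = q · m`. -/
noncomputable def wSq : Gamma0 (N * q) :=
  ⟨alGammaOne N q (bezX hq hqN) (bezY hq hqN) (bez_eq hq hqN) *
    alGammaTwo N q (bezX hq hqN) (bezY hq hqN) (bez_eq hq hqN), by
    rw [mem_Gamma0_iff_dvd, SL2_mul_one_zero]
    show ((N * q : ℕ) : ℤ) ∣ (N : ℤ) * (q : ℤ) + (q : ℤ) * bezX hq hqN * (N : ℤ)
    exact ⟨1 + bezX hq hqN, by push_cast; ring⟩⟩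

/-- `w · w = q · m`. -/
theorem wMat_mul_wMat :
    wMat N q hq hqN * wMat N q hq hqN = scalarQ q * gammaEmb (N * q) (wSq N q hq hqN) := by
  refine (((isZMat_wMat N q hq hqN).mul (isZMat_wMat N q hq hqN)).eq_iff
    ((isZMat_scalarQ hq.ne_zero).mul (isZMat_gammaEmb _))).mpr ?_
  show _ = utZ q 0 q * ((alGammaOne N q (bezX hq hqN) (bezY hq hqN) (bez_eq hq hqN) *
    alGammaTwo N q (bezX hq hqN) (bezY hq hqN) (bez_eq hq hqN) : SL(2, ℤ)) :
      Matrix (Fin 2) (Fin 2) ℤ)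
  rw [Matrix.SpecialLinearGroup.coe_mul]
  ext i j
  fin_cases i <;> fin_cases j <;>
    simp [utZ, alGammaOne, alGammaTwo, Matrix.mul_apply, Fin.sum_univ_two] <;> ring

/-- `w · (1 b; 0 q) = q · γ₁ T^b`. -/
theorem wMat_mul_heckeMatrix (b : Fin q) :
    wMat N q hq hqN * heckeMatrix q (b : ℕ) =
      scalarQ q * (gammaEmb (N * q) 1 *
        ((alGammaOne N q (bezX hq hqN) (bezY hq hqN) (bez_eq hq hqN) *
          ModularGroup.T ^ (((b : ℕ) : ℤ)) : SL(2, ℤ)) : GL (Fin 2) ℝ)) := by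
  rw [map_one, one_mul]
  refine (((isZMat_wMat N q hq hqN).mul (isZMat_heckeRep hq.ne_zero (some b))).eq_iff
    ((isZMat_scalarQ hq.ne_zero).mul (isZMat_mapGL _))).mpr ?_
  rw [Matrix.SpecialLinearGroup.coe_mul, ModularGroup.coe_T_zpow, heckeRepZ_some]
  ext i j
  fin_cases i <;> fin_cases j <;>
    simp [utZ, alGammaOne, Matrix.mul_apply, Fin.sum_univ_two] <;> ring

end W

/-! ### The operator `W^*` and the identities -/

section Ops

variable (N q : ℕ) (hq : q.Prime) (hqN : ¬ q ∣ N) (A : Type*) [AddCommGroup A]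

/-- **`W^*`** : the Atkin–Lehner pull-back at `q` on `Hom(Γ₀(N q), A)`. -/
noncomputable def atkinW :
    (Additive (Gamma0 (N * q)) →+ A) →+ (Additive (Gamma0 (N * q)) →+ A) :=
  pullHom (wHom N q hq hqN) A

variable {A}

@[simp] theorem atkinW_apply (φ : Additive (Gamma0 (N * q)) →+ A) (γ : Gamma0 (N * q)) :
    atkinW N q hq hqN A φ (Additive.ofMul γ) = φ (Additive.ofMul (wHom N q hq hqN γ)) := rfl

theorem atkinW_comp {B : Type*} [AddCommGroup B] (f : A →+ B)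
    (φ : Additive (Gamma0 (N * q)) →+ A) :
    atkinW N q hq hqN B (f.comp φ) = f.comp (atkinW N q hq hqN A φ) := rfl

theorem atkinW_mem_parabolicHoms (R : Type*) [Semiring R] [Module R A]
    {φ : Additive (Gamma0 (N * q)) →+ A} (hφ : φ ∈ parabolicHoms R (Gamma0 (N * q)) A) :
    atkinW N q hq hqN A φ ∈ parabolicHoms R (Gamma0 (N * q)) A := by
  rw [mem_parabolicHoms_iff] at hφ ⊢
  intro γ hγ
  exact hφ (wHom N q hq hqN γ) (by rw [trace_wHom]; exact hγ)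

/-- `U_q` on level `N q`. -/
theorem heckeGrpP_mul_prime_eq :
    heckeGrpP (N * q) ⟨q, hq⟩ A = (heckeDatumU (N * q) q hq (dvd_mul_left q N)).heckeGrp A :=
  heckeGrpP_of_dvd (ℓ := ⟨q, hq⟩) A (dvd_mul_left q N)

/-- **`α^* β_* = U_q + W^*`.** -/
theorem pullA_pushB (φ : Additive (Gamma0 (N * q)) →+ A) :
    pullA N q A (pushB N q hq hqN A φ) =
      heckeGrpP (N * q) ⟨q, hq⟩ A φ + atkinW N q hq hqN A φ := by
  rw [heckeGrpP_mul_prime_eq N q hq]
  refine pullHom_transferGrp_option (xferBeta N q (bez_eq hq hqN) hq)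
    (heckeDatumU (N * q) q hq (dvd_mul_left q N)) rfl (inclHom N q) (fun _ => rfl)
    (fun b => xferBeta_α_some N q (bez_eq hq hqN) hq b) (wHom N q hq hqN) ?_ φ
  intro γ'
  have h1 : (xferBeta N q (bez_eq hq hqN) hq).α none = wMat N q hq hqN :=
    xferBeta_α_none N q (bez_eq hq hqN) hq
  rw [h1]
  exact wMat_mul_gammaEmb N q hq hqN γ'

/-- **`β_* W^* = α_*`.** -/
theorem pushB_atkinW (φ : Additive (Gamma0 (N * q)) →+ A) :
    pushB N q hq hqN A (atkinW N q hq hqN A φ) = pushA N q hq hqN A φ := by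
  rw [← xferAlphaT_transferGrp_eq_pushA N q hq hqN (bez_eq hq hqN) φ]
  refine transferGrp_pullHom_conj (xferBeta N q (bez_eq hq hqN) hq)
    (xferAlphaT N q (bez_eq hq hqN) hq) rfl rfl (wHom N q hq hqN) (wMat N q hq hqN)
    (wMat_mul_gammaEmb N q hq hqN) (scalarQ q) (scalarQ_central hq.ne_zero) (Equiv.refl _)
    (fun i => match i with
      | none => wSq N q hq hqN
      | some _ => 1) ?_ φ
  intro i
  cases i with
  | none =>
    have h1 : (xferBeta N q (bez_eq hq hqN) hq).α none = wMat N q hq hqN :=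
      xferBeta_α_none N q (bez_eq hq hqN) hq
    rw [h1, Equiv.refl_apply, xferAlphaT_α_none, mul_one]
    exact wMat_mul_wMat N q hq hqN
  | some b =>
    rw [xferBeta_α_some, Equiv.refl_apply, xferAlphaT_α_some]
    exact wMat_mul_heckeMatrix N q hq hqN b

/-- **`W^* W^* = id`.** -/
theorem atkinW_atkinW (φ : Additive (Gamma0 (N * q)) →+ A) :
    atkinW N q hq hqN A (atkinW N q hq hqN A φ) = φ :=
  pullHom_conj_conj (gammaEmb (N * q)) (gammaEmb_injective _) (wHom N q hq hqN) (wMat N q hq hqN)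
    (wMat_mul_gammaEmb N q hq hqN) (scalarQ q) (scalarQ_central hq.ne_zero) (wSq N q hq hqN)
    (wMat_mul_wMat N q hq hqN) φ

/-- **`α_* W^* = β_*`.** -/
theorem pushA_atkinW (φ : Additive (Gamma0 (N * q)) →+ A) :
    pushA N q hq hqN A (atkinW N q hq hqN A φ) = pushB N q hq hqN A φ := by
  rw [← pushB_atkinW, atkinW_atkinW]

/-- on `ker β_*` : `U_q = − W^*`. -/
theorem heckeGrpP_eq_neg_atkinW {φ : Additive (Gamma0 (N * q)) →+ A}
    (hB : pushB N q hq hqN A φ = 0) :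
    heckeGrpP (N * q) ⟨q, hq⟩ A φ = - atkinW N q hq hqN A φ := by
  have h := pullA_pushB N q hq hqN φ
  rw [hB, map_zero] at h
  exact eq_neg_of_add_eq_zero_left h.symm

/-- **the `q`-new part `ker α_* ∩ ker β_*` is stable under `U_q`, and `U_q² = 1` there.** -/
theorem heckeGrpP_new {φ : Additive (Gamma0 (N * q)) →+ A}
    (hA : pushA N q hq hqN A φ = 0) (hB : pushB N q hq hqN A φ = 0) :
    pushA N q hq hqN A (heckeGrpP (N * q) ⟨q, hq⟩ A φ) = 0 ∧
      pushB N q hq hqN A (heckeGrpP (N * q) ⟨q, hq⟩ A φ) = 0 ∧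
      heckeGrpP (N * q) ⟨q, hq⟩ A (heckeGrpP (N * q) ⟨q, hq⟩ A φ) = φ := by
  have h1 := heckeGrpP_eq_neg_atkinW N q hq hqN hB
  have hA' : pushA N q hq hqN A (heckeGrpP (N * q) ⟨q, hq⟩ A φ) = 0 := by
    rw [h1, map_neg, pushA_atkinW, hB, neg_zero]
  have hB' : pushB N q hq hqN A (heckeGrpP (N * q) ⟨q, hq⟩ A φ) = 0 := by
    rw [h1, map_neg, pushB_atkinW, hA, neg_zero]
  refine ⟨hA', hB', ?_⟩
  rw [heckeGrpP_eq_neg_atkinW N q hq hqN hB', h1, map_neg, neg_neg, atkinW_atkinW]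

end Ops

/-! ### The `q`-new submodule -/

section New

variable (N q : ℕ) (hq : q.Prime) (hqN : ¬ q ∣ N) (A : Type*) [AddCommGroup A]
  (R : Type*) [Semiring R] [Module R A]

/-- **the `q`-new part** `V_new = ker α_* ∩ ker β_* ⊆ Hom(Γ₀(N q), A)`. -/
noncomputable def newSub : Submodule R (Additive (Gamma0 (N * q)) →+ A) :=
  LinearMap.ker (pushAₗ N q hq hqN A R) ⊓ LinearMap.ker (pushBₗ N q hq hqN A R)

variable {A R}

theorem mem_newSub {φ : Additive (Gamma0 (N * q)) →+ A} :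
    φ ∈ newSub N q hq hqN A R ↔ pushA N q hq hqN A φ = 0 ∧ pushB N q hq hqN A φ = 0 := by
  rw [newSub, Submodule.mem_inf, LinearMap.mem_ker, LinearMap.mem_ker]
  rfl

/-- **`V_new` is stable under `heckeGrpP (N q) ℓ` for EVERY prime `ℓ`.** -/
theorem heckeGrpP_mem_newSub (ℓ : Nat.Primes) {φ : Additive (Gamma0 (N * q)) →+ A}
    (hφ : φ ∈ newSub N q hq hqN A R) :
    heckeGrpP (N * q) ℓ A φ ∈ newSub N q hq hqN A R := by
  rw [mem_newSub] at hφ ⊢
  by_cases hℓq : (ℓ : ℕ) = q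
  · have hℓ : ℓ = ⟨q, hq⟩ := Subtype.ext hℓq
    rw [hℓ]
    exact ⟨(heckeGrpP_new N q hq hqN hφ.1 hφ.2).1, (heckeGrpP_new N q hq hqN hφ.1 hφ.2).2.1⟩
  · rw [pushA_heckeGrpP_of_ne N q hq hqN ℓ hℓq, pushB_heckeGrpP_of_ne N q hq hqN ℓ hℓq, hφ.1,
      hφ.2, map_zero]
    exact ⟨rfl, rfl⟩

/-- **`U_q² = 1` on `V_new`.** -/
theorem heckeGrpP_heckeGrpP_of_mem_newSub {φ : Additive (Gamma0 (N * q)) →+ A}
    (hφ : φ ∈ newSub N q hq hqN A R) :
    heckeGrpP (N * q) ⟨q, hq⟩ A (heckeGrpP (N * q) ⟨q, hq⟩ A φ) = φ := by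
  rw [mem_newSub] at hφ
  exact (heckeGrpP_new N q hq hqN hφ.1 hφ.2).2.2

end New

/-! ### The `q`-new part of the parabolic classes -/

section NewPar

variable (N q : ℕ) (hq : q.Prime) (hqN : ¬ q ∣ N) (A : Type*) [AddCommGroup A]
  (R : Type*) [Semiring R] [Module R A]

/-- `W^*` on the parabolic classes. -/
noncomputable def atkinWPar :
    parabolicHoms R (Gamma0 (N * q)) A →ₗ[R] parabolicHoms R (Gamma0 (N * q)) A :=
  ((pullHomₗ (wHom N q hq hqN) A R).comp (parabolicHoms R (Gamma0 (N * q)) A).subtype).codRestrict _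
    (fun φ => atkinW_mem_parabolicHoms N q hq hqN R φ.2)

@[simp] theorem coe_atkinWPar (x : parabolicHoms R (Gamma0 (N * q)) A) :
    ((atkinWPar N q hq hqN A R x : parabolicHoms R (Gamma0 (N * q)) A) :
      Additive (Gamma0 (N * q)) →+ A) =
      atkinW N q hq hqN A (x : Additive (Gamma0 (N * q)) →+ A) := rfl

variable {A R}

theorem mem_ker_degJ {x : parabolicHoms R (Gamma0 (N * q)) A} :
    x ∈ LinearMap.ker (degJ N q hq hqN A R) ↔
      pushA N q hq hqN A (x : Additive (Gamma0 (N * q)) →+ A) = 0 ∧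
        pushB N q hq hqN A (x : Additive (Gamma0 (N * q)) →+ A) = 0 := by
  rw [LinearMap.mem_ker, degJ_apply, Prod.mk_eq_zero, ← Subtype.coe_inj, ← Subtype.coe_inj]
  rfl

/-- **`ker j` (the `q`-new parabolic classes) is stable under `heckeParP (N q) ℓ` for EVERY
prime `ℓ`.** -/
theorem heckeParP_mem_ker_degJ (ℓ : Nat.Primes) {x : parabolicHoms R (Gamma0 (N * q)) A}
    (hx : x ∈ LinearMap.ker (degJ N q hq hqN A R)) :
    heckeParP (N * q) ℓ A R x ∈ LinearMap.ker (degJ N q hq hqN A R) := by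
  rw [mem_ker_degJ] at hx ⊢
  have h := heckeGrpP_mem_newSub N q hq hqN (R := R) ℓ ((mem_newSub N q hq hqN).mpr hx)
  exact (mem_newSub N q hq hqN).mp h

/-- **`U_q² = 1` on `ker j`.** -/
theorem heckeParP_heckeParP_of_mem_ker_degJ {x : parabolicHoms R (Gamma0 (N * q)) A}
    (hx : x ∈ LinearMap.ker (degJ N q hq hqN A R)) :
    heckeParP (N * q) ⟨q, hq⟩ A R (heckeParP (N * q) ⟨q, hq⟩ A R x) = x := by
  rw [mem_ker_degJ] at hx
  exact Subtype.ext (heckeGrpP_new N q hq hqN hx.1 hx.2).2.2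

/-- on `ker j` : `U_q + W^* = 0`. -/
theorem heckeParP_add_atkinWPar {x : parabolicHoms R (Gamma0 (N * q)) A}
    (hx : x ∈ LinearMap.ker (degJ N q hq hqN A R)) :
    heckeParP (N * q) ⟨q, hq⟩ A R x + atkinWPar N q hq hqN A R x = 0 := by
  rw [mem_ker_degJ] at hx
  apply Subtype.ext
  show heckeGrpP (N * q) ⟨q, hq⟩ A (x : Additive (Gamma0 (N * q)) →+ A) +
    atkinW N q hq hqN A (x : Additive (Gamma0 (N * q)) →+ A) = 0
  rw [heckeGrpP_eq_neg_atkinW N q hq hqN hx.2, neg_add_cancel]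

end NewPar

end Fermat.Agent.LR
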