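/-
PROJECT LR (S41), package [RAISE] (helper2), part 4: **the middle of the chain** — the polynomial
Hecke ring `R = ℤ[X_ℓ : ℓ ∤ N q]` acting on `L = H¹_par(Γ₀(N), ℤ)` and `L' = H¹_par(Γ₀(N q), ℤ)`,
`R`-linearity of helper4's `degI`, `degJ`, the hypothesis (IHARA) from helper9's `ihara_par_of_csp`,
and the application of the abstract level raising lemma.
-/
import Mathlib
import Fermat.Agent.LR.RAISE_helper2_Abstract
import Fermat.Agent.LR.RAISE_helper2_Lift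
import Fermat.Agent.LR.RAISE_helper2_Hecke
import Fermat.Agent.LR.XFER_helper4_AL
import Fermat.Agent.LR.IHARA_helper9_Lattice

set_option autoImplicit false
set_option linter.unusedSectionVars false
set_option linter.style.haveILetI false

namespace Fermat.Agent.LR

open MvPolynomial CongruenceSubgroup ModularCurve.Period Fermat.Agent.GR
open scoped MatrixGroups

section SelfAdjoint

variable {σ : Type*} {M : Type*} [AddCommGroup M]

/-- a form for which the members of a commuting family are self-adjoint: all polynomials in the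
family are self-adjoint. -/
theorem polyHom_selfAdjoint (T : σ → Module.End ℤ M) (hT : ∀ i j, Commute (T i) (T j))
    (B : M →ₗ[ℤ] M →ₗ[ℤ] ℤ) (hB : ∀ i x y, B (T i x) y = B x (T i y)) (r : MvPolynomial σ ℤ)
    (x y : M) : B (polyHom T hT r x) y = B x (polyHom T hT r y) := by
  induction r using MvPolynomial.induction_on generalizing x y with
  | C n =>
    rw [polyHom_C, Module.End.intCast_apply, Module.End.intCast_apply, map_zsmul, map_zsmul,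
      LinearMap.smul_apply]
  | add p q hp hq =>
    rw [map_add, LinearMap.add_apply, LinearMap.add_apply, map_add, map_add, LinearMap.add_apply,
      hp, hq]
  | mul_X p i hp =>
    have e1 : polyHom T hT (p * X i) x = polyHom T hT p (T i x) := by
      rw [map_mul, polyHom_X, Module.End.mul_apply]
    have e2 : polyHom T hT (p * X i) y = T i (polyHom T hT p y) := by
      rw [mul_comm, map_mul, polyHom_X, Module.End.mul_apply]
    rw [e1, e2, hp, hB]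

end SelfAdjoint

section Instances

variable (N q : ℕ)

/-- the primes not dividing `N q`. -/
abbrev HIdx : Type := {ℓ : Nat.Primes // ¬ (ℓ : ℕ) ∣ N * q}

/-- the polynomial Hecke ring away from `N q`. -/
abbrev HRing : Type := MvPolynomial (HIdx N q) ℤ

variable [NeZero N] [NeZero q]

/-- the action of the Hecke ring on the lattice of level `N`. -/
noncomputable instance modLow : Module (HRing N q) (LPar N) :=
  Module.compHom (LPar N) (heckeRingHomZ N (Subtype.val : HIdx N q → Nat.Primes))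

/-- the action of the Hecke ring on the lattice of level `N q`. -/
noncomputable instance modHigh : Module (HRing N q) (LPar (N * q)) :=
  Module.compHom (LPar (N * q)) (heckeRingHomZ (N * q) (Subtype.val : HIdx N q → Nat.Primes))

theorem smul_low_def (r : HRing N q) (x : LPar N) :
    r • x = heckeRingHomZ N (Subtype.val : HIdx N q → Nat.Primes) r x := rfl

theorem smul_high_def (r : HRing N q) (x : LPar (N * q)) :
    r • x = heckeRingHomZ (N * q) (Subtype.val : HIdx N q → Nat.Primes) r x := rfl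

theorem X_smul_low (ℓ : HIdx N q) (x : LPar N) : (X ℓ : HRing N q) • x = heckeZ N ℓ.1 x := by
  rw [smul_low_def, heckeRingHomZ_X]

theorem X_smul_high (ℓ : HIdx N q) (x : LPar (N * q)) :
    (X ℓ : HRing N q) • x = heckeZ (N * q) ℓ.1 x := by
  rw [smul_high_def, heckeRingHomZ_X]

theorem C_smul_low (n : ℤ) (x : LPar N) : (C n : HRing N q) • x = n • x := by
  rw [smul_low_def, heckeRingHomZ_C, Module.End.intCast_apply]

theorem C_smul_high (n : ℤ) (x : LPar (N * q)) : (C n : HRing N q) • x = n • x := by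
  rw [smul_high_def, heckeRingHomZ_C, Module.End.intCast_apply]

end Instances

section Linear

theorem HIdx.ne_q {N q : ℕ} (ℓ : HIdx N q) : ((ℓ.1 : Nat.Primes) : ℕ) ≠ q := by
  intro h
  apply ℓ.2
  rw [h]
  exact Dvd.intro_left N rfl

variable {N q : ℕ} [NeZero N] [NeZero q]

theorem pullAPar_heckeZ (hq : q.Prime) (ℓ : HIdx N q) (x : LPar N) :
    pullAPar N q ℤ ℤ (heckeZ N ℓ.1 x) = heckeZ (N * q) ℓ.1 (pullAPar N q ℤ ℤ x) :=
  (heckeParP_pullAPar N q hq ℤ ℤ ℓ.1 ℓ.ne_q x).symm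

theorem pullBPar_heckeZ (hq : q.Prime) (ℓ : HIdx N q) (x : LPar N) :
    pullBPar N q hq ℤ ℤ (heckeZ N ℓ.1 x) = heckeZ (N * q) ℓ.1 (pullBPar N q hq ℤ ℤ x) :=
  (heckeParP_pullBPar N q hq ℤ ℤ ℓ.1 ℓ.ne_q x).symm

theorem pushAPar_heckeZ (hq : q.Prime) (hqN : ¬ q ∣ N) (ℓ : HIdx N q) (x : LPar (N * q)) :
    pushAPar N q hq hqN ℤ ℤ (heckeZ (N * q) ℓ.1 x) = heckeZ N ℓ.1 (pushAPar N q hq hqN ℤ ℤ x) :=
  pushAPar_heckeParP N q hq hqN ℤ ℤ ℓ.1 ℓ.ne_q x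

theorem pushBPar_heckeZ (hq : q.Prime) (hqN : ¬ q ∣ N) (ℓ : HIdx N q) (x : LPar (N * q)) :
    pushBPar N q hq hqN ℤ ℤ (heckeZ (N * q) ℓ.1 x) = heckeZ N ℓ.1 (pushBPar N q hq hqN ℤ ℤ x) :=
  pushBPar_heckeParP N q hq hqN ℤ ℤ ℓ.1 ℓ.ne_q x

theorem pullAPar_smul (hq : q.Prime) (r : HRing N q) (x : LPar N) :
    pullAPar N q ℤ ℤ (r • x) = r • pullAPar N q ℤ ℤ x :=
  polyHom_intertwine (fun i : HIdx N q => heckeZ N i.1) (fun i j => heckeZ_commute N i.1 j.1)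
    (fun i : HIdx N q => heckeZ (N * q) i.1) (fun i j => heckeZ_commute (N * q) i.1 j.1)
    (pullAPar N q ℤ ℤ).toAddMonoidHom (fun ℓ x => pullAPar_heckeZ hq ℓ x) r x

theorem pullBPar_smul (hq : q.Prime) (r : HRing N q) (x : LPar N) :
    pullBPar N q hq ℤ ℤ (r • x) = r • pullBPar N q hq ℤ ℤ x :=
  polyHom_intertwine (fun i : HIdx N q => heckeZ N i.1) (fun i j => heckeZ_commute N i.1 j.1)
    (fun i : HIdx N q => heckeZ (N * q) i.1) (fun i j => heckeZ_commute (N * q) i.1 j.1)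
    (pullBPar N q hq ℤ ℤ).toAddMonoidHom (fun ℓ x => pullBPar_heckeZ hq ℓ x) r x

theorem pushAPar_smul (hq : q.Prime) (hqN : ¬ q ∣ N) (r : HRing N q) (x : LPar (N * q)) :
    pushAPar N q hq hqN ℤ ℤ (r • x) = r • pushAPar N q hq hqN ℤ ℤ x :=
  polyHom_intertwine (fun i : HIdx N q => heckeZ (N * q) i.1)
    (fun i j => heckeZ_commute (N * q) i.1 j.1)
    (fun i : HIdx N q => heckeZ N i.1) (fun i j => heckeZ_commute N i.1 j.1)
    (pushAPar N q hq hqN ℤ ℤ).toAddMonoidHom (fun ℓ x => pushAPar_heckeZ hq hqN ℓ x) r x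

theorem pushBPar_smul (hq : q.Prime) (hqN : ¬ q ∣ N) (r : HRing N q) (x : LPar (N * q)) :
    pushBPar N q hq hqN ℤ ℤ (r • x) = r • pushBPar N q hq hqN ℤ ℤ x :=
  polyHom_intertwine (fun i : HIdx N q => heckeZ (N * q) i.1)
    (fun i j => heckeZ_commute (N * q) i.1 j.1)
    (fun i : HIdx N q => heckeZ N i.1) (fun i j => heckeZ_commute N i.1 j.1)
    (pushBPar N q hq hqN ℤ ℤ).toAddMonoidHom (fun ℓ x => pushBPar_heckeZ hq hqN ℓ x) r x

/-- `i = α^* + β^*` as a linear map over the Hecke ring. -/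
noncomputable def degIR (hq : q.Prime) : LPar N × LPar N →ₗ[HRing N q] LPar (N * q) where
  toFun := degI N q hq ℤ ℤ
  map_add' := map_add _
  map_smul' r a := by
    rw [RingHom.id_apply, degI_apply, degI_apply, Prod.smul_fst, Prod.smul_snd,
      pullAPar_smul hq, pullBPar_smul hq, smul_add]

/-- `j = (α_*, β_*)` as a linear map over the Hecke ring. -/
noncomputable def degJR (hq : q.Prime) (hqN : ¬ q ∣ N) :
    LPar (N * q) →ₗ[HRing N q] LPar N × LPar N where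
  toFun := degJ N q hq hqN ℤ ℤ
  map_add' := map_add _
  map_smul' r x := by
    rw [RingHom.id_apply, degJ_apply, degJ_apply, pushAPar_smul hq hqN, pushBPar_smul hq hqN,
      Prod.smul_mk]

@[simp] theorem degIR_apply (hq : q.Prime) (a : LPar N × LPar N) :
    degIR hq a = pullAPar N q ℤ ℤ a.1 + pullBPar N q hq ℤ ℤ a.2 := rfl

@[simp] theorem degJR_apply (hq : q.Prime) (hqN : ¬ q ∣ N) (x : LPar (N * q)) :
    degJR hq hqN x = (pushAPar N q hq hqN ℤ ℤ x, pushBPar N q hq hqN ℤ ℤ x) := rfl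

end Linear

section Ihara

variable {N q p : ℕ} [NeZero N] [NeZero q]

/-- **(IHARA)** for `i = degIR` from helper9's `ihara_par_of_csp` ([AMALG] + [CSP] + [EIS]) and the
non-Eisenstein property: `Good`, `c` are the good primes and the integers `a_ℓ(W)`. -/
theorem iharaHyp_of_csp (hq : q.Prime) (hqN : ¬ q ∣ N) (hp : p ≠ 0) (hcsp : CSPHyp N q p)
    (𝔪 : Ideal (HRing N q)) (h𝔪int : ∀ m : ℤ, (C m : HRing N q) ∈ 𝔪 → (p : ℤ) ∣ m)
    (Good : Nat.Primes → Prop) (c : Nat.Primes → ℤ)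
    (hcong : ∀ ℓ : HIdx N q, Good ℓ.1 → (X ℓ - C (c ℓ.1) : HRing N q) ∈ 𝔪)
    (hnoneis : ∀ D : ℕ, 0 < D → ∃ ℓ : HIdx N q, Good ℓ.1 ∧ ((ℓ.1 : ℕ) ≡ 1 [MOD D]) ∧
      ¬ (p : ℤ) ∣ c ℓ.1 - (((ℓ.1 : ℕ) : ℤ) + 1)) :
    IharaHyp p 𝔪 (degIR (N := N) hq) := by
  rintro ⟨φ₁, φ₂⟩ ⟨y, hy⟩
  rw [degIR_apply] at hy
  obtain ⟨D, hD, hDℓ⟩ := ihara_par_of_csp hq hqN hp hcsp φ₁ φ₂ y hy
  obtain ⟨ℓ, hgood, hℓD, hℓc⟩ := hnoneis D hD
  have hℓN : ¬ ((ℓ.1 : Nat.Primes) : ℕ) ∣ N := fun h => ℓ.2 (Dvd.dvd.mul_right h q)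
  obtain ⟨ψ₁, ψ₂, h1, h2⟩ := hDℓ ℓ.1 hℓN hℓD
  refine ⟨X ℓ - C ((((ℓ.1 : ℕ) + 1 : ℕ)) : ℤ), fun hmem => ?_, (ψ₁, ψ₂), ?_⟩
  · apply hℓc
    have h3 : (C ((((ℓ.1 : ℕ) + 1 : ℕ) : ℤ) - c ℓ.1) : HRing N q) ∈ 𝔪 := by
      have := 𝔪.sub_mem (hcong ℓ hgood) hmem
      have e : (X ℓ - C (c ℓ.1) : HRing N q) - (X ℓ - C ((((ℓ.1 : ℕ) + 1 : ℕ)) : ℤ))
          = C ((((ℓ.1 : ℕ) + 1 : ℕ) : ℤ) - c ℓ.1) := by
        rw [map_sub]; ring
      rwa [e] at this
    have h4 := h𝔪int _ h3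
    have e : c ℓ.1 - (((ℓ.1 : ℕ) : ℤ) + 1) = -((((ℓ.1 : ℕ) + 1 : ℕ) : ℤ) - c ℓ.1) := by
      push_cast; ring
    rw [e]
    exact (dvd_neg).2 h4
  · refine Prod.ext ?_ ?_
    · show (X ℓ - C ((((ℓ.1 : ℕ) + 1 : ℕ)) : ℤ) : HRing N q) • φ₁ = (p : ℤ) • ψ₁
      rw [sub_smul, X_smul_low, C_smul_low]
      exact h1
    · show (X ℓ - C ((((ℓ.1 : ℕ) + 1 : ℕ)) : ℤ) : HRing N q) • φ₂ = (p : ℤ) • ψ₂
      rw [sub_smul, X_smul_low, C_smul_low]
      exact h2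

end Ihara

section Dual

/-- **(DUAL)**: what the chain needs from the package [DUAL] (helper6): forms `B`, `B'` on the
lattices of level `N`, `N q` such that `T_ℓ` (`ℓ ∤ N`) is self-adjoint for `B`, `B` is (right)
non-degenerate, every functional on `L'` is, up to an integer prime to `p`, of the form `B'(·, x')`,
and `α^*, β^*` are adjoint to `α_*, β_*`. -/
def DualHyp (N q p : ℕ) (hq : q.Prime) (hqN : ¬ q ∣ N) : Prop :=
  ∃ (B : LPar N →ₗ[ℤ] LPar N →ₗ[ℤ] ℤ) (B' : LPar (N * q) →ₗ[ℤ] LPar (N * q) →ₗ[ℤ] ℤ),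
    (∀ ℓ : Nat.Primes, ¬ (ℓ : ℕ) ∣ N → ∀ x y : LPar N,
      B (heckeParP N ℓ ℤ ℤ x) y = B x (heckeParP N ℓ ℤ ℤ y)) ∧
    (∀ y : LPar N, (∀ x, B x y = 0) → y = 0) ∧
    (∀ φ : LPar (N * q) →ₗ[ℤ] ℤ, ∃ (m : ℤ) (x' : LPar (N * q)), ¬ (p : ℤ) ∣ m ∧
      ∀ x, m * φ x = B' x x') ∧
    (∀ (a₁ a₂ : LPar N) (x' : LPar (N * q)),
      B' (pullAPar N q ℤ ℤ a₁ + pullBPar N q hq ℤ ℤ a₂) x' =
        B a₁ (pushAPar N q hq hqN ℤ ℤ x') + B a₂ (pushBPar N q hq hqN ℤ ℤ x'))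

variable {N q p : ℕ} [NeZero N] [NeZero q]

/-- **the congruence module step**: under (IHARA) and (DUAL), a system of eigenvalues `𝔪` occurring
modulo `p` in `L = H¹_par(Γ₀(N), ℤ)` with `T_q ≡ ε (q + 1)` occurs modulo `p` in the `q`-new
lattice `ker j ⊆ H¹_par(Γ₀(N q), ℤ)`. -/
theorem exists_new_mod (hq : q.Prime) (hqN : ¬ q ∣ N) (hp : p.Prime)
    (hdual : DualHyp N q p hq hqN)
    (𝔪 : Ideal (HRing N q)) (h𝔪 : 𝔪.IsMaximal) (hp𝔪 : (p : HRing N q) ∈ 𝔪)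
    (hI : IharaHyp p 𝔪 (degIR (N := N) hq))
    (w : LPar N) (hw : ∀ y : LPar N, w ≠ (p : ℤ) • y)
    (hw𝔪 : ∀ r ∈ 𝔪, ∃ y : LPar N, r • w = (p : ℤ) • y)
    (ε : ℤ) (hε : ε * ε = 1)
    (hT : ∃ t : LPar N, heckeZ N ⟨q, hq⟩ w - (ε * ((q : ℤ) + 1)) • w = (p : ℤ) • t) :
    ∃ x : LPar (N * q), degJR hq hqN x = 0 ∧ (∀ y : LPar (N * q), x ≠ (p : ℤ) • y) ∧
      ∀ r ∈ 𝔪, ∃ y : LPar (N * q), degJR hq hqN y = 0 ∧ r • x = (p : ℤ) • y := by
  haveI : NeZero (N * q) := ⟨Nat.mul_ne_zero (NeZero.ne N) (NeZero.ne q)⟩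
  obtain ⟨B, B', hsa, hnd, hB', hadj⟩ := hdual
  have hqN' : ¬ ((⟨q, hq⟩ : Nat.Primes) : ℕ) ∣ N := hqN
  refine exists_new_eigenvector_mod hp h𝔪 hp𝔪 hI (degJR hq hqN) B B' ?_ hnd hB' ?_
    (heckeZ N ⟨q, hq⟩).toAddMonoidHom (fun x y => hsa ⟨q, hq⟩ hqN' x y) (q : ℤ) ?_ w hw hw𝔪 ε hε hT
  · intro r x y
    exact polyHom_selfAdjoint (fun i : HIdx N q => heckeZ N i.1)
      (fun i j => heckeZ_commute N i.1 j.1) B
      (fun i x y => hsa i.1 (fun h => i.2 (Dvd.dvd.mul_right h q)) x y) r x y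
  · intro a x'
    exact hadj a.1 a.2 x'
  · intro a
    exact degJ_degI_int N q hq hqN a

end Dual

end Fermat.Agent.LR
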