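/-
PROJECT LR (S41), package [RAISE] (helper2), part 5: **the top of the chain** — from the `q`-new
vector modulo `p` (`exists_new_mod`) to a system of eigenvalues of level `N q`, `q`-new, with
`a_q² = 1`, congruent to the given one (Deligne–Serre lifting in the `q`-new lattice + a common
eigenvector for all Hecke operators in the `q`-new complex space), and the final assembly of `S41`
from the hypotheses `CSPHyp` ([CSP]) and `DualHyp` ([DUAL]).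
-/
import Mathlib
import Fermat.Agent.LR.RAISE_helper2_Mid
import Fermat.Agent.LR.INST_helper7_Occ
import Fermat.Agent.LR.INST_helper7_Top5
import Fermat.Agent.LR.NONEIS_helper3_Eigen
import Fermat.Agent.Helper2.CommonEigen

set_option autoImplicit false
set_option linter.unusedSectionVars false
set_option linter.style.haveILetI false

namespace Fermat.Agent.LR

open MvPolynomial CongruenceSubgroup ModularCurve.Period Fermat.Agent.GR
open scoped MatrixGroups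

section Commute

variable {σ : Type*} {E : Type*} [Ring E]

/-- an element commuting with a commuting family commutes with all polynomials in the family. -/
theorem polyHom_commute_of_forall (T : σ → E) (hT : ∀ i j, Commute (T i) (T j)) (S : E)
    (hS : ∀ i, Commute S (T i)) (r : MvPolynomial σ ℤ) : Commute S (polyHom T hT r) := by
  induction r using MvPolynomial.induction_on with
  | C n =>
    rw [polyHom_C]
    exact Int.commute_cast S n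
  | add p q hp hq =>
    rw [map_add]
    exact hp.add_right hq
  | mul_X p i hp =>
    rw [map_mul, polyHom_X]
    exact hp.mul_right (hS i)

end Commute

section New

variable {N q : ℕ} [NeZero N] [NeZero q]

/-- the `q`-new part of the complex parabolic classes of level `N q`. -/
noncomputable abbrev VNew (hq : q.Prime) (hqN : ¬ q ∣ N) : Submodule ℂ (VPar (N * q)) :=
  LinearMap.ker (degJ N q hq hqN ℂ ℂ)

theorem castPar_mem_VNew (hq : q.Prime) (hqN : ¬ q ∣ N) (x : LPar (N * q))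
    (hx : degJR hq hqN x = 0) : castPar (N * q) x ∈ VNew hq hqN := by
  have hx' : x ∈ LinearMap.ker (degJ N q hq hqN ℤ ℤ) := hx
  rw [mem_ker_degJ] at hx' ⊢
  rw [castPar_coe, pushA_comp, pushB_comp, hx'.1, hx'.2]
  exact ⟨AddMonoidHom.comp_zero _, AddMonoidHom.comp_zero _⟩

/-- the `q`-new lattice `ker j` is finitely generated. -/
instance finite_ker_degJR (hq : q.Prime) (hqN : ¬ q ∣ N) :
    @Module.Finite ℤ ↥(LinearMap.ker (degJR (N := N) hq hqN)) _ _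
      (AddCommGroup.toIntModule _) := by
  haveI : NeZero (N * q) := ⟨Nat.mul_ne_zero (NeZero.ne N) (NeZero.ne q)⟩
  refine Module.Finite.of_injective
    ((LinearMap.ker (degJR (N := N) hq hqN)).subtype.toAddMonoidHom.toIntLinearMap) ?_
  intro a b h
  exact Subtype.ext h

/-- **Deligne–Serre lifting in the `q`-new lattice**: a `q`-new vector modulo `p` on which `𝔪`
acts by zero modulo `p` gives a `q`-new complex eigenvector for the Hecke ring away from `N q`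
whose character sends `𝔪` into a maximal ideal of `ℤ̄`. -/
theorem exists_new_eigen_complex (hq : q.Prime) (hqN : ¬ q ∣ N) {p : ℕ}
    (𝔪 : Ideal (HRing N q)) (h𝔪 : 𝔪.IsMaximal)
    (x : LPar (N * q)) (hjx : degJR hq hqN x = 0) (hx : ∀ y : LPar (N * q), x ≠ (p : ℤ) • y)
    (h𝔪x : ∀ r ∈ 𝔪, ∃ y : LPar (N * q), degJR hq hqN y = 0 ∧ r • x = (p : ℤ) • y) :
    ∃ (g : VPar (N * q)) (χ : HRing N q →+* integralClosure ℤ ℂ)
      (𝔪' : Ideal (integralClosure ℤ ℂ)),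
      g ∈ VNew hq hqN ∧ g ≠ 0 ∧ 𝔪'.IsMaximal ∧
      (∀ t : HRing N q, heckeRingHomC (N * q) (Subtype.val : HIdx N q → Nat.Primes) t g =
        ((χ t : integralClosure ℤ ℂ) : ℂ) • g) ∧ (∀ r ∈ 𝔪, χ r ∈ 𝔪') := by
  set K : Submodule (HRing N q) (LPar (N * q)) := LinearMap.ker (degJR (N := N) hq hqN) with hK
  let e : ↥K →+ VPar (N * q) := (castPar (N * q)).comp K.subtype.toAddMonoidHom
  have he : ∀ (r : HRing N q) (y : ↥K), e (r • y) =
      heckeRingHomC (N * q) (Subtype.val : HIdx N q → Nat.Primes) r (e y) := by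
    intro r y
    exact castPar_heckeRingHomZ (N * q) (Subtype.val : HIdx N q → Nat.Primes) r y.1
  have hinj : Function.Injective e := by
    intro a b h
    exact Subtype.ext (castPar_injective (N * q) h)
  obtain ⟨g, χ, 𝔪', hg, hg0, h𝔪', hgχ, hχ𝔪⟩ :=
    exists_eigenvector_lift (heckeRingHomC (N * q) (Subtype.val : HIdx N q → Nat.Primes)) e he hinj
      (p := p) 𝔪 h𝔪 (⟨x, hjx⟩ : ↥K)
      (fun y h => hx y.1 (congrArg Subtype.val h))
      (fun r hr => by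
        obtain ⟨y, hy, hry⟩ := h𝔪x r hr
        exact ⟨⟨y, hy⟩, Subtype.ext hry⟩)
  refine ⟨g, χ, 𝔪', ?_, hg0, h𝔪', hgχ, hχ𝔪⟩
  have hle : Submodule.span ℂ (Set.range e) ≤ VNew hq hqN := by
    rw [Submodule.span_le]
    rintro _ ⟨y, rfl⟩
    exact castPar_mem_VNew hq hqN y.1 y.2
  exact hle hg

/-- **a full `q`-new system of eigenvalues**: a non-zero `q`-new complex class which is an
eigenvector of the `T_ℓ`, `ℓ ∤ N q`, gives a system of eigenvalues for ALL Hecke operators of level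
`N q`, occurring in the `q`-new part (so `a_q² = 1`), with the same eigenvalues away from `N q`. -/
theorem exists_new_eigensystem (hq : q.Prime) (hqN : ¬ q ∣ N) (g : VPar (N * q))
    (hg : g ∈ VNew hq hqN) (hg0 : g ≠ 0) (c : HIdx N q → ℂ)
    (hgc : ∀ ℓ : HIdx N q, heckeC (N * q) ℓ.1 g = c ℓ • g) :
    ∃ a' : Nat.Primes → ℂ, eigenPar (N * q) ℂ a' ≠ ⊥ ∧ a' ⟨q, hq⟩ ^ 2 = 1 ∧
      ∀ ℓ : HIdx N q, a' ℓ.1 = c ℓ := by
  classical
  haveI : NeZero (N * q) := ⟨Nat.mul_ne_zero (NeZero.ne N) (NeZero.ne q)⟩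
  -- the `q`-new eigenspace
  let Es : Submodule ℂ (VPar (N * q)) :=
    { carrier := {v | v ∈ VNew hq hqN ∧ ∀ ℓ : HIdx N q, heckeC (N * q) ℓ.1 v = c ℓ • v}
      add_mem' := by
        rintro u v ⟨hu, hu'⟩ ⟨hv, hv'⟩
        refine ⟨(VNew hq hqN).add_mem hu hv, fun ℓ => ?_⟩
        rw [map_add, hu' ℓ, hv' ℓ, smul_add]
      zero_mem' := ⟨(VNew hq hqN).zero_mem, fun ℓ => by rw [map_zero, smul_zero]⟩
      smul_mem' := by
        rintro t v ⟨hv, hv'⟩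
        refine ⟨(VNew hq hqN).smul_mem t hv, fun ℓ => ?_⟩
        rw [map_smul, hv' ℓ, smul_comm] }
  have hEs : ∀ v, v ∈ Es ↔ v ∈ VNew hq hqN ∧ ∀ ℓ : HIdx N q, heckeC (N * q) ℓ.1 v = c ℓ • v :=
    fun v => Iff.rfl
  have hEs0 : Es ≠ ⊥ := by
    intro h
    have : g ∈ Es := (hEs g).2 ⟨hg, hgc⟩
    rw [h, Submodule.mem_bot] at this
    exact hg0 this
  have hstab : ∀ a ∈ Set.range (heckeC (N * q)), ∀ v ∈ Es, a v ∈ Es := by
    rintro _ ⟨ℓ', rfl⟩ v hv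
    rw [hEs] at hv ⊢
    refine ⟨heckeParP_mem_ker_degJ N q hq hqN ℓ' hv.1, fun ℓ => ?_⟩
    have hc := heckeC_commute (N * q) ℓ.1 ℓ'
    have h1 : heckeC (N * q) ℓ.1 (heckeC (N * q) ℓ' v)
        = heckeC (N * q) ℓ' (heckeC (N * q) ℓ.1 v) := by
      rw [← Module.End.mul_apply, ← Module.End.mul_apply, hc.eq]
    rw [h1, hv.2 ℓ, map_smul]
  obtain ⟨v, hvE, hv0, hv⟩ := Fermat.Agent.Helper2.exists_common_eigenvector
    (Set.range (heckeC (N * q)))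
    (by
      rintro _ ⟨ℓ₁, rfl⟩ _ ⟨ℓ₂, rfl⟩
      exact heckeC_commute (N * q) ℓ₁ ℓ₂) Es hEs0 hstab
  have hv' : ∀ ℓ : Nat.Primes, ∃ μ : ℂ, heckeC (N * q) ℓ v = μ • v := fun ℓ => hv _ ⟨ℓ, rfl⟩
  choose a' ha' using hv'
  rw [hEs] at hvE
  have hv0' : (v : Additive (Gamma0 (N * q)) →+ ℂ) ≠ 0 := fun h => hv0 (Subtype.ext h)
  refine ⟨a', ?_, ?_, ?_⟩
  · intro hbot
    have hmem : (v : Additive (Gamma0 (N * q)) →+ ℂ) ∈ eigenPar (N * q) ℂ a' := by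
      rw [mem_eigenPar]
      refine ⟨v.2, fun ℓ => ?_⟩
      have := congrArg (fun u : VPar (N * q) => (u : Additive (Gamma0 (N * q)) →+ ℂ)) (ha' ℓ)
      exact this
    rw [hbot, Submodule.mem_bot] at hmem
    exact hv0' hmem
  · have h2 := heckeParP_heckeParP_of_mem_ker_degJ N q hq hqN hvE.1
    have key : ∀ μ : ℂ, heckeC (N * q) ⟨q, hq⟩ v = μ • v → μ ^ 2 = 1 := by
      intro μ e1
      have e2 : heckeC (N * q) ⟨q, hq⟩ (heckeC (N * q) ⟨q, hq⟩ v) = (μ ^ 2) • v := by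
        rw [e1, map_smul, e1, smul_smul, sq]
      have h3 : (μ ^ 2) • v = (1 : ℂ) • v := e2.symm.trans (h2.trans (one_smul ℂ v).symm)
      exact smul_left_injective ℂ hv0 h3
    exact key _ (ha' ⟨q, hq⟩)
  · intro ℓ
    have h5 : a' ℓ.1 • v = c ℓ • v := (ha' ℓ.1).symm.trans (hvE.2 ℓ)
    exact smul_left_injective ℂ hv0 h5

end New

section Final

open WeierstrassCurve WeierstrassCurve.Affine WeierstrassCurve.Affine.Point

/-- `χ (C m) = m` for a ring homomorphism from a polynomial ring over `ℤ`. -/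
theorem ringHom_C_int {σ S : Type*} [CommRing S] (χ : MvPolynomial σ ℤ →+* S) (m : ℤ) :
    χ (C m) = (m : S) := eq_intCast (χ.comp C) m

/-- the contraction of a maximal ideal of `ℤ̄` to a polynomial ring over `ℤ` is maximal. -/
theorem isMaximal_comap_intClosure {σ : Type*} (χ : MvPolynomial σ ℤ →+* integralClosure ℤ ℂ)
    (𝔪 : Ideal (integralClosure ℤ ℂ)) (h𝔪 : 𝔪.IsMaximal) : (𝔪.comap χ).IsMaximal := by
  haveI := h𝔪
  refine Ideal.isMaximal_comap_of_isIntegral_of_isMaximal' χ ?_ 𝔪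
  refine RingHom.IsIntegral.tower_top (C : ℤ →+* MvPolynomial σ ℤ) χ ?_
  have h1 : χ.comp (C : ℤ →+* MvPolynomial σ ℤ) = algebraMap ℤ (integralClosure ℤ ℂ) :=
    RingHom.ext_int _ _
  rw [h1]
  exact algebraMap_isIntegral_iff.2 inferInstance

/-- **level raising from the hypotheses `CSPHyp` and `DualHyp`**: the statement of `S41`. -/
theorem s41_of_hyps
    (E : WeierstrassCurve ℚ) [E.IsElliptic] {W : WeierstrassCurve ℤ} (hW : W.IsIntegralModelOf E)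
    {p N q : ℕ} [NeZero q] (hp : p.Prime) (hp2 : p ≠ 2) (hN : 0 < N) (hq : q.Prime)
    (hqN : ¬ q ∣ N)
    (hirr : GaloisRepIsIrreducible (K := AlgebraicClosure ℚ) ℚ E p)
    (f : CuspForm (CongruenceSubgroup.Gamma0 N) 2) (𝔪 : Ideal (integralClosure ℤ ℂ))
    (hf : f.IsNormalizedEigenform) (hmax : 𝔪.IsMaximal) (hpm : (p : integralClosure ℤ ℂ) ∈ 𝔪)
    (hcong : ∀ ℓ : ℕ, ℓ.Prime → W.IsGoodPrimeFor ℓ → ¬ ℓ ∣ N → ℓ ≠ p →
      ∃ a : integralClosure ℤ ℂ, (a : ℂ) = ModularFormClass.qCoeff f ℓ ∧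
        a - ((W.apOfModel ℓ : ℤ) : integralClosure ℤ ℂ) ∈ 𝔪)
    (hLR : ∃ a : integralClosure ℤ ℂ, (a : ℂ) = ModularFormClass.qCoeff f q ∧
      a ^ 2 - ((q : integralClosure ℤ ℂ) + 1) ^ 2 ∈ 𝔪)
    (hcsp : CSPHyp N q p) (hdual : DualHyp N q p hq hqN) :
    ∃ (g : CuspForm (CongruenceSubgroup.Gamma0 (N * q)) 2)
      (𝔪' : Ideal (integralClosure ℤ ℂ)),
      g.IsNormalizedEigenform ∧ 𝔪'.IsMaximal ∧ (p : integralClosure ℤ ℂ) ∈ 𝔪' ∧
      (∀ ℓ : ℕ, ℓ.Prime → W.IsGoodPrimeFor ℓ → ¬ ℓ ∣ N * q → ℓ ≠ p →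
        ∃ a : integralClosure ℤ ℂ, (a : ℂ) = ModularFormClass.qCoeff g ℓ ∧
          a - ((W.apOfModel ℓ : ℤ) : integralClosure ℤ ℂ) ∈ 𝔪') ∧
      g.IsNewAt q := by
  haveI : NeZero N := ⟨hN.ne'⟩
  obtain ⟨a, ha, haq⟩ := exists_eigenPar_of_isNormalizedEigenform hf
  have hLR' : ∃ z : integralClosure ℤ ℂ, (z : ℂ) = a ⟨q, hq⟩ ∧
      z ^ 2 - ((q : integralClosure ℤ ℂ) + 1) ^ 2 ∈ 𝔪 := by
    obtain ⟨z, hz, hz2⟩ := hLR
    exact ⟨z, by rw [hz, haq], hz2⟩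
  obtain ⟨χ, hχ, w, ε, hε, hw, hw𝔪, hT⟩ := exists_occ N q p hq hp a ha 𝔪 hmax hpm hLR'
  -- the maximal ideal of the polynomial Hecke ring
  set 𝔪R : Ideal (HRing N q) := 𝔪.comap χ with h𝔪Rdef
  have h𝔪R : 𝔪R.IsMaximal := isMaximal_comap_intClosure χ 𝔪 hmax
  have hp𝔪R : (p : HRing N q) ∈ 𝔪R := by
    rw [h𝔪Rdef, Ideal.mem_comap, map_natCast]
    exact hpm
  have h𝔪int : ∀ m : ℤ, (C m : HRing N q) ∈ 𝔪R → (p : ℤ) ∣ m := by
    intro m hm
    by_contra h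
    have h1 := intCast_notMem_of_not_dvd (R := integralClosure ℤ ℂ) hp hmax.ne_top hpm h
    apply h1
    rw [h𝔪Rdef, Ideal.mem_comap, ringHom_C_int] at hm
    exact hm
  -- the good primes and the integers `a_ℓ(W)`
  let Good : Nat.Primes → Prop := fun ℓ => W.IsGoodPrimeFor (ℓ : ℕ) ∧ (ℓ : ℕ) ≠ p
  let c : Nat.Primes → ℤ := fun ℓ => W.apOfModel (ℓ : ℕ)
  have hcongR : ∀ ℓ : HIdx N q, Good ℓ.1 → (X ℓ - C (c ℓ.1) : HRing N q) ∈ 𝔪R := by
    rintro ℓ ⟨hgood, hℓp⟩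
    obtain ⟨z, hz, hz2⟩ := hcong (ℓ.1 : ℕ) ℓ.1.2 hgood
      (fun h => ℓ.2 (Dvd.dvd.mul_right h q)) hℓp
    have hzχ : χ (X ℓ) = z := by
      apply Subtype.ext
      rw [hχ ℓ, hz]
      exact haq _ _
    rw [h𝔪Rdef, Ideal.mem_comap, map_sub, hzχ, ringHom_C_int]
    exact hz2
  have hnoneis : ∀ D : ℕ, 0 < D → ∃ ℓ : HIdx N q, Good ℓ.1 ∧ ((ℓ.1 : ℕ) ≡ 1 [MOD D]) ∧
      ¬ (p : ℤ) ∣ c ℓ.1 - (((ℓ.1 : ℕ) : ℤ) + 1) := by
    intro D hD
    obtain ⟨ℓ, hℓ, hgood, hnd, hmod, hne⟩ :=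
      NonEis.exists_prime_noneis_G E hW hp hp2 hirr N q hN hq.pos D hD
    refine ⟨⟨⟨ℓ, hℓ⟩, fun h => hnd (Dvd.dvd.mul_right h p)⟩, ⟨hgood, ?_⟩, hmod, hne⟩
    intro h
    have h' : ℓ = p := h
    apply hnd
    rw [h']
    exact Dvd.intro_left _ rfl
  have hI : IharaHyp p 𝔪R (degIR (N := N) hq) :=
    iharaHyp_of_csp hq hqN hp.ne_zero hcsp 𝔪R h𝔪int Good c hcongR hnoneis
  obtain ⟨x, hjx, hx, h𝔪x⟩ := exists_new_mod hq hqN hp hdual 𝔪R h𝔪R hp𝔪R hI w hw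
    (fun r hr => hw𝔪 r hr) ε hε hT
  obtain ⟨g, χ', 𝔪', hgnew, hg0, h𝔪', hgχ, hχ𝔪⟩ :=
    exists_new_eigen_complex hq hqN 𝔪R h𝔪R x hjx hx h𝔪x
  obtain ⟨a', ha', ha'q, ha'c⟩ := exists_new_eigensystem hq hqN g hgnew hg0
    (fun ℓ => ((χ' (X ℓ) : integralClosure ℤ ℂ) : ℂ))
    (fun ℓ => by rw [← hgχ (X ℓ), heckeRingHomC_X])
  have hp𝔪' : (p : integralClosure ℤ ℂ) ∈ 𝔪' := by
    have := hχ𝔪 _ hp𝔪R
    rwa [map_natCast] at this
  refine s41_of_eigenPar hq W a' ha' ha'q 𝔪' h𝔪' hp𝔪' (fun ℓ hℓ hgood hℓNq hℓp => ?_)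
  refine ⟨χ' (X ⟨⟨ℓ, hℓ⟩, hℓNq⟩), (ha'c ⟨⟨ℓ, hℓ⟩, hℓNq⟩).symm, ?_⟩
  have h1 := hχ𝔪 _ (hcongR ⟨⟨ℓ, hℓ⟩, hℓNq⟩ ⟨hgood, hℓp⟩)
  rw [map_sub, ringHom_C_int] at h1
  exact h1

end Final

end Fermat.Agent.LR
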