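/-
LR (level raising, S41) — helper9 — [AMALG] part 1: **gluing homomorphisms on `A ⊔ B` from the normal
form property**.  `A, B` subgroups of a group `G`, `C = A ⊓ B`.  If no nonempty alternating product
of elements of `A ∖ C` and `B ∖ C` lies in `C` (normal form property, (NF)), then `A ⊔ B` is the
amalgamated product `A *_C B`: two homomorphisms `A → K`, `B → K` which agree on `C` extend
(uniquely) to `A ⊔ B`.  (Mathlib's `Monoid.PushoutI` and its normal words.)
-/
import Mathlib

set_option autoImplicit false

open Monoid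

namespace Fermat.Agent.LR

section Abstract

variable {G : Type*} [Group G] (A B : Subgroup G)

/-- alternating lists: the letters are alternately in `A ∖ C` and `B ∖ C`, `C = A ⊓ B`;
`s = true` means that the first letter is in `A`. -/
def AltList : Bool → List G → Prop
  | _, [] => True
  | s, x :: l => x ∈ cond s A B ∧ x ∉ A ⊓ B ∧ AltList (!s) l

/-- **(NF)**: no nonempty alternating product lies in `C = A ⊓ B`. -/
def NormalFormProp : Prop :=
  ∀ (s : Bool) (l : List G), l ≠ [] → AltList A B s l → l.prod ∉ A ⊓ B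

/-- the family `![B, A]` indexed by `Bool`. -/
abbrev Fam (s : Bool) : Type _ := ↥(cond s A B)

theorem inf_le_cond (s : Bool) : A ⊓ B ≤ cond s A B := by
  cases s
  · exact inf_le_right
  · exact inf_le_left

/-- the diagram `A ← C → B`. -/
def famIncl (s : Bool) : ↥(A ⊓ B) →* Fam A B s := Subgroup.inclusion (inf_le_cond A B s)

theorem famIncl_injective (s : Bool) : Function.Injective (famIncl A B s) :=
  Subgroup.inclusion_injective _

/-- the canonical map `A *_C B → G`. -/
def amalgMap : PushoutI (famIncl A B) →* G :=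
  PushoutI.lift (fun s => (cond s A B).subtype) (A ⊓ B).subtype (fun _ => rfl)

@[simp] theorem amalgMap_of (s : Bool) (x : Fam A B s) :
    amalgMap A B (PushoutI.of s x) = (x : G) := by
  simp [amalgMap]

@[simp] theorem amalgMap_base (c : ↥(A ⊓ B)) : amalgMap A B (PushoutI.base _ c) = (c : G) := by
  simp [amalgMap]

/-- the list of letters of a word, in `G`. -/
def letters (w : CoprodI.Word (Fam A B)) : List G :=
  w.toList.map (fun x => ((x.2 : Fam A B x.1) : G))

theorem amalgMap_ofCoprodI_prod (w : CoprodI.Word (Fam A B)) :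
    amalgMap A B (PushoutI.ofCoprodI w.prod) = (letters A B w).prod := by
  unfold letters CoprodI.Word.prod
  rw [map_list_prod, map_list_prod, List.map_map, List.map_map]
  rfl

variable {A B}

/-- a nontrivial letter of a normal word is not in `C`. -/
theorem coe_not_mem_inf_of_mem_transversal (d : PushoutI.NormalWord.Transversal (famIncl A B)) {s : Bool}
    {g : Fam A B s} (hg : g ∈ d.set s) (hg1 : g ≠ 1) : (g : G) ∉ A ⊓ B := by
  intro hC
  apply hg1
  have hr : g ∈ ((famIncl A B s).range : Set (Fam A B s)) := ⟨⟨(g : G), hC⟩, Subtype.ext rfl⟩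
  have hinj := (d.compl s).1
  have h1 : (fun x : ((famIncl A B s).range : Set (Fam A B s)) × (d.set s) =>
      (x.1 : Fam A B s) * (x.2 : Fam A B s))
      (⟨g, hr⟩, ⟨1, d.one_mem s⟩) =
      (fun x : ((famIncl A B s).range : Set (Fam A B s)) × (d.set s) =>
        (x.1 : Fam A B s) * (x.2 : Fam A B s))
      (⟨1, (famIncl A B s).range.one_mem⟩, ⟨g, hg⟩) := by
    simp
  have h2 := hinj h1
  have h3 := congrArg (fun x => ((x.1 : (famIncl A B s).range) : Fam A B s)) h2
  exact h3

/-- the letters of a chain of non-`C` letters from alternating sides form an alternating list. -/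
theorem altList_of_isChain (l : List (Σ s, Fam A B s))
    (hC : ∀ x ∈ l, ((x.2 : Fam A B x.1) : G) ∉ A ⊓ B)
    (hch : l.IsChain fun x y => x.1 ≠ y.1) (s : Bool) (hs : ∀ x ∈ l.head?, x.1 = s) :
    AltList A B s (l.map (fun x => ((x.2 : Fam A B x.1) : G))) := by
  induction l generalizing s with
  | nil => exact trivial
  | cons x l ih =>
    have hxs : x.1 = s := hs x (by simp)
    refine ⟨?_, hC x (by simp), ?_⟩
    · rw [← hxs]; exact x.2.2
    · refine ih (fun y hy => hC y (List.mem_cons_of_mem _ hy)) hch.tail (!s) ?_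
      intro y hy
      cases l with
      | nil => simp at hy
      | cons z l' =>
        simp only [List.head?_cons, Option.mem_def, Option.some.injEq] at hy
        have hne : x.1 ≠ z.1 := by
          have := hch
          rw [List.isChain_cons_cons] at this
          exact this.1
        rw [hxs, hy] at hne
        cases hy1 : y.1 <;> cases s <;> simp_all

/-- **(NF) ⇒ `A *_C B → G` is injective.** -/
theorem amalgMap_injective (hNF : NormalFormProp A B) : Function.Injective (amalgMap A B) := by
  classical
  rw [injective_iff_map_eq_one]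
  intro x hx
  obtain ⟨d⟩ := PushoutI.NormalWord.transversal_nonempty (famIncl A B) (famIncl_injective A B)
  set w : PushoutI.NormalWord d := PushoutI.NormalWord.equiv x with hw
  have hxw : x = w.prod := (PushoutI.NormalWord.equiv.symm_apply_apply x).symm
  have hprod : ((w.head : ↥(A ⊓ B)) : G) * (letters A B w.toWord).prod = 1 := by
    rw [← hx, hxw, PushoutI.NormalWord.prod, map_mul, amalgMap_base, amalgMap_ofCoprodI_prod]
  by_cases hl : w.toList = []
  · -- the word is empty
    have h1 : (letters A B w.toWord).prod = 1 := by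
      unfold letters
      rw [hl, List.map_nil, List.prod_nil]
    rw [h1, mul_one] at hprod
    have hh : w.head = 1 := Subtype.ext hprod
    have hw1 : w = PushoutI.NormalWord.empty :=
      PushoutI.NormalWord.ext (by rw [hh]; rfl) (by rw [hl]; rfl)
    rw [hxw, hw1, PushoutI.NormalWord.prod_empty]
  · exfalso
    obtain ⟨y, l', hyl⟩ := List.exists_cons_of_ne_nil hl
    have halt : AltList A B y.1 (letters A B w.toWord) := by
      refine altList_of_isChain w.toList (fun z hz => ?_) w.chain_ne y.1 ?_
      · obtain ⟨i, g⟩ := z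
        exact coe_not_mem_inf_of_mem_transversal d (w.normalized i g hz) (w.ne_one _ hz)
      · intro z hz
        rw [hyl] at hz
        simp only [List.head?_cons, Option.mem_def, Option.some.injEq] at hz
        rw [hz]
    have hne : letters A B w.toWord ≠ [] := by
      unfold letters
      rw [hyl]
      simp
    apply hNF y.1 _ hne halt
    have h2 : (letters A B w.toWord).prod = ((w.head : ↥(A ⊓ B)) : G)⁻¹ :=
      eq_inv_of_mul_eq_one_right hprod
    rw [h2]
    exact (A ⊓ B).inv_mem w.head.2

theorem range_amalgMap : (amalgMap A B).range = A ⊔ B := by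
  apply le_antisymm
  · rintro _ ⟨x, rfl⟩
    induction x using PushoutI.induction_on with
    | of i g =>
      rw [amalgMap_of]
      cases i
      · exact (le_sup_right : B ≤ A ⊔ B) g.2
      · exact (le_sup_left : A ≤ A ⊔ B) g.2
    | base h =>
      rw [amalgMap_base]
      exact (le_sup_left : A ≤ A ⊔ B) h.2.1
    | mul x y hx hy =>
      rw [map_mul]
      exact mul_mem hx hy
  · rw [sup_le_iff]
    constructor
    · intro a ha
      exact ⟨PushoutI.of true ⟨a, ha⟩, amalgMap_of A B true ⟨a, ha⟩⟩
    · intro b hb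
      exact ⟨PushoutI.of false ⟨b, hb⟩, amalgMap_of A B false ⟨b, hb⟩⟩

/-- **gluing**: under (NF), two homomorphisms on `A` and `B` which agree on `C = A ⊓ B` extend to a
homomorphism on `A ⊔ B`. -/
theorem exists_hom_of_normalFormProp (hNF : NormalFormProp A B) {K : Type*} [Group K]
    (fA : ↥A →* K) (fB : ↥B →* K)
    (hagree : ∀ (c : G) (hcA : c ∈ A) (hcB : c ∈ B), fA ⟨c, hcA⟩ = fB ⟨c, hcB⟩) :
    ∃ F : ↥(A ⊔ B) →* K,
      (∀ (a : G) (ha : a ∈ A), F ⟨a, (le_sup_left : A ≤ A ⊔ B) ha⟩ = fA ⟨a, ha⟩) ∧
      (∀ (b : G) (hb : b ∈ B), F ⟨b, (le_sup_right : B ≤ A ⊔ B) hb⟩ = fB ⟨b, hb⟩) := by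
  -- the homomorphism on the abstract amalgam
  let f : ∀ s : Bool, Fam A B s →* K := fun s => Bool.rec fB fA s
  let fC : ↥(A ⊓ B) →* K := fA.comp (Subgroup.inclusion inf_le_left)
  have hcompat : ∀ s, (f s).comp (famIncl A B s) = fC := by
    intro s
    cases s
    · refine MonoidHom.ext fun c => ?_
      exact (hagree (c : G) c.2.1 c.2.2).symm
    · rfl
  let Φ : PushoutI (famIncl A B) →* K := PushoutI.lift f fC hcompat
  -- the isomorphism onto `A ⊔ B`
  let e : PushoutI (famIncl A B) ≃* ↥(amalgMap A B).range :=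
    MonoidHom.ofInjective (amalgMap_injective hNF)
  have hr := range_amalgMap (A := A) (B := B)
  let ι : ↥(A ⊔ B) →* ↥(amalgMap A B).range := Subgroup.inclusion (le_of_eq hr.symm)
  refine ⟨(Φ.comp e.symm.toMonoidHom).comp ι, fun a ha => ?_, fun b hb => ?_⟩
  · have h1 : e.symm (ι ⟨a, (le_sup_left : A ≤ A ⊔ B) ha⟩) = PushoutI.of true ⟨a, ha⟩ := by
      rw [MulEquiv.symm_apply_eq]
      apply Subtype.ext
      rw [MonoidHom.ofInjective_apply, amalgMap_of]
      rfl
    show Φ (e.symm (ι ⟨a, _⟩)) = _
    rw [h1]
    exact PushoutI.lift_of f fC hcompat (i := true) (⟨a, ha⟩ : Fam A B true)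
  · have h1 : e.symm (ι ⟨b, (le_sup_right : B ≤ A ⊔ B) hb⟩) = PushoutI.of false ⟨b, hb⟩ := by
      rw [MulEquiv.symm_apply_eq]
      apply Subtype.ext
      rw [MonoidHom.ofInjective_apply, amalgMap_of]
      rfl
    show Φ (e.symm (ι ⟨b, _⟩)) = _
    rw [h1]
    exact PushoutI.lift_of f fC hcompat (i := false) (⟨b, hb⟩ : Fam A B false)

end Abstract

end Fermat.Agent.LR
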