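/-
PROJECT LR (S41), package [DUAL]/[PRES] (helper2): **the presentation
`SL₂(ℤ) = ⟨S, U | S⁴ = 1, S² = U³⟩`** (`U = S T`), i.e. `SL₂(ℤ) = C₄ *_{C₂} C₆`, in the form of its
universal property:
`SL2Z_presentation (s u : H) (h1 : s ^ 2 = u ^ 3) (h2 : s ^ 4 = 1) : ∃ F : SL(2, ℤ) →* H, F S = s ∧ F (S * T) = u`.
Proof: helper9's abstract amalgam criterion (`exists_hom_of_normalFormProp`) for `A = ⟨S⟩`,
`B = ⟨U⟩`; the normal form property by a sign invariant of the entries (`S U = -T`,
`S U² = -T'`, and products of `T`, `T'` have non-negative entries).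
-/
import Mathlib
import Fermat.Agent.LR.AMALG_helper9_Abstract

set_option autoImplicit false
set_option linter.unusedSectionVars false

namespace Fermat.Agent.LR

open Matrix Matrix.SpecialLinearGroup ModularGroup
open scoped MatrixGroups

/-- `U = S T = (0 -1; 1 1)`, of order `6`, with `U³ = -1`. -/
def presU : SL(2, ℤ) := S * T

theorem presU_def : presU = S * T := rfl

/-- the subgroup `A = ⟨S⟩ = {±1, ±S}`. -/
def presA : Subgroup SL(2, ℤ) := Subgroup.zpowers S

/-- the subgroup `B = ⟨U⟩ = {±1, ±U, ±U²}`. -/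
def presB : Subgroup SL(2, ℤ) := Subgroup.zpowers presU

theorem mem_presA {x : SL(2, ℤ)} (hx : x ∈ presA) : x = 1 ∨ x = S ∨ x = -1 ∨ x = -S := by
  obtain ⟨k, rfl⟩ := Subgroup.mem_zpowers_iff.1 hx
  clear hx
  induction k with
  | zero => left; simp
  | succ n ih =>
    rw [_root_.zpow_add_one]
    rcases ih with h | h | h | h <;> rw [h]
    · right; left; decide
    · right; right; left; decide
    · right; right; right; decide
    · left; decide
  | pred n ih =>
    rw [_root_.zpow_sub_one]
    rcases ih with h | h | h | h <;> rw [h]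
    · right; right; right; decide
    · left; decide
    · right; left; decide
    · right; right; left; decide

theorem mem_presB {x : SL(2, ℤ)} (hx : x ∈ presB) :
    x = 1 ∨ x = presU ∨ x = presU ^ 2 ∨ x = -1 ∨ x = -presU ∨ x = -presU ^ 2 := by
  obtain ⟨k, rfl⟩ := Subgroup.mem_zpowers_iff.1 hx
  clear hx
  induction k with
  | zero => left; simp
  | succ n ih =>
    rw [_root_.zpow_add_one]
    rcases ih with h | h | h | h | h | h <;> rw [h]
    · right; left; decide
    · right; right; left; decide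
    · right; right; right; left; decide
    · right; right; right; right; left; decide
    · right; right; right; right; right; decide
    · left; decide
  | pred n ih =>
    rw [_root_.zpow_sub_one]
    rcases ih with h | h | h | h | h | h <;> rw [h]
    · right; right; right; right; right; decide
    · left; decide
    · right; left; decide
    · right; right; left; decide
    · right; right; right; left; decide
    · right; right; right; right; left; decide

theorem S_mem_presA : S ∈ presA := Subgroup.mem_zpowers S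
theorem presU_mem_presB : presU ∈ presB := Subgroup.mem_zpowers presU

theorem neg_one_mem_presA : (-1 : SL(2, ℤ)) ∈ presA := by
  have h : S ^ 2 ∈ presA := Subgroup.pow_mem _ S_mem_presA 2
  have e : S ^ 2 = (-1 : SL(2, ℤ)) := by decide
  rwa [e] at h

theorem neg_one_mem_presB : (-1 : SL(2, ℤ)) ∈ presB := by
  have h : presU ^ 3 ∈ presB := Subgroup.pow_mem _ presU_mem_presB 3
  have e : presU ^ 3 = (-1 : SL(2, ℤ)) := by decide
  rwa [e] at h

/-- `A ⊓ B = {±1}`. -/
theorem mem_presA_inf_presB {x : SL(2, ℤ)} : x ∈ presA ⊓ presB ↔ x = 1 ∨ x = -1 := by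
  constructor
  · rintro ⟨hA, hB⟩
    rcases mem_presA hA with h | h | h | h
    · exact Or.inl h
    · exfalso
      rcases mem_presB hB with h' | h' | h' | h' | h' | h' <;> rw [h] at h' <;> revert h' <;> decide
    · exact Or.inr h
    · exfalso
      rcases mem_presB hB with h' | h' | h' | h' | h' | h' <;> rw [h] at h' <;> revert h' <;> decide
  · rintro (rfl | rfl)
    · exact Subgroup.one_mem _
    · exact ⟨neg_one_mem_presA, neg_one_mem_presB⟩

/-! ### The sign invariant -/

/-- all entries of the same sign. -/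
def presNN (M : SL(2, ℤ)) : Prop :=
  (0 ≤ M 0 0 ∧ 0 ≤ M 0 1 ∧ 0 ≤ M 1 0 ∧ 0 ≤ M 1 1) ∨
    (M 0 0 ≤ 0 ∧ M 0 1 ≤ 0 ∧ M 1 0 ≤ 0 ∧ M 1 1 ≤ 0)

/-- the two columns have opposite signs. -/
def presCS (M : SL(2, ℤ)) : Prop :=
  (0 ≤ M 0 0 ∧ 0 ≤ M 1 0 ∧ M 0 1 ≤ 0 ∧ M 1 1 ≤ 0) ∨
    (M 0 0 ≤ 0 ∧ M 1 0 ≤ 0 ∧ 0 ≤ M 0 1 ∧ 0 ≤ M 1 1)

/-- the invariant of the products of alternating lists starting in `A`. -/
def presJA (M : SL(2, ℤ)) : Prop := (presNN M ∧ M ≠ 1 ∧ M ≠ -1) ∨ presCS M

/-- the lower unipotent `T' = (1 0; 1 1)`. -/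
def presT' : SL(2, ℤ) := ⟨!![1, 0; 1, 1], by simp [Matrix.det_fin_two_of]⟩

theorem coe_presT' : (presT' : Matrix (Fin 2) (Fin 2) ℤ) = !![1, 0; 1, 1] := rfl

theorem T_mul_apply (M : SL(2, ℤ)) :
    (T * M) 0 0 = M 0 0 + M 1 0 ∧ (T * M) 0 1 = M 0 1 + M 1 1 ∧ (T * M) 1 0 = M 1 0 ∧
      (T * M) 1 1 = M 1 1 := by
  simp [Matrix.SpecialLinearGroup.coe_mul, Matrix.mul_apply, Fin.sum_univ_two]

theorem presT'_mul_apply (M : SL(2, ℤ)) :
    (presT' * M) 0 0 = M 0 0 ∧ (presT' * M) 0 1 = M 0 1 ∧ (presT' * M) 1 0 = M 0 0 + M 1 0 ∧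
      (presT' * M) 1 1 = M 0 1 + M 1 1 := by
  simp [coe_presT', Matrix.SpecialLinearGroup.coe_mul, Matrix.mul_apply, Fin.sum_univ_two]

theorem one_apply_entries :
    (1 : SL(2, ℤ)) 0 0 = 1 ∧ (1 : SL(2, ℤ)) 0 1 = 0 ∧ (1 : SL(2, ℤ)) 1 0 = 0 ∧
      (1 : SL(2, ℤ)) 1 1 = 1 := by
  simp

theorem neg_one_apply_entries :
    (-1 : SL(2, ℤ)) 0 0 = -1 ∧ (-1 : SL(2, ℤ)) 0 1 = 0 ∧ (-1 : SL(2, ℤ)) 1 0 = 0 ∧
      (-1 : SL(2, ℤ)) 1 1 = -1 := by
  simp

theorem presJA_neg {M : SL(2, ℤ)} (h : presJA M) : presJA (-M) := by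
  have e : ∀ i j, (-M) i j = - M i j := fun i j => by simp
  rcases h with ⟨hNN, h1, h2⟩ | hCS
  · left
    refine ⟨?_, fun h => h2 (by rw [← h, neg_neg]), fun h => h1 (neg_injective h)⟩
    unfold presNN at hNN ⊢
    simp only [e]
    omega
  · right
    unfold presCS at hCS ⊢
    simp only [e]
    omega

theorem presJA_T_mul {M : SL(2, ℤ)} (h : M = 1 ∨ presJA M) : presJA (T * M) := by
  obtain ⟨e00, e01, e10, e11⟩ := T_mul_apply M
  obtain ⟨i00, i01, i10, i11⟩ := one_apply_entries
  obtain ⟨n00, n01, n10, n11⟩ := neg_one_apply_entries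
  rcases h with rfl | ⟨hNN, h1, h2⟩ | hCS
  · left
    rw [mul_one]
    refine ⟨?_, by decide, by decide⟩
    left
    decide
  · left
    refine ⟨?_, fun h => ?_, fun h => ?_⟩
    · unfold presNN at hNN ⊢
      rw [e00, e01, e10, e11]
      omega
    · have a00 := congrArg (fun X : SL(2, ℤ) => X 0 0) h
      have a01 := congrArg (fun X : SL(2, ℤ) => X 0 1) h
      have a10 := congrArg (fun X : SL(2, ℤ) => X 1 0) h
      have a11 := congrArg (fun X : SL(2, ℤ) => X 1 1) h
      simp only [e00, e01, e10, e11, i00, i01, i10, i11] at a00 a01 a10 a11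
      unfold presNN at hNN
      omega
    · have a00 := congrArg (fun X : SL(2, ℤ) => X 0 0) h
      have a01 := congrArg (fun X : SL(2, ℤ) => X 0 1) h
      have a10 := congrArg (fun X : SL(2, ℤ) => X 1 0) h
      have a11 := congrArg (fun X : SL(2, ℤ) => X 1 1) h
      simp only [e00, e01, e10, e11, n00, n01, n10, n11] at a00 a01 a10 a11
      unfold presNN at hNN
      omega
  · right
    unfold presCS at hCS ⊢
    rw [e00, e01, e10, e11]
    omega

theorem presJA_T'_mul {M : SL(2, ℤ)} (h : M = 1 ∨ presJA M) : presJA (presT' * M) := by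
  obtain ⟨e00, e01, e10, e11⟩ := presT'_mul_apply M
  obtain ⟨i00, i01, i10, i11⟩ := one_apply_entries
  obtain ⟨n00, n01, n10, n11⟩ := neg_one_apply_entries
  rcases h with rfl | ⟨hNN, h1, h2⟩ | hCS
  · left
    rw [mul_one]
    refine ⟨?_, by decide, by decide⟩
    left
    decide
  · left
    refine ⟨?_, fun h => ?_, fun h => ?_⟩
    · unfold presNN at hNN ⊢
      rw [e00, e01, e10, e11]
      omega
    · have a00 := congrArg (fun X : SL(2, ℤ) => X 0 0) h
      have a01 := congrArg (fun X : SL(2, ℤ) => X 0 1) h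
      have a10 := congrArg (fun X : SL(2, ℤ) => X 1 0) h
      have a11 := congrArg (fun X : SL(2, ℤ) => X 1 1) h
      simp only [e00, e01, e10, e11, i00, i01, i10, i11] at a00 a01 a10 a11
      unfold presNN at hNN
      omega
    · have a00 := congrArg (fun X : SL(2, ℤ) => X 0 0) h
      have a01 := congrArg (fun X : SL(2, ℤ) => X 0 1) h
      have a10 := congrArg (fun X : SL(2, ℤ) => X 1 0) h
      have a11 := congrArg (fun X : SL(2, ℤ) => X 1 1) h
      simp only [e00, e01, e10, e11, n00, n01, n10, n11] at a00 a01 a10 a11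
      unfold presNN at hNN
      omega
  · right
    unfold presCS at hCS ⊢
    rw [e00, e01, e10, e11]
    omega

/-- `presJA` excludes `± 1`. -/
theorem presJA_ne {M : SL(2, ℤ)} (h : presJA M) : M ≠ 1 ∧ M ≠ -1 := by
  obtain ⟨i00, i01, i10, i11⟩ := one_apply_entries
  obtain ⟨n00, n01, n10, n11⟩ := neg_one_apply_entries
  rcases h with ⟨-, h1, h2⟩ | hCS
  · exact ⟨h1, h2⟩
  · constructor
    · rintro rfl
      unfold presCS at hCS
      rw [i00, i01, i10, i11] at hCS
      omega
    · rintro rfl
      unfold presCS at hCS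
      rw [n00, n01, n10, n11] at hCS
      omega

/-- the letters of `B ∖ C`. -/
def presBC (y : SL(2, ℤ)) : Prop := y = presU ∨ y = presU ^ 2 ∨ y = -presU ∨ y = -presU ^ 2

theorem presBC_of_mem {y : SL(2, ℤ)} (hy : y ∈ presB) (hC : y ∉ presA ⊓ presB) : presBC y := by
  rcases mem_presB hy with h | h | h | h | h | h
  · exact absurd (mem_presA_inf_presB.2 (Or.inl h)) hC
  · exact Or.inl h
  · exact Or.inr (Or.inl h)
  · exact absurd (mem_presA_inf_presB.2 (Or.inr h)) hC
  · exact Or.inr (Or.inr (Or.inl h))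
  · exact Or.inr (Or.inr (Or.inr h))

theorem presAC_of_mem {x : SL(2, ℤ)} (hx : x ∈ presA) (hC : x ∉ presA ⊓ presB) :
    x = S ∨ x = -S := by
  rcases mem_presA hx with h | h | h | h
  · exact absurd (mem_presA_inf_presB.2 (Or.inl h)) hC
  · exact Or.inl h
  · exact absurd (mem_presA_inf_presB.2 (Or.inr h)) hC
  · exact Or.inr h

/-- the step of the induction: `(± S) (± U^{1,2}) = ± T, ± T'`. -/
theorem presJA_step {x y M : SL(2, ℤ)} (hx : x = S ∨ x = -S) (hy : presBC y)
    (hM : M = 1 ∨ presJA M) : presJA (x * (y * M)) := by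
  have e1 : S * presU = -T := by decide
  have e2 : S * presU ^ 2 = -presT' := by decide
  have e3 : S * -presU = T := by decide
  have e4 : S * -presU ^ 2 = presT' := by decide
  have e5 : -S * presU = T := by decide
  have e6 : -S * presU ^ 2 = presT' := by decide
  have e7 : -S * -presU = -T := by decide
  have e8 : -S * -presU ^ 2 = -presT' := by decide
  have hT := presJA_T_mul hM
  have hT' := presJA_T'_mul hM
  rw [← mul_assoc]
  rcases hx with rfl | rfl <;> rcases hy with rfl | rfl | rfl | rfl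
  · rw [e1, neg_mul]; exact presJA_neg hT
  · rw [e2, neg_mul]; exact presJA_neg hT'
  · rw [e3]; exact hT
  · rw [e4]; exact hT'
  · rw [e5]; exact hT
  · rw [e6]; exact hT'
  · rw [e7, neg_mul]; exact presJA_neg hT
  · rw [e8, neg_mul]; exact presJA_neg hT'

/-- the invariant of the product of an alternating list. -/
def presInv (s : Bool) (M : SL(2, ℤ)) : Prop :=
  if s then presJA M else ∃ y M', presBC y ∧ (M' = 1 ∨ presJA M') ∧ M = y * M'

theorem presInv_of_altList : ∀ (l : List SL(2, ℤ)) (s : Bool), AltList presA presB s l →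
    l = [] ∨ presInv s l.prod := by
  intro l
  induction l with
  | nil => intro s _; exact Or.inl rfl
  | cons x l ih =>
    intro s h
    right
    obtain ⟨hx, hxC, hl⟩ := h
    have ih' := ih (!s) hl
    rw [List.prod_cons]
    cases s with
    | true =>
      have hx' := presAC_of_mem hx hxC
      show presJA (x * l.prod)
      rcases ih' with rfl | hinv
      · rw [List.prod_nil, mul_one]
        right
        rcases hx' with rfl | rfl
        · left; decide
        · right; decide
      · obtain ⟨y, M', hy, hM', hprod⟩ := hinv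
        rw [hprod]
        exact presJA_step hx' hy hM'
    | false =>
      have hx' := presBC_of_mem hx hxC
      show ∃ y M', presBC y ∧ (M' = 1 ∨ presJA M') ∧ x * l.prod = y * M'
      rcases ih' with rfl | hinv
      · exact ⟨x, 1, hx', Or.inl rfl, by rw [List.prod_nil]⟩
      · exact ⟨x, l.prod, hx', Or.inr hinv, rfl⟩

/-- **the normal form property** for `A = ⟨S⟩`, `B = ⟨U⟩` in `SL₂(ℤ)`. -/
theorem normalFormProp_presA_presB : NormalFormProp presA presB := by
  intro s l hl halt
  rcases presInv_of_altList l s halt with h | h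
  · exact absurd h hl
  · rw [mem_presA_inf_presB]
    cases s with
    | true =>
      have h' : presJA l.prod := h
      have := presJA_ne h'
      tauto
    | false =>
      obtain ⟨y, M', hy, hM', hprod⟩ := (h : ∃ y M', presBC y ∧ (M' = 1 ∨ presJA M') ∧ l.prod = y * M')
      rw [hprod]
      rcases hM' with rfl | hJ
      · rw [mul_one]
        rcases hy with rfl | rfl | rfl | rfl <;> decide
      · -- `M' = ± y⁻¹` is `± U`, `± U²`, which violates the invariant
        have hno : ∀ Z : SL(2, ℤ), presBC Z → ¬ presJA Z := by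
          intro Z hZ hJZ
          have hne := presJA_ne hJZ
          rcases hJZ with ⟨hNN, -, -⟩ | hCS
          · unfold presNN at hNN
            rcases hZ with rfl | rfl | rfl | rfl <;> revert hNN <;> decide
          · unfold presCS at hCS
            rcases hZ with rfl | rfl | rfl | rfl <;> revert hCS <;> decide
        rintro (h1 | h1)
        · have hM : M' = y⁻¹ := eq_inv_of_mul_eq_one_right h1
          apply hno M' _ hJ
          rw [hM]
          rcases hy with rfl | rfl | rfl | rfl
          · right; right; right; decide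
          · right; right; left; decide
          · right; left; decide
          · left; decide
        · have hM : M' = y⁻¹ * -1 := by rw [← h1, inv_mul_cancel_left]
          apply hno M' _ hJ
          rw [hM]
          rcases hy with rfl | rfl | rfl | rfl
          · right; left; decide
          · left; decide
          · right; right; right; decide
          · right; right; left; decide

/-! ### The presentation -/

theorem orderOf_S : orderOf S = 4 :=
  orderOf_eq_prime_pow (p := 2) (n := 1) (by decide) (by decide)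

theorem orderOf_presU : orderOf presU = 6 := by
  rw [orderOf_eq_iff (by norm_num)]
  refine ⟨by decide, fun m hm hm0 => ?_⟩
  interval_cases m <;> decide

theorem presA_sup_presB : presA ⊔ presB = ⊤ := by
  rw [eq_top_iff, ← SpecialLinearGroup.SL2Z_generators, Subgroup.closure_le]
  rintro x (rfl | rfl)
  · exact (le_sup_left : presA ≤ presA ⊔ presB) S_mem_presA
  · have e : T = S⁻¹ * presU := by rw [presU_def, inv_mul_cancel_left]
    rw [e]
    exact Subgroup.mul_mem _ (Subgroup.inv_mem _ ((le_sup_left : presA ≤ presA ⊔ presB) S_mem_presA))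
      ((le_sup_right : presB ≤ presA ⊔ presB) presU_mem_presB)

/-- two homomorphisms on `SL₂(ℤ)` which agree on `S` and `U = S T` are equal. -/
theorem SL2Z_hom_ext {H : Type*} [Group H] {F F' : SL(2, ℤ) →* H} (hS : F S = F' S)
    (hU : F (S * T) = F' (S * T)) : F = F' := by
  have hT : F T = F' T := by
    have e1 : F T = (F S)⁻¹ * F (S * T) := by rw [map_mul, inv_mul_cancel_left]
    have e2 : F' T = (F' S)⁻¹ * F' (S * T) := by rw [map_mul, inv_mul_cancel_left]
    rw [e1, e2, hS, hU]
  apply MonoidHom.eq_of_eqOn_dense SpecialLinearGroup.SL2Z_generators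
  rintro x (rfl | rfl)
  · exact hS
  · exact hT

/-- **the presentation `SL₂(ℤ) = ⟨S, U | S⁴ = 1, S² = U³⟩`** (`U = S T`), universal property. -/
theorem SL2Z_presentation {H : Type*} [Group H] (s u : H) (h1 : s ^ 2 = u ^ 3) (h2 : s ^ 4 = 1) :
    ∃ F : SL(2, ℤ) →* H, F S = s ∧ F (S * T) = u := by
  -- the homomorphisms on the two cyclic groups
  let gA : presA := ⟨S, S_mem_presA⟩
  let gB : presB := ⟨presU, presU_mem_presB⟩
  have hgA : ∀ x : presA, x ∈ Subgroup.zpowers gA := by
    rintro ⟨x, hx⟩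
    obtain ⟨k, rfl⟩ := Subgroup.mem_zpowers_iff.1 hx
    exact Subgroup.mem_zpowers_iff.2 ⟨k, Subtype.ext (by simp [gA])⟩
  have hgB : ∀ x : presB, x ∈ Subgroup.zpowers gB := by
    rintro ⟨x, hx⟩
    obtain ⟨k, rfl⟩ := Subgroup.mem_zpowers_iff.1 hx
    exact Subgroup.mem_zpowers_iff.2 ⟨k, Subtype.ext (by simp [gB])⟩
  have hoA : orderOf s ∣ orderOf gA := by
    have : orderOf gA = 4 := by rw [← orderOf_S]; exact Subgroup.orderOf_mk S S_mem_presA
    rw [this]
    exact orderOf_dvd_of_pow_eq_one h2
  have hu6 : u ^ 6 = 1 := by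
    have e : u ^ 6 = (u ^ 3) ^ 2 := by rw [← pow_mul]
    rw [e, ← h1, ← pow_mul]
    exact h2
  have hoB : orderOf u ∣ orderOf gB := by
    have : orderOf gB = 6 := by rw [← orderOf_presU]; exact Subgroup.orderOf_mk presU presU_mem_presB
    rw [this]
    exact orderOf_dvd_of_pow_eq_one hu6
  let fA : presA →* H := monoidHomOfForallMemZpowers hgA hoA
  let fB : presB →* H := monoidHomOfForallMemZpowers hgB hoB
  have hfA : fA gA = s := monoidHomOfForallMemZpowers_apply_gen hgA hoA
  have hfB : fB gB = u := monoidHomOfForallMemZpowers_apply_gen hgB hoB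
  have hfA1 : fA ⟨-1, neg_one_mem_presA⟩ = s ^ 2 := by
    have e : (⟨-1, neg_one_mem_presA⟩ : presA) = gA ^ 2 := Subtype.ext (by
      rw [Subgroup.coe_pow]; decide)
    rw [e, map_pow, hfA]
  have hfB1 : fB ⟨-1, neg_one_mem_presB⟩ = u ^ 3 := by
    have e : (⟨-1, neg_one_mem_presB⟩ : presB) = gB ^ 3 := Subtype.ext (by
      rw [Subgroup.coe_pow]; decide)
    rw [e, map_pow, hfB]
  have hagree : ∀ (c : SL(2, ℤ)) (hcA : c ∈ presA) (hcB : c ∈ presB),
      fA ⟨c, hcA⟩ = fB ⟨c, hcB⟩ := by
    intro c hcA hcB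
    rcases mem_presA_inf_presB.1 ⟨hcA, hcB⟩ with rfl | rfl
    · exact (map_one fA).trans (map_one fB).symm
    · rw [hfA1, hfB1, h1]
  obtain ⟨F, hFA, hFB⟩ := exists_hom_of_normalFormProp normalFormProp_presA_presB fA fB hagree
  let ι : SL(2, ℤ) →* ↥(presA ⊔ presB) :=
    { toFun := fun x => ⟨x, by rw [presA_sup_presB]; exact Subgroup.mem_top x⟩
      map_one' := rfl
      map_mul' := fun _ _ => rfl }
  refine ⟨F.comp ι, ?_, ?_⟩
  · exact (hFA S S_mem_presA).trans hfA
  · exact (hFB presU presU_mem_presB).trans hfB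

end Fermat.Agent.LR
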