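/-
LR (level raising, S41) — helper5 — [CSP] common definitions: the abstract "symbol" `G c d`
(value of a homomorphism `φ : Γ₀(N) → 𝔽_p` killing `u(1)`, `l(N)` on a matrix with bottom row
`(c, d)`) and the axioms it satisfies when `φ` comes from `Δ = Γ₀(N)[1/q]` (finding 387).
-/
import Mathlib

set_option autoImplicit false

open Matrix CongruenceSubgroup

open scoped MatrixGroups

namespace Fermat.Agent.LR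

/-- the axioms of the bottom-row symbol of a homomorphism `Δ = Γ₀(N)[1/q] → 𝔽_p` which kills
`u(1)` and `l(N)`. -/
structure IsQSymbol (N q p : ℕ) (G : ℤ → ℤ → ZMod p) : Prop where
  base : G N 1 = 0
  shift_d : ∀ c d t : ℤ, (N : ℤ) ∣ c → IsCoprime c d → G c (d + t * c) = G c d
  shift_c : ∀ c d s : ℤ, (N : ℤ) ∣ c → IsCoprime c d → G (c + s * N * d) d = G c d
  neg : ∀ c d : ℤ, (N : ℤ) ∣ c → IsCoprime c d → G (-c) (-d) = G c d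
  inv : ∀ a b c d : ℤ, (N : ℤ) ∣ c → a * d - b * c = 1 → G c (-a) = -G c d
  tw1 : ∀ c d : ℤ, (N : ℤ) ∣ c → IsCoprime (c * q) d → G (c * (q : ℤ) ^ 2) d = G c d
  tw2 : ∃ ε : ZMod p, ∀ c d : ℤ, (N : ℤ) ∣ c → IsCoprime c (d * q) →
    G c (d * (q : ℤ) ^ 2) = G c d + ε
  triple : ∀ M a₁ b₁ d₁ a₂ b₂ d₂ a₃ b₃ d₃ : ℤ, (N : ℤ) ∣ M →
    a₁ * d₁ - b₁ * M = 1 → a₂ * d₂ - b₂ * M = 1 → a₃ * d₃ - b₃ * M = 1 →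
    G M d₁ + G M d₂ + G M d₃ =
      G (M * ((a₂ + d₁) * (a₃ + d₂) - 1)) (M * (a₂ + d₁) * b₃ + (M * b₂ + d₁ * d₂) * d₃)

/-- the exponent `E = 2 p φ(N²)`. -/
def cspExp (N p : ℕ) : ℕ := 2 * p * Nat.totient (N ^ 2)

/-- `Q = q ^ E`. -/
def cspQ (N q p : ℕ) : ℕ := q ^ cspExp N p

/-- a prime `r` is *good*: `r ∤ N q (Q - 1)` and `p ∤ r - 1`. -/
def GoodPrime (N q p r : ℕ) : Prop :=
  r.Prime ∧ ¬ r ∣ N ∧ r ≠ q ∧ ¬ r ∣ cspQ N q p - 1 ∧ ¬ p ∣ r - 1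

open Classical in
/-- the bottom-row symbol of `φ : Γ₀(N) → 𝔽_p` (junk value `0` if `(c, d)` is not a bottom row). -/
noncomputable def rowSym {N p : ℕ} (φ : ↥(Gamma0 N) →* Multiplicative (ZMod p)) (c d : ℤ) :
    ZMod p :=
  if h : ∃ γ : ↥(Gamma0 N), (γ : SL(2, ℤ)) 1 0 = c ∧ (γ : SL(2, ℤ)) 1 1 = d then
    Multiplicative.toAdd (φ h.choose) else 0

/-- the twist hypotheses on `φ = Φ ∘ embA` (consequences of `h = diag(1/q, q) ∈ Δ`):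
`t1`: `φ (a, b; c q², d) = φ (a, b q²; c, d)`;  `t2`: `φ (a, b; c, d q²) = φ (a q², b; c, d) + ε`. -/
structure TwistHom (N q p : ℕ) (φ : ↥(Gamma0 N) →* Multiplicative (ZMod p)) : Prop where
  t1 : ∀ γ γ' : ↥(Gamma0 N), (γ' : SL(2, ℤ)) 0 0 = (γ : SL(2, ℤ)) 0 0 →
    (γ : SL(2, ℤ)) 0 1 = (q : ℤ) ^ 2 * (γ' : SL(2, ℤ)) 0 1 →
    (γ' : SL(2, ℤ)) 1 0 = (q : ℤ) ^ 2 * (γ : SL(2, ℤ)) 1 0 →
    (γ' : SL(2, ℤ)) 1 1 = (γ : SL(2, ℤ)) 1 1 → φ γ' = φ γ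
  t2 : ∃ ε : Multiplicative (ZMod p), ∀ γ γ' : ↥(Gamma0 N),
    (γ : SL(2, ℤ)) 0 0 = (q : ℤ) ^ 2 * (γ' : SL(2, ℤ)) 0 0 →
    (γ' : SL(2, ℤ)) 0 1 = (γ : SL(2, ℤ)) 0 1 →
    (γ' : SL(2, ℤ)) 1 0 = (γ : SL(2, ℤ)) 1 0 →
    (γ' : SL(2, ℤ)) 1 1 = (q : ℤ) ^ 2 * (γ : SL(2, ℤ)) 1 1 → φ γ' = φ γ * ε

/-- `u(1) = (1 1; 0 1) ∈ Γ₀(N)`. -/
def uOne (N : ℕ) : ↥(Gamma0 N) := ⟨⟨!![1, 1; 0, 1], by simp [Matrix.det_fin_two_of]⟩, by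
  simp [Gamma0_mem]⟩

/-- `l(N) = (1 0; N 1) ∈ Γ₀(N)`. -/
def lN (N : ℕ) : ↥(Gamma0 N) := ⟨⟨!![1, 0; (N : ℤ), 1], by simp [Matrix.det_fin_two_of]⟩, by
  simp [Gamma0_mem]⟩

end Fermat.Agent.LR
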