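/-
LR (level raising, S41) — helper4 — [SYM]: the bottom-row symbol `rowSym φ` of a homomorphism
`φ : Γ₀(N) → 𝔽_p` killing `u(1)`, `l(N)` and satisfying the twist hypotheses is a `IsQSymbol`.
-/
import Mathlib
import Fermat.Agent.LR.CSP_helper5_Defs

set_option autoImplicit false

open Matrix CongruenceSubgroup

open scoped MatrixGroups

namespace Fermat.Agent.LR

/-- the element `(a b; c d)` of `Γ₀(N)`. -/
def mkSL (a b c d : ℤ) (hdet : a * d - b * c = 1) : SL(2, ℤ) :=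
  ⟨!![a, b; c, d], by rw [Matrix.det_fin_two_of]; exact hdet⟩

/-- the element `(a b; c d)` of `Γ₀(N)`. -/
def mkG0 (N : ℕ) (a b c d : ℤ) (hdet : a * d - b * c = 1) (hc : (N : ℤ) ∣ c) : ↥(Gamma0 N) :=
  ⟨mkSL a b c d hdet, by
    rw [Gamma0_mem]
    exact (ZMod.intCast_zmod_eq_zero_iff_dvd c N).mpr hc⟩

section
variable {N : ℕ} (a b c d : ℤ) (hdet : a * d - b * c = 1) (hc : (N : ℤ) ∣ c)

@[simp] theorem mkG0_00 : ((mkG0 N a b c d hdet hc : ↥(Gamma0 N)) : SL(2, ℤ)) 0 0 = a := rfl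
@[simp] theorem mkG0_01 : ((mkG0 N a b c d hdet hc : ↥(Gamma0 N)) : SL(2, ℤ)) 0 1 = b := rfl
@[simp] theorem mkG0_10 : ((mkG0 N a b c d hdet hc : ↥(Gamma0 N)) : SL(2, ℤ)) 1 0 = c := rfl
@[simp] theorem mkG0_11 : ((mkG0 N a b c d hdet hc : ↥(Gamma0 N)) : SL(2, ℤ)) 1 1 = d := rfl
end

theorem gamma0_ext {N : ℕ} {γ γ' : ↥(Gamma0 N)}
    (h00 : (γ : SL(2, ℤ)) 0 0 = (γ' : SL(2, ℤ)) 0 0) (h01 : (γ : SL(2, ℤ)) 0 1 = (γ' : SL(2, ℤ)) 0 1)
    (h10 : (γ : SL(2, ℤ)) 1 0 = (γ' : SL(2, ℤ)) 1 0) (h11 : (γ : SL(2, ℤ)) 1 1 = (γ' : SL(2, ℤ)) 1 1) :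
    γ = γ' := by
  apply Subtype.ext
  apply Subtype.ext
  ext i j
  fin_cases i <;> fin_cases j <;> assumption

theorem gamma0_det {N : ℕ} (γ : ↥(Gamma0 N)) :
    (γ : SL(2, ℤ)) 0 0 * (γ : SL(2, ℤ)) 1 1 - (γ : SL(2, ℤ)) 0 1 * (γ : SL(2, ℤ)) 1 0 = 1 := by
  have := (γ : SL(2, ℤ)).2
  rw [Matrix.det_fin_two] at this
  exact this

theorem gamma0_dvd {N : ℕ} (γ : ↥(Gamma0 N)) : (N : ℤ) ∣ (γ : SL(2, ℤ)) 1 0 := by
  have := γ.2
  rw [Gamma0_mem] at this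
  exact (ZMod.intCast_zmod_eq_zero_iff_dvd _ N).mp this

theorem gamma0_mul_00 {N : ℕ} (γ γ' : ↥(Gamma0 N)) : ((γ * γ' : ↥(Gamma0 N)) : SL(2, ℤ)) 0 0 =
    (γ : SL(2, ℤ)) 0 0 * (γ' : SL(2, ℤ)) 0 0 + (γ : SL(2, ℤ)) 0 1 * (γ' : SL(2, ℤ)) 1 0 := by
  simp [Matrix.mul_apply, Fin.sum_univ_two]

theorem gamma0_mul_01 {N : ℕ} (γ γ' : ↥(Gamma0 N)) : ((γ * γ' : ↥(Gamma0 N)) : SL(2, ℤ)) 0 1 =
    (γ : SL(2, ℤ)) 0 0 * (γ' : SL(2, ℤ)) 0 1 + (γ : SL(2, ℤ)) 0 1 * (γ' : SL(2, ℤ)) 1 1 := by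
  simp [Matrix.mul_apply, Fin.sum_univ_two]

theorem gamma0_mul_10 {N : ℕ} (γ γ' : ↥(Gamma0 N)) : ((γ * γ' : ↥(Gamma0 N)) : SL(2, ℤ)) 1 0 =
    (γ : SL(2, ℤ)) 1 0 * (γ' : SL(2, ℤ)) 0 0 + (γ : SL(2, ℤ)) 1 1 * (γ' : SL(2, ℤ)) 1 0 := by
  simp [Matrix.mul_apply, Fin.sum_univ_two]

theorem gamma0_mul_11 {N : ℕ} (γ γ' : ↥(Gamma0 N)) : ((γ * γ' : ↥(Gamma0 N)) : SL(2, ℤ)) 1 1 =
    (γ : SL(2, ℤ)) 1 0 * (γ' : SL(2, ℤ)) 0 1 + (γ : SL(2, ℤ)) 1 1 * (γ' : SL(2, ℤ)) 1 1 := by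
  simp [Matrix.mul_apply, Fin.sum_univ_two]


/-- existence of an element of `Γ₀(N)` with a prescribed bottom row. -/
theorem exists_gamma0_row {N : ℕ} {c d : ℤ} (hc : (N : ℤ) ∣ c) (hcd : IsCoprime c d) :
    ∃ γ : ↥(Gamma0 N), (γ : SL(2, ℤ)) 1 0 = c ∧ (γ : SL(2, ℤ)) 1 1 = d := by
  obtain ⟨u, v, huv⟩ := hcd
  exact ⟨mkG0 N v (-u) c d (by linear_combination huv) hc, rfl, rfl⟩

/-- the unipotent `u(x) = (1 x; 0 1)`. -/
def uMat (N : ℕ) (x : ℤ) : ↥(Gamma0 N) := mkG0 N 1 x 0 1 (by ring) (dvd_zero _)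

/-- the unipotent `l(sN) = (1 0; sN 1)`. -/
def lMat (N : ℕ) (s : ℤ) : ↥(Gamma0 N) := mkG0 N 1 0 (s * N) 1 (by ring) (Dvd.intro_left s rfl)

theorem uMat_one (N : ℕ) : uMat N 1 = uOne N := by
  apply gamma0_ext <;> rfl

theorem lMat_one (N : ℕ) : lMat N 1 = lN N := by
  apply gamma0_ext <;> simp [lMat, lN]

theorem uMat_add (N : ℕ) (x y : ℤ) : uMat N (x + y) = uMat N x * uMat N y := by
  apply gamma0_ext
  · rw [gamma0_mul_00]; simp [uMat]
  · rw [gamma0_mul_01]; simp [uMat]; ring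
  · rw [gamma0_mul_10]; simp [uMat]
  · rw [gamma0_mul_11]; simp [uMat]

theorem lMat_add (N : ℕ) (x y : ℤ) : lMat N (x + y) = lMat N x * lMat N y := by
  apply gamma0_ext
  · rw [gamma0_mul_00]; simp [lMat]
  · rw [gamma0_mul_01]; simp [lMat]
  · rw [gamma0_mul_10]; simp [lMat]; ring
  · rw [gamma0_mul_11]; simp [lMat]

theorem uMat_zero (N : ℕ) : uMat N 0 = 1 := by
  apply gamma0_ext <;> simp [uMat]

theorem lMat_zero (N : ℕ) : lMat N 0 = 1 := by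
  apply gamma0_ext <;> simp [lMat]

section Hom

variable {N p : ℕ} (φ : ↥(Gamma0 N) →* Multiplicative (ZMod p))

theorem phi_uMat (hu : φ (uOne N) = 1) (x : ℤ) : φ (uMat N x) = 1 := by
  induction x using Int.induction_on with
  | zero => rw [uMat_zero, map_one]
  | succ n ih => rw [uMat_add, map_mul, ih, uMat_one, hu, one_mul]
  | pred n ih =>
    have h : uMat N (-(n : ℤ)) = uMat N (-(n : ℤ) - 1) * uMat N 1 := by
      rw [← uMat_add]; congr 1; ring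
    rw [h, map_mul, uMat_one, hu, mul_one] at ih
    exact ih

theorem phi_lMat (hl : φ (lN N) = 1) (x : ℤ) : φ (lMat N x) = 1 := by
  induction x using Int.induction_on with
  | zero => rw [lMat_zero, map_one]
  | succ n ih => rw [lMat_add, map_mul, ih, lMat_one, hl, one_mul]
  | pred n ih =>
    have h : lMat N (-(n : ℤ)) = lMat N (-(n : ℤ) - 1) * lMat N 1 := by
      rw [← lMat_add]; congr 1; ring
    rw [h, map_mul, lMat_one, hl, mul_one] at ih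
    exact ih

/-- two elements of `Γ₀(N)` with the same bottom row have the same image. -/
theorem phi_eq_of_row (hu : φ (uOne N) = 1) {γ γ' : ↥(Gamma0 N)}
    (h10 : (γ' : SL(2, ℤ)) 1 0 = (γ : SL(2, ℤ)) 1 0)
    (h11 : (γ' : SL(2, ℤ)) 1 1 = (γ : SL(2, ℤ)) 1 1) : φ γ' = φ γ := by
  have hd := gamma0_det γ
  have hd' := gamma0_det γ'
  rw [h10, h11] at hd'
  have key : γ' = uMat N ((γ : SL(2, ℤ)) 0 0 * (γ' : SL(2, ℤ)) 0 1 -
      (γ' : SL(2, ℤ)) 0 0 * (γ : SL(2, ℤ)) 0 1) * γ := by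
    apply gamma0_ext
    · rw [gamma0_mul_00]; simp only [uMat, mkG0_00, mkG0_01]
      linear_combination (-(γ' : SL(2, ℤ)) 0 0) * hd + ((γ : SL(2, ℤ)) 0 0) * hd'
    · rw [gamma0_mul_01]; simp only [uMat, mkG0_00, mkG0_01]
      linear_combination (-(γ' : SL(2, ℤ)) 0 1) * hd + ((γ : SL(2, ℤ)) 0 1) * hd'
    · rw [gamma0_mul_10]; simp only [uMat, mkG0_10, mkG0_11]; rw [h10]; ring
    · rw [gamma0_mul_11]; simp only [uMat, mkG0_10, mkG0_11]; rw [h11]; ring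
  rw [key, map_mul, phi_uMat φ hu, one_mul]

theorem rowSym_eq {N p : ℕ} (φ : ↥(Gamma0 N) →* Multiplicative (ZMod p)) (hu : φ (uOne N) = 1)
    (γ : ↥(Gamma0 N)) :
    rowSym φ ((γ : SL(2, ℤ)) 1 0) ((γ : SL(2, ℤ)) 1 1) = Multiplicative.toAdd (φ γ) := by
  have h : ∃ γ' : ↥(Gamma0 N), (γ' : SL(2, ℤ)) 1 0 = (γ : SL(2, ℤ)) 1 0 ∧
      (γ' : SL(2, ℤ)) 1 1 = (γ : SL(2, ℤ)) 1 1 := ⟨γ, rfl, rfl⟩
  unfold rowSym
  rw [dif_pos h]
  congr 1
  exact phi_eq_of_row φ hu h.choose_spec.1 h.choose_spec.2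

theorem rowSym_mkG0 (hu : φ (uOne N) = 1) (a b c d : ℤ) (hdet : a * d - b * c = 1)
    (hc : (N : ℤ) ∣ c) : rowSym φ c d = Multiplicative.toAdd (φ (mkG0 N a b c d hdet hc)) :=
  rowSym_eq φ hu (mkG0 N a b c d hdet hc)

/-- `φ(-1) = 1` for `p` odd. -/
theorem phi_neg_one (hp : p.Prime) (hp2 : p ≠ 2) :
    φ (mkG0 N (-1) 0 0 (-1) (by ring) (dvd_zero _)) = 1 := by
  have : Fact p.Prime := ⟨hp⟩
  set g := mkG0 N (-1) 0 0 (-1) (by ring) (dvd_zero _) with hg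
  have hgg : g * g = 1 := by
    apply gamma0_ext
    · rw [gamma0_mul_00]; simp [hg]
    · rw [gamma0_mul_01]; simp [hg]
    · rw [gamma0_mul_10]; simp [hg]
    · rw [gamma0_mul_11]; simp [hg]
  have h2 : φ g * φ g = 1 := by rw [← map_mul, hgg, map_one]
  have h3 : Multiplicative.toAdd (φ g) + Multiplicative.toAdd (φ g) = 0 := by
    rw [← toAdd_mul, h2]; rfl
  have h4 : (2 : ZMod p) * Multiplicative.toAdd (φ g) = 0 := by rw [two_mul]; exact h3
  have h2ne : (2 : ZMod p) ≠ 0 := by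
    intro h
    have : ((2 : ℕ) : ZMod p) = 0 := by exact_mod_cast h
    rw [ZMod.natCast_eq_zero_iff] at this
    exact hp2 ((Nat.prime_dvd_prime_iff_eq hp Nat.prime_two).mp this)
  have h5 := (mul_eq_zero.mp h4).resolve_left h2ne
  exact Multiplicative.toAdd.injective h5

end Hom


theorem isQSymbol_rowSym {N q p : ℕ} [NeZero N] (hp : p.Prime) (hp2 : p ≠ 2)
    (φ : ↥(Gamma0 N) →* Multiplicative (ZMod p)) (hu : φ (uOne N) = 1) (hl : φ (lN N) = 1)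
    (ht : TwistHom N q p φ) : IsQSymbol N q p (rowSym φ) := by
  refine ⟨?_, ?_, ?_, ?_, ?_, ?_, ?_, ?_⟩
  · -- base
    have h := rowSym_eq φ hu (lN N)
    rw [hl] at h
    simpa [lN] using h
  · -- shift_d
    intro c d t hc hcd
    obtain ⟨u, v, huv⟩ := hcd
    rw [rowSym_mkG0 φ hu v (-u) c d (by linear_combination huv) hc,
      rowSym_mkG0 φ hu v (-u + v * t) c (d + t * c) (by linear_combination huv) hc]
    have key : mkG0 N v (-u + v * t) c (d + t * c) (by linear_combination huv) hc =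
        mkG0 N v (-u) c d (by linear_combination huv) hc * uMat N t := by
      apply gamma0_ext
      · rw [gamma0_mul_00]; simp [uMat]
      · rw [gamma0_mul_01]; simp [uMat]; ring
      · rw [gamma0_mul_10]; simp [uMat]
      · rw [gamma0_mul_11]; simp [uMat]; ring
    rw [key, map_mul, phi_uMat φ hu, mul_one]
  · -- shift_c
    intro c d s hc hcd
    obtain ⟨u, v, huv⟩ := hcd
    have hc' : (N : ℤ) ∣ c + s * N * d :=
      dvd_add hc (Dvd.intro_left (s * d) (by ring))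
    rw [rowSym_mkG0 φ hu v (-u) c d (by linear_combination huv) hc,
      rowSym_mkG0 φ hu (v + -u * (s * N)) (-u) (c + s * N * d) d (by linear_combination huv) hc']
    have key : mkG0 N (v + -u * (s * N)) (-u) (c + s * N * d) d (by linear_combination huv) hc' =
        mkG0 N v (-u) c d (by linear_combination huv) hc * lMat N s := by
      apply gamma0_ext
      · rw [gamma0_mul_00]; simp [lMat]
      · rw [gamma0_mul_01]; simp [lMat]
      · rw [gamma0_mul_10]; simp [lMat]; ring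
      · rw [gamma0_mul_11]; simp [lMat]
    rw [key, map_mul, phi_lMat φ hl, mul_one]
  · -- neg
    intro c d hc hcd
    obtain ⟨u, v, huv⟩ := hcd
    rw [rowSym_mkG0 φ hu v (-u) c d (by linear_combination huv) hc,
      rowSym_mkG0 φ hu (-v) u (-c) (-d) (by linear_combination huv) ((dvd_neg).mpr hc)]
    have key : mkG0 N (-v) u (-c) (-d) (by linear_combination huv) ((dvd_neg).mpr hc) =
        mkG0 N (-1) 0 0 (-1) (by ring) (dvd_zero _) *
          mkG0 N v (-u) c d (by linear_combination huv) hc := by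
      apply gamma0_ext
      · rw [gamma0_mul_00]; simp
      · rw [gamma0_mul_01]; simp
      · rw [gamma0_mul_10]; simp
      · rw [gamma0_mul_11]; simp
    rw [key, map_mul, phi_neg_one φ hp hp2, one_mul]
  · -- inv
    intro a b c d hc hdet
    rw [rowSym_mkG0 φ hu a b c d hdet hc,
      rowSym_mkG0 φ hu (-d) b c (-a) (by linear_combination hdet) hc]
    have key : mkG0 N (-d) b c (-a) (by linear_combination hdet) hc *
        mkG0 N a b c d hdet hc = mkG0 N (-1) 0 0 (-1) (by ring) (dvd_zero _) := by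
      apply gamma0_ext
      · rw [gamma0_mul_00]; simp; linear_combination -hdet
      · rw [gamma0_mul_01]; simp; ring
      · rw [gamma0_mul_10]; simp; ring
      · rw [gamma0_mul_11]; simp; linear_combination -hdet
    have h2 := congrArg φ key
    rw [map_mul, phi_neg_one φ hp hp2] at h2
    have h3 := congrArg Multiplicative.toAdd h2
    rw [toAdd_mul, toAdd_one] at h3
    exact eq_neg_of_add_eq_zero_left h3
  · -- tw1
    intro c d hc hcd
    have hcop : IsCoprime (c * (q : ℤ) ^ 2) d := by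
      have h1 : IsCoprime c d := IsCoprime.of_mul_left_left hcd
      have h2 : IsCoprime (q : ℤ) d := IsCoprime.of_mul_left_right hcd
      exact h1.mul_left (h2.pow_left)
    obtain ⟨u, v, huv⟩ := hcop
    have hc2 : (N : ℤ) ∣ c * (q : ℤ) ^ 2 := Dvd.dvd.mul_right hc _
    rw [rowSym_mkG0 φ hu v (-u) (c * (q : ℤ) ^ 2) d (by linear_combination huv) hc2,
      rowSym_mkG0 φ hu v (-u * (q : ℤ) ^ 2) c d (by linear_combination huv) hc]
    congr 1
    exact ht.t1 _ _ (by simp) (by simp; ring) (by simp; ring) (by simp)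
  · -- tw2
    obtain ⟨ε, hε⟩ := ht.t2
    refine ⟨Multiplicative.toAdd ε, ?_⟩
    intro c d hc hcd
    have hcop : IsCoprime c (d * (q : ℤ) ^ 2) := by
      have h1 : IsCoprime c d := IsCoprime.of_mul_right_left hcd
      have h2 : IsCoprime c (q : ℤ) := IsCoprime.of_mul_right_right hcd
      exact h1.mul_right (h2.pow_right)
    obtain ⟨u, v, huv⟩ := hcop
    rw [rowSym_mkG0 φ hu v (-u) c (d * (q : ℤ) ^ 2) (by linear_combination huv) hc,
      rowSym_mkG0 φ hu (v * (q : ℤ) ^ 2) (-u) c d (by linear_combination huv) hc]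
    rw [← toAdd_mul]
    congr 1
    exact hε _ _ (by simp; ring) (by simp) (by simp) (by simp; ring)
  · -- triple
    intro M a₁ b₁ d₁ a₂ b₂ d₂ a₃ b₃ d₃ hM h1 h2 h3
    have hM' : (N : ℤ) ∣ M * ((a₂ + d₁) * (a₃ + d₂) - 1) := Dvd.dvd.mul_right hM _
    set g₁ := mkG0 N a₁ b₁ M d₁ h1 hM with hg₁
    set g₂ := mkG0 N a₂ b₂ M d₂ h2 hM with hg₂
    set g₃ := mkG0 N a₃ b₃ M d₃ h3 hM with hg₃
    rw [rowSym_mkG0 φ hu a₁ b₁ M d₁ h1 hM, rowSym_mkG0 φ hu a₂ b₂ M d₂ h2 hM,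
      rowSym_mkG0 φ hu a₃ b₃ M d₃ h3 hM]
    rw [← toAdd_mul, ← toAdd_mul, ← map_mul, ← map_mul]
    have hrow := rowSym_eq φ hu (g₁ * g₂ * g₃)
    rw [← hrow]
    congr 1
    · rw [gamma0_mul_10, gamma0_mul_10, gamma0_mul_11]
      simp only [hg₁, hg₂, hg₃, mkG0_00, mkG0_01, mkG0_10, mkG0_11]
      linear_combination (-M) * h2
    · rw [gamma0_mul_11, gamma0_mul_10, gamma0_mul_11]
      simp only [hg₁, hg₂, hg₃, mkG0_00, mkG0_01, mkG0_10, mkG0_11]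
      ring

end Fermat.Agent.LR
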