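/-
LR (level raising, S41) — helper4 — [E3R]: the residue function `symF G M z = G(M, z)` of an
abstract `IsQSymbol`, its inversion rule, `Q`-invariance and the triple relation (E3').
-/
import Mathlib
import Fermat.Agent.LR.CSP_helper5_Defs
import Fermat.Agent.LR.CSP_helper4_Sym

set_option autoImplicit false

open Matrix CongruenceSubgroup

open scoped MatrixGroups

namespace Fermat.Agent.LR

/-- `F_M(z) = G(M, z)` on residues. -/
def symF {p : ℕ} (G : ℤ → ℤ → ZMod p) (M : ℕ) (z : ZMod M) : ZMod p := G M (z.val : ℤ)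

variable {N q p : ℕ} {G : ℤ → ℤ → ZMod p}

theorem isCoprime_emod {M : ℕ} {d : ℤ} (hd : IsCoprime (M : ℤ) d) : IsCoprime (M : ℤ) (d % M) := by
  rw [Int.emod_def]
  have : d - (M : ℤ) * (d / M) = d + (-(d / M)) * (M : ℤ) := by ring
  rw [this]
  exact hd.add_mul_right_right _

theorem symF_eq (hG : IsQSymbol N q p G) {M : ℕ} [NeZero M] (hM : N ∣ M) (d : ℤ)
    (hd : IsCoprime (M : ℤ) d) : G M d = symF G M (d : ZMod M) := by
  unfold symF
  rw [ZMod.val_intCast]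
  have h := hG.shift_d M (d % M) (d / M) (Int.natCast_dvd_natCast.mpr hM) (isCoprime_emod hd)
  rw [Int.emod_add_ediv_mul] at h
  exact h

/-- an integer whose residue is a unit is coprime to the modulus. -/
theorem isCoprime_of_cast_eq_unit {M : ℕ} [NeZero M] (d : ℤ) (u : (ZMod M)ˣ)
    (h : (d : ZMod M) = (u : ZMod M)) : IsCoprime (M : ℤ) d := by
  have h1 : IsCoprime (M : ℤ) (((u : ZMod M).val : ℕ) : ℤ) := by
    rw [Nat.isCoprime_iff_coprime]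
    exact (ZMod.val_coe_unit_coprime u).symm
  have h2 : ((((u : ZMod M).val : ℕ) : ℤ) : ZMod M) = (d : ZMod M) := by
    rw [h, Int.cast_natCast, ZMod.natCast_zmod_val]
  rw [ZMod.intCast_eq_intCast_iff_dvd_sub] at h2
  obtain ⟨t, ht⟩ := h2
  have : d = (((u : ZMod M).val : ℕ) : ℤ) + t * (M : ℤ) := by linear_combination ht
  rw [this]
  exact h1.add_mul_right_right _

theorem isCoprime_val_unit {M : ℕ} [NeZero M] (u : (ZMod M)ˣ) :
    IsCoprime (M : ℤ) (((u : ZMod M).val : ℕ) : ℤ) := by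
  rw [Nat.isCoprime_iff_coprime]
  exact (ZMod.val_coe_unit_coprime u).symm

theorem cast_val_unit {M : ℕ} [NeZero M] (u : (ZMod M)ˣ) :
    ((((u : ZMod M).val : ℕ) : ℤ) : ZMod M) = (u : ZMod M) := by
  rw [Int.cast_natCast, ZMod.natCast_zmod_val]

/-- residue of a Bezout inverse. -/
theorem cast_eq_inv_of_bezout {M : ℕ} [NeZero M] (z : (ZMod M)ˣ) (a b d : ℤ)
    (hd : (d : ZMod M) = (z : ZMod M)) (h : a * d - b * M = 1) :
    (a : ZMod M) = ((z⁻¹ : (ZMod M)ˣ) : ZMod M) := by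
  have h1 : (a : ZMod M) * (z : ZMod M) = 1 := by
    have := congrArg (Int.cast : ℤ → ZMod M) h
    simpa [hd] using this
  calc (a : ZMod M) = (a : ZMod M) * ((z : ZMod M) * ((z⁻¹ : (ZMod M)ˣ) : ZMod M)) := by
        rw [← Units.val_mul, mul_inv_cancel, Units.val_one, mul_one]
    _ = ((z⁻¹ : (ZMod M)ˣ) : ZMod M) := by rw [← mul_assoc, h1, one_mul]

theorem symF_inv (hG : IsQSymbol N q p G) {M : ℕ} [NeZero M] (hM : N ∣ M) (z : (ZMod M)ˣ) :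
    symF G M (-((z⁻¹ : (ZMod M)ˣ) : ZMod M)) = -symF G M (z : ZMod M) := by
  obtain ⟨a, b, hab⟩ := isCoprime_val_unit z
  -- a * M + b * d = 1
  set d : ℤ := (((z : ZMod M).val : ℕ) : ℤ) with hd
  have hdet : b * d - (-a) * (M : ℤ) = 1 := by linear_combination hab
  have hinv := hG.inv b (-a) M d (Int.natCast_dvd_natCast.mpr hM) hdet
  have hcop : IsCoprime (M : ℤ) (-b) := by
    refine ⟨a, -d, ?_⟩
    linear_combination hab
  rw [symF_eq hG hM (-b) hcop] at hinv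
  have hb : (b : ZMod M) = ((z⁻¹ : (ZMod M)ˣ) : ZMod M) :=
    cast_eq_inv_of_bezout z b (-a) d (cast_val_unit z) hdet
  rw [Int.cast_neg, hb] at hinv
  exact hinv


/-- iterate of `tw1`. -/
theorem tw1_iter (hG : IsQSymbol N q p G) (c d : ℤ) (hc : (N : ℤ) ∣ c) (n : ℕ)
    (hcd : IsCoprime (c * (q : ℤ) ^ (2 * n)) d) : G (c * (q : ℤ) ^ (2 * n)) d = G c d := by
  induction n with
  | zero => simp
  | succ n ih =>
    have e : c * (q : ℤ) ^ (2 * (n + 1)) = c * (q : ℤ) ^ (2 * n) * (q : ℤ) ^ 2 := by ring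
    have e' : c * (q : ℤ) ^ (2 * (n + 1)) = c * (q : ℤ) ^ (2 * n) * q * q := by ring
    have h1 : IsCoprime (c * (q : ℤ) ^ (2 * n) * q) d := by
      rw [e'] at hcd; exact IsCoprime.of_mul_left_left hcd
    have h2 : IsCoprime (c * (q : ℤ) ^ (2 * n)) d := IsCoprime.of_mul_left_left h1
    rw [e, hG.tw1 (c * (q : ℤ) ^ (2 * n)) d (Dvd.dvd.mul_right hc _) h1]
    exact ih h2

/-- iterate of `tw2`. -/
theorem tw2_iter (hG : IsQSymbol N q p G) : ∃ ε : ZMod p, ∀ (c d : ℤ), (N : ℤ) ∣ c →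
    IsCoprime c d → IsCoprime c (q : ℤ) → ∀ n : ℕ,
      G c (d * (q : ℤ) ^ (2 * n)) = G c d + n • ε := by
  obtain ⟨ε, hε⟩ := hG.tw2
  refine ⟨ε, fun c d hc hcd hcq n => ?_⟩
  induction n with
  | zero => simp
  | succ n ih =>
    have e : d * (q : ℤ) ^ (2 * (n + 1)) = d * (q : ℤ) ^ (2 * n) * (q : ℤ) ^ 2 := by ring
    have h1 : IsCoprime c (d * (q : ℤ) ^ (2 * n) * q) :=
      (hcd.mul_right (hcq.pow_right)).mul_right hcq
    rw [e, hε c (d * (q : ℤ) ^ (2 * n)) hc h1, ih, succ_nsmul, add_assoc]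

theorem cspQ_eq (N q p : ℕ) : (cspQ N q p : ℤ) = (q : ℤ) ^ (2 * (p * Nat.totient (N ^ 2))) := by
  unfold cspQ cspExp
  push_cast
  ring_nf

/-- `G(c, d Q^k) = G(c, d)`. -/
theorem symbol_mul_Q_pow (hG : IsQSymbol N q p G) (c d : ℤ) (hc : (N : ℤ) ∣ c)
    (hcd : IsCoprime c d) (hcq : IsCoprime c (q : ℤ)) (k : ℕ) :
    G c (d * (cspQ N q p : ℤ) ^ k) = G c d := by
  obtain ⟨ε, hε⟩ := tw2_iter hG
  have h := hε c d hc hcd hcq (p * Nat.totient (N ^ 2) * k)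
  have e : (cspQ N q p : ℤ) ^ k = (q : ℤ) ^ (2 * (p * Nat.totient (N ^ 2) * k)) := by
    rw [cspQ_eq, ← pow_mul]; ring_nf
  rw [e, h]
  have : (p * Nat.totient (N ^ 2) * k) • ε = 0 := by
    rw [nsmul_eq_mul]
    push_cast
    rw [ZMod.natCast_self, zero_mul, zero_mul, zero_mul]
  rw [this, add_zero]

set_option linter.unusedVariables false in
theorem symF_Q (hG : IsQSymbol N q p G) (hp : p.Prime) {M : ℕ} [NeZero M] (hM : N ∣ M)
    (hMq : Nat.Coprime M q) (z : (ZMod M)ˣ) :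
    symF G M ((cspQ N q p : ZMod M) * z) = symF G M (z : ZMod M) := by
  have hMN : (N : ℤ) ∣ (M : ℤ) := Int.natCast_dvd_natCast.mpr hM
  have hcq : IsCoprime (M : ℤ) (q : ℤ) := Nat.isCoprime_iff_coprime.mpr hMq
  set d : ℤ := (((z : ZMod M).val : ℕ) : ℤ) with hd
  have hcd : IsCoprime (M : ℤ) d := isCoprime_val_unit z
  have h := symbol_mul_Q_pow hG M d hMN hcd hcq 1
  rw [pow_one] at h
  have hcop : IsCoprime (M : ℤ) (d * (cspQ N q p : ℤ)) := by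
    refine hcd.mul_right ?_
    rw [cspQ_eq]
    exact hcq.pow_right
  rw [symF_eq hG hM _ hcop] at h
  have e : ((d * (cspQ N q p : ℤ) : ℤ) : ZMod M) = (cspQ N q p : ZMod M) * z := by
    rw [Int.cast_mul, hd, cast_val_unit z, Int.cast_natCast, mul_comm]
  rw [e] at h
  exact h


/-- Bezout completion of a row `(M, d)` with `d` a lift of a unit. -/
theorem exists_bezout_of_isCoprime {M : ℕ} {d : ℤ} (h : IsCoprime (M : ℤ) d) :
    ∃ a b : ℤ, a * d - b * M = 1 := by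
  obtain ⟨x, y, hxy⟩ := h
  exact ⟨y, -x, by linear_combination hxy⟩

set_option linter.unusedVariables false in
theorem symF_triple (hG : IsQSymbol N q p G) (hp : p.Prime) {M : ℕ} [NeZero M] (hM : N ∣ M)
    (hMq : Nat.Coprime M q) (P P' : ℤ) (k : ℕ) (hPP : P * P' = 1 - (cspQ N q p : ℤ) ^ k)
    (z u v : (ZMod M)ˣ) (hu : (u : ZMod M) = (P : ZMod M) - ((z⁻¹ : (ZMod M)ˣ) : ZMod M))
    (hv : (v : ZMod M) = (P' : ZMod M) - (z : ZMod M)) :
    symF G M (u : ZMod M) + symF G M (z : ZMod M) + symF G M ((v⁻¹ : (ZMod M)ˣ) : ZMod M) =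
      symF G M (-(cspQ N q p : ZMod M) ^ k * ((P : ZMod M) * z - 1) *
        ((v⁻¹ : (ZMod M)ˣ) : ZMod M)) := by
  have hMN : (N : ℤ) ∣ (M : ℤ) := Int.natCast_dvd_natCast.mpr hM
  have hcq : IsCoprime (M : ℤ) (q : ℤ) := Nat.isCoprime_iff_coprime.mpr hMq
  -- the middle matrix
  set d₂ : ℤ := (((z : ZMod M).val : ℕ) : ℤ) with hd₂
  have hd₂c : (d₂ : ZMod M) = (z : ZMod M) := cast_val_unit z
  obtain ⟨a₂, b₂, h2⟩ := exists_bezout_of_isCoprime (isCoprime_val_unit z)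
  have ha₂ : (a₂ : ZMod M) = ((z⁻¹ : (ZMod M)ˣ) : ZMod M) :=
    cast_eq_inv_of_bezout z a₂ b₂ d₂ hd₂c h2
  -- the first matrix
  set d₁ : ℤ := P - a₂ with hd₁
  have hd₁c : (d₁ : ZMod M) = (u : ZMod M) := by
    rw [hd₁, Int.cast_sub, ha₂, hu]
  have hd₁cop : IsCoprime (M : ℤ) d₁ := isCoprime_of_cast_eq_unit d₁ u hd₁c
  obtain ⟨a₁, b₁, h1⟩ := exists_bezout_of_isCoprime hd₁cop
  -- the third matrix
  set a₃ : ℤ := P' - d₂ with ha₃
  have ha₃c : (a₃ : ZMod M) = (v : ZMod M) := by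
    rw [ha₃, Int.cast_sub, hd₂c, hv]
  have ha₃cop : IsCoprime (M : ℤ) a₃ := isCoprime_of_cast_eq_unit a₃ v ha₃c
  obtain ⟨d₃, b₃', h3'⟩ := exists_bezout_of_isCoprime ha₃cop
  -- d₃ * a₃ - b₃' * M = 1
  have h3 : a₃ * d₃ - b₃' * M = 1 := by linear_combination h3'
  have hd₃c : (d₃ : ZMod M) = ((v⁻¹ : (ZMod M)ˣ) : ZMod M) :=
    cast_eq_inv_of_bezout v d₃ b₃' a₃ ha₃c h3'
  have hd₃cop : IsCoprime (M : ℤ) d₃ := isCoprime_of_cast_eq_unit d₃ v⁻¹ hd₃c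
  -- the triple product
  have htr := hG.triple M a₁ b₁ d₁ a₂ b₂ d₂ a₃ b₃' d₃ hMN h1 h2 h3
  have hPa : a₂ + d₁ = P := by rw [hd₁]; ring
  have hPb : a₃ + d₂ = P' := by rw [ha₃]; ring
  rw [hPa, hPb] at htr
  set D : ℤ := (M : ℤ) * P * b₃' + ((M : ℤ) * b₂ + d₁ * d₂) * d₃ with hD
  have hC : (M : ℤ) * (P * P' - 1) = -((M : ℤ) * (cspQ N q p : ℤ) ^ k) := by
    rw [hPP]; ring
  rw [hC] at htr
  -- coprimality of the bottom row of the product
  have hDc : (D : ZMod M) = (u : ZMod M) * z * ((v⁻¹ : (ZMod M)ˣ) : ZMod M) := by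
    rw [hD]
    push_cast
    rw [ZMod.natCast_self, hd₁c, hd₂c, hd₃c]
    ring
  have hDcop : IsCoprime (M : ℤ) D := isCoprime_of_cast_eq_unit D (u * z * v⁻¹) (by
    rw [hDc]; simp)
  have hrow : IsCoprime ((M : ℤ) * (cspQ N q p : ℤ) ^ k) D := by
    -- determinant of the product of the three matrices
    set g₁ := mkG0 N a₁ b₁ M d₁ h1 hMN with hg₁
    set g₂ := mkG0 N a₂ b₂ M d₂ h2 hMN with hg₂
    set g₃ := mkG0 N a₃ b₃' M d₃ h3 hMN with hg₃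
    have hdet := gamma0_det (g₁ * g₂ * g₃)
    have e10 : ((g₁ * g₂ * g₃ : ↥(Gamma0 N)) : SL(2, ℤ)) 1 0 =
        -((M : ℤ) * (cspQ N q p : ℤ) ^ k) := by
      rw [gamma0_mul_10, gamma0_mul_10, gamma0_mul_11]
      simp only [hg₁, hg₂, hg₃, mkG0_00, mkG0_01, mkG0_10, mkG0_11]
      rw [← hC, ← hPa, ← hPb]
      linear_combination (-(M : ℤ)) * h2
    have e11 : ((g₁ * g₂ * g₃ : ↥(Gamma0 N)) : SL(2, ℤ)) 1 1 = D := by
      rw [gamma0_mul_11, gamma0_mul_10, gamma0_mul_11]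
      simp only [hg₁, hg₂, hg₃, mkG0_00, mkG0_01, mkG0_10, mkG0_11]
      rw [hD, ← hPa]
      ring
    rw [e10, e11] at hdet
    exact ⟨((g₁ * g₂ * g₃ : ↥(Gamma0 N)) : SL(2, ℤ)) 0 1,
      ((g₁ * g₂ * g₃ : ↥(Gamma0 N)) : SL(2, ℤ)) 0 0, by linear_combination hdet⟩
  -- rewrite the right hand side
  have hnegD : IsCoprime ((M : ℤ) * (cspQ N q p : ℤ) ^ k) (-D) := hrow.neg_right
  have e1 : G (-((M : ℤ) * (cspQ N q p : ℤ) ^ k)) D =
      G ((M : ℤ) * (cspQ N q p : ℤ) ^ k) (-D) := by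
    have := hG.neg ((M : ℤ) * (cspQ N q p : ℤ) ^ k) (-D) (Dvd.dvd.mul_right hMN _) hnegD
    rw [neg_neg] at this
    exact this
  have eQ : (cspQ N q p : ℤ) ^ k = (q : ℤ) ^ (2 * (p * Nat.totient (N ^ 2) * k)) := by
    rw [cspQ_eq, ← pow_mul]; ring_nf
  have e2 : G ((M : ℤ) * (cspQ N q p : ℤ) ^ k) (-D) = G (M : ℤ) (-D) := by
    rw [eQ]
    apply tw1_iter hG (M : ℤ) (-D) hMN
    rw [← eQ]; exact hnegD
  have e3 : G (M : ℤ) (-D) = G (M : ℤ) (-D * (cspQ N q p : ℤ) ^ k) :=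
    (symbol_mul_Q_pow hG M (-D) hMN hDcop.neg_right hcq k).symm
  have hcopQ : IsCoprime (M : ℤ) (-D * (cspQ N q p : ℤ) ^ k) := by
    refine hDcop.neg_right.mul_right ?_
    rw [eQ]; exact hcq.pow_right
  rw [e1, e2, e3, symF_eq hG hM _ hcopQ, symF_eq hG hM d₁ hd₁cop, symF_eq hG hM d₃ hd₃cop,
    hd₁c, hd₃c] at htr
  have hz : G (M : ℤ) d₂ = symF G M (z : ZMod M) := rfl
  rw [hz] at htr
  rw [htr]
  congr 1
  push_cast
  rw [hDc, hu]
  have hzz : (z : ZMod M) * ((z⁻¹ : (ZMod M)ˣ) : ZMod M) = 1 := by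
    rw [← Units.val_mul, mul_inv_cancel, Units.val_one]
  linear_combination ((cspQ N q p : ZMod M) ^ k * ((v⁻¹ : (ZMod M)ˣ) : ZMod M)) * hzz

end Fermat.Agent.LR
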