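/-
LR (level raising, S41) — helper5 — [CSP] lemma **(K)** of finding 387: a function
`f : (ZMod r)ˣ → ZMod p` (`p ∤ r - 1`) which is invariant under `Q ≠ 1` and satisfies the cross
relation (b) is constant.
-/
import Mathlib

set_option autoImplicit false

namespace Fermat.Agent.LR

section Abstract

variable {G : Type*} [CommGroup G] {p : ℕ}

/-- the stabiliser of a function under translation. -/
def stabF (g : G → ZMod p) : Subgroup G where
  carrier := {a | ∀ t, g (a * t) = g t}
  one_mem' := by intro t; simp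
  mul_mem' := by
    intro a b ha hb t
    rw [mul_assoc, ha, hb]
  inv_mem' := by
    intro a ha t
    have := ha (a⁻¹ * t)
    rw [mul_inv_cancel_left] at this
    exact this.symm

theorem mem_stabF {g : G → ZMod p} {a : G} : a ∈ stabF g ↔ ∀ t, g (a * t) = g t := Iff.rfl

/-- `ψ_θ(t) = f(θ t) - f(t)`. -/
def psiF (f : G → ZMod p) (θ : G) : G → ZMod p := fun t => f (θ * t) - f t

theorem stabF_le_psiF (f : G → ZMod p) (θ : G) : stabF f ≤ stabF (psiF f θ) := by
  intro h hh t
  unfold psiF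
  rw [mul_left_comm, hh, hh]

theorem stabF_psiF_le_pow (f : G → ZMod p) (θ : G) (j : ℕ) :
    stabF (psiF f θ) ≤ stabF (psiF f (θ ^ j)) := by
  induction j with
  | zero =>
    intro a _ t
    simp [psiF]
  | succ j ih =>
    intro a ha t
    have hsplit : ∀ t, psiF f (θ ^ (j + 1)) t = psiF f θ (θ ^ j * t) + psiF f (θ ^ j) t := by
      intro t
      unfold psiF
      rw [pow_succ', mul_assoc]
      ring
    rw [hsplit, hsplit, mul_left_comm, ha, ih ha]

theorem psiF_symm (f : G → ZMod p) (a θ : G) :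
    a ∈ stabF (psiF f θ) ↔ θ ∈ stabF (psiF f a) := by
  simp only [mem_stabF, psiF]
  constructor
  · intro h t
    have := h t
    rw [mul_left_comm] at this
    linear_combination this
  · intro h t
    have := h t
    rw [mul_left_comm] at this
    linear_combination this

/-- telescoping: if `ψ_g` is `g`-invariant and `p ∤ orderOf g`, then `f` is `g`-invariant. -/
theorem mem_stabF_of_mem_psiF [Fact p.Prime] (f : G → ZMod p) (g : G)
    (hg : g ∈ stabF (psiF f g)) (hp : ¬ p ∣ orderOf g) : g ∈ stabF f := by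
  have hpow : ∀ (i : ℕ) (t : G), f (g ^ i * t) - f t = i • psiF f g t := by
    intro i
    induction i with
    | zero => intro t; simp
    | succ i ih =>
      intro t
      have h1 : psiF f g (g ^ i * t) = psiF f g t := (pow_mem hg i) t
      have h2 : f (g ^ (i + 1) * t) - f t = psiF f g (g ^ i * t) + (f (g ^ i * t) - f t) := by
        unfold psiF
        rw [pow_succ', mul_assoc]
        ring
      rw [h2, h1, ih, succ_nsmul]
      ring
  intro t
  have h1 := hpow (orderOf g) t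
  rw [pow_orderOf_eq_one, one_mul, sub_self, nsmul_eq_mul] at h1
  have h2 : ((orderOf g : ℕ) : ZMod p) ≠ 0 := by
    rw [Ne, ZMod.natCast_eq_zero_iff]
    exact hp
  have h3 : psiF f g t = 0 := by
    rcases mul_eq_zero.mp h1.symm with h | h
    · exact absurd h h2
    · exact h
  unfold psiF at h3
  exact sub_eq_zero.mp h3

/-- if `f` is not constant under translation, there is a "half-size" subgroup `Z ⊇ stab f` such
that no pair `α, θ ∉ Z` satisfies the cross relation `C(α, θ)`. -/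
theorem exists_subgroup_of_stabF_ne_top [Fintype G] [DecidableEq G] [IsCyclic G] [Fact p.Prime]
    (f : G → ZMod p) (hp : ¬ p ∣ Nat.card G) (hH : stabF f ≠ ⊤) :
    ∃ Z : Subgroup G, stabF f ≤ Z ∧ 2 * Nat.card Z ≤ Nat.card G ∧
      ∀ α θ : G, α ∉ Z → θ ∉ Z → α ∉ stabF (psiF f θ) := by
  classical
  set n := Nat.card G with hn
  have hn0 : 0 < n := Nat.card_pos
  set m := Nat.card (stabF f) with hm
  have hm0 : 0 < m := Nat.card_pos
  have hmn : m ∣ n := Subgroup.card_subgroup_dvd_card _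
  have hne : m ≠ n := fun h => hH ((Subgroup.card_eq_iff_eq_top _).mp h)
  have hquot : n / m ≠ 1 := by
    intro h
    apply hne
    have := Nat.div_mul_cancel hmn
    rw [h, one_mul] at this
    exact this
  obtain ⟨ℓ, hℓ, hℓd⟩ := Nat.exists_prime_and_dvd hquot
  obtain ⟨c, hc⟩ := hℓd
  have hnm : n = m * (ℓ * c) := by
    rw [← hc, Nat.mul_div_cancel' hmn]
  set K := m * c with hK
  have hnK : n = ℓ * K := by rw [hnm, hK]; ring
  have hK0 : 0 < K := by
    rcases Nat.eq_zero_or_pos K with h | h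
    · rw [h, mul_zero] at hnK; omega
    · exact h
  refine ⟨(powMonoidHom K : G →* G).ker, ?_, ?_, ?_⟩
  · intro h hh
    rw [MonoidHom.mem_ker, powMonoidHom_apply, hK, pow_mul]
    have h1 : (⟨h, hh⟩ : stabF f) ^ m = 1 := pow_card_eq_one'
    have h2 : h ^ m = 1 := by
      have := congrArg (fun x : stabF f => (x : G)) h1
      simpa using this
    rw [h2, one_pow]
  · have h1 : Nat.card (powMonoidHom K : G →* G).ker ≤ K := by
      have h2 := IsCyclic.card_pow_eq_one_le (α := G) hK0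
      rw [Nat.card_eq_fintype_card, Fintype.card_subtype]
      convert h2 using 2
      ext x
      simp [MonoidHom.mem_ker]
    calc 2 * Nat.card (powMonoidHom K : G →* G).ker ≤ 2 * K := by omega
      _ ≤ ℓ * K := Nat.mul_le_mul_right _ hℓ.two_le
      _ = n := hnK.symm
  · intro α θ hα hθ hC
    obtain ⟨g₀, hg₀⟩ := IsCyclic.exists_monoid_generator (α := G)
    obtain ⟨a, ha⟩ := (Submonoid.mem_powers_iff _ _).mp (hg₀ α)
    obtain ⟨b, hb⟩ := (Submonoid.mem_powers_iff _ _).mp (hg₀ θ)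
    have hord : orderOf g₀ = n := by
      apply orderOf_eq_card_of_forall_mem_zpowers
      intro x
      exact (mem_powers_iff_mem_zpowers).mp (hg₀ x)
    set g := g₀ ^ (a * b) with hg
    have hgθ : θ ^ a = g := by rw [← hb, ← pow_mul, mul_comm]
    have hgα : α ^ b = g := by rw [← ha, ← pow_mul]
    have hgZ : g ∉ (powMonoidHom K : G →* G).ker := by
      intro hgK
      rw [MonoidHom.mem_ker, powMonoidHom_apply, hg, ← pow_mul] at hgK
      have h1 : n ∣ a * b * K := by
        rw [← hord]; exact orderOf_dvd_of_pow_eq_one hgK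
      rw [hnK] at h1
      have h2 : ℓ ∣ a * b := Nat.dvd_of_mul_dvd_mul_right hK0 h1
      have hkill : ∀ e : ℕ, ℓ ∣ e → (g₀ ^ e) ^ K = 1 := by
        rintro e ⟨e', rfl⟩
        rw [← pow_mul]
        have : ℓ * e' * K = n * e' := by rw [hnK]; ring
        rw [this, pow_mul, ← hord, pow_orderOf_eq_one, one_pow]
      rcases (Nat.Prime.dvd_mul hℓ).mp h2 with h3 | h3
      · apply hα
        rw [MonoidHom.mem_ker, powMonoidHom_apply, ← ha]
        exact hkill a h3
      · apply hθ
        rw [MonoidHom.mem_ker, powMonoidHom_apply, ← hb]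
        exact hkill b h3
    have h1 : g ∈ stabF (psiF f g) := by
      have h2 : α ^ b ∈ stabF (psiF f θ) := pow_mem hC b
      have h3 := stabF_psiF_le_pow f θ a h2
      rw [hgθ, hgα] at h3
      exact h3
    have h4 : ¬ p ∣ orderOf g := fun h => hp (h.trans (orderOf_dvd_natCard g))
    have h5 : g ∈ stabF f := mem_stabF_of_mem_psiF f g h1 h4
    apply hgZ
    rw [MonoidHom.mem_ker, powMonoidHom_apply, hK, pow_mul]
    have h6 : (⟨g, h5⟩ : stabF f) ^ m = 1 := pow_card_eq_one'
    have h7 : g ^ m = 1 := by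
      have := congrArg (fun x : stabF f => (x : G)) h6
      simpa using this
    rw [h7, one_pow]

end Abstract

section Pigeon

variable {r : ℕ} [Fact r.Prime]

open Classical in
/-- the pigeonhole step of (K). -/
theorem exists_pair_not_mem (Z : Subgroup (ZMod r)ˣ) (Qr : (ZMod r)ˣ) (hQ1 : Qr ≠ 1)
    (hQZ : Qr ∈ Z) (hcard : 2 * Nat.card Z ≤ Nat.card (ZMod r)ˣ) :
    ∃ s s1 sQ : (ZMod r)ˣ, (s1 : ZMod r) = (s : ZMod r) + 1 ∧
      (sQ : ZMod r) = (s : ZMod r) + (Qr : ZMod r) ∧ -s⁻¹ ∉ Z ∧ s1 * sQ⁻¹ ∉ Z := by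
  by_contra hcon
  push Not at hcon
  have hQ1' : (Qr : ZMod r) - 1 ≠ 0 := by
    intro h
    apply hQ1
    apply Units.ext
    rw [Units.val_one]
    exact sub_eq_zero.mp h
  -- validity of `α ∉ Z`
  have hvalid : ∀ α : (ZMod r)ˣ, α ∉ Z →
      (α : ZMod r) - 1 ≠ 0 ∧ (Qr : ZMod r) * (α : ZMod r) - 1 ≠ 0 := by
    intro α hα
    constructor
    · intro h
      apply hα
      have : α = 1 := Units.ext (by rw [Units.val_one]; exact sub_eq_zero.mp h)
      rw [this]; exact Z.one_mem
    · intro h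
      apply hα
      have : α = Qr⁻¹ := by
        rw [eq_inv_iff_mul_eq_one]
        apply Units.ext
        rw [Units.val_mul, Units.val_one, mul_comm]
        exact sub_eq_zero.mp h
      rw [this]; exact Z.inv_mem hQZ
  let g : (ZMod r)ˣ → (ZMod r)ˣ := fun α =>
    if h : (α : ZMod r) - 1 ≠ 0 ∧ (Qr : ZMod r) * (α : ZMod r) - 1 ≠ 0 then
      Units.mk0 (((α : ZMod r) - 1) / ((Qr : ZMod r) * (α : ZMod r) - 1)) (div_ne_zero h.1 h.2)
    else 1
  have hg : ∀ α : (ZMod r)ˣ, α ∉ Z →
      ((g α : (ZMod r)ˣ) : ZMod r) = ((α : ZMod r) - 1) / ((Qr : ZMod r) * (α : ZMod r) - 1) := by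
    intro α hα
    simp only [g, dif_pos (hvalid α hα), Units.val_mk0]
  set S : Finset (ZMod r)ˣ := Finset.univ.filter (fun α => α ∉ Z) with hS
  set T : Finset (ZMod r)ˣ := ((Finset.univ.filter (fun α => α ∈ Z)).erase 1).erase Qr⁻¹ with hT
  have hmaps : ∀ α ∈ S, g α ∈ T := by
    intro α hαS
    have hα : α ∉ Z := (Finset.mem_filter.mp hαS).2
    obtain ⟨hv1, hv2⟩ := hvalid α hα
    have hα0 : (α : ZMod r) ≠ 0 := α.ne_zero
    rw [hT, Finset.mem_erase, Finset.mem_erase, Finset.mem_filter]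
    refine ⟨?_, ?_, Finset.mem_univ _, ?_⟩
    · intro h
      have h1 := congrArg (fun u : (ZMod r)ˣ => (u : ZMod r)) h
      simp only [hg α hα, Units.val_inv_eq_inv_val] at h1
      have hQ0 : (Qr : ZMod r) ≠ 0 := Qr.ne_zero
      rw [div_eq_iff hv2] at h1
      have h2 : (Qr : ZMod r) * ((α : ZMod r) - 1) =
          (Qr : ZMod r) * ((Qr : ZMod r)⁻¹ * ((Qr : ZMod r) * (α : ZMod r) - 1)) := by rw [h1]
      rw [mul_inv_cancel_left₀ hQ0] at h2
      apply hQ1'
      linear_combination -h2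
    · intro h
      have h1 := congrArg (fun u : (ZMod r)ˣ => (u : ZMod r)) h
      simp only [hg α hα, Units.val_one] at h1
      rw [div_eq_one_iff_eq hv2] at h1
      have h2 : (α : ZMod r) * ((Qr : ZMod r) - 1) = 0 := by linear_combination -h1
      rcases mul_eq_zero.mp h2 with h3 | h3
      · exact hα0 h3
      · exact hQ1' h3
    · -- `g α ∈ Z` by `hcon`
      have hs1 : -(α : ZMod r)⁻¹ + 1 ≠ 0 := by
        intro h
        apply hv1
        field_simp at h
        linear_combination h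
      have hsQ : -(α : ZMod r)⁻¹ + (Qr : ZMod r) ≠ 0 := by
        intro h
        apply hv2
        field_simp at h
        linear_combination h
      have h1 := hcon (-α⁻¹) (Units.mk0 _ hs1) (Units.mk0 _ hsQ)
        (by rw [Units.val_mk0, Units.val_neg, Units.val_inv_eq_inv_val])
        (by rw [Units.val_mk0, Units.val_neg, Units.val_inv_eq_inv_val]) (by simpa using hα)
      have h2 : Units.mk0 _ hs1 * (Units.mk0 _ hsQ)⁻¹ = g α := by
        apply Units.ext
        rw [hg α hα]
        simp only [Units.val_mul, Units.val_mk0, Units.val_inv_eq_inv_val]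
        rw [← div_eq_mul_inv, div_eq_div_iff hsQ hv2]
        field_simp
        ring
      rw [h2] at h1
      exact h1
  have hinj : Set.InjOn g S := by
    intro α hαS β hβS hαβ
    have hα : α ∉ Z := (Finset.mem_filter.mp hαS).2
    have hβ : β ∉ Z := (Finset.mem_filter.mp hβS).2
    obtain ⟨hv1, hv2⟩ := hvalid α hα
    obtain ⟨hw1, hw2⟩ := hvalid β hβ
    have h1 := congrArg (fun u : (ZMod r)ˣ => (u : ZMod r)) hαβ
    simp only [hg α hα, hg β hβ] at h1
    rw [div_eq_div_iff hv2 hw2] at h1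
    have h2 : ((α : ZMod r) - (β : ZMod r)) * ((Qr : ZMod r) - 1) = 0 := by linear_combination h1
    rcases mul_eq_zero.mp h2 with h3 | h3
    · exact Units.ext (sub_eq_zero.mp h3)
    · exact absurd h3 hQ1'
  have hle := Finset.card_le_card_of_injOn g hmaps hinj
  -- cardinalities
  have hcS : S.card + (Finset.univ.filter (fun α : (ZMod r)ˣ => α ∈ Z)).card =
      Fintype.card (ZMod r)ˣ := by
    rw [hS, add_comm, ← Finset.card_univ]
    exact Finset.card_filter_add_card_filter_not _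
  have hcZ : (Finset.univ.filter (fun α : (ZMod r)ˣ => α ∈ Z)).card = Nat.card Z := by
    rw [Nat.card_eq_fintype_card, Fintype.card_subtype]
  have h1Z : (1 : (ZMod r)ˣ) ∈ Finset.univ.filter (fun α : (ZMod r)ˣ => α ∈ Z) := by
    simp [Z.one_mem]
  have hQZ' : Qr⁻¹ ∈ (Finset.univ.filter (fun α : (ZMod r)ˣ => α ∈ Z)).erase 1 := by
    rw [Finset.mem_erase]
    refine ⟨?_, by simp [Z.inv_mem hQZ]⟩
    intro h
    apply hQ1
    rw [inv_eq_one] at h
    exact h
  have hcT : T.card + 2 = (Finset.univ.filter (fun α : (ZMod r)ˣ => α ∈ Z)).card := by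
    rw [hT, Finset.card_erase_of_mem hQZ', Finset.card_erase_of_mem h1Z]
    have := Finset.card_pos.mpr ⟨_, hQZ'⟩
    rw [Finset.card_erase_of_mem h1Z] at this
    omega
  rw [Nat.card_eq_fintype_card (α := (ZMod r)ˣ)] at hcard
  omega

end Pigeon

/-- **(K)**: a `Q`-invariant function on `(ZMod r)ˣ` with values in `ZMod p`, `p ∤ r - 1`,
satisfying the cross relation (b) is constant. -/
theorem const_of_cross_relation {r p : ℕ} [Fact r.Prime] [Fact p.Prime] (hpr : ¬ p ∣ r - 1)
    (f : (ZMod r)ˣ → ZMod p) (Qr : (ZMod r)ˣ) (hQ1 : Qr ≠ 1)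
    (hQinv : ∀ y, f (Qr * y) = f y)
    (hrel : ∀ ρ s s1 sQ : (ZMod r)ˣ, (s1 : ZMod r) = (s : ZMod r) + 1 →
        (sQ : ZMod r) = (s : ZMod r) + (Qr : ZMod r) →
        f (s1 * ρ⁻¹) - f (sQ * ρ⁻¹) = f (-(s1 * (ρ * s)⁻¹)) - f (-(sQ * (ρ * s)⁻¹))) :
    ∀ y y', f y = f y' := by
  have hcardG : Nat.card (ZMod r)ˣ = r - 1 := by
    rw [Nat.card_eq_fintype_card, ZMod.card_units_eq_totient, Nat.totient_prime Fact.out]
  have hH : stabF f = ⊤ := by
    by_contra hH
    obtain ⟨Z, hHZ, hZcard, hZ⟩ :=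
      exists_subgroup_of_stabF_ne_top f (by rw [hcardG]; exact hpr) hH
    have hQZ : Qr ∈ Z := hHZ hQinv
    obtain ⟨s, s1, sQ, hs1, hsQ, hα, hθ⟩ := exists_pair_not_mem Z Qr hQ1 hQZ hZcard
    apply hZ (-s⁻¹) (s1 * sQ⁻¹) hα hθ
    intro t
    have h1 := hrel (sQ * t⁻¹) s s1 sQ hs1 hsQ
    have e1 : s1 * (sQ * t⁻¹)⁻¹ = s1 * sQ⁻¹ * t := by
      rw [mul_inv, inv_inv, mul_assoc]
    have e2 : sQ * (sQ * t⁻¹)⁻¹ = t := by
      rw [mul_inv, inv_inv, mul_inv_cancel_left]
    have e3 : -(s1 * (sQ * t⁻¹ * s)⁻¹) = s1 * sQ⁻¹ * (-s⁻¹ * t) := by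
      rw [mul_inv, mul_inv, inv_inv]
      simp only [neg_mul, mul_neg, neg_inj]
      rw [mul_assoc, mul_assoc, mul_comm t s⁻¹]
    have e4 : -(sQ * (sQ * t⁻¹ * s)⁻¹) = -s⁻¹ * t := by
      rw [mul_inv, mul_inv, inv_inv]
      simp only [neg_mul, neg_inj]
      rw [← mul_assoc, ← mul_assoc, mul_inv_cancel, one_mul, mul_comm]
    rw [e1, e2, e3, e4] at h1
    unfold psiF
    linear_combination -h1
  intro y y'
  have h1 : y * y'⁻¹ ∈ stabF f := by rw [hH]; exact Subgroup.mem_top _
  have h2 := h1 y'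
  rw [inv_mul_cancel_right] at h2
  exact h2

end Fermat.Agent.LR
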