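/-
LR (level raising, S41) — helper6 — [CSP]/[END]: the endgame of finding 387.

Given the abstract symbol `G` (axioms `IsQSymbol`) and the KEY proposition (the symbol
`G (N r) d` for a good prime `r` depends only on `d mod N`), every symbol `G c d` with
`N ∣ c`, `d ≡ 1 mod N` vanishes.  Two applications of Dirichlet's theorem.
-/
import Mathlib
import Fermat.Agent.LR.CSP_helper5_Defs

set_option autoImplicit false

namespace Fermat.Agent.LR

/-- `Q = q ^ E ≥ 2`. -/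
theorem one_lt_cspQ {N q p : ℕ} [NeZero N] (hq : q.Prime) (hp : p.Prime) : 1 < cspQ N q p := by
  unfold cspQ cspExp
  apply Nat.one_lt_pow _ hq.one_lt
  have h1 : 0 < Nat.totient (N ^ 2) := Nat.totient_pos.mpr (pow_pos (NeZero.pos N) 2)
  have h2 := hp.pos
  positivity

/-- a prime `r` which is larger than `N`, `q`, `Q` and is `≡ 2 mod p` is good. -/
theorem goodPrime_of_large {N q p r : ℕ} [NeZero N] (hq : q.Prime) (hp : p.Prime)
    (hr : r.Prime) (hrN : N < r) (hrq : q < r) (hrQ : cspQ N q p < r)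
    (hrp : (p : ℤ) ∣ (r : ℤ) - 2) : GoodPrime N q p r := by
  refine ⟨hr, ?_, ?_, ?_, ?_⟩
  · intro h
    exact absurd (Nat.le_of_dvd (NeZero.pos N) h) (by omega)
  · omega
  · intro h
    have hQ := one_lt_cspQ (N := N) hq hp
    exact absurd (Nat.le_of_dvd (by omega) h) (by omega)
  · intro h
    have h1 : (p : ℤ) ∣ ((r - 1 : ℕ) : ℤ) := by exact_mod_cast h
    have hr1 : 1 ≤ r := hr.one_lt.le
    rw [Nat.cast_sub hr1] at h1
    have h2 : (p : ℤ) ∣ 1 := by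
      have := dvd_sub h1 hrp
      have e : ((r : ℤ) - (1 : ℕ)) - ((r : ℤ) - 2) = 1 := by push_cast; ring
      rwa [e] at this
    have h3 : p ∣ 1 := by exact_mod_cast h2
    exact hp.one_lt.ne' (Nat.dvd_one.mp h3)

/-- **[END]**: the endgame of the elementary proof of the congruence subgroup property
(finding 387), with the KEY proposition as a hypothesis. -/
theorem csp_abstract_of_key {N q p : ℕ} [NeZero N] (hq : q.Prime) (hp : p.Prime)
    (hp2 : p ≠ 2) {G : ℤ → ℤ → ZMod p} (hG : IsQSymbol N q p G)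
    (hkey : ∀ r, GoodPrime N q p r → ∀ d d' : ℤ, IsCoprime ((N : ℤ) * r) d →
      IsCoprime ((N : ℤ) * r) d' → (N : ℤ) ∣ d - d' → G ((N : ℤ) * r) d = G ((N : ℤ) * r) d')
    (c d : ℤ) (hc : (N : ℤ) ∣ c) (hcd : IsCoprime c d) (hd : (N : ℤ) ∣ d - 1) : G c d = 0 := by
  have hN1 : IsCoprime (N : ℤ) 1 := isCoprime_one_right
  -- the case `c = 0`
  by_cases hc0 : c = 0
  · subst hc0
    have hd1 : IsUnit d := isCoprime_zero_left.mp hcd
    have h01 : G 0 1 = 0 := by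
      have := hG.shift_c 0 1 1 (dvd_zero _) isCoprime_one_right
      simp only [zero_add, one_mul, mul_one] at this
      rw [← this, hG.base]
    rcases Int.isUnit_iff.mp hd1 with rfl | rfl
    · exact h01
    · have := hG.neg 0 1 (dvd_zero _) isCoprime_one_right
      simp only [neg_zero] at this
      rw [this, h01]
  -- `c = N * c₀`, `c₀ ≠ 0`
  obtain ⟨c₀, rfl⟩ := hc
  have hcnat : (N * c₀).natAbs ≠ 0 := Int.natAbs_ne_zero.mpr hc0
  -- first Dirichlet step: a large prime `ℓ ≡ d mod c`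
  have hcd' : IsCoprime d (((N : ℤ) * c₀).natAbs : ℤ) := by
    have : IsCoprime d ((N : ℤ) * c₀) := hcd.symm
    rcases Int.natAbs_eq ((N : ℤ) * c₀) with h | h
    · rw [← h]; exact this
    · have h' : ((((N : ℤ) * c₀).natAbs : ℕ) : ℤ) = -((N : ℤ) * c₀) := by omega
      rw [h']; exact this.neg_right
  obtain ⟨ℓ, hℓB, hℓ, hℓd⟩ :=
    Nat.forall_exists_prime_gt_and_zmodEq (p + q + N + cspQ N q p) hcnat hcd'
  have hdvd1 : ((N : ℤ) * c₀) ∣ (ℓ : ℤ) - d := by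
    have := hℓd.symm.dvd
    exact Int.natAbs_dvd.mp this
  obtain ⟨t, ht⟩ := hdvd1
  have hℓeq : (ℓ : ℤ) = d + t * ((N : ℤ) * c₀) := by linarith
  have step1 : G ((N : ℤ) * c₀) d = G ((N : ℤ) * c₀) ℓ := by
    rw [hℓeq]; exact (hG.shift_d _ d t (Dvd.intro _ rfl) hcd).symm
  have hcℓ : IsCoprime ((N : ℤ) * c₀) ℓ := by
    rw [hℓeq]; exact hcd.add_mul_right_right t
  have hc₀ℓ : IsCoprime c₀ (ℓ : ℤ) := hcℓ.of_mul_left_right
  have hNℓ1 : (N : ℤ) ∣ (ℓ : ℤ) - 1 := by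
    have e : (ℓ : ℤ) - 1 = (d - 1) + (N : ℤ) * (t * c₀) := by rw [hℓeq]; ring
    rw [e]; exact dvd_add hd (Dvd.intro _ rfl)
  have hNℓ : IsCoprime (N : ℤ) ℓ := by
    obtain ⟨k, hk⟩ := hNℓ1
    exact ⟨-k, 1, by linarith⟩
  -- second Dirichlet step: a good prime `r ≡ c₀ mod ℓ`, `r ≡ 2 mod p`
  have hℓp : ℓ ≠ p := by omega
  have hcopℓp : IsCoprime (ℓ : ℤ) (p : ℤ) :=
    Nat.isCoprime_iff_coprime.mpr ((Nat.coprime_primes hℓ hp).mpr hℓp)
  obtain ⟨u, v, huv⟩ := hcopℓp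
  -- `a ≡ c₀ mod ℓ`, `a ≡ 2 mod p`
  obtain ⟨a, ha⟩ : ∃ a : ℤ, a = c₀ * (v * p) + 2 * (u * ℓ) := ⟨_, rfl⟩
  have haℓ : (ℓ : ℤ) ∣ a - c₀ := ⟨(2 - c₀) * u, by rw [ha]; linear_combination c₀ * huv⟩
  have hap : (p : ℤ) ∣ a - 2 := ⟨(c₀ - 2) * v, by rw [ha]; linear_combination 2 * huv⟩
  have h2p : IsCoprime (2 : ℤ) (p : ℤ) := by
    have : Nat.Coprime 2 p := (Nat.coprime_primes Nat.prime_two hp).mpr (Ne.symm hp2)
    exact_mod_cast Nat.isCoprime_iff_coprime.mpr this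
  have hacop : IsCoprime a ((ℓ * p : ℕ) : ℤ) := by
    push_cast
    refine IsCoprime.mul_right ?_ ?_
    · obtain ⟨k, hk⟩ := haℓ
      have : a = c₀ + k * ℓ := by linarith
      rw [this]; exact hc₀ℓ.symm.add_mul_right_right k |>.symm
    · obtain ⟨k, hk⟩ := hap
      have : a = 2 + k * p := by linarith
      rw [this]; exact h2p.symm.add_mul_right_right k |>.symm
  obtain ⟨r, hrB, hr, hra⟩ :=
    Nat.forall_exists_prime_gt_and_zmodEq (ℓ + q + N + cspQ N q p)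
      (Nat.mul_ne_zero hℓ.ne_zero hp.ne_zero) hacop
  have hdvd2 : ((ℓ : ℤ) * p) ∣ (r : ℤ) - a := by
    have := hra.symm.dvd
    push_cast at this
    exact this
  have hrℓ : (ℓ : ℤ) ∣ (r : ℤ) - c₀ := by
    have e : (r : ℤ) - c₀ = ((r : ℤ) - a) + (a - c₀) := by ring
    rw [e]; exact dvd_add (dvd_trans (Dvd.intro _ rfl) hdvd2) haℓ
  have hrp : (p : ℤ) ∣ (r : ℤ) - 2 := by
    have e : (r : ℤ) - 2 = ((r : ℤ) - a) + (a - 2) := by ring
    rw [e]; exact dvd_add (dvd_trans (Dvd.intro_left _ rfl) hdvd2) hap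
  have hgood : GoodPrime N q p r :=
    goodPrime_of_large hq hp hr (by omega) (by omega) (by omega) hrp
  obtain ⟨s, hs⟩ := hrℓ
  have step2 : G ((N : ℤ) * c₀) ℓ = G ((N : ℤ) * r) ℓ := by
    have e : (N : ℤ) * r = (N : ℤ) * c₀ + s * N * ℓ := by
      have : (r : ℤ) = c₀ + ℓ * s := by linarith
      rw [this]; ring
    rw [e]; exact (hG.shift_c _ _ s (Dvd.intro _ rfl) hcℓ).symm
  have hrℓcop : IsCoprime (r : ℤ) (ℓ : ℤ) :=
    Nat.isCoprime_iff_coprime.mpr ((Nat.coprime_primes hr hℓ).mpr (by omega))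
  have step3 : G ((N : ℤ) * r) ℓ = G ((N : ℤ) * r) 1 :=
    hkey r hgood ℓ 1 (IsCoprime.mul_left hNℓ hrℓcop) isCoprime_one_right hNℓ1
  have step4 : G ((N : ℤ) * r) 1 = G N 1 := by
    have e : (N : ℤ) * r = (N : ℤ) + ((r : ℤ) - 1) * N * 1 := by ring
    rw [e]; exact hG.shift_c _ _ _ (dvd_refl _) hN1
  rw [step1, step2, step3, step4, hG.base]

end Fermat.Agent.LR
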