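/-
LR (level raising, S41) — helper7 — [CSP]/[P3]: the Dirichlet + CRT step of finding 387.
Given a good prime `r`, a unit `ρ` mod `r` and a bound `B`, there are a prime `P₁ > B` and an
exponent `k > 0` with `N P₁ ≡ ρ (mod r)`, `N² P₁ ∣ Q^k - 1` and `Q^k ≡ Q (mod r)` (`Q = q^E`).
-/
import Mathlib

set_option autoImplicit false

namespace Fermat.Agent.LR

/-- auxiliary: for an odd prime `r` and a residue `ρ'` mod `r` prime to `r`, there are
arbitrarily large primes `P₁` with `P₁ ≡ -1 (mod 2 (r - 1))` and `P₁ ≡ ρ' (mod r)`. -/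
theorem p3_dirichlet {r : ℕ} (hr : r.Prime) (hr2 : r ≠ 2) (a : ℕ) (ha : ¬ r ∣ a) (B : ℕ) :
    ∃ P₁ : ℕ, P₁.Prime ∧ B < P₁ ∧ 2 * (r - 1) ∣ P₁ + 1 ∧ P₁ ≡ a [MOD r] := by
  have hr3 : 3 ≤ r := by
    have := hr.two_le
    omega
  have hcop : Nat.Coprime (2 * (r - 1)) r := by
    rw [Nat.coprime_comm, Nat.Prime.coprime_iff_not_dvd hr]
    intro h
    rcases (Nat.Prime.dvd_mul hr).mp h with h2 | h1
    · have := Nat.le_of_dvd (by norm_num) h2
      omega
    · have := Nat.le_of_dvd (by omega) h1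
      omega
  obtain ⟨a₀, ha1, ha2⟩ := Nat.chineseRemainder hcop (2 * (r - 1) - 1) a
  have hm0 : 2 * (r - 1) * r ≠ 0 := by
    have h1 : 0 < r - 1 := by omega
    have h2 : 0 < r := by omega
    have : 0 < 2 * (r - 1) * r := Nat.mul_pos (Nat.mul_pos (by norm_num) h1) h2
    omega
  have hc1 : Nat.Coprime a₀ (2 * (r - 1)) := by
    have h1 : Nat.gcd a₀ (2 * (r - 1)) = Nat.gcd (2 * (r - 1) - 1) (2 * (r - 1)) :=
      Nat.ModEq.gcd_eq ha1
    rw [Nat.Coprime, h1]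
    have h2 : Nat.Coprime (2 * (r - 1) - 1) (2 * (r - 1) - 1 + 1) := by simp
    have h3 : 2 * (r - 1) - 1 + 1 = 2 * (r - 1) := by omega
    rw [h3] at h2
    exact h2
  have hc2 : Nat.Coprime a₀ r := by
    rw [Nat.coprime_comm, Nat.Prime.coprime_iff_not_dvd hr]
    intro h
    apply ha
    exact (Nat.modEq_zero_iff_dvd.mp ((ha2.symm.trans (Nat.modEq_zero_iff_dvd.mpr h))))
  have hc : Nat.Coprime a₀ (2 * (r - 1) * r) := Nat.Coprime.mul_right hc1 hc2
  obtain ⟨P₁, hPB, hPp, hPm⟩ := Nat.forall_exists_prime_gt_and_modEq B hm0 hc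
  refine ⟨P₁, hPp, hPB, ?_, ?_⟩
  · have h1 : P₁ ≡ 2 * (r - 1) - 1 [MOD 2 * (r - 1)] :=
      (hPm.of_mul_right r).trans ha1
    have h2 : P₁ + 1 ≡ 2 * (r - 1) - 1 + 1 [MOD 2 * (r - 1)] := h1.add_right 1
    have h3 : 2 * (r - 1) - 1 + 1 = 2 * (r - 1) := by omega
    rw [h3] at h2
    exact (Nat.modEq_zero_iff_dvd.mp (h2.trans (by simp [Nat.ModEq])))
  · exact (hPm.of_mul_left (2 * (r - 1))).trans ha2

theorem exists_prime_P1 {N q r : ℕ} (hN : 0 < N) (hq : q.Prime) (hr : r.Prime) (hr2 : r ≠ 2)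
    (hrq : r ≠ q) (hrN : ¬ r ∣ N) (E : ℕ) (hE : Even E) (hQN : q ^ E ≡ 1 [MOD N ^ 2])
    (ρ : (ZMod r)ˣ) (B : ℕ) :
    ∃ P₁ k : ℕ, P₁.Prime ∧ B < P₁ ∧ 0 < k ∧ ((N * P₁ : ℕ) : ZMod r) = (ρ : ZMod r) ∧
      N ^ 2 * P₁ ∣ (q ^ E) ^ k - 1 ∧ (((q ^ E) ^ k : ℕ) : ZMod r) = ((q ^ E : ℕ) : ZMod r) := by
  have : Fact r.Prime := ⟨hr⟩
  have hr3 : 3 ≤ r := by
    have := hr.two_le
    omega
  -- the residue `ρ' = ρ / N` mod `r`
  have hN0 : ((N : ℕ) : ZMod r) ≠ 0 := by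
    rw [Ne, ZMod.natCast_eq_zero_iff]
    exact hrN
  set ρ' : ZMod r := (ρ : ZMod r) * ((N : ℕ) : ZMod r)⁻¹ with hρ'
  have hρ'0 : ρ' ≠ 0 := mul_ne_zero ρ.ne_zero (inv_ne_zero hN0)
  have hval : ¬ r ∣ ρ'.val := by
    intro h
    apply hρ'0
    have := (ZMod.natCast_eq_zero_iff ρ'.val r).mpr h
    rwa [ZMod.natCast_zmod_val] at this
  obtain ⟨P₁, hPp, hPB, hPdvd, hPr⟩ :=
    p3_dirichlet hr hr2 ρ'.val hval (max B (max q (max N 2)))
  have hPB' : B < P₁ := lt_of_le_of_lt (le_max_left _ _) hPB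
  have hPq : q < P₁ :=
    lt_of_le_of_lt ((le_max_left _ _).trans (le_max_right _ _)) hPB
  have hPN : N < P₁ :=
    lt_of_le_of_lt (((le_max_left _ _).trans (le_max_right _ _)).trans (le_max_right _ _)) hPB
  have hP2 : 2 < P₁ :=
    lt_of_le_of_lt (((le_max_right _ _).trans (le_max_right _ _)).trans (le_max_right _ _)) hPB
  -- `m' = (P₁ - 1) / 2`
  obtain ⟨t, ht⟩ := hPdvd
  obtain ⟨u, hu⟩ : ∃ u, r - 1 = 2 * u := by
    rcases Nat.Prime.eq_two_or_odd hr with h | h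
    · exact absurd h hr2
    · exact ⟨r / 2, by omega⟩
  -- P₁ + 1 = 4 u t, so P₁ = 2 m' + 1 with m' = 2 u t - 1
  have hut : 0 < u * t := by
    rcases Nat.eq_zero_or_pos (u * t) with h | h
    · rw [hu] at ht
      have : P₁ + 1 = 4 * (u * t) := by rw [ht]; ring
      omega
    · exact h
  set m' : ℕ := 2 * (u * t) - 1 with hm'
  have hPm' : P₁ = 2 * m' + 1 := by
    rw [hu] at ht
    have : P₁ + 1 = 4 * (u * t) := by rw [ht]; ring
    omega
  have hm'pos : 0 < m' := by omega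
  have hcop : Nat.Coprime m' (r - 1) := by
    -- a common divisor divides `2 u t` and `2 u t - 1`
    have h1 : Nat.Coprime m' (m' + 1) := by simp
    have h2 : m' + 1 = (r - 1) * t := by
      rw [hu, hm']
      have : 2 * u * t = 2 * (u * t) := by ring
      omega
    rw [h2] at h1
    exact Nat.Coprime.coprime_mul_right_right h1
  obtain ⟨k, hk0, hk1⟩ := Nat.chineseRemainder hcop 0 1
  have hkpos : 0 < k := by
    rcases Nat.eq_zero_or_pos k with h | h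
    · exfalso
      rw [h] at hk1
      have := (Nat.modEq_zero_iff_dvd.mp hk1.symm)
      have := Nat.le_of_dvd (by norm_num) this
      omega
    · exact h
  obtain ⟨j, hj⟩ : m' ∣ k := Nat.modEq_zero_iff_dvd.mp hk0
  obtain ⟨e, he⟩ := hE
  -- `(q^E)^k ≡ 1 mod P₁`
  have hqP : Nat.Coprime q P₁ := by
    rw [Nat.coprime_comm, Nat.Prime.coprime_iff_not_dvd hPp]
    intro h
    have := Nat.le_of_dvd hq.pos h
    omega
  have hfer : (q ^ E) ^ k ≡ 1 [MOD P₁] := by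
    have h1 : q ^ (P₁ - 1) ≡ 1 [MOD P₁] := by
      have := Nat.ModEq.pow_totient hqP
      rwa [Nat.totient_prime hPp] at this
    have h2 : (q ^ E) ^ k = (q ^ (P₁ - 1)) ^ (e * j) := by
      rw [← pow_mul, ← pow_mul, he, hj]
      congr 1
      have : P₁ - 1 = 2 * m' := by omega
      rw [this]
      ring
    rw [h2]
    have := h1.pow (e * j)
    rwa [one_pow] at this
  have hN2 : (q ^ E) ^ k ≡ 1 [MOD N ^ 2] := by
    have := hQN.pow k
    rwa [one_pow] at this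
  have hone : 1 ≤ (q ^ E) ^ k := Nat.one_le_pow _ _ (Nat.pow_pos hq.pos)
  have hd1 : P₁ ∣ (q ^ E) ^ k - 1 := (Nat.modEq_iff_dvd' hone).mp hfer.symm
  have hd2 : N ^ 2 ∣ (q ^ E) ^ k - 1 := (Nat.modEq_iff_dvd' hone).mp hN2.symm
  have hNP : Nat.Coprime (N ^ 2) P₁ := by
    apply Nat.Coprime.pow_left
    rw [Nat.coprime_comm, Nat.Prime.coprime_iff_not_dvd hPp]
    intro h
    have := Nat.le_of_dvd hN h
    omega
  refine ⟨P₁, k, hPp, hPB', hkpos, ?_, Nat.Coprime.mul_dvd_of_dvd_of_dvd hNP hd2 hd1, ?_⟩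
  · -- `N P₁ ≡ ρ mod r`
    have h1 : ((P₁ : ℕ) : ZMod r) = ρ' := by
      have := (ZMod.natCast_eq_natCast_iff P₁ ρ'.val r).mpr hPr
      rwa [ZMod.natCast_zmod_val] at this
    rw [Nat.cast_mul, h1, hρ', mul_comm, mul_assoc, inv_mul_cancel₀ hN0, mul_one]
  · -- `(q^E)^k ≡ q^E mod r`
    have hq0 : ((q : ℕ) : ZMod r) ≠ 0 := by
      rw [Ne, ZMod.natCast_eq_zero_iff]
      intro h
      exact hrq ((Nat.prime_dvd_prime_iff_eq hr hq).mp h)
    obtain ⟨j', hj'⟩ : ∃ j', k = 1 + (r - 1) * j' := by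
      have h1 : (r - 1 : ℤ) ∣ (k : ℤ) - 1 := by
        have := (Nat.modEq_iff_dvd.mp hk1.symm)
        have h2 : ((r - 1 : ℕ) : ℤ) = (r : ℤ) - 1 := by
          rw [Nat.cast_sub (by omega)]
          simp
        rw [h2] at this
        simpa using this
      obtain ⟨c, hc⟩ := h1
      have hc0 : 0 ≤ c := by
        by_contra hneg
        rw [not_le] at hneg
        have h3 : (0 : ℤ) < (r : ℤ) - 1 := by
          have : (3 : ℤ) ≤ r := by exact_mod_cast hr3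
          linarith
        have h4 : ((r : ℤ) - 1) * c < 0 := mul_neg_of_pos_of_neg h3 hneg
        have h5 : (1 : ℤ) ≤ k := by exact_mod_cast hkpos
        linarith
      refine ⟨c.toNat, ?_⟩
      have h6 : ((c.toNat : ℕ) : ℤ) = c := Int.toNat_of_nonneg hc0
      have h7 : ((r - 1 : ℕ) : ℤ) = (r : ℤ) - 1 := by
        rw [Nat.cast_sub (by omega)]
        simp
      have : (k : ℤ) = ((1 + (r - 1) * c.toNat : ℕ) : ℤ) := by
        push_cast
        rw [h6, h7]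
        linarith
      exact_mod_cast this
    have hfr : ((q : ℕ) : ZMod r) ^ (r - 1) = 1 := ZMod.pow_card_sub_one_eq_one hq0
    rw [hj']
    push_cast
    rw [pow_add, pow_one, pow_mul]
    have : ((q : ZMod r) ^ E) ^ (r - 1) = 1 := by
      rw [← pow_mul, mul_comm, pow_mul, hfr, one_pow]
    rw [this, one_pow, mul_one]

end Fermat.Agent.LR
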