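/-
LR (level raising, S41) — helper5 — [CSP] **the key proposition**: for a good prime `r` the symbol
`G (N r, d)` depends only on `d mod N` (finding 387).
-/
import Mathlib
import Fermat.Agent.LR.CSP_helper5_Defs
import Fermat.Agent.LR.CSP_helper5_K
import Fermat.Agent.LR.CSP_helper7_P3
import Fermat.Agent.LR.CSP_helper4_E3R
import Fermat.Agent.LR.CSP_helper6_End

set_option autoImplicit false

namespace Fermat.Agent.LR

section Key

theorem coe_prodUnits_symm {A B : Type*} [Monoid A] [Monoid B] (x : Aˣ) (y : Bˣ) :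
    ((MulEquiv.prodUnits.symm (x, y) : (A × B)ˣ) : A × B) = ((x : A), (y : B)) := rfl

variable {N r : ℕ}

/-- the unit of `ZMod (N r)` with CRT components `(x, y)`. -/
noncomputable def crtUnit (h : N.Coprime r) (x : (ZMod N)ˣ) (y : (ZMod r)ˣ) : (ZMod (N * r))ˣ :=
  Units.map ((ZMod.chineseRemainder h).symm : ZMod N × ZMod r →* ZMod (N * r))
    (MulEquiv.prodUnits.symm (x, y))

theorem crt_crtUnit (h : N.Coprime r) (x : (ZMod N)ˣ) (y : (ZMod r)ˣ) :
    ZMod.chineseRemainder h ((crtUnit h x y : (ZMod (N * r))ˣ) : ZMod (N * r)) =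
      ((x : ZMod N), (y : ZMod r)) := by
  simp [crtUnit, coe_prodUnits_symm]

theorem crt_crtUnit_inv (h : N.Coprime r) (x : (ZMod N)ˣ) (y : (ZMod r)ˣ) :
    ZMod.chineseRemainder h (((crtUnit h x y)⁻¹ : (ZMod (N * r))ˣ) : ZMod (N * r)) =
      (((x⁻¹ : (ZMod N)ˣ) : ZMod N), ((y⁻¹ : (ZMod r)ˣ) : ZMod r)) := by
  simp [crtUnit, ← map_inv, coe_prodUnits_symm]

theorem crt_intCast (h : N.Coprime r) (d : ℤ) :
    ZMod.chineseRemainder h (d : ZMod (N * r)) = ((d : ZMod N), (d : ZMod r)) := by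
  rw [map_intCast]; rfl

theorem crt_natCast (h : N.Coprime r) (d : ℕ) :
    ZMod.chineseRemainder h (d : ZMod (N * r)) = ((d : ZMod N), (d : ZMod r)) := by
  rw [map_natCast]; rfl

variable {q p : ℕ} {G : ℤ → ℤ → ZMod p}

/-- `F_{N r}` in CRT coordinates. -/
noncomputable def crtF (G : ℤ → ℤ → ZMod p) (h : N.Coprime r) (x : (ZMod N)ˣ) (y : (ZMod r)ˣ) :
    ZMod p :=
  symF G (N * r) ((crtUnit h x y : (ZMod (N * r))ˣ) : ZMod (N * r))

theorem symF_eq_crtF (h : N.Coprime r) (w : ZMod (N * r)) (x : (ZMod N)ˣ) (y : (ZMod r)ˣ)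
    (hw : ZMod.chineseRemainder h w = ((x : ZMod N), (y : ZMod r))) :
    symF G (N * r) w = crtF G h x y := by
  have : w = ((crtUnit h x y : (ZMod (N * r))ˣ) : ZMod (N * r)) := by
    apply (ZMod.chineseRemainder h).injective
    rw [hw, crt_crtUnit]
  rw [this, crtF]

theorem crtF_neg_inv [NeZero N] [NeZero r] (hG : IsQSymbol N q p G) (h : N.Coprime r)
    (x : (ZMod N)ˣ) (y : (ZMod r)ˣ) : crtF G h (-x⁻¹) (-y⁻¹) = -crtF G h x y := by
  have : NeZero (N * r) := ⟨Nat.mul_ne_zero (NeZero.ne N) (NeZero.ne r)⟩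
  have h1 := symF_inv hG (dvd_mul_right N r) (crtUnit h x y)
  rw [← crtF, symF_eq_crtF h _ (-x⁻¹) (-y⁻¹)] at h1
  · exact h1
  · rw [map_neg, crt_crtUnit_inv]
    simp

theorem crtF_Q [NeZero N] [NeZero r] (hG : IsQSymbol N q p G) (hp : p.Prime) (h : N.Coprime r)
    (hMq : Nat.Coprime (N * r) q) (hQN : ((cspQ N q p : ℕ) : ZMod N) = 1) (Qr : (ZMod r)ˣ)
    (hQr : (Qr : ZMod r) = ((cspQ N q p : ℕ) : ZMod r))
    (x : (ZMod N)ˣ) (y : (ZMod r)ˣ) : crtF G h x (Qr * y) = crtF G h x y := by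
  have : NeZero (N * r) := ⟨Nat.mul_ne_zero (NeZero.ne N) (NeZero.ne r)⟩
  have h1 := symF_Q hG hp (dvd_mul_right N r) hMq (crtUnit h x y)
  rw [← crtF, symF_eq_crtF h _ x (Qr * y)] at h1
  · exact h1
  · rw [map_mul, crt_crtUnit, crt_natCast, hQN, ← hQr]
    simp

theorem crtF_rel [NeZero N] [Fact r.Prime] (hG : IsQSymbol N q p G) (hp : p.Prime)
    (h : N.Coprime r) (hMq : Nat.Coprime (N * r) q)
    (P P' : ℤ) (k : ℕ) (hPP : P * P' = 1 - (cspQ N q p : ℤ) ^ k)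
    (hPN : (P : ZMod N) = 0) (hP'N : (P' : ZMod N) = 0)
    (hQN : ((cspQ N q p : ℕ) : ZMod N) = 1)
    (Qr ρ : (ZMod r)ˣ) (hQr : (Qr : ZMod r) = ((cspQ N q p : ℕ) : ZMod r))
    (hQk : ((cspQ N q p : ℕ) : ZMod r) ^ k = ((cspQ N q p : ℕ) : ZMod r))
    (hPr : (P : ZMod r) = (ρ : ZMod r))
    (x : (ZMod N)ˣ) (s s1 sQ : (ZMod r)ˣ) (hs1 : (s1 : ZMod r) = (s : ZMod r) + 1)
    (hsQ : (sQ : ZMod r) = (s : ZMod r) + (Qr : ZMod r)) :
    crtF G h x (s1 * ρ⁻¹) - crtF G h x (sQ * ρ⁻¹) =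
      crtF G h x (-(s1 * (ρ * s)⁻¹)) - crtF G h x (-(sQ * (ρ * s)⁻¹)) := by
  have hr : r.Prime := Fact.out
  have : NeZero r := ⟨hr.ne_zero⟩
  have : NeZero (N * r) := ⟨Nat.mul_ne_zero (NeZero.ne N) hr.ne_zero⟩
  -- `P' ρ = 1 - Q` in `ZMod r`
  have hP'r : (P' : ZMod r) * (ρ : ZMod r) = 1 - (Qr : ZMod r) := by
    have := congrArg (fun t : ℤ => (t : ZMod r)) hPP
    simp only [Int.cast_mul, Int.cast_sub, Int.cast_one, Int.cast_pow, Int.cast_natCast] at this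
    rw [hQk, hPr, ← hQr] at this
    rw [mul_comm]; exact this
  set y : (ZMod r)ˣ := s1 * ρ⁻¹ with hy
  set z := crtUnit h x y with hz
  set u := crtUnit h (-x⁻¹) (s * ρ * s1⁻¹) with hu
  set v := crtUnit h (-x) (-(sQ * ρ⁻¹)) with hv
  have hρ0 : (ρ : ZMod r) ≠ 0 := ρ.ne_zero
  have hs0 : (s : ZMod r) ≠ 0 := s.ne_zero
  have hs10 : (s1 : ZMod r) ≠ 0 := s1.ne_zero
  have hsQ0 : (sQ : ZMod r) ≠ 0 := sQ.ne_zero
  have hQ0 : (Qr : ZMod r) ≠ 0 := Qr.ne_zero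
  have huz : (u : ZMod (N * r)) = (P : ZMod (N * r)) - ((z⁻¹ : (ZMod (N * r))ˣ) : ZMod (N * r)) := by
    apply (ZMod.chineseRemainder h).injective
    rw [map_sub, crt_crtUnit, crt_crtUnit_inv, crt_intCast, hPN, hPr]
    refine Prod.ext ?_ ?_
    · show ((-x⁻¹ : (ZMod N)ˣ) : ZMod N) = 0 - ((x⁻¹ : (ZMod N)ˣ) : ZMod N)
      rw [Units.val_neg, zero_sub]
    · simp only [Prod.snd_sub, hy, Units.val_mul, Units.val_inv_eq_inv_val, mul_inv, inv_inv]
      rw [hs1]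
      have : (s : ZMod r) + 1 ≠ 0 := hs1 ▸ hs10
      field_simp
      ring
  have hvz : (v : ZMod (N * r)) = (P' : ZMod (N * r)) - (z : ZMod (N * r)) := by
    apply (ZMod.chineseRemainder h).injective
    rw [map_sub, crt_crtUnit, crt_crtUnit, crt_intCast, hP'N]
    refine Prod.ext ?_ ?_
    · simp
    · simp only [Prod.snd_sub, hy, Units.val_mul, Units.val_inv_eq_inv_val, Units.val_neg]
      have e1 : (P' : ZMod r) = (1 - (Qr : ZMod r)) * (ρ : ZMod r)⁻¹ := by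
        rw [← hP'r]; field_simp
      rw [e1, hsQ, hs1]
      ring
  have key := symF_triple hG hp (dvd_mul_right N r) hMq P P' k hPP z u v huz hvz
  -- identify the four terms
  have t1 : symF G (N * r) (u : ZMod (N * r)) = -crtF G h x (-(s1 * (ρ * s)⁻¹)) := by
    rw [← crtF_neg_inv hG h, ← crtF]
    congr 2
    apply Units.ext
    simp only [Units.val_neg, Units.val_mul, Units.val_inv_eq_inv_val, mul_inv, inv_inv, neg_neg,
      inv_neg]
    ring
  have t2 : symF G (N * r) (z : ZMod (N * r)) = crtF G h x (s1 * ρ⁻¹) := rfl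
  have t3 : symF G (N * r) ((v⁻¹ : (ZMod (N * r))ˣ) : ZMod (N * r)) = -crtF G h x (sQ * ρ⁻¹) := by
    rw [← crtF_neg_inv hG h]
    apply symF_eq_crtF
    rw [crt_crtUnit_inv]
    refine Prod.ext ?_ ?_
    · simp [inv_neg]
    · simp only [Units.val_neg, Units.val_mul, Units.val_inv_eq_inv_val, mul_inv, inv_inv,
        inv_neg]
  have e4 : crtF G h x (-(sQ * (ρ * s)⁻¹)) = crtF G h x (Qr⁻¹ * -(sQ * (ρ * s)⁻¹)) := by
    rw [← crtF_Q hG hp h hMq hQN Qr hQr x (Qr⁻¹ * -(sQ * (ρ * s)⁻¹)), mul_inv_cancel_left]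
  have t4 : symF G (N * r) (-(cspQ N q p : ZMod (N * r)) ^ k * ((P : ZMod (N * r)) * z - 1) *
      ((v⁻¹ : (ZMod (N * r))ˣ) : ZMod (N * r))) = -crtF G h x (-(sQ * (ρ * s)⁻¹)) := by
    rw [e4, ← crtF_neg_inv hG h]
    apply symF_eq_crtF
    rw [map_mul, map_mul, map_neg, map_pow, map_sub, map_mul, map_one, crt_crtUnit_inv,
      crt_crtUnit, crt_intCast, crt_natCast, hPN, hPr, hQN]
    refine Prod.ext ?_ ?_
    · simp only [Prod.fst_mul, Prod.fst_neg, Prod.pow_fst, Prod.fst_sub, Prod.fst_one, one_pow,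
        zero_mul, zero_sub, neg_neg, neg_mul, one_mul, mul_neg, mul_one, Units.val_neg,
        Units.val_inv_eq_inv_val, inv_neg]
    · simp only [Prod.snd_mul, Prod.snd_neg, Prod.pow_snd, Prod.snd_sub, Prod.snd_one, hQk,
        Units.val_neg, Units.val_mul, Units.val_inv_eq_inv_val, mul_inv, inv_inv, inv_neg, hy,
        ← hQr]
      have hQk' : (Qr : ZMod r) ^ k = (Qr : ZMod r) := by rw [hQr]; exact hQk
      rw [hs1, hQk']
      field_simp
      ring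
  rw [t1, t2, t3, t4] at key
  linear_combination key

end Key

section Main

variable {N q p : ℕ}

theorem cspExp_even (N p : ℕ) : Even (cspExp N p) := ⟨p * Nat.totient (N ^ 2), by
  unfold cspExp; ring⟩

theorem cspQ_modEq_one (hq : q.Prime) (hqN : ¬ q ∣ N) : cspQ N q p ≡ 1 [MOD N ^ 2] := by
  have hcop : Nat.Coprime q (N ^ 2) :=
    Nat.Coprime.pow_right 2 ((Nat.Prime.coprime_iff_not_dvd hq).mpr hqN)
  have h1 := Nat.ModEq.pow_totient hcop
  have h2 := h1.pow (2 * p)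
  rw [one_pow, ← pow_mul] at h2
  have : cspQ N q p = q ^ (Nat.totient (N ^ 2) * (2 * p)) := by
    unfold cspQ cspExp; congr 1; ring
  rw [this]; exact h2

theorem cspQ_cast_eq_one (hq : q.Prime) (hqN : ¬ q ∣ N) : ((cspQ N q p : ℕ) : ZMod N) = 1 := by
  have h1 : cspQ N q p ≡ 1 [MOD N] :=
    (cspQ_modEq_one (p := p) hq hqN).of_dvd (Dvd.intro_left (N ^ 1) (by ring))
  have := (ZMod.natCast_eq_natCast_iff _ _ _).mpr h1
  simpa using this

theorem cspQ_pos (hq : q.Prime) : 0 < cspQ N q p := pow_pos hq.pos _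

/-- **[KEY]** for a good prime `r` the symbol `G (N r, d)` depends only on `d mod N`. -/
theorem key_prop [NeZero N] (hq : q.Prime) (hqN : ¬ q ∣ N) (hp : p.Prime)
    {G : ℤ → ℤ → ZMod p} (hG : IsQSymbol N q p G) {r : ℕ} (hr : GoodPrime N q p r)
    (d d' : ℤ) (hd : IsCoprime ((N : ℤ) * r) d) (hd' : IsCoprime ((N : ℤ) * r) d')
    (hdd : (N : ℤ) ∣ d - d') : G ((N : ℤ) * r) d = G ((N : ℤ) * r) d' := by
  obtain ⟨hrp, hrN, hrq, hrQ, hpr⟩ := hr
  have : Fact r.Prime := ⟨hrp⟩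
  have : Fact p.Prime := ⟨hp⟩
  have : NeZero r := ⟨hrp.ne_zero⟩
  have : NeZero (N * r) := ⟨Nat.mul_ne_zero (NeZero.ne N) hrp.ne_zero⟩
  have hcop : N.Coprime r := ((Nat.Prime.coprime_iff_not_dvd hrp).mpr hrN).symm
  have hNq : N.Coprime q := ((Nat.Prime.coprime_iff_not_dvd hq).mpr hqN).symm
  have hrq' : r.Coprime q := (Nat.coprime_primes hrp hq).mpr hrq
  have hMq : Nat.Coprime (N * r) q := Nat.Coprime.mul_left hNq hrq'
  have hQN : ((cspQ N q p : ℕ) : ZMod N) = 1 := cspQ_cast_eq_one hq hqN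
  -- the unit `Q mod r`
  have hQunit : IsUnit ((cspQ N q p : ℕ) : ZMod r) := by
    rw [ZMod.isUnit_iff_coprime]
    exact Nat.Coprime.pow_left _ hrq'.symm
  obtain ⟨Qr, hQr⟩ := hQunit
  have hQ1 : Qr ≠ 1 := by
    intro h1
    apply hrQ
    have h2 : ((cspQ N q p : ℕ) : ZMod r) = ((1 : ℕ) : ZMod r) := by
      rw [← hQr, h1]; simp
    rw [ZMod.natCast_eq_natCast_iff] at h2
    exact (Nat.modEq_iff_dvd' (cspQ_pos hq)).mp h2.symm
  have hr2 : r ≠ 2 := by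
    rintro rfl
    apply hrQ
    have hqodd : Odd q := hq.odd_of_ne_two (Ne.symm hrq)
    have hQodd : Odd (cspQ N q p) := hqodd.pow
    obtain ⟨m, hm⟩ := hQodd
    exact ⟨m, by omega⟩
  have main : ∀ x : (ZMod N)ˣ, ∀ y y', crtF G hcop x y = crtF G hcop x y' := by
    intro x
    apply const_of_cross_relation hpr (crtF G hcop x) Qr hQ1
      (crtF_Q hG hp hcop hMq hQN Qr hQr x)
    intro ρ s s1 sQ hs1 hsQ
    obtain ⟨P₁, k, -, -, -, hρ, hdvd, hQk⟩ := exists_prime_P1 (NeZero.pos N) hq hrp hr2 hrq hrN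
      (cspExp N p) (cspExp_even N p) (cspQ_modEq_one hq hqN) ρ 0
    obtain ⟨T, hT⟩ := hdvd
    have hQkpos : 0 < (q ^ cspExp N p) ^ k := pow_pos (pow_pos hq.pos _) _
    have hT' : ((cspQ N q p : ℕ) : ℤ) ^ k = 1 + (N : ℤ) ^ 2 * P₁ * T := by
      have : (q ^ cspExp N p) ^ k = 1 + N ^ 2 * P₁ * T := by omega
      unfold cspQ
      exact_mod_cast this
    refine crtF_rel hG hp hcop hMq ((N : ℤ) * P₁) (-((N : ℤ) * T)) k ?_ ?_ ?_ hQN Qr ρ hQr ?_ ?_
      x s s1 sQ hs1 hsQ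
    · rw [hT']; ring
    · simp
    · simp
    · have := hQk
      unfold cspQ
      push_cast at this ⊢
      exact this
    · rw [← hρ]; push_cast; rfl
  -- conclusion
  have hcast : ((N : ℤ) * r) = ((N * r : ℕ) : ℤ) := by push_cast; ring
  rw [hcast] at hd hd' ⊢
  rw [symF_eq hG (dvd_mul_right N r) d hd, symF_eq hG (dvd_mul_right N r) d' hd']
  have hdN : IsUnit ((d : ℤ) : ZMod N) := by
    rw [ZMod.coe_int_isUnit_iff_isCoprime]
    exact IsCoprime.of_mul_left_left (by simpa using hd)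
  have hdr : IsUnit ((d : ℤ) : ZMod r) := by
    rw [ZMod.coe_int_isUnit_iff_isCoprime]
    exact IsCoprime.of_mul_left_right (by simpa using hd)
  have hd'r : IsUnit ((d' : ℤ) : ZMod r) := by
    rw [ZMod.coe_int_isUnit_iff_isCoprime]
    exact IsCoprime.of_mul_left_right (by simpa using hd')
  obtain ⟨x, hx⟩ := hdN
  obtain ⟨y, hy⟩ := hdr
  obtain ⟨y', hy'⟩ := hd'r
  have hx' : ((d' : ℤ) : ZMod N) = (x : ZMod N) := by
    rw [hx]
    symm
    rw [ZMod.intCast_eq_intCast_iff_dvd_sub]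
    have : d' - d = -(d - d') := by ring
    rw [this]
    exact (dvd_neg).mpr hdd
  rw [symF_eq_crtF hcop _ x y (by rw [crt_intCast, hx, hy]),
    symF_eq_crtF hcop _ x y' (by rw [crt_intCast, hx', hy'])]
  exact main x y y'

/-- **[CSP], abstract form**: a symbol satisfying `IsQSymbol` vanishes on rows `(c, d)` with
`d ≡ 1 mod N`. -/
theorem csp_abstract [NeZero N] (hq : q.Prime) (hqN : ¬ q ∣ N) (hp : p.Prime) (hp2 : p ≠ 2)
    {G : ℤ → ℤ → ZMod p} (hG : IsQSymbol N q p G)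
    (c d : ℤ) (hc : (N : ℤ) ∣ c) (hcd : IsCoprime c d) (hd : (N : ℤ) ∣ d - 1) : G c d = 0 :=
  csp_abstract_of_key hq hp hp2 hG
    (fun _ hr d d' h1 h2 h3 => key_prop hq hqN hp hG hr d d' h1 h2 h3) c d hc hcd hd

end Main

end Fermat.Agent.LR
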