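/-
LR (level raising, S41) — helper9 — [CSP]/[SYM-Δ] restructure: the congruence subgroup hypothesis
restricted to homomorphisms `Φ : Δ → 𝔽_p` killing `u(1)` and `l(N)` (`CSPHypPar`), and the versions of
`ihara_eisenstein_of_csp`, `ihara_int_of_csp`, `ihara_par_of_csp` against it.
-/
import Mathlib
import Fermat.Agent.LR.IHARA_helper9_Lattice
import Fermat.Agent.LR.CSP_helper5_Defs

set_option autoImplicit false
set_option linter.unusedSectionVars false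

open Matrix CongruenceSubgroup Fermat.Agent.GR ModularCurve.Period

open scoped MatrixGroups

namespace Fermat.Agent.LR

noncomputable section

/-- **the congruence subgroup hypothesis, parabolic form**: every homomorphism
`Φ : Δ = Γ₀(N)[1/q] → 𝔽_p` killing (the first copies of) `u(1)` and `l(N)` is trivial on (the two
copies of) `Γ₀(N) ∩ Γ(D)` for some `D > 0`. -/
def CSPHypPar (N q p : ℕ) [NeZero q] : Prop :=
  ∀ Φ : ↥(Delta N q) →* Multiplicative (ZMod p),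
    Φ ⟨embA N (uOne N), embA_mem_Delta N q (uOne N)⟩ = 1 →
    Φ ⟨embA N (lN N), embA_mem_Delta N q (lN N)⟩ = 1 →
    ∃ D : ℕ, 0 < D ∧
      ∀ γ : ↥(Gamma0 N), (γ : SL(2, ℤ)) ∈ Gamma D →
        Φ ⟨embA N γ, embA_mem_Delta N q γ⟩ = 1 ∧ Φ ⟨embB N q γ, embB_mem_Delta N q γ⟩ = 1

variable {N q p : ℕ} [NeZero q]

theorem CSPHypPar.of_cspHyp (h : CSPHyp N q p) : CSPHypPar N q p := fun Φ _ _ => h Φ

/-- **(I), conditional on [CSP] in parabolic form**: the kernel of `α^* + β^*` on pairs `(x, y)`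
with `x` killing `u(1)`, `l(N)` is Eisenstein. -/
theorem ihara_eisenstein_of_cspPar (hq : q.Prime) (hcop : Nat.Coprime N q)
    (hcsp : CSPHypPar N q p) (x y : Additive ↥(Gamma0 N) →+ ZMod p)
    (hxu : x (Additive.ofMul (uOne N)) = 0) (hxl : x (Additive.ofMul (lN N)) = 0)
    (hxy : ∀ (γ : SL(2, ℤ)) (hγN : γ ∈ Gamma0 N) (hγ : (q : ℤ) ∣ γ 1 0),
      x (Additive.ofMul (⟨γ, hγN⟩ : ↥(Gamma0 N))) +
        y (Additive.ofMul (⟨conjDownSL q γ hγ, conjDownSL_mem N q hγN hγ hcop⟩ : ↥(Gamma0 N))) =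
          0) :
    ∃ D : ℕ, 0 < D ∧ ∀ ℓ : Nat.Primes, ¬ (ℓ : ℕ) ∣ N → (ℓ : ℕ) ≡ 1 [MOD D] →
      heckeGrpP N ℓ (ZMod p) x = ((ℓ : ℕ) + 1) • x ∧
        heckeGrpP N ℓ (ZMod p) y = ((ℓ : ℕ) + 1) • y := by
  obtain ⟨Φ, hΦA, hΦB⟩ := exists_hom_Delta N q hq hcop
    (AddMonoidHom.toMultiplicativeRight x) (AddMonoidHom.toMultiplicativeRight (-y)) (by
      intro γ hγN hγ
      show Multiplicative.ofAdd (x (Additive.ofMul (⟨γ, hγN⟩ : ↥(Gamma0 N)))) =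
        Multiplicative.ofAdd ((-y) (Additive.ofMul
          (⟨conjDownSL q γ hγ, conjDownSL_mem N q hγN hγ hcop⟩ : ↥(Gamma0 N))))
      congr 1
      rw [AddMonoidHom.neg_apply, eq_neg_iff_add_eq_zero]
      exact hxy γ hγN hγ)
  obtain ⟨D, hD, hΦD⟩ := hcsp Φ (by
      rw [hΦA]
      show Multiplicative.ofAdd (x (Additive.ofMul (uOne N))) = 1
      rw [hxu]; rfl) (by
      rw [hΦA]
      show Multiplicative.ofAdd (x (Additive.ofMul (lN N))) = 1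
      rw [hxl]; rfl)
  refine ⟨D, hD, fun ℓ hℓN hℓD => ⟨?_, ?_⟩⟩
  · refine heckeGrpP_eq_smul_of_congruence x (fun γ hγ => ?_) ℓ hℓN hℓD
    have h1 := (hΦD γ hγ).1
    rw [hΦA γ] at h1
    exact h1
  · refine heckeGrpP_eq_smul_of_congruence y (fun γ hγ => ?_) ℓ hℓN hℓD
    have h1 := (hΦD γ hγ).2
    rw [hΦB γ] at h1
    have h2 : (-y) (Additive.ofMul γ) = 0 := h1
    rw [AddMonoidHom.neg_apply, neg_eq_zero] at h2
    exact h2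

/-- **(I) for homomorphisms with values in `ℤ`**, conditional on [CSP] in parabolic form. -/
theorem ihara_int_of_cspPar (hq : q.Prime) (hqN : ¬ q ∣ N) (hcsp : CSPHypPar N q p)
    (φ₁ φ₂ : Additive ↥(Gamma0 N) →+ ℤ)
    (hu : φ₁ (Additive.ofMul (uOne N)) = 0) (hl : φ₁ (Additive.ofMul (lN N)) = 0)
    (h : ∀ γ : ↥(Gamma0 (N * q)), (p : ℤ) ∣
      pullA N q ℤ φ₁ (Additive.ofMul γ) + pullB N q hq ℤ φ₂ (Additive.ofMul γ)) :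
    ∃ D : ℕ, 0 < D ∧ ∀ ℓ : Nat.Primes, ¬ (ℓ : ℕ) ∣ N → (ℓ : ℕ) ≡ 1 [MOD D] →
      ∃ ψ₁ ψ₂ : Additive ↥(Gamma0 N) →+ ℤ,
        heckeGrpP N ℓ ℤ φ₁ - (((ℓ : ℕ) + 1 : ℕ) : ℤ) • φ₁ = (p : ℤ) • ψ₁ ∧
        heckeGrpP N ℓ ℤ φ₂ - (((ℓ : ℕ) + 1 : ℕ) : ℤ) • φ₂ = (p : ℤ) • ψ₂ := by
  have hcop : Nat.Coprime N q := ((Nat.Prime.coprime_iff_not_dvd hq).mpr hqN).symm
  set c : ℤ →+ ZMod p := Int.castAddHom (ZMod p) with hc
  obtain ⟨D, hD, hDℓ⟩ := ihara_eisenstein_of_cspPar hq hcop hcsp (c.comp φ₁) (c.comp φ₂)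
    (by rw [AddMonoidHom.comp_apply, hu, map_zero]) (by rw [AddMonoidHom.comp_apply, hl, map_zero])
    (by
    intro γ hγN hγ
    have hmem := mem_Gamma0_mul_of_dvd hcop hγN hγ
    have h1 := h ⟨γ, hmem⟩
    rw [pullA_apply, pullB_apply] at h1
    have h2 : (((φ₁ (Additive.ofMul (inclHom N q ⟨γ, hmem⟩)) +
        φ₂ (Additive.ofMul (conjDownHom N q hq ⟨γ, hmem⟩)) : ℤ)) : ZMod p) = 0 :=
      (ZMod.intCast_zmod_eq_zero_iff_dvd _ _).mpr h1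
    rw [Int.cast_add] at h2
    exact h2)
  refine ⟨D, hD, fun ℓ hℓN hℓD => ?_⟩
  obtain ⟨h1, h2⟩ := hDℓ ℓ hℓN hℓD
  rw [heckeGrpP_comp] at h1 h2
  have key : ∀ φ : Additive ↥(Gamma0 N) →+ ℤ,
      c.comp (heckeGrpP N ℓ ℤ φ) = ((ℓ : ℕ) + 1) • c.comp φ →
      ∃ ψ : Additive ↥(Gamma0 N) →+ ℤ,
        heckeGrpP N ℓ ℤ φ - (((ℓ : ℕ) + 1 : ℕ) : ℤ) • φ = (p : ℤ) • ψ := by
    intro φ hφ
    apply exists_eq_smul_of_forall_dvd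
    intro γ
    rw [← ZMod.intCast_zmod_eq_zero_iff_dvd]
    have h3 := congrArg (fun f : Additive ↥(Gamma0 N) →+ ZMod p => f γ) hφ
    simp only [AddMonoidHom.comp_apply, AddMonoidHom.smul_apply, hc, Int.coe_castAddHom] at h3
    rw [AddMonoidHom.sub_apply, AddMonoidHom.smul_apply, Int.cast_sub, h3, smul_eq_mul,
      Int.cast_mul]
    simp
  obtain ⟨ψ₁, hψ₁⟩ := key φ₁ h1
  obtain ⟨ψ₂, hψ₂⟩ := key φ₂ h2
  exact ⟨ψ₁, ψ₂, hψ₁, hψ₂⟩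

theorem trace_uOne (N : ℕ) :
    (((uOne N : ↥(Gamma0 N)) : SL(2, ℤ)) : Matrix (Fin 2) (Fin 2) ℤ).trace ^ 2 = 4 := by
  simp [uOne, Matrix.trace_fin_two]

theorem trace_lN (N : ℕ) :
    (((lN N : ↥(Gamma0 N)) : SL(2, ℤ)) : Matrix (Fin 2) (Fin 2) ℤ).trace ^ 2 = 4 := by
  simp [lN, Matrix.trace_fin_two]

/-- **(I) on the parabolic lattices** `L_M = parabolicHoms ℤ (Gamma0 M) ℤ`, conditional on [CSP] in
parabolic form: the shape consumed by `IharaHyp` of `LR/RAISE_helper2_Abstract`. -/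
theorem ihara_par_of_cspPar (hq : q.Prime) (hqN : ¬ q ∣ N) (hp : p ≠ 0) (hcsp : CSPHypPar N q p)
    (φ₁ φ₂ : ↥(parabolicHoms ℤ (Gamma0 N) ℤ)) (y : ↥(parabolicHoms ℤ (Gamma0 (N * q)) ℤ))
    (h : pullAPar N q ℤ ℤ φ₁ + pullBPar N q hq ℤ ℤ φ₂ = (p : ℤ) • y) :
    ∃ D : ℕ, 0 < D ∧ ∀ ℓ : Nat.Primes, ¬ (ℓ : ℕ) ∣ N → (ℓ : ℕ) ≡ 1 [MOD D] →
      ∃ ψ₁ ψ₂ : ↥(parabolicHoms ℤ (Gamma0 N) ℤ),
        heckeParP N ℓ ℤ ℤ φ₁ - (((ℓ : ℕ) + 1 : ℕ) : ℤ) • φ₁ = (p : ℤ) • ψ₁ ∧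
        heckeParP N ℓ ℤ ℤ φ₂ - (((ℓ : ℕ) + 1 : ℕ) : ℤ) • φ₂ = (p : ℤ) • ψ₂ := by
  have hp' : (p : ℤ) ≠ 0 := by exact_mod_cast hp
  obtain ⟨D, hD, hDℓ⟩ := ihara_int_of_cspPar hq hqN hcsp
    (φ₁ : Additive ↥(Gamma0 N) →+ ℤ) (φ₂ : Additive ↥(Gamma0 N) →+ ℤ)
    (mem_parabolicHoms_iff.mp φ₁.2 (uOne N) (trace_uOne N))
    (mem_parabolicHoms_iff.mp φ₁.2 (lN N) (trace_lN N)) (by
      intro γ
      have h1 := congrArg (fun z : ↥(parabolicHoms ℤ (Gamma0 (N * q)) ℤ) =>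
        (z : Additive ↥(Gamma0 (N * q)) →+ ℤ) (Additive.ofMul γ)) h
      simp only [Submodule.coe_add, coe_pullAPar, coe_pullBPar, AddMonoidHom.add_apply,
        Submodule.coe_smul, AddMonoidHom.smul_apply] at h1
      rw [h1]
      exact Dvd.intro _ rfl)
  refine ⟨D, hD, fun ℓ hℓN hℓD => ?_⟩
  obtain ⟨ψ₁, ψ₂, h1, h2⟩ := hDℓ ℓ hℓN hℓD
  -- `ψᵢ` is parabolic since `p ψᵢ` is
  have hpar : ∀ (φ : ↥(parabolicHoms ℤ (Gamma0 N) ℤ)) (ψ : Additive ↥(Gamma0 N) →+ ℤ),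
      heckeGrpP N ℓ ℤ (φ : Additive ↥(Gamma0 N) →+ ℤ) -
        (((ℓ : ℕ) + 1 : ℕ) : ℤ) • (φ : Additive ↥(Gamma0 N) →+ ℤ) = (p : ℤ) • ψ →
      ψ ∈ parabolicHoms ℤ (Gamma0 N) ℤ := by
    intro φ ψ hψ
    have hmem : (p : ℤ) • ψ ∈ parabolicHoms ℤ (Gamma0 N) ℤ := by
      rw [← hψ]
      exact Submodule.sub_mem _ (heckeGrpP_mem_parabolicHoms N ℓ ℤ φ.2)
        (Submodule.smul_mem _ _ φ.2)
    rw [mem_parabolicHoms_iff] at hmem ⊢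
    intro γ hγ
    have h3 := hmem γ hγ
    rw [AddMonoidHom.smul_apply, smul_eq_mul] at h3
    exact (mul_eq_zero.mp h3).resolve_left hp'
  refine ⟨⟨ψ₁, hpar φ₁ ψ₁ h1⟩, ⟨ψ₂, hpar φ₂ ψ₂ h2⟩, ?_, ?_⟩
  · apply Subtype.ext
    simpa using h1
  · apply Subtype.ext
    simpa using h2

end

end Fermat.Agent.LR
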