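/-
LR (level raising, S41) — helper9 — [CSP]/[SYM-Δ]: the twist relations of `φ = Φ ∘ embA` coming from
`h = diag(1/q, q) ∈ Δ = Γ₀(N)[1/q]` (finding 387, step (T)).
-/
import Mathlib
import Fermat.Agent.LR.CSP_helper5_Defs
import Fermat.Agent.LR.AMALG_helper9_Gen

set_option autoImplicit false

open Matrix CongruenceSubgroup

open scoped MatrixGroups

namespace Fermat.Agent.LR

section Twist

variable (N q : ℕ) [NeZero q]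

/-- `h = diag(1/q, q) ∈ GL₂(ℚ)`. -/
def hTw : GL (Fin 2) ℚ :=
  ⟨!![(q : ℚ)⁻¹, 0; 0, (q : ℚ)], !![(q : ℚ), 0; 0, (q : ℚ)⁻¹], by
    have hq : (q : ℚ) ≠ 0 := Nat.cast_ne_zero.mpr (NeZero.ne q)
    ext i j
    fin_cases i <;> fin_cases j <;> simp [Matrix.mul_apply, Fin.sum_univ_two, hq], by
    have hq : (q : ℚ) ≠ 0 := Nat.cast_ne_zero.mpr (NeZero.ne q)
    ext i j
    fin_cases i <;> fin_cases j <;> simp [Matrix.mul_apply, Fin.sum_univ_two, hq]⟩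

theorem coe_hTw : ((hTw q : GL (Fin 2) ℚ) : Matrix (Fin 2) (Fin 2) ℚ) =
    !![(q : ℚ)⁻¹, 0; 0, (q : ℚ)] := rfl

theorem coe_hTw_inv : (((hTw q)⁻¹ : GL (Fin 2) ℚ) : Matrix (Fin 2) (Fin 2) ℚ) =
    !![(q : ℚ), 0; 0, (q : ℚ)⁻¹] := rfl

variable {q}

theorem hTw_mem_Delta (hq : q.Prime) (hcop : Nat.Coprime N q) : hTw q ∈ Delta N q := by
  have hq' : (q : ℚ) ≠ 0 := Nat.cast_ne_zero.mpr (NeZero.ne q)
  rw [Delta_eq_Gamma0Away hq hcop, mem_Gamma0Away_iff]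
  refine ⟨1, !![1, 0; 0, (q : ℤ) ^ 2], ?_, ?_, ?_⟩
  · unfold Rep
    rw [coe_hTw]
    ext i j
    fin_cases i <;> fin_cases j <;> simp [castQ]
    field_simp
  · rw [coe_hTw, Matrix.det_fin_two_of]
    field_simp
    ring
  · simp

variable {N}

/-- conjugation by `h`: `h (a, b q²; c, d) h⁻¹ = (a, b; c q², d)`. -/
theorem embA_eq_conj_hTw {γ γ' : ↥(Gamma0 N)}
    (h00 : (γ' : SL(2, ℤ)) 0 0 = (γ : SL(2, ℤ)) 0 0)
    (h01 : (γ : SL(2, ℤ)) 0 1 = (q : ℤ) ^ 2 * (γ' : SL(2, ℤ)) 0 1)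
    (h10 : (γ' : SL(2, ℤ)) 1 0 = (q : ℤ) ^ 2 * (γ : SL(2, ℤ)) 1 0)
    (h11 : (γ' : SL(2, ℤ)) 1 1 = (γ : SL(2, ℤ)) 1 1) :
    embA N γ' = hTw q * embA N γ * (hTw q)⁻¹ := by
  have hq' : (q : ℚ) ≠ 0 := Nat.cast_ne_zero.mpr (NeZero.ne q)
  apply Units.ext
  rw [Units.val_mul, Units.val_mul, coe_hTw, coe_hTw_inv, coe_embA, coe_embA]
  have e01 : (((γ : SL(2, ℤ)) 0 1 : ℤ) : ℚ) = (q : ℚ) ^ 2 * (((γ' : SL(2, ℤ)) 0 1 : ℤ) : ℚ) := by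
    rw [h01]; push_cast; ring
  have e10 : (((γ' : SL(2, ℤ)) 1 0 : ℤ) : ℚ) = (q : ℚ) ^ 2 * (((γ : SL(2, ℤ)) 1 0 : ℤ) : ℚ) := by
    rw [h10]; push_cast; ring
  ext i j
  simp only [Matrix.mul_apply, Fin.sum_univ_two, castQ, Matrix.map_apply]
  fin_cases i <;> fin_cases j <;>
    simp [h00, h11, e01, e10] <;> field_simp

/-- `h (a q², b; c, d) h = (a, b; c, d q²)`. -/
theorem embA_eq_hTw_mul_mul {γ γ' : ↥(Gamma0 N)}
    (h00 : (γ : SL(2, ℤ)) 0 0 = (q : ℤ) ^ 2 * (γ' : SL(2, ℤ)) 0 0)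
    (h01 : (γ' : SL(2, ℤ)) 0 1 = (γ : SL(2, ℤ)) 0 1)
    (h10 : (γ' : SL(2, ℤ)) 1 0 = (γ : SL(2, ℤ)) 1 0)
    (h11 : (γ' : SL(2, ℤ)) 1 1 = (q : ℤ) ^ 2 * (γ : SL(2, ℤ)) 1 1) :
    embA N γ' = hTw q * embA N γ * hTw q := by
  have hq' : (q : ℚ) ≠ 0 := Nat.cast_ne_zero.mpr (NeZero.ne q)
  apply Units.ext
  rw [Units.val_mul, Units.val_mul, coe_hTw, coe_embA, coe_embA]
  have e00 : (((γ : SL(2, ℤ)) 0 0 : ℤ) : ℚ) = (q : ℚ) ^ 2 * (((γ' : SL(2, ℤ)) 0 0 : ℤ) : ℚ) := by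
    rw [h00]; push_cast; ring
  have e11 : (((γ' : SL(2, ℤ)) 1 1 : ℤ) : ℚ) = (q : ℚ) ^ 2 * (((γ : SL(2, ℤ)) 1 1 : ℤ) : ℚ) := by
    rw [h11]; push_cast; ring
  ext i j
  simp only [Matrix.mul_apply, Fin.sum_univ_two, castQ, Matrix.map_apply]
  fin_cases i <;> fin_cases j <;>
    simp [h01, h10, e00, e11] <;> field_simp

/-- **[SYM-Δ]** the twist relations of `φ = Φ ∘ embA` (finding 387 (T)). -/
theorem twistHom_of_Delta {N q p : ℕ} [NeZero q] (hq : q.Prime) (hcop : Nat.Coprime N q)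
    (Φ : ↥(Delta N q) →* Multiplicative (ZMod p)) :
    TwistHom N q p (Φ.comp ((embA N).codRestrict (Delta N q) (embA_mem_Delta N q))) := by
  set hD : ↥(Delta N q) := ⟨hTw q, hTw_mem_Delta N hq hcop⟩ with hDdef
  refine ⟨?_, ⟨Φ hD * Φ hD, ?_⟩⟩
  · intro γ γ' h00 h01 h10 h11
    have hconj : (⟨embA N γ', embA_mem_Delta N q γ'⟩ : ↥(Delta N q)) =
        hD * ⟨embA N γ, embA_mem_Delta N q γ⟩ * hD⁻¹ := by
      apply Subtype.ext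
      simpa [hDdef] using embA_eq_conj_hTw h00 h01 h10 h11
    show Φ ⟨embA N γ', _⟩ = Φ ⟨embA N γ, _⟩
    rw [hconj, map_mul, map_mul, map_inv, mul_comm (Φ hD), mul_assoc, mul_inv_cancel, mul_one]
  · intro γ γ' h00 h01 h10 h11
    have hconj : (⟨embA N γ', embA_mem_Delta N q γ'⟩ : ↥(Delta N q)) =
        hD * ⟨embA N γ, embA_mem_Delta N q γ⟩ * hD := by
      apply Subtype.ext
      simpa [hDdef] using embA_eq_hTw_mul_mul h00 h01 h10 h11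
    show Φ ⟨embA N γ', _⟩ = Φ ⟨embA N γ, _⟩ * (Φ hD * Φ hD)
    rw [hconj, map_mul, map_mul, mul_comm (Φ hD), mul_assoc]

end Twist

end Fermat.Agent.LR
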