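/-
LR (level raising, S41) — helper9 — [CSP] final assembly: `CSPHypPar N q p` (with `D = N q`) from the
abstract vanishing of `q`-symbols on rows `(c, d)`, `N ∣ c`, `d ≡ 1 mod N` (finding 387, last step).
-/
import Mathlib
import Fermat.Agent.LR.CSP_helper9_Twist
import Fermat.Agent.LR.CSP_helper9_Par
import Fermat.Agent.LR.CSP_helper4_Sym

set_option autoImplicit false
set_option linter.unusedSectionVars false

open Matrix CongruenceSubgroup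

open scoped MatrixGroups

namespace Fermat.Agent.LR

variable {N q p : ℕ} [NeZero N] [NeZero q]

/-- entries of `γ ∈ Γ(D)`. -/
theorem Gamma_entries {D : ℕ} {γ : SL(2, ℤ)} (hγ : γ ∈ Gamma D) :
    (D : ℤ) ∣ γ 0 0 - 1 ∧ (D : ℤ) ∣ γ 0 1 ∧ (D : ℤ) ∣ γ 1 0 ∧ (D : ℤ) ∣ γ 1 1 - 1 := by
  rw [Gamma_mem] at hγ
  obtain ⟨h00, h01, h10, h11⟩ := hγ
  refine ⟨?_, ?_, ?_, ?_⟩
  · rw [← ZMod.intCast_zmod_eq_zero_iff_dvd]; push_cast; rw [h00]; ring
  · rw [← ZMod.intCast_zmod_eq_zero_iff_dvd]; exact h01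
  · rw [← ZMod.intCast_zmod_eq_zero_iff_dvd]; exact h10
  · rw [← ZMod.intCast_zmod_eq_zero_iff_dvd]; push_cast; rw [h11]; ring

/-- the bottom row of `γ ∈ SL₂(ℤ)` is coprime. -/
theorem isCoprime_bottom_row (γ : SL(2, ℤ)) : IsCoprime (γ 1 0) (γ 1 1) := by
  have h1 : γ 0 0 * γ 1 1 - γ 0 1 * γ 1 0 = 1 := by
    have := γ.det_coe
    rw [Matrix.det_fin_two] at this
    exact this
  exact ⟨-γ 0 1, γ 0 0, by linarith⟩

/-- **[CSP], final assembly** (conditional on the abstract vanishing statement `csp_abstract`). -/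
theorem cspHypPar_of_abstract (hq : q.Prime) (hqN : ¬ q ∣ N) (hp : p.Prime) (hp2 : p ≠ 2)
    (habs : ∀ G : ℤ → ℤ → ZMod p, IsQSymbol N q p G → ∀ c d : ℤ, (N : ℤ) ∣ c → IsCoprime c d →
      (N : ℤ) ∣ d - 1 → G c d = 0) :
    CSPHypPar N q p := by
  have hcop : Nat.Coprime N q := ((Nat.Prime.coprime_iff_not_dvd hq).mpr hqN).symm
  intro Φ hu hl
  set φ : ↥(Gamma0 N) →* Multiplicative (ZMod p) :=
    Φ.comp ((embA N).codRestrict (Delta N q) (embA_mem_Delta N q)) with hφ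
  have hφu : φ (uOne N) = 1 := hu
  have hφl : φ (lN N) = 1 := hl
  have hsym : IsQSymbol N q p (rowSym φ) :=
    isQSymbol_rowSym hp hp2 φ hφu hφl (twistHom_of_Delta hq hcop Φ)
  -- `φ` kills every `γ ∈ Γ₀(N)` with `d ≡ 1 mod N`
  have hkill : ∀ γ : ↥(Gamma0 N), (N : ℤ) ∣ (γ : SL(2, ℤ)) 1 1 - 1 → φ γ = 1 := by
    intro γ hd
    have h1 := habs (rowSym φ) hsym ((γ : SL(2, ℤ)) 1 0) ((γ : SL(2, ℤ)) 1 1)
      ((mem_Gamma0_iff_dvd' _).mp γ.2) (isCoprime_bottom_row _) hd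
    rw [rowSym_eq φ hφu γ] at h1
    exact h1
  refine ⟨N * q, Nat.mul_pos (Nat.pos_of_ne_zero (NeZero.ne N)) hq.pos, fun γ hγ => ?_⟩
  obtain ⟨-, h01, -, h11⟩ := Gamma_entries hγ
  have hN11 : (N : ℤ) ∣ (γ : SL(2, ℤ)) 1 1 - 1 := by
    refine dvd_trans ?_ h11
    push_cast
    exact Dvd.intro _ rfl
  have hq01 : (q : ℤ) ∣ (γ : SL(2, ℤ)) 0 1 := by
    refine dvd_trans ?_ h01
    push_cast
    exact Dvd.intro_left _ rfl
  refine ⟨hkill γ hN11, ?_⟩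
  have h2 : (⟨embB N q γ, embB_mem_Delta N q γ⟩ : ↥(Delta N q)) =
      ⟨embA N ⟨conjUpSL q (γ : SL(2, ℤ)) hq01, conjUpSL_mem N q γ.2 hq01⟩,
        embA_mem_Delta N q _⟩ := by
    apply Subtype.ext
    exact embB_eq_embA_conjUp N q γ.2 hq01
  rw [h2]
  exact hkill ⟨conjUpSL q (γ : SL(2, ℤ)) hq01, conjUpSL_mem N q γ.2 hq01⟩ hN11

end Fermat.Agent.LR
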