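/-
LR (level raising, S41) — helper9 — [CSP] **the congruence subgroup property of `Δ = Γ₀(N)[1/q]`**
(parabolic form, `𝔽_p`-coefficients, `p` odd, `D = N q`), hypothesis-free: finding 387 assembled from
helper5's `csp_abstract` ([KEY] + [K] + [P3] + [E3R] + [END]), helper4's `isQSymbol_rowSym`/`rowSym_eq`,
`twistHom_of_Delta` and `embB_eq_embA_conjUp`.
-/
import Mathlib
import Fermat.Agent.LR.CSP_helper9_Assemble
import Fermat.Agent.LR.CSP_helper5_Key

set_option autoImplicit false

open Matrix CongruenceSubgroup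

open scoped MatrixGroups

namespace Fermat.Agent.LR

/-- **[CSP]**: every homomorphism `Φ : Γ₀(N)[1/q] → 𝔽_p` (`p` odd, `q ∤ N` prime) killing `u(1)` and
`l(N)` is trivial on both copies of `Γ₀(N) ∩ Γ(N q)`. -/
theorem cspHypPar {N q p : ℕ} [NeZero N] [NeZero q] (hq : q.Prime) (hqN : ¬ q ∣ N)
    (hp : p.Prime) (hp2 : p ≠ 2) : CSPHypPar N q p :=
  cspHypPar_of_abstract hq hqN hp hp2
    (fun _ hG c d hc hcd hd => csp_abstract hq hqN hp hp2 hG c d hc hcd hd)

end Fermat.Agent.LR
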