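import Mathlib

/-!
# [FIN] representing functionals by a `p`-saturated bilinear form (`finRep_of_saturated`)

Gram matrix argument: `p`-saturation gives `p ∤ det`, then use the adjugate.
-/

set_option linter.unusedSectionVars false

namespace Fermat.Agent.LR

open Finset Matrix

section Fin

variable {L : Type*} [AddCommGroup L] {ι : Type*} [Fintype ι] [DecidableEq ι]

/-- Gram matrix of a bilinear form in a basis. -/
noncomputable def gramOf (B : L →ₗ[ℤ] L →ₗ[ℤ] ℤ) (b : Module.Basis ι ℤ L) : Matrix ι ι ℤ :=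
  Matrix.of fun i j => B (b i) (b j)

theorem bilin_eq_gramOf (B : L →ₗ[ℤ] L →ₗ[ℤ] ℤ) (b : Module.Basis ι ℤ L) (x y : L) :
    B x y = ∑ i, b.repr x i * ((gramOf B b).mulVec (fun j => b.repr y j)) i := by
  conv_lhs => rw [← b.sum_repr x, ← b.sum_repr y]
  simp only [map_sum, LinearMap.sum_apply, map_smul, LinearMap.smul_apply, smul_eq_mul,
    Matrix.mulVec, dotProduct, gramOf, Matrix.of_apply]
  simp only [Finset.mul_sum]
  rw [Finset.sum_comm]
  refine Finset.sum_congr rfl fun i _ => Finset.sum_congr rfl fun j _ => ?_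
  ring

theorem not_dvd_det_gramOf (B : L →ₗ[ℤ] L →ₗ[ℤ] ℤ) (b : Module.Basis ι ℤ L) (p : ℕ)
    (hp : p.Prime)
    (hsat : ∀ y : L, (∀ x, (p : ℤ) ∣ B x y) → ∃ z : L, y = (p : ℤ) • z) :
    ¬ (p : ℤ) ∣ (gramOf B b).det := by
  have : Fact p.Prime := ⟨hp⟩
  intro hdvd
  have h0 : ((gramOf B b).map (Int.castRingHom (ZMod p))).det = 0 := by
    have := (Int.castRingHom (ZMod p)).map_det (gramOf B b)
    rw [RingHom.mapMatrix_apply] at this
    rw [← this]
    exact (ZMod.intCast_zmod_eq_zero_iff_dvd _ _).mpr hdvd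
  obtain ⟨v, hv0, hv⟩ := Matrix.exists_mulVec_eq_zero_iff.mpr h0
  -- lift `v` to an integral vector
  set w : ι → ℤ := fun j => ((v j).val : ℤ) with hw
  have hwc : ∀ j, ((w j : ℤ) : ZMod p) = v j := fun j => by
    show (((v j).val : ℕ) : ℤ) = v j
    rw [Int.cast_natCast, ZMod.natCast_zmod_val]
  set y : L := ∑ j, w j • b j with hy
  have hrepr : ∀ j, b.repr y j = w j := fun j => by
    rw [hy, b.repr_sum_self]
  have hdiv : ∀ x, (p : ℤ) ∣ B x y := by
    intro x
    rw [bilin_eq_gramOf B b x y]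
    refine Finset.dvd_sum fun i _ => Dvd.dvd.mul_left ?_ _
    rw [← ZMod.intCast_zmod_eq_zero_iff_dvd]
    have := congrFun hv i
    simp only [Matrix.mulVec, dotProduct, Matrix.map_apply, Int.coe_castRingHom,
      Pi.zero_apply] at this
    simp only [Matrix.mulVec, dotProduct, Int.cast_sum, Int.cast_mul, hrepr, hwc]
    exact this
  obtain ⟨z, hz⟩ := hsat y hdiv
  apply hv0
  funext j
  have h1 : w j = (p : ℤ) * b.repr z j := by
    rw [← hrepr j, hz, map_smul, Finsupp.smul_apply, smul_eq_mul]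
  rw [← hwc j, h1]
  simp

end Fin

theorem finRep_of_saturated {L : Type*} [AddCommGroup L] [Module.Free ℤ L] [Module.Finite ℤ L]
    (B : L →ₗ[ℤ] L →ₗ[ℤ] ℤ) (p : ℕ) (hp : p.Prime)
    (hsat : ∀ y : L, (∀ x, (p : ℤ) ∣ B x y) → ∃ z : L, y = (p : ℤ) • z) :
    (∀ y : L, (∀ x, B x y = 0) → y = 0) ∧
    ∀ φ : L →ₗ[ℤ] ℤ, ∃ (m : ℤ) (x' : L), ¬ (p : ℤ) ∣ m ∧ ∀ x, m * φ x = B x x' := by
  classical
  set b := Module.Free.chooseBasis ℤ L with hb
  have hdet := not_dvd_det_gramOf B b p hp hsat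
  have hdet0 : (gramOf B b).det ≠ 0 := fun h => hdet (h ▸ dvd_zero _)
  refine ⟨fun y hy => ?_, fun φ => ?_⟩
  · -- nondegeneracy
    have h1 : (gramOf B b).mulVec (fun j => b.repr y j) = 0 := by
      funext i
      have := hy (b i)
      rw [bilin_eq_gramOf B b (b i) y] at this
      simp only [Module.Basis.repr_self, Finsupp.single_apply, ite_mul, one_mul, zero_mul,
        Finset.sum_ite_eq, Finset.mem_univ, if_true] at this
      simpa using this
    have h2 := Matrix.eq_zero_of_mulVec_eq_zero hdet0 h1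
    apply b.repr.injective
    ext j
    simpa using congrFun h2 j
  · -- representation
    set c : Module.Free.ChooseBasisIndex ℤ L → ℤ :=
      (gramOf B b).adjugate.mulVec (fun i => φ (b i)) with hc
    refine ⟨(gramOf B b).det, ∑ j, c j • b j, hdet, fun x => ?_⟩
    rw [bilin_eq_gramOf B b x (∑ j, c j • b j)]
    have hrepr : (fun j => b.repr (∑ j, c j • b j) j) = c := by
      funext j; rw [b.repr_sum_self]
    rw [hrepr, hc, Matrix.mulVec_mulVec, Matrix.mul_adjugate]
    conv_lhs => rw [← b.sum_repr x]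
    simp only [map_sum, map_smul, smul_eq_mul, Finset.mul_sum, Matrix.smul_mulVec,
      Matrix.one_mulVec, Pi.smul_apply]
    refine Finset.sum_congr rfl fun i _ => ?_
    ring

end Fermat.Agent.LR
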