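import Mathlib

/-!
# [LA] saturation from connectivity (`sat_of_connected`)

Pure linear algebra over `ZMod p` on a finite graph given by darts `Y`, the flip `s`
and the tail map `π : Y → Tr`.
-/

set_option linter.unusedSectionVars false

namespace Fermat.Agent.LR

open Finset

section Graph

variable {Y Tr : Type*} [Fintype Y] [DecidableEq Y] [Fintype Tr] [DecidableEq Tr]

/-- The subgroup of vertex functions that are fibre sums of an antisymmetric dart function. -/
def realSub (s : Y → Y) (π : Y → Tr) : AddSubgroup (Tr → ℤ) where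
  carrier := {c | ∃ a : Y → ℤ, (∀ y, a (s y) = - a y) ∧
    ∀ T, ∑ y ∈ Finset.univ.filter (fun y => π y = T), a y = c T}
  zero_mem' := ⟨0, by simp, by simp⟩
  add_mem' := by
    rintro c d ⟨a, ha, hac⟩ ⟨b, hb, hbd⟩
    refine ⟨a + b, fun y => by simp [ha y, hb y]; ring, fun T => ?_⟩
    simp only [Pi.add_apply, Finset.sum_add_distrib, hac T, hbd T]
  neg_mem' := by
    rintro c ⟨a, ha, hac⟩
    refine ⟨-a, fun y => by simp [ha y], fun T => ?_⟩
    simp only [Pi.neg_apply, Finset.sum_neg_distrib, hac T]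

theorem single_sub_single_mem_realSub (s : Y → Y) (hs : ∀ y, s (s y) = y) (π : Y → Tr) (y : Y) :
    (Pi.single (π y) 1 - Pi.single (π (s y)) 1 : Tr → ℤ) ∈ realSub s π := by
  refine ⟨Pi.single y 1 - Pi.single (s y) 1, fun z => ?_, fun T => ?_⟩
  · simp only [Pi.sub_apply, Pi.single_apply]
    have h1 : (s z = y) ↔ (z = s y) := ⟨fun h => by rw [← h, hs], fun h => by rw [h, hs]⟩
    have h2 : (s z = s y) ↔ (z = y) := ⟨fun h => by rw [← hs z, h, hs], fun h => by rw [h]⟩
    simp only [h1, h2]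
    ring
  · simp only [Pi.sub_apply, Pi.single_apply, Finset.sum_sub_distrib]
    rw [Finset.sum_ite_eq', Finset.sum_ite_eq']
    simp only [Finset.mem_filter, Finset.mem_univ, true_and]
    simp only [eq_comm]

theorem single_sub_base_mem_realSub (s : Y → Y) (hs : ∀ y, s (s y) = y) (π : Y → Tr)
    (hπ : Function.Surjective π)
    (hconn : ∀ U : Set Y, U.Nonempty → (∀ y ∈ U, s y ∈ U) →
      (∀ y ∈ U, ∀ y', π y' = π y → y' ∈ U) → U = Set.univ)
    (T T₀ : Tr) : (Pi.single T 1 - Pi.single T₀ 1 : Tr → ℤ) ∈ realSub s π := by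
  obtain ⟨y₀, hy₀⟩ := hπ T₀
  have hU := hconn {y | (Pi.single (π y) 1 - Pi.single T₀ 1 : Tr → ℤ) ∈ realSub s π}
    ⟨y₀, by simp only [Set.mem_ofPred_eq, hy₀, sub_self]; exact (realSub s π).zero_mem⟩
    (fun y hy => by
      simp only [Set.mem_ofPred_eq] at hy ⊢
      have h := (realSub s π).sub_mem hy (single_sub_single_mem_realSub s hs π y)
      have e : (Pi.single (π y) 1 - Pi.single T₀ 1 : Tr → ℤ)
          - (Pi.single (π y) 1 - Pi.single (π (s y)) 1) = Pi.single (π (s y)) 1 - Pi.single T₀ 1 := by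
        abel
      rwa [e] at h)
    (fun y hy y' hy' => by
      simp only [Set.mem_ofPred_eq] at hy ⊢
      rwa [hy'])
  obtain ⟨y, hy⟩ := hπ T
  have : y ∈ {y | (Pi.single (π y) 1 - Pi.single T₀ 1 : Tr → ℤ) ∈ realSub s π} := by
    rw [hU]; exact Set.mem_univ y
  simpa only [Set.mem_ofPred_eq, hy] using this

theorem mem_realSub_of_sum_eq_zero (s : Y → Y) (hs : ∀ y, s (s y) = y) (π : Y → Tr)
    (hπ : Function.Surjective π)
    (hconn : ∀ U : Set Y, U.Nonempty → (∀ y ∈ U, s y ∈ U) →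
      (∀ y ∈ U, ∀ y', π y' = π y → y' ∈ U) → U = Set.univ)
    (c : Tr → ℤ) (hc : ∑ T, c T = 0) : c ∈ realSub s π := by
  rcases isEmpty_or_nonempty Tr with hE | ⟨⟨T₀⟩⟩
  · have : c = 0 := Subsingleton.elim _ _
    rw [this]; exact (realSub s π).zero_mem
  · have e : c = ∑ T, c T • (Pi.single T 1 - Pi.single T₀ 1 : Tr → ℤ) := by
      funext T'
      simp only [Finset.sum_apply, Pi.smul_apply, Pi.sub_apply, Pi.single_apply, smul_eq_mul,
        mul_sub, Finset.sum_sub_distrib, mul_ite, mul_one, mul_zero, Finset.sum_ite_eq,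
        Finset.mem_univ, if_true]
      split_ifs with h
      · rw [hc, sub_zero]
      · rw [Finset.sum_const_zero, sub_zero]
    rw [e]
    exact (realSub s π).sum_mem fun T _ =>
      (realSub s π).zsmul_mem (single_sub_base_mem_realSub s hs π hπ hconn T T₀) _

/-- The "divergence" map over a commutative ring. -/
def divMap (K : Type*) [CommRing K] (s : Y → Y) (π : Y → Tr) : (Y → K) →ₗ[K] (Tr → K) where
  toFun m T := ∑ y ∈ Finset.univ.filter (fun y => π y = T), (m y - m (s y))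
  map_add' m m' := by
    funext T
    simp only [Pi.add_apply, ← Finset.sum_add_distrib]
    exact Finset.sum_congr rfl fun y _ => by ring
  map_smul' a m := by
    funext T
    simp only [Pi.smul_apply, smul_eq_mul, RingHom.id_apply, Finset.mul_sum]
    exact Finset.sum_congr rfl fun y _ => by ring

theorem divMap_apply (K : Type*) [CommRing K] (s : Y → Y) (π : Y → Tr) (m : Y → K) (T : Tr) :
    divMap K s π m T = ∑ y ∈ Finset.univ.filter (fun y => π y = T), (m y - m (s y)) := rfl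

theorem divMap_single (K : Type*) [CommRing K] (s : Y → Y) (hs : ∀ y, s (s y) = y) (π : Y → Tr)
    (y : Y) : divMap K s π (Pi.single y 1) = Pi.single (π y) 1 - Pi.single (π (s y)) 1 := by
  funext T
  rw [divMap_apply]
  simp only [Pi.sub_apply, Pi.single_apply, Finset.sum_sub_distrib]
  have h1 : ∀ z, (s z = y) ↔ (z = s y) :=
    fun z => ⟨fun h => by rw [← h, hs], fun h => by rw [h, hs]⟩
  simp only [h1]
  rw [Finset.sum_ite_eq', Finset.sum_ite_eq']
  simp only [Finset.mem_filter, Finset.mem_univ, true_and]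
  simp only [eq_comm]

/-- The pairing functional. -/
def pairFun (K : Type*) [CommRing K] (mstar : Y → ℤ) : (Y → K) →ₗ[K] K where
  toFun m := ∑ y, (mstar y : K) * m y
  map_add' m m' := by
    simp only [Pi.add_apply, mul_add, Finset.sum_add_distrib]
  map_smul' a m := by
    simp only [Pi.smul_apply, smul_eq_mul, RingHom.id_apply, Finset.mul_sum]
    exact Finset.sum_congr rfl fun y _ => by ring

theorem pairFun_apply (K : Type*) [CommRing K] (mstar : Y → ℤ) (m : Y → K) :
    pairFun K mstar m = ∑ y, (mstar y : K) * m y := rfl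

theorem pairFun_single (K : Type*) [CommRing K] (mstar : Y → ℤ) (y : Y) :
    pairFun K mstar (Pi.single y 1) = (mstar y : K) := by
  rw [pairFun_apply]
  simp only [Pi.single_apply, mul_ite, mul_one, mul_zero, Finset.sum_ite_eq', Finset.mem_univ,
    if_true]

theorem sum_comp_invol {M : Type*} [AddCommMonoid M] (s : Y → Y) (hs : ∀ y, s (s y) = y)
    (g : Y → M) : ∑ y, g (s y) = ∑ y, g y :=
  Equiv.sum_comp (Function.Involutive.toPerm s hs) g

theorem pairFun_eq_zero_of_divMap_eq_zero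
    (s : Y → Y) (hs : ∀ y, s (s y) = y) (π : Y → Tr) (hπ : Function.Surjective π)
    (hconn : ∀ U : Set Y, U.Nonempty → (∀ y ∈ U, s y ∈ U) →
      (∀ y ∈ U, ∀ y', π y' = π y → y' ∈ U) → U = Set.univ)
    (p : ℕ) [Fact p.Prime] (hp2 : p ≠ 2) (mstar : Y → ℤ) (hanti : ∀ y, mstar (s y) = - mstar y)
    (H : ∀ m : Y → ℤ, (∀ y, m (s y) = - m y) →
      (∀ T, ∑ y ∈ Finset.univ.filter (fun y => π y = T), m y = 0) →
      (p : ℤ) ∣ ∑ y, mstar y * m y)
    (mb : Y → ZMod p) (hmb : divMap (ZMod p) s π mb = 0) : pairFun (ZMod p) mstar mb = 0 := by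
  have hp : p.Prime := Fact.out
  -- the lift
  set L : ZMod p → ℤ := fun a => (a.val : ℤ) with hL
  have hLc : ∀ a : ZMod p, ((L a : ℤ) : ZMod p) = a := fun a => by
    show (((a.val : ℕ) : ℤ) : ZMod p) = a
    rw [Int.cast_natCast, ZMod.natCast_zmod_val]
  set m₀ : Y → ℤ := fun y => L (mb y) - L (mb (s y)) with hm₀
  have hm₀anti : ∀ y, m₀ (s y) = - m₀ y := fun y => by
    simp only [hm₀, hs y]; ring
  -- fibre sums of m₀ are divisible by p
  have hfib : ∀ T, (p : ℤ) ∣ ∑ y ∈ Finset.univ.filter (fun y => π y = T), m₀ y := fun T => by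
    rw [← ZMod.intCast_zmod_eq_zero_iff_dvd]
    have := congrFun hmb T
    rw [divMap_apply] at this
    rw [Int.cast_sum]
    simpa only [hm₀, Int.cast_sub, hLc, Pi.zero_apply] using this
  choose c₀ hc₀ using hfib
  -- total sum of m₀ is zero
  have htot : ∑ y, m₀ y = 0 := by
    simp only [hm₀, Finset.sum_sub_distrib]
    rw [sum_comp_invol s hs (fun y => L (mb y)), sub_self]
  have hc₀sum : ∑ T, c₀ T = 0 := by
    have h1 : ∑ T, ∑ y ∈ Finset.univ.filter (fun y => π y = T), m₀ y = ∑ y, m₀ y :=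
      Finset.sum_fiberwise Finset.univ π m₀
    have h2 : (p : ℤ) * ∑ T, c₀ T = 0 := by
      rw [Finset.mul_sum, ← htot, ← h1]
      exact Finset.sum_congr rfl fun T _ => (hc₀ T).symm
    rcases mul_eq_zero.mp h2 with h | h
    · exact absurd (by exact_mod_cast h) hp.ne_zero
    · exact h
  obtain ⟨a₁, ha₁anti, ha₁fib⟩ := mem_realSub_of_sum_eq_zero s hs π hπ hconn c₀ hc₀sum
  -- the corrected integral function
  have hdvd := H (fun y => m₀ y - (p : ℤ) * a₁ y)
    (fun y => by simp only [hm₀anti y, ha₁anti y]; ring)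
    (fun T => by
      simp only [Finset.sum_sub_distrib, ← Finset.mul_sum, ha₁fib T, hc₀ T, sub_self])
  rw [← ZMod.intCast_zmod_eq_zero_iff_dvd] at hdvd
  simp only [Int.cast_sum, Int.cast_mul, Int.cast_sub, Int.cast_natCast, ZMod.natCast_self,
    zero_mul, sub_zero, hm₀, hLc] at hdvd
  simp only [mul_sub, Finset.sum_sub_distrib] at hdvd
  -- reindex the second sum
  have h2 : ∑ y, (mstar y : ZMod p) * mb (s y) = - ∑ y, (mstar y : ZMod p) * mb y := by
    rw [← sum_comp_invol s hs (fun y => (mstar y : ZMod p) * mb (s y))]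
    simp only [hs, hanti, Int.cast_neg, neg_mul, Finset.sum_neg_distrib]
  rw [h2, sub_neg_eq_add, ← two_mul] at hdvd
  rw [pairFun_apply]
  have h2ne : (2 : ZMod p) ≠ 0 := by
    intro h
    have : ((2 : ℕ) : ZMod p) = 0 := by exact_mod_cast h
    rw [ZMod.natCast_eq_zero_iff] at this
    exact hp2 ((Nat.prime_dvd_prime_iff_eq hp Nat.prime_two).mp this)
  exact (mul_eq_zero.mp hdvd).resolve_left h2ne

theorem sat_of_connected {Y Tr : Type*} [Fintype Y] [DecidableEq Y] [Fintype Tr] [DecidableEq Tr]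
    (s : Y → Y) (hs : ∀ y, s (s y) = y) (π : Y → Tr) (hπ : Function.Surjective π)
    (hconn : ∀ U : Set Y, U.Nonempty → (∀ y ∈ U, s y ∈ U) → (∀ y ∈ U, ∀ y', π y' = π y → y' ∈ U) → U = Set.univ)
    (p : ℕ) (hp : p.Prime) (hp2 : p ≠ 2) (mstar : Y → ℤ) (hanti : ∀ y, mstar (s y) = - mstar y)
    (H : ∀ m : Y → ℤ, (∀ y, m (s y) = - m y) → (∀ T, ∑ y ∈ Finset.univ.filter (fun y => π y = T), m y = 0) → (p : ℤ) ∣ ∑ y, mstar y * m y) :
    ∃ c : Tr → ℤ, ∀ y, (p : ℤ) ∣ mstar y - (c (π (s y)) - c (π y)) := by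
  have : Fact p.Prime := ⟨hp⟩
  have hmem : pairFun (ZMod p) mstar ∈ (LinearMap.ker (divMap (ZMod p) s π)).dualAnnihilator := by
    rw [Submodule.mem_dualAnnihilator]
    intro mb hmb
    exact pairFun_eq_zero_of_divMap_eq_zero s hs π hπ hconn p hp2 mstar hanti H mb
      (LinearMap.mem_ker.mp hmb)
  rw [← LinearMap.range_dualMap_eq_dualAnnihilator_ker] at hmem
  obtain ⟨μ, hμ⟩ := hmem
  refine ⟨fun T => - ((μ (Pi.single T 1)).val : ℤ), fun y => ?_⟩
  rw [← ZMod.intCast_zmod_eq_zero_iff_dvd]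
  have h1 := congrArg (fun φ => φ (Pi.single y 1)) hμ
  simp only [LinearMap.dualMap_apply, divMap_single (ZMod p) s hs π y, pairFun_single, map_sub] at h1
  simp only [Int.cast_sub, Int.cast_neg, Int.cast_natCast, ZMod.natCast_zmod_val]
  rw [← h1]
  ring

end Graph

end Fermat.Agent.LR
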