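/-
PROJECT LR (S41), package [DUAL] (helper6), part 0: the Farey structure on `OnePoint ℚ`.

`SL(2,ℤ)` acts on `OnePoint ℚ = ℙ¹(ℚ)` through `mapGL ℚ` and Mathlib's `GL (Fin 2) ℚ`-action.
`FAdj a b`: `(a, b)` is an oriented Farey edge `g • (∞, 0)`;
`FTri a b c`: `(a, b, c)` is a positively oriented Farey triangle `g • (∞, 0, 1)`.
-/
import Mathlib

set_option autoImplicit false

namespace Fermat.Agent.LR

open OnePoint Matrix.SpecialLinearGroup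
open scoped MatrixGroups

/-- the action of `SL(2,ℤ)` on `ℙ¹(ℚ) = OnePoint ℚ`. -/
noncomputable def slAct (g : SL(2, ℤ)) (x : OnePoint ℚ) : OnePoint ℚ := (mapGL ℚ g) • x

theorem slAct_one (x : OnePoint ℚ) : slAct 1 x = x := by
  simp [slAct]

theorem slAct_mul (g h : SL(2, ℤ)) (x : OnePoint ℚ) : slAct (g * h) x = slAct g (slAct h x) := by
  simp [slAct, mul_smul]

theorem slAct_inv_slAct (g : SL(2, ℤ)) (x : OnePoint ℚ) : slAct g⁻¹ (slAct g x) = x := by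
  rw [← slAct_mul, inv_mul_cancel, slAct_one]

theorem slAct_slAct_inv (g : SL(2, ℤ)) (x : OnePoint ℚ) : slAct g (slAct g⁻¹ x) = x := by
  rw [← slAct_mul, mul_inv_cancel, slAct_one]

/-- oriented Farey edges: the `SL(2,ℤ)`-translates of `(∞, 0)`. -/
def FAdj (a b : OnePoint ℚ) : Prop :=
  ∃ g : SL(2, ℤ), a = slAct g ∞ ∧ b = slAct g ((0 : ℚ) : OnePoint ℚ)

/-- positively oriented Farey triangles: the `SL(2,ℤ)`-translates of `(∞, 0, 1)`. -/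
def FTri (a b c : OnePoint ℚ) : Prop :=
  ∃ g : SL(2, ℤ), a = slAct g ∞ ∧ b = slAct g ((0 : ℚ) : OnePoint ℚ) ∧
    c = slAct g ((1 : ℚ) : OnePoint ℚ)

theorem FAdj.slAct {a b : OnePoint ℚ} (h : FAdj a b) (g : SL(2, ℤ)) :
    FAdj (slAct g a) (slAct g b) := by
  obtain ⟨k, rfl, rfl⟩ := h
  exact ⟨g * k, (slAct_mul _ _ _).symm, (slAct_mul _ _ _).symm⟩

theorem FTri.slAct {a b c : OnePoint ℚ} (h : FTri a b c) (g : SL(2, ℤ)) :
    FTri (slAct g a) (slAct g b) (slAct g c) := by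
  obtain ⟨k, rfl, rfl, rfl⟩ := h
  exact ⟨g * k, (slAct_mul _ _ _).symm, (slAct_mul _ _ _).symm, (slAct_mul _ _ _).symm⟩

theorem slAct_infty (g : SL(2, ℤ)) :
    slAct g ∞ = if (g 1 0 : ℚ) = 0 then ∞ else (((g 0 0 : ℚ) / (g 1 0 : ℚ) : ℚ) : OnePoint ℚ) := by
  rw [slAct, OnePoint.smul_infty_eq_ite]
  simp

theorem slAct_coe (g : SL(2, ℤ)) (k : ℚ) :
    slAct g (k : OnePoint ℚ) = if (g 1 0 : ℚ) * k + g 1 1 = 0 then ∞
      else ((((g 0 0 : ℚ) * k + g 0 1) / ((g 1 0 : ℚ) * k + g 1 1) : ℚ) : OnePoint ℚ) := by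
  rw [slAct, OnePoint.smul_some_eq_ite]
  simp

/-- the rotation `∞ ↦ 0 ↦ 1 ↦ ∞` of the basic Farey triangle. -/
def fTau : SL(2, ℤ) := ⟨!![0, 1; -1, 1], by rw [Matrix.det_fin_two_of]; ring⟩

theorem slAct_S_infty : slAct ModularGroup.S ∞ = ((0 : ℚ) : OnePoint ℚ) := by
  rw [slAct_infty]; simp [ModularGroup.S]

theorem slAct_S_zero : slAct ModularGroup.S ((0 : ℚ) : OnePoint ℚ) = ∞ := by
  rw [slAct_coe]; simp [ModularGroup.S]

theorem slAct_fTau_infty : slAct fTau ∞ = ((0 : ℚ) : OnePoint ℚ) := by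
  rw [slAct_infty]; simp [fTau]

theorem slAct_fTau_zero : slAct fTau ((0 : ℚ) : OnePoint ℚ) = ((1 : ℚ) : OnePoint ℚ) := by
  rw [slAct_coe]; simp [fTau]

theorem slAct_fTau_one : slAct fTau ((1 : ℚ) : OnePoint ℚ) = ∞ := by
  rw [slAct_coe]; simp [fTau]

theorem FAdj.symm {a b : OnePoint ℚ} (h : FAdj a b) : FAdj b a := by
  obtain ⟨g, rfl, rfl⟩ := h
  exact ⟨g * ModularGroup.S, by rw [slAct_mul, slAct_S_infty], by rw [slAct_mul, slAct_S_zero]⟩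

theorem FTri.rot {a b c : OnePoint ℚ} (h : FTri a b c) : FTri b c a := by
  obtain ⟨g, rfl, rfl, rfl⟩ := h
  exact ⟨g * fTau, by rw [slAct_mul, slAct_fTau_infty], by rw [slAct_mul, slAct_fTau_zero],
    by rw [slAct_mul, slAct_fTau_one]⟩

theorem FTri.adj₁ {a b c : OnePoint ℚ} (h : FTri a b c) : FAdj a b := by
  obtain ⟨g, rfl, rfl, rfl⟩ := h
  exact ⟨g, rfl, rfl⟩

theorem FTri.adj₂ {a b c : OnePoint ℚ} (h : FTri a b c) : FAdj b c := h.rot.adj₁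

theorem FTri.adj₃ {a b c : OnePoint ℚ} (h : FTri a b c) : FAdj c a := h.rot.rot.adj₁

end Fermat.Agent.LR
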