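/-
PROJECT LR (S41), package [DUAL] (helper6), part 1: cochains on `ℙ¹(ℚ)` and **Step B**:
a `2`-cocycle on the full simplex on `OnePoint ℚ` whose restriction to the Farey complex is the
coboundary of a Farey `1`-cochain `ΛF` is the coboundary of a unique alternating `1`-cochain `Λ`
extending `ΛF`; in particular `Λ` inherits every symmetry of the pair `(Ξ, ΛF)`.

The two combinatorial inputs on the Farey complex (connectedness and simple connectedness) are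
hypotheses here (`FareyConnQ`, `FareyH1Q`); they are discharged in the FAREY package.
-/
import Fermat.Agent.LR.DUAL_helper6_Defs

set_option autoImplicit false

namespace Fermat.Agent.LR

open OnePoint

/-- alternating `1`-cochains. -/
def Alt2 {X V : Type*} [AddCommGroup V] (Λ : X → X → V) : Prop := ∀ a b, Λ b a = - Λ a b

/-- alternating `2`-cochains (antisymmetric under the two adjacent transpositions). -/
def Alt3 {X V : Type*} [AddCommGroup V] (Ξ : X → X → X → V) : Prop :=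
  (∀ a b c, Ξ b a c = - Ξ a b c) ∧ (∀ a b c, Ξ a c b = - Ξ a b c)

/-- `2`-cocycles. -/
def IsCoc3 {X V : Type*} [AddCommGroup V] (Ξ : X → X → X → V) : Prop :=
  ∀ a b c d, Ξ b c d - Ξ a c d + Ξ a b d - Ξ a b c = 0

/-- the coboundary of a `1`-cochain. -/
def cobd2 {X V : Type*} [AddCommGroup V] (Λ : X → X → V) (a b c : X) : V :=
  Λ b c - Λ a c + Λ a b

theorem isCoc3_cobd2 {X V : Type*} [AddCommGroup V] (Λ : X → X → V) : IsCoc3 (cobd2 Λ) := by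
  intro a b c d
  simp only [cobd2]
  abel

theorem alt3_cobd2 {X V : Type*} [AddCommGroup V] {Λ : X → X → V} (h : Alt2 Λ) :
    Alt3 (cobd2 Λ) := by
  refine ⟨fun a b c => ?_, fun a b c => ?_⟩
  · simp only [cobd2]
    rw [h a b]
    abel
  · simp only [cobd2]
    rw [h b c]
    abel

theorem Alt3.rot {X V : Type*} [AddCommGroup V] {Ξ : X → X → X → V} (h : Alt3 Ξ) (a b c : X) :
    Ξ b c a = Ξ a b c := by
  rw [h.2 b a c, h.1 a b c, neg_neg]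

/-- connectedness of the Farey graph, for `ℚ`-valued functions. -/
def FareyConnQ : Prop :=
  ∀ φ : OnePoint ℚ → ℚ, (∀ a b, FAdj a b → φ a = φ b) → ∀ a b, φ a = φ b

/-- simple connectedness of the Farey complex, for `ℚ`-valued cochains. -/
def FareyH1Q : Prop :=
  ∀ ω : OnePoint ℚ → OnePoint ℚ → ℚ, (∀ a b, FAdj a b → ω b a = - ω a b) →
    (∀ a b c, FTri a b c → ω a b + ω b c + ω c a = 0) →
    ∃ φ : OnePoint ℚ → ℚ, ∀ a b, FAdj a b → ω a b = φ b - φ a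

section StepB

variable (hconn : FareyConnQ) (hH1 : FareyH1Q)

include hH1 in
/-- **Step B, existence.** -/
theorem exists_primitive_of_farey {Ξ : OnePoint ℚ → OnePoint ℚ → OnePoint ℚ → ℚ}
    (hΞ : Alt3 Ξ) (hcoc : IsCoc3 Ξ) (ΛF : OnePoint ℚ → OnePoint ℚ → ℚ)
    (hΛalt : ∀ a b, FAdj a b → ΛF b a = - ΛF a b)
    (hΛ : ∀ a b c, FTri a b c → ΛF a b + ΛF b c + ΛF c a = Ξ a b c) :
    ∃ Λ : OnePoint ℚ → OnePoint ℚ → ℚ, Alt2 Λ ∧ (∀ a b c, cobd2 Λ a b c = Ξ a b c) ∧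
      ∀ a b, FAdj a b → Λ a b = ΛF a b := by
  obtain ⟨φ, hφ⟩ := hH1 (fun a b => ΛF a b - Ξ ∞ a b)
    (fun a b hab => by
      show ΛF b a - Ξ ∞ b a = -(ΛF a b - Ξ ∞ a b)
      rw [hΛalt a b hab, hΞ.2 ∞ a b]
      ring)
    (fun a b c habc => by
      show ΛF a b - Ξ ∞ a b + (ΛF b c - Ξ ∞ b c) + (ΛF c a - Ξ ∞ c a) = 0
      have h1 := hΛ a b c habc
      have h2 := hcoc ∞ a b c
      have h3 := hΞ.2 ∞ a c
      linarith)
  refine ⟨fun a b => Ξ ∞ a b + φ b - φ a, fun a b => ?_, fun a b c => ?_, fun a b hab => ?_⟩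
  · show Ξ ∞ b a + φ a - φ b = -(Ξ ∞ a b + φ b - φ a)
    rw [hΞ.2 ∞ a b]
    ring
  · show (Ξ ∞ b c + φ c - φ b) - (Ξ ∞ a c + φ c - φ a) + (Ξ ∞ a b + φ b - φ a) = Ξ a b c
    have h2 := hcoc ∞ a b c
    linarith
  · have := hφ a b hab
    show Ξ ∞ a b + φ b - φ a = ΛF a b
    linarith

include hconn in
/-- **Step B, uniqueness.** -/
theorem primitive_unique_of_farey {Λ₁ Λ₂ : OnePoint ℚ → OnePoint ℚ → ℚ}
    (h : ∀ a b c, cobd2 Λ₁ a b c = cobd2 Λ₂ a b c)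
    (hF : ∀ a b, FAdj a b → Λ₁ a b = Λ₂ a b) : ∀ a b, Λ₁ a b = Λ₂ a b := by
  have hΔ : ∀ a b, Λ₁ a b - Λ₂ a b = (Λ₁ ∞ b - Λ₂ ∞ b) - (Λ₁ ∞ a - Λ₂ ∞ a) := by
    intro a b
    have := h ∞ a b
    simp only [cobd2] at this
    linarith
  have hχ := hconn (fun a => Λ₁ ∞ a - Λ₂ ∞ a) (fun a b hab => by
    have h1 := hΔ a b
    have h2 := hF a b hab
    show Λ₁ ∞ a - Λ₂ ∞ a = Λ₁ ∞ b - Λ₂ ∞ b
    linarith)
  intro a b
  have h1 := hΔ a b
  have h2 : Λ₁ ∞ a - Λ₂ ∞ a = Λ₁ ∞ b - Λ₂ ∞ b := hχ a b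
  linarith

include hconn hH1 in
/-- **Step B, with symmetries**: the primitive is invariant under every family of bijections of
`ℙ¹(ℚ)` preserving the Farey structure, `Ξ` and `ΛF`. -/
theorem exists_invariant_primitive_of_farey {Ξ : OnePoint ℚ → OnePoint ℚ → OnePoint ℚ → ℚ}
    (hΞ : Alt3 Ξ) (hcoc : IsCoc3 Ξ) (ΛF : OnePoint ℚ → OnePoint ℚ → ℚ)
    (hΛalt : ∀ a b, FAdj a b → ΛF b a = - ΛF a b)
    (hΛ : ∀ a b c, FTri a b c → ΛF a b + ΛF b c + ΛF c a = Ξ a b c)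
    (S : Set (OnePoint ℚ → OnePoint ℚ))
    (hSadj : ∀ f ∈ S, ∀ a b, FAdj a b → FAdj (f a) (f b))
    (hSΞ : ∀ f ∈ S, ∀ a b c, Ξ (f a) (f b) (f c) = Ξ a b c)
    (hSΛ : ∀ f ∈ S, ∀ a b, FAdj a b → ΛF (f a) (f b) = ΛF a b) :
    ∃ Λ : OnePoint ℚ → OnePoint ℚ → ℚ, Alt2 Λ ∧ (∀ a b c, cobd2 Λ a b c = Ξ a b c) ∧
      (∀ a b, FAdj a b → Λ a b = ΛF a b) ∧ ∀ f ∈ S, ∀ a b, Λ (f a) (f b) = Λ a b := by
  obtain ⟨Λ, h1, h2, h3⟩ := exists_primitive_of_farey hH1 hΞ hcoc ΛF hΛalt hΛ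
  refine ⟨Λ, h1, h2, h3, fun f hf => ?_⟩
  refine primitive_unique_of_farey hconn (Λ₁ := fun a b => Λ (f a) (f b)) (Λ₂ := Λ) ?_ ?_
  · intro a b c
    have e1 : cobd2 (fun a b => Λ (f a) (f b)) a b c = cobd2 Λ (f a) (f b) (f c) := rfl
    rw [e1, h2, h2, hSΞ f hf]
  · intro a b hab
    show Λ (f a) (f b) = Λ a b
    rw [h3 _ _ (hSadj f hf a b hab), h3 a b hab, hSΛ f hf a b hab]

end StepB

end Fermat.Agent.LR
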