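/-
PROJECT LR (S41), package [DUAL] (helper6), part 3: the **orientation cocycle** on `ℙ¹(ℚ)`:
`orc a b c = sign (det(a,b) det(b,c) det(c,a))`, an alternating `GL₂⁺(ℚ)`-invariant `2`-cocycle with
`orc ∞ 0 1 = 1`.
-/
import Fermat.Agent.LR.DUAL_helper6_StepB

set_option autoImplicit false

namespace Fermat.Agent.LR

open OnePoint

/-- a lift of a point of `ℙ¹(ℚ)` to `ℚ²`. -/
def pvec (x : OnePoint ℚ) : ℚ × ℚ := x.elim (1, 0) (fun k => (k, 1))

@[simp] theorem pvec_infty : pvec ∞ = (1, 0) := rfl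
@[simp] theorem pvec_coe (k : ℚ) : pvec (k : OnePoint ℚ) = (k, 1) := rfl

/-- the determinant of two vectors. -/
def det2 (v w : ℚ × ℚ) : ℚ := v.1 * w.2 - v.2 * w.1

theorem det2_swap (v w : ℚ × ℚ) : det2 w v = - det2 v w := by
  simp only [det2]; ring

/-- the sign of a rational number, as a rational number. -/
def sgnQ (x : ℚ) : ℚ := if 0 < x then 1 else if x < 0 then -1 else 0

theorem sgnQ_pos {x : ℚ} (h : 0 < x) : sgnQ x = 1 := by simp [sgnQ, h]
theorem sgnQ_neg {x : ℚ} (h : x < 0) : sgnQ x = -1 := by simp [sgnQ, h, not_lt.mpr h.le]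
@[simp] theorem sgnQ_zero : sgnQ 0 = 0 := by simp [sgnQ]
@[simp] theorem sgnQ_one : sgnQ 1 = 1 := sgnQ_pos one_pos

theorem sgnQ_mul (x y : ℚ) : sgnQ (x * y) = sgnQ x * sgnQ y := by
  rcases lt_trichotomy x 0 with hx | hx | hx <;> rcases lt_trichotomy y 0 with hy | hy | hy
  · rw [sgnQ_neg hx, sgnQ_neg hy, sgnQ_pos (mul_pos_of_neg_of_neg hx hy)]; ring
  · subst hy; simp
  · rw [sgnQ_neg hx, sgnQ_pos hy, sgnQ_neg (mul_neg_of_neg_of_pos hx hy)]; ring
  · subst hx; simp
  · subst hx; simp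
  · subst hx; simp
  · rw [sgnQ_pos hx, sgnQ_neg hy, sgnQ_neg (mul_neg_of_pos_of_neg hx hy)]; ring
  · subst hy; simp
  · rw [sgnQ_pos hx, sgnQ_pos hy, sgnQ_pos (mul_pos hx hy)]; ring

theorem sgnQ_neg' (x : ℚ) : sgnQ (-x) = - sgnQ x := by
  rw [show -x = (-1) * x by ring, sgnQ_mul, sgnQ_neg (by norm_num : (-1:ℚ) < 0)]; ring

/-- the key sign identity. -/
theorem sgnQ_mul_mul_of_add_eq_zero {x y z : ℚ} (h : x + y + z = 0) :
    sgnQ (x * y * z) = - (sgnQ x + sgnQ y + sgnQ z) := by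
  rw [sgnQ_mul, sgnQ_mul]
  rcases lt_trichotomy x 0 with hx | hx | hx <;> rcases lt_trichotomy y 0 with hy | hy | hy <;>
    rcases lt_trichotomy z 0 with hz | hz | hz <;>
    first
      | (exfalso; linarith)
      | (simp only [sgnQ_pos, sgnQ_neg, sgnQ_zero, hx, hy, hz]; norm_num)

/-- the "linear order" `1`-cochain whose coboundary is (minus) the orientation cocycle. -/
def ordc (a b : OnePoint ℚ) : ℚ := sgnQ (det2 (pvec a) (pvec b))

theorem alt2_ordc : Alt2 ordc := by
  intro a b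
  simp only [ordc]
  rw [det2_swap, sgnQ_neg']

/-- **the orientation cocycle.** -/
def orc (a b c : OnePoint ℚ) : ℚ :=
  sgnQ (det2 (pvec a) (pvec b) * det2 (pvec b) (pvec c) * det2 (pvec c) (pvec a))

theorem orc_eq_neg_cobd2 (a b c : OnePoint ℚ) : orc a b c = - cobd2 ordc a b c := by
  have key : orc a b c = - (ordc a b + ordc b c + ordc c a) := by
    simp only [orc, ordc]
    induction a using OnePoint.rec with
    | infty =>
      induction b using OnePoint.rec with
      | infty => simp [det2, sgnQ_neg']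
      | coe b =>
        induction c using OnePoint.rec with
        | infty => simp [det2, sgnQ_neg']
        | coe c =>
          simp only [pvec_infty, pvec_coe, det2]
          have e1 : (1:ℚ) * 1 - 0 * b = 1 := by ring
          have e2 : c * 0 - 1 * 1 = (-1:ℚ) := by ring
          rw [e1, e2, one_mul, mul_neg_one, sgnQ_neg', sgnQ_neg', sgnQ_one]
          ring
    | coe a =>
      induction b using OnePoint.rec with
      | infty =>
        induction c using OnePoint.rec with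
        | infty => simp [det2, sgnQ_neg']
        | coe c =>
          simp only [pvec_infty, pvec_coe, det2]
          have e1 : a * 0 - 1 * 1 = (-1:ℚ) := by ring
          have e2 : (1:ℚ) * 1 - 0 * c = 1 := by ring
          rw [e1, e2, mul_one, neg_one_mul, sgnQ_neg', sgnQ_neg', sgnQ_one]
          ring
      | coe b =>
        induction c using OnePoint.rec with
        | infty =>
          simp only [pvec_infty, pvec_coe, det2]
          have e1 : b * 0 - 1 * 1 = (-1:ℚ) := by ring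
          have e2 : (1:ℚ) * 1 - 0 * a = 1 := by ring
          rw [e1, e2, mul_one, mul_neg_one, sgnQ_neg', sgnQ_neg', sgnQ_one]
          ring
        | coe c =>
          simp only [pvec_coe, det2]
          exact sgnQ_mul_mul_of_add_eq_zero (by ring)
  rw [key, cobd2, alt2_ordc c a]
  ring

theorem isCoc3_orc : IsCoc3 orc := by
  intro a b c d
  rw [orc_eq_neg_cobd2, orc_eq_neg_cobd2, orc_eq_neg_cobd2, orc_eq_neg_cobd2]
  have := isCoc3_cobd2 ordc a b c d
  linarith

theorem alt3_orc : Alt3 orc := by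
  have h := alt3_cobd2 alt2_ordc
  refine ⟨fun a b c => ?_, fun a b c => ?_⟩
  · rw [orc_eq_neg_cobd2, orc_eq_neg_cobd2, h.1]
  · rw [orc_eq_neg_cobd2, orc_eq_neg_cobd2, h.2]

theorem orc_infty_zero_one : orc ∞ ((0:ℚ) : OnePoint ℚ) ((1:ℚ) : OnePoint ℚ) = 1 := by
  simp only [orc, pvec_infty, pvec_coe, det2]
  norm_num

/-- the lift of `g • x` is a nonzero multiple of `g` applied to the lift of `x`. -/
theorem exists_pvec_smul (g : GL (Fin 2) ℚ) (x : OnePoint ℚ) :
    ∃ μ : ℚ, μ ≠ 0 ∧ pvec (g • x) =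
      (μ * (g 0 0 * (pvec x).1 + g 0 1 * (pvec x).2), μ * (g 1 0 * (pvec x).1 + g 1 1 * (pvec x).2)) := by
  have hdet : g 0 0 * g 1 1 - g 0 1 * g 1 0 ≠ 0 := by
    have := g.det_ne_zero
    rwa [Matrix.det_fin_two] at this
  induction x using OnePoint.rec with
  | infty =>
    rw [OnePoint.smul_infty_eq_ite]
    by_cases h : g 1 0 = 0
    · have h00 : g 0 0 ≠ 0 := by
        intro h0
        apply hdet
        rw [h, h0]; ring
      refine ⟨(g 0 0)⁻¹, inv_ne_zero h00, ?_⟩
      rw [if_pos h, pvec_infty, h]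
      simp [h00]
    · refine ⟨(g 1 0)⁻¹, inv_ne_zero h, ?_⟩
      rw [if_neg h, pvec_coe, pvec_infty]
      simp only [mul_one, mul_zero, add_zero]
      rw [inv_mul_cancel₀ h, div_eq_inv_mul]
  | coe k =>
    rw [OnePoint.smul_some_eq_ite]
    by_cases h : g 1 0 * k + g 1 1 = 0
    · have h00 : g 0 0 * k + g 0 1 ≠ 0 := by
        intro h0
        apply hdet
        have e1 : g 1 1 = - (g 1 0 * k) := by linarith
        have e2 : g 0 1 = - (g 0 0 * k) := by linarith
        rw [e1, e2]; ring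
      refine ⟨(g 0 0 * k + g 0 1)⁻¹, inv_ne_zero h00, ?_⟩
      rw [if_pos h, pvec_infty, pvec_coe]
      simp only [mul_one]
      rw [h, inv_mul_cancel₀ h00, mul_zero]
    · refine ⟨(g 1 0 * k + g 1 1)⁻¹, inv_ne_zero h, ?_⟩
      rw [if_neg h, pvec_coe, pvec_coe]
      simp only [mul_one]
      rw [inv_mul_cancel₀ h, div_eq_inv_mul]

/-- **`GL₂⁺(ℚ)`-invariance of the orientation cocycle.** -/
theorem orc_smul (g : GL (Fin 2) ℚ) (hg : 0 < (g : Matrix (Fin 2) (Fin 2) ℚ).det)
    (a b c : OnePoint ℚ) : orc (g • a) (g • b) (g • c) = orc a b c := by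
  obtain ⟨μ, hμ, ha⟩ := exists_pvec_smul g a
  obtain ⟨ν, hν, hb⟩ := exists_pvec_smul g b
  obtain ⟨ρ, hρ, hc⟩ := exists_pvec_smul g c
  rw [Matrix.det_fin_two] at hg
  set D := g 0 0 * g 1 1 - g 0 1 * g 1 0 with hD
  simp only [orc]
  have e : det2 (pvec (g • a)) (pvec (g • b)) * det2 (pvec (g • b)) (pvec (g • c)) *
      det2 (pvec (g • c)) (pvec (g • a)) =
      ((μ * ν * ρ) ^ 2 * D ^ 3) *
        (det2 (pvec a) (pvec b) * det2 (pvec b) (pvec c) * det2 (pvec c) (pvec a)) := by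
    rw [ha, hb, hc]
    simp only [det2, hD]
    ring
  rw [e, sgnQ_mul, sgnQ_pos, one_mul]
  have h1 : μ * ν * ρ ≠ 0 := mul_ne_zero (mul_ne_zero hμ hν) hρ
  positivity

theorem orc_slAct (g : Matrix.SpecialLinearGroup (Fin 2) ℤ) (a b c : OnePoint ℚ) :
    orc (slAct g a) (slAct g b) (slAct g c) = orc a b c := by
  refine orc_smul _ ?_ a b c
  have : ((Matrix.SpecialLinearGroup.mapGL ℚ g : GL (Fin 2) ℚ) : Matrix (Fin 2) (Fin 2) ℚ).det = 1 := by
    have h := (Matrix.SpecialLinearGroup.map (Int.castRingHom ℚ) g).det_coe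
    simpa using h
  rw [this]
  exact one_pos

end Fermat.Agent.LR
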