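/-
PROJECT LR (S41), package [DUAL] (helper6), part 2: **Step A** — the Laplacian of a connected
trivalent "triangle / edge" graph is onto the sum-zero functions.

`Y` is a finite set with an involution `s` (edge reversal) and a permutation `t` of order `3`
(rotation of the triangle); if `⟨s, t⟩` is transitive then every `t`-invariant function `ξ` of total
sum `0` is of the form `ξ y = λ y + λ (t y) + λ (t (t y))` with `λ ∘ s = - λ`.
-/
import Mathlib

set_option autoImplicit false

namespace Fermat.Agent.LR

open Finset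

set_option linter.unusedSectionVars false
set_option linter.unnecessarySimpa false

variable {Y : Type*} [Fintype Y] [DecidableEq Y]

/-- the linear map `η ↦ N_t (η - η ∘ s)`. -/
def flowMap (s t : Equiv.Perm Y) : (Y → ℚ) →ₗ[ℚ] (Y → ℚ) where
  toFun η y := (η y - η (s y)) + (η (t y) - η (s (t y))) + (η (t (t y)) - η (s (t (t y))))
  map_add' η η' := by
    funext y
    simp only [Pi.add_apply]
    ring
  map_smul' c η := by
    funext y
    simp only [Pi.smul_apply, smul_eq_mul, RingHom.id_apply]
    ring

theorem flowMap_apply (s t : Equiv.Perm Y) (η : Y → ℚ) (y : Y) :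
    flowMap s t η y =
      (η y - η (s y)) + (η (t y) - η (s (t y))) + (η (t (t y)) - η (s (t (t y)))) := rfl

theorem sum_comp_perm (e : Equiv.Perm Y) (f : Y → ℚ) : ∑ y, f (e y) = ∑ y, f y :=
  Equiv.sum_comp e f

/-- **Step A.** -/
theorem exists_flow (s t : Equiv.Perm Y) (hs : ∀ y, s (s y) = y) (ht : ∀ y, t (t (t y)) = y)
    (htrans : ∀ C : Y → ℚ, (∀ y, C (s y) = C y) → (∀ y, C (t y) = C y) → ∀ y y', C y = C y')
    (ξ : Y → ℚ) (hξt : ∀ y, ξ (t y) = ξ y) (hsum : ∑ y, ξ y = 0) :
    ∃ lam : Y → ℚ, (∀ y, lam (s y) = - lam y) ∧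
      ∀ y, ξ y = lam y + lam (t y) + lam (t (t y)) := by
  suffices hmem : ξ ∈ LinearMap.range (flowMap s t) by
    obtain ⟨η, hη⟩ := hmem
    refine ⟨fun y => η y - η (s y), fun y => ?_, fun y => ?_⟩
    · show η (s y) - η (s (s y)) = -(η y - η (s y))
      rw [hs]
      ring
    · rw [← hη]
      rfl
  rw [← Subspace.forall_mem_dualAnnihilator_apply_eq_zero_iff]
  intro φ hφ
  rw [Submodule.mem_dualAnnihilator] at hφ
  -- coordinates of `φ`
  set c : Y → ℚ := fun y => φ (fun j => if y = j then 1 else 0) with hc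
  have hφc : ∀ f : Y → ℚ, φ f = ∑ y, f y * c y := by
    intro f
    rw [LinearMap.pi_apply_eq_sum_univ φ f]
    rfl
  set C : Y → ℚ := fun y => c y + c (t y) + c (t (t y)) with hC
  have hCt : ∀ y, C (t y) = C y := by
    intro y
    simp only [hC]
    rw [ht]
    ring
  have hCs : ∀ y, C (s y) = C y := by
    intro y
    have h0 := hφ (flowMap s t (fun j => if y = j then 1 else 0)) ⟨_, rfl⟩
    rw [hφc] at h0
    simp only [flowMap_apply] at h0
    -- expand the six indicator sums
    have e1 : ∀ (e : Equiv.Perm Y), ∑ z, (if y = e z then (1:ℚ) else 0) * c z = c (e.symm y) := by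
      intro e
      rw [Finset.sum_eq_single (e.symm y)]
      · simp
      · intro z _ hz
        have : y ≠ e z := fun h => hz (by rw [h, Equiv.symm_apply_apply])
        simp [this]
      · intro h; exact absurd (Finset.mem_univ _) h
    have e0 : ∑ z, (if y = z then (1:ℚ) else 0) * c z = c y := by
      simpa using e1 (Equiv.refl Y)
    have hsymm_s : s.symm = s := by
      ext z
      rw [Equiv.symm_apply_eq, hs]
    have hsymm_t : ∀ z, t.symm z = t (t z) := by
      intro z
      rw [Equiv.symm_apply_eq, ht]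
    have E : ∑ z, ((((if y = z then (1:ℚ) else 0) - (if y = s z then 1 else 0)) +
        ((if y = t z then 1 else 0) - (if y = s (t z) then 1 else 0)) +
        ((if y = t (t z) then 1 else 0) - (if y = s (t (t z)) then 1 else 0))) * c z) =
        c y - c (s.symm y) + (c (t.symm y) - c ((t.trans s).symm y)) +
          (c ((t.trans t).symm y) - c (((t.trans t).trans s).symm y)) := by
      simp only [sub_mul, add_mul, Finset.sum_add_distrib, Finset.sum_sub_distrib]
      have a1 : ∑ z, (if y = s (t z) then (1:ℚ) else 0) * c z = c ((t.trans s).symm y) :=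
        e1 (t.trans s)
      have a2 : ∑ z, (if y = t (t z) then (1:ℚ) else 0) * c z = c ((t.trans t).symm y) :=
        e1 (t.trans t)
      have a3 : ∑ z, (if y = s (t (t z)) then (1:ℚ) else 0) * c z =
          c (((t.trans t).trans s).symm y) := e1 ((t.trans t).trans s)
      rw [e0, e1 s, e1 t, a1, a2, a3]
    rw [E] at h0
    simp only [Equiv.symm_trans_apply, hsymm_s, hsymm_t] at h0
    simp only [hC]
    have h1 : t (t (t (t y))) = t y := by rw [ht]
    have h2 : t (t (t (t (s y)))) = t (s y) := by rw [ht]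
    rw [h1] at h0
    rw [h2] at h0
    linarith
  rw [hφc]
  -- `Σ ξ c = (1/3) Σ ξ C`
  have h1 : ∑ y, ξ y * c (t y) = ∑ y, ξ y * c y := by
    rw [← sum_comp_perm t (fun y => ξ y * c y)]
    exact Finset.sum_congr rfl fun y _ => by rw [hξt]
  have h2 : ∑ y, ξ y * c (t (t y)) = ∑ y, ξ y * c y := by
    rw [← sum_comp_perm (t.trans t) (fun y => ξ y * c y)]
    exact Finset.sum_congr rfl fun y _ => by
      simp only [Equiv.trans_apply]
      rw [hξt, hξt]
  have h3 : ∑ y, ξ y * C y = 3 * ∑ y, ξ y * c y := by
    simp only [hC, mul_add, Finset.sum_add_distrib]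
    rw [h1, h2]
    ring
  rcases isEmpty_or_nonempty Y with hY | ⟨⟨y₀⟩⟩
  · simp
  · have h4 : ∑ y, ξ y * C y = C y₀ * ∑ y, ξ y := by
      rw [Finset.mul_sum]
      exact Finset.sum_congr rfl fun y _ => by
        rw [htrans C hCs hCt y y₀]
        ring
    rw [hsum, mul_zero] at h4
    linarith
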