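/-
PROJECT LR (S41), package [DUAL] (helper6), part 4: **`H²` of the `Γ`-invariant cochains on `ℙ¹(ℚ)`
is one-dimensional**, detected by the Farey integral
`triSum Γ Ξ = ∑_{y ∈ SL₂(ℤ)/Γ} Ξ (g_y⁻¹ ∞, g_y⁻¹ 0, g_y⁻¹ 1)`.

* `triSum_cobd2` : the Farey integral kills coboundaries of invariant alternating `1`-cochains;
* `exists_invariant_primitive` : an invariant alternating `2`-cocycle with Farey integral `0` is the
  coboundary of an invariant alternating `1`-cochain (Steps A and B);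
* `triSum_orc` : the orientation cocycle has Farey integral `[SL₂(ℤ) : Γ]`;
* `triSum_conj` : **the normalised Farey integral is invariant under `GL₂⁺(ℚ)`-conjugation**.
-/
import Fermat.Agent.LR.DUAL_helper6_Orient
import Fermat.Agent.LR.DUAL_helper6_StepA

set_option autoImplicit false

namespace Fermat.Agent.LR

open OnePoint Matrix.SpecialLinearGroup
open scoped MatrixGroups

noncomputable instance fintypeQuotSL (Γ : Subgroup SL(2, ℤ)) [Γ.FiniteIndex] :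
    Fintype (SL(2, ℤ) ⧸ Γ) := Subgroup.fintypeQuotientOfFiniteIndex

/-- `Γ`-invariant `2`-cochains. -/
def IsInv3 (Γ : Subgroup SL(2, ℤ)) (Ξ : OnePoint ℚ → OnePoint ℚ → OnePoint ℚ → ℚ) : Prop :=
  ∀ γ ∈ Γ, ∀ a b c, Ξ (slAct γ a) (slAct γ b) (slAct γ c) = Ξ a b c

/-- `Γ`-invariant `1`-cochains. -/
def IsInv2 (Γ : Subgroup SL(2, ℤ)) (Λ : OnePoint ℚ → OnePoint ℚ → ℚ) : Prop :=
  ∀ γ ∈ Γ, ∀ a b, Λ (slAct γ a) (slAct γ b) = Λ a b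

/-- the value of a `2`-cochain on the Farey triangle `g⁻¹ (∞, 0, 1)`. -/
noncomputable def triVal (Ξ : OnePoint ℚ → OnePoint ℚ → OnePoint ℚ → ℚ) (g : SL(2, ℤ)) : ℚ :=
  Ξ (slAct g⁻¹ ∞) (slAct g⁻¹ ((0:ℚ) : OnePoint ℚ)) (slAct g⁻¹ ((1:ℚ) : OnePoint ℚ))

/-- the value of a `1`-cochain on the Farey edge `g⁻¹ (∞, 0)`. -/
noncomputable def edgeVal (Λ : OnePoint ℚ → OnePoint ℚ → ℚ) (g : SL(2, ℤ)) : ℚ :=
  Λ (slAct g⁻¹ ∞) (slAct g⁻¹ ((0:ℚ) : OnePoint ℚ))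

variable {Γ : Subgroup SL(2, ℤ)}

theorem triVal_mul_right {Ξ : OnePoint ℚ → OnePoint ℚ → OnePoint ℚ → ℚ} (hΞ : IsInv3 Γ Ξ)
    (g : SL(2, ℤ)) {γ : SL(2, ℤ)} (hγ : γ ∈ Γ) : triVal Ξ (g * γ) = triVal Ξ g := by
  simp only [triVal, mul_inv_rev, slAct_mul]
  exact hΞ γ⁻¹ (Γ.inv_mem hγ) _ _ _

theorem edgeVal_mul_right {Λ : OnePoint ℚ → OnePoint ℚ → ℚ} (hΛ : IsInv2 Γ Λ)
    (g : SL(2, ℤ)) {γ : SL(2, ℤ)} (hγ : γ ∈ Γ) : edgeVal Λ (g * γ) = edgeVal Λ g := by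
  simp only [edgeVal, mul_inv_rev, slAct_mul]
  exact hΛ γ⁻¹ (Γ.inv_mem hγ) _ _

theorem out_eq_mul (g : SL(2, ℤ)) :
    ∃ γ ∈ Γ, (Quotient.out (g : SL(2, ℤ) ⧸ Γ) : SL(2, ℤ)) = g * γ := by
  refine ⟨g⁻¹ * Quotient.out (g : SL(2, ℤ) ⧸ Γ), ?_, by group⟩
  rw [← QuotientGroup.eq]
  exact (QuotientGroup.out_eq' _).symm

theorem triVal_out {Ξ : OnePoint ℚ → OnePoint ℚ → OnePoint ℚ → ℚ} (hΞ : IsInv3 Γ Ξ)
    (g : SL(2, ℤ)) : triVal Ξ (Quotient.out (g : SL(2, ℤ) ⧸ Γ)) = triVal Ξ g := by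
  obtain ⟨γ, hγ, h⟩ := out_eq_mul (Γ := Γ) g
  rw [h, triVal_mul_right hΞ g hγ]

theorem edgeVal_out {Λ : OnePoint ℚ → OnePoint ℚ → ℚ} (hΛ : IsInv2 Γ Λ)
    (g : SL(2, ℤ)) : edgeVal Λ (Quotient.out (g : SL(2, ℤ) ⧸ Γ)) = edgeVal Λ g := by
  obtain ⟨γ, hγ, h⟩ := out_eq_mul (Γ := Γ) g
  rw [h, edgeVal_mul_right hΛ g hγ]

/-- **the Farey integral** of a `2`-cochain. -/
noncomputable def triSum (Γ : Subgroup SL(2, ℤ)) [Γ.FiniteIndex]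
    (Ξ : OnePoint ℚ → OnePoint ℚ → OnePoint ℚ → ℚ) : ℚ :=
  ∑ y : SL(2, ℤ) ⧸ Γ, triVal Ξ (Quotient.out y)

theorem triSum_add [Γ.FiniteIndex] (Ξ Ξ' : OnePoint ℚ → OnePoint ℚ → OnePoint ℚ → ℚ) :
    triSum Γ (fun a b c => Ξ a b c + Ξ' a b c) = triSum Γ Ξ + triSum Γ Ξ' := by
  simp only [triSum, triVal, Finset.sum_add_distrib]

theorem triSum_smul [Γ.FiniteIndex] (r : ℚ) (Ξ : OnePoint ℚ → OnePoint ℚ → OnePoint ℚ → ℚ) :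
    triSum Γ (fun a b c => r * Ξ a b c) = r * triSum Γ Ξ := by
  simp only [triSum, triVal, Finset.mul_sum]

theorem triSum_congr [Γ.FiniteIndex] {Ξ Ξ' : OnePoint ℚ → OnePoint ℚ → OnePoint ℚ → ℚ}
    (h : ∀ a b c, Ξ a b c = Ξ' a b c) : triSum Γ Ξ = triSum Γ Ξ' := by
  simp only [triSum, triVal, h]

/-! ### the elements `S`, `fTau` and their inverses on `∞, 0, 1` -/

theorem slAct_S_inv_infty : slAct ModularGroup.S⁻¹ ∞ = ((0:ℚ) : OnePoint ℚ) := by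
  rw [← slAct_S_zero, slAct_inv_slAct]

theorem slAct_S_inv_zero : slAct ModularGroup.S⁻¹ ((0:ℚ) : OnePoint ℚ) = ∞ := by
  rw [← slAct_S_infty, slAct_inv_slAct]

/-- reversing the Farey edge. -/
theorem edgeVal_S_mul {Λ : OnePoint ℚ → OnePoint ℚ → ℚ} (hΛ : Alt2 Λ) (g : SL(2, ℤ)) :
    edgeVal Λ (ModularGroup.S * g) = - edgeVal Λ g := by
  simp only [edgeVal, mul_inv_rev, slAct_mul, slAct_S_inv_infty, slAct_S_inv_zero]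
  exact hΛ _ _

theorem edgeVal_fTau_inv_mul (Λ : OnePoint ℚ → OnePoint ℚ → ℚ) (g : SL(2, ℤ)) :
    edgeVal Λ (fTau⁻¹ * g) = Λ (slAct g⁻¹ ((0:ℚ) : OnePoint ℚ)) (slAct g⁻¹ ((1:ℚ) : OnePoint ℚ)) := by
  simp only [edgeVal, mul_inv_rev, inv_inv, slAct_mul, slAct_fTau_infty, slAct_fTau_zero]

theorem edgeVal_fTau_inv_mul_mul (Λ : OnePoint ℚ → OnePoint ℚ → ℚ) (g : SL(2, ℤ)) :
    edgeVal Λ (fTau⁻¹ * (fTau⁻¹ * g)) =
      Λ (slAct g⁻¹ ((1:ℚ) : OnePoint ℚ)) (slAct g⁻¹ ∞) := by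
  simp only [edgeVal, mul_inv_rev, inv_inv, slAct_mul, slAct_fTau_infty, slAct_fTau_zero,
    slAct_fTau_one]

theorem triVal_fTau_inv_mul {Ξ : OnePoint ℚ → OnePoint ℚ → OnePoint ℚ → ℚ} (hΞ : Alt3 Ξ)
    (g : SL(2, ℤ)) : triVal Ξ (fTau⁻¹ * g) = triVal Ξ g := by
  simp only [triVal, mul_inv_rev, inv_inv, slAct_mul, slAct_fTau_infty, slAct_fTau_zero,
    slAct_fTau_one]
  exact hΞ.rot _ _ _

/-- the value of a coboundary on a Farey triangle. -/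
theorem triVal_cobd2 {Λ : OnePoint ℚ → OnePoint ℚ → ℚ} (hΛ : Alt2 Λ) (g : SL(2, ℤ)) :
    triVal (cobd2 Λ) g =
      edgeVal Λ g + edgeVal Λ (fTau⁻¹ * g) + edgeVal Λ (fTau⁻¹ * (fTau⁻¹ * g)) := by
  rw [edgeVal_fTau_inv_mul, edgeVal_fTau_inv_mul_mul]
  simp only [triVal, cobd2, edgeVal]
  rw [hΛ (slAct g⁻¹ ∞) (slAct g⁻¹ ((1:ℚ) : OnePoint ℚ))]
  ring

theorem sum_smul_coset [Γ.FiniteIndex] (h : SL(2, ℤ)) (f : SL(2, ℤ) ⧸ Γ → ℚ) :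
    ∑ y : SL(2, ℤ) ⧸ Γ, f (h • y) = ∑ y, f y :=
  Equiv.sum_comp (MulAction.toPerm h) f

/-- **the Farey integral kills invariant coboundaries.** -/
theorem triSum_cobd2 [Γ.FiniteIndex] {Λ : OnePoint ℚ → OnePoint ℚ → ℚ} (hΛ : Alt2 Λ)
    (hinv : IsInv2 Γ Λ) : triSum Γ (cobd2 Λ) = 0 := by
  set ℓ : SL(2, ℤ) ⧸ Γ → ℚ := fun y => edgeVal Λ (Quotient.out y) with hℓ
  have hℓmk : ∀ g : SL(2, ℤ), edgeVal Λ g = ℓ (g : SL(2, ℤ) ⧸ Γ) := fun g =>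
    (edgeVal_out hinv g).symm
  have hsmul : ∀ (h : SL(2, ℤ)) (y : SL(2, ℤ) ⧸ Γ),
      edgeVal Λ (h * Quotient.out y) = ℓ (h • y) := by
    intro h y
    rw [hℓmk]
    congr 1
    conv_rhs => rw [← QuotientGroup.out_eq' y]
    rfl
  have h1 : triSum Γ (cobd2 Λ) = ∑ y : SL(2, ℤ) ⧸ Γ,
      (ℓ y + ℓ (fTau⁻¹ • y) + ℓ (fTau⁻¹ • (fTau⁻¹ • y))) := by
    refine Finset.sum_congr rfl fun y _ => ?_
    rw [triVal_cobd2 hΛ, hsmul, ← mul_assoc, hsmul, mul_smul]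
  have h2 : ∑ y : SL(2, ℤ) ⧸ Γ, ℓ (ModularGroup.S • y) = - ∑ y, ℓ y := by
    rw [← Finset.sum_neg_distrib]
    refine Finset.sum_congr rfl fun y _ => ?_
    rw [← hsmul, edgeVal_S_mul hΛ]
  rw [sum_smul_coset] at h2
  have h3 : ∑ y : SL(2, ℤ) ⧸ Γ, ℓ (fTau⁻¹ • (fTau⁻¹ • y)) = ∑ y, ℓ y := by
    rw [sum_smul_coset fTau⁻¹ (fun y => ℓ (fTau⁻¹ • y)), sum_smul_coset]
  rw [h1, Finset.sum_add_distrib, Finset.sum_add_distrib, sum_smul_coset, h3]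
  linarith

theorem triSum_orc [Γ.FiniteIndex] : triSum Γ orc = (Γ.index : ℚ) := by
  have h : ∀ g : SL(2, ℤ), triVal orc g = 1 := by
    intro g
    simp only [triVal]
    rw [orc_slAct, orc_infty_zero_one]
  simp only [triSum, h, Finset.sum_const, Finset.card_univ, nsmul_eq_mul, mul_one]
  rw [Subgroup.index_eq_card, Nat.card_eq_fintype_card]

end Fermat.Agent.LR
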