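/-
PROJECT LR (S41), package [DUAL] (helper6), part 5: the vanishing theorem for `H²` and the
`GL₂⁺(ℚ)`-invariance of the normalised Farey integral.
-/
import Fermat.Agent.LR.DUAL_helper6_H2

set_option autoImplicit false

namespace Fermat.Agent.LR

open OnePoint Matrix Matrix.SpecialLinearGroup
open scoped MatrixGroups

theorem eq_one_or_neg_one_of_fix {h : SL(2, ℤ)} (h1 : slAct h ∞ = ∞)
    (h2 : slAct h ((0:ℚ) : OnePoint ℚ) = ((0:ℚ) : OnePoint ℚ)) : h = 1 ∨ h = -1 := by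
  have h10 : h 1 0 = 0 := by
    rw [slAct_infty] at h1
    by_contra hne
    rw [if_neg (by exact_mod_cast hne)] at h1
    exact OnePoint.coe_ne_infty _ h1
  have h01 : h 0 1 = 0 := by
    rw [slAct_coe] at h2
    by_cases hz : (h 1 0 : ℚ) * 0 + h 1 1 = 0
    · rw [if_pos hz] at h2
      exact absurd h2.symm (OnePoint.coe_ne_infty _)
    · rw [if_neg hz] at h2
      have h3 := OnePoint.coe_injective h2
      rw [div_eq_zero_iff] at h3
      rcases h3 with h3 | h3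
      · have : (h 0 1 : ℚ) = 0 := by simpa using h3
        exact_mod_cast this
      · exact absurd h3 hz
  have hdet : h 0 0 * h 1 1 - h 0 1 * h 1 0 = 1 := by
    have := h.det_coe
    rwa [Matrix.det_fin_two] at this
  rw [h10, h01] at hdet
  have hmul : h 0 0 * h 1 1 = 1 := by linarith
  rcases Int.eq_one_or_neg_one_of_mul_eq_one' hmul with ⟨ha, hd⟩ | ⟨ha, hd⟩
  · left
    ext i j
    fin_cases i <;> fin_cases j <;> simp [ha, hd, h10, h01]
  · right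
    ext i j
    fin_cases i <;> fin_cases j <;> simp [ha, hd, h10, h01]

theorem closure_S_fTau : Subgroup.closure ({ModularGroup.S, fTau} : Set SL(2, ℤ)) = ⊤ := by
  rw [eq_top_iff, ← SpecialLinearGroup.SL2Z_generators, Subgroup.closure_le]
  rintro x (rfl | rfl)
  · exact Subgroup.subset_closure (by simp)
  · have hT : ModularGroup.T = fTau⁻¹ * ModularGroup.S⁻¹ := by
      rw [eq_mul_inv_iff_mul_eq, eq_inv_iff_mul_eq_one]
      decide
    rw [hT]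
    exact Subgroup.mul_mem _ (Subgroup.inv_mem _ (Subgroup.subset_closure (by simp)))
      (Subgroup.inv_mem _ (Subgroup.subset_closure (by simp)))


/-- a function on the cosets invariant under `S` and `fTau⁻¹` is constant. -/
theorem const_of_S_fTau_invariant {Γ : Subgroup SL(2, ℤ)} {α : Type*} (C : SL(2, ℤ) ⧸ Γ → α)
    (hS : ∀ y, C (ModularGroup.S • y) = C y) (hT : ∀ y, C (fTau⁻¹ • y) = C y)
    (y y' : SL(2, ℤ) ⧸ Γ) : C y = C y' := by
  let H : Subgroup SL(2, ℤ) :=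
    { carrier := {h | ∀ y, C (h • y) = C y}
      one_mem' := fun y => by rw [one_smul]
      mul_mem' := fun {a b} ha hb y => by rw [mul_smul, ha, hb]
      inv_mem' := fun {a} ha y => by
        have := ha (a⁻¹ • y)
        rw [smul_inv_smul] at this
        exact this.symm }
  have hH : H = ⊤ := by
    rw [eq_top_iff, ← closure_S_fTau, Subgroup.closure_le]
    rintro x (rfl | rfl)
    · exact hS
    · have : fTau⁻¹ ∈ H := hT
      simpa using H.inv_mem this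
  have hall : ∀ (h : SL(2, ℤ)) (y : SL(2, ℤ) ⧸ Γ), C (h • y) = C y := by
    intro h
    have : h ∈ H := by rw [hH]; trivial
    exact this
  obtain ⟨h, rfl⟩ := MulAction.exists_smul_eq SL(2, ℤ) y y'
  exact (hall h y).symm

section Vanishing

variable {Γ : Subgroup SL(2, ℤ)} [Γ.FiniteIndex]

/-- **`H²` vanishing**: an invariant alternating `2`-cocycle with Farey integral `0` is the
coboundary of an invariant alternating `1`-cochain. -/
theorem exists_invariant_primitive (hneg : (-1 : SL(2, ℤ)) ∈ Γ) (hconn : FareyConnQ)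
    (hH1 : FareyH1Q) {Ξ : OnePoint ℚ → OnePoint ℚ → OnePoint ℚ → ℚ} (hΞ : Alt3 Ξ)
    (hcoc : IsCoc3 Ξ) (hinv : IsInv3 Γ Ξ) (h0 : triSum Γ Ξ = 0) :
    ∃ Λ : OnePoint ℚ → OnePoint ℚ → ℚ, Alt2 Λ ∧ IsInv2 Γ Λ ∧
      ∀ a b c, cobd2 Λ a b c = Ξ a b c := by
  classical
  -- the two permutations of the cosets
  have hnegsmul : ∀ y : SL(2, ℤ) ⧸ Γ, (-1 : SL(2, ℤ)) • y = y := by
    intro y
    induction y using QuotientGroup.induction_on with
    | H g =>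
      show ((-1 * g : SL(2, ℤ)) : SL(2, ℤ) ⧸ Γ) = g
      rw [QuotientGroup.eq]
      have : (-1 * g)⁻¹ * g = -1 := by
        rw [neg_mul, one_mul]
        have h1 : (-g)⁻¹ = -g⁻¹ := by
          rw [inv_eq_iff_eq_inv]; simp
        rw [h1]; simp
      rw [this]; exact hneg
  set s : Equiv.Perm (SL(2, ℤ) ⧸ Γ) := MulAction.toPerm ModularGroup.S with hs
  set t : Equiv.Perm (SL(2, ℤ) ⧸ Γ) := MulAction.toPerm fTau⁻¹ with ht
  have hss : ∀ y, s (s y) = y := by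
    intro y
    show ModularGroup.S • (ModularGroup.S • y) = y
    rw [← mul_smul]
    have : ModularGroup.S * ModularGroup.S = -1 := by decide
    rw [this, hnegsmul]
  have httt : ∀ y, t (t (t y)) = y := by
    intro y
    show fTau⁻¹ • (fTau⁻¹ • (fTau⁻¹ • y)) = y
    rw [← mul_smul, ← mul_smul]
    have : fTau⁻¹ * fTau⁻¹ * fTau⁻¹ = -1 := by
      rw [← _root_.mul_inv_rev, ← _root_.mul_inv_rev, inv_eq_iff_eq_inv]
      decide
    rw [this, hnegsmul]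
  set ξ : SL(2, ℤ) ⧸ Γ → ℚ := fun y => triVal Ξ (Quotient.out y) with hξ
  have hξmk : ∀ g : SL(2, ℤ), triVal Ξ g = ξ (g : SL(2, ℤ) ⧸ Γ) := fun g =>
    (triVal_out hinv g).symm
  have hξt : ∀ y, ξ (t y) = ξ y := by
    intro y
    induction y using QuotientGroup.induction_on with
    | H g =>
      show ξ ((fTau⁻¹ * g : SL(2, ℤ)) : SL(2, ℤ) ⧸ Γ) = ξ (g : SL(2, ℤ) ⧸ Γ)
      rw [← hξmk, ← hξmk, triVal_fTau_inv_mul hΞ]
  obtain ⟨lam, hlams, hlamt⟩ := exists_flow s t hss httt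
    (fun C hCs hCt => const_of_S_fTau_invariant C hCs hCt) ξ hξt h0
  -- the Farey `1`-cochain
  set ΛF : OnePoint ℚ → OnePoint ℚ → ℚ := fun a b =>
    if h : ∃ g : SL(2, ℤ), a = slAct g⁻¹ ∞ ∧ b = slAct g⁻¹ ((0:ℚ) : OnePoint ℚ)
    then lam (h.choose : SL(2, ℤ) ⧸ Γ) else 0 with hΛF
  have hΛFval : ∀ g : SL(2, ℤ),
      ΛF (slAct g⁻¹ ∞) (slAct g⁻¹ ((0:ℚ) : OnePoint ℚ)) = lam (g : SL(2, ℤ) ⧸ Γ) := by
    intro g
    have hex : ∃ g' : SL(2, ℤ), slAct g⁻¹ ∞ = slAct g'⁻¹ ∞ ∧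
        slAct g⁻¹ ((0:ℚ) : OnePoint ℚ) = slAct g'⁻¹ ((0:ℚ) : OnePoint ℚ) := ⟨g, rfl, rfl⟩
    simp only [hΛF]
    rw [dif_pos hex]
    obtain ⟨e1, e2⟩ := hex.choose_spec
    set g' := hex.choose
    -- `g' g⁻¹` fixes `∞` and `0`
    have f1 : slAct (g' * g⁻¹) ∞ = ∞ := by
      rw [slAct_mul, e1, slAct_slAct_inv]
    have f2 : slAct (g' * g⁻¹) ((0:ℚ) : OnePoint ℚ) = ((0:ℚ) : OnePoint ℚ) := by
      rw [slAct_mul, e2, slAct_slAct_inv]
    congr 1
    rw [QuotientGroup.eq]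
    rcases eq_one_or_neg_one_of_fix f1 f2 with h | h
    · have : g'⁻¹ * g = 1 := by
        rw [mul_inv_eq_one] at h
        rw [h, inv_mul_cancel]
      rw [this]; exact Γ.one_mem
    · have : g'⁻¹ * g = -1 := by
        have h' : g' = -1 * g := by
          rw [← h]; group
        rw [h', neg_mul, one_mul]
        have h1 : (-g)⁻¹ = -g⁻¹ := by
          rw [inv_eq_iff_eq_inv]; simp
        rw [h1]; simp
      rw [this]; exact hneg
  have hΛFalt : ∀ a b, FAdj a b → ΛF b a = - ΛF a b := by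
    rintro a b ⟨k, rfl, rfl⟩
    have e1 : slAct k ((0:ℚ) : OnePoint ℚ) = slAct (ModularGroup.S * k⁻¹)⁻¹ ∞ := by
      rw [_root_.mul_inv_rev, inv_inv, slAct_mul, slAct_S_inv_infty]
    have e2 : slAct k ∞ = slAct (ModularGroup.S * k⁻¹)⁻¹ ((0:ℚ) : OnePoint ℚ) := by
      rw [_root_.mul_inv_rev, inv_inv, slAct_mul, slAct_S_inv_zero]
    have e3 : ΛF (slAct k ∞) (slAct k ((0:ℚ) : OnePoint ℚ)) = lam ((k⁻¹ : SL(2, ℤ)) : SL(2, ℤ) ⧸ Γ) := by
      have := hΛFval k⁻¹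
      rwa [inv_inv] at this
    rw [e3]
    conv_lhs => rw [e1, e2]
    rw [hΛFval]
    exact hlams ((k⁻¹ : SL(2, ℤ)) : SL(2, ℤ) ⧸ Γ)
  have hΛFtri : ∀ a b c, FTri a b c → ΛF a b + ΛF b c + ΛF c a = Ξ a b c := by
    rintro a b c ⟨k, rfl, rfl, rfl⟩
    have e3 : ΛF (slAct k ∞) (slAct k ((0:ℚ) : OnePoint ℚ)) = lam ((k⁻¹ : SL(2, ℤ)) : SL(2, ℤ) ⧸ Γ) := by
      have := hΛFval k⁻¹
      rwa [inv_inv] at this
    have e4 : ΛF (slAct k ((0:ℚ) : OnePoint ℚ)) (slAct k ((1:ℚ) : OnePoint ℚ)) =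
        lam (t ((k⁻¹ : SL(2, ℤ)) : SL(2, ℤ) ⧸ Γ)) := by
      have := hΛFval (fTau⁻¹ * k⁻¹)
      rw [_root_.mul_inv_rev, inv_inv, inv_inv, slAct_mul, slAct_mul, slAct_fTau_infty,
        slAct_fTau_zero] at this
      exact this
    have e5 : ΛF (slAct k ((1:ℚ) : OnePoint ℚ)) (slAct k ∞) =
        lam (t (t ((k⁻¹ : SL(2, ℤ)) : SL(2, ℤ) ⧸ Γ))) := by
      have := hΛFval (fTau⁻¹ * (fTau⁻¹ * k⁻¹))
      rw [_root_.mul_inv_rev, _root_.mul_inv_rev, inv_inv, inv_inv, slAct_mul, slAct_mul, slAct_mul, slAct_mul,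
        slAct_fTau_infty, slAct_fTau_zero, slAct_fTau_one] at this
      exact this
    rw [e3, e4, e5, ← hlamt, ← hξmk]
    simp only [triVal, inv_inv]
  obtain ⟨Λ, hΛalt, hΛcob, -, hΛinv⟩ := exists_invariant_primitive_of_farey hconn hH1 hΞ hcoc ΛF
    hΛFalt hΛFtri {f | ∃ γ ∈ Γ, f = slAct γ}
    (by rintro f ⟨γ, -, rfl⟩ a b hab; exact hab.slAct γ)
    (by rintro f ⟨γ, hγ, rfl⟩ a b c; exact hinv γ hγ a b c)
    (by
      rintro f ⟨γ, hγ, rfl⟩ a b ⟨k, rfl, rfl⟩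
      have e3 : ∀ k : SL(2, ℤ), ΛF (slAct k ∞) (slAct k ((0:ℚ) : OnePoint ℚ)) =
          lam ((k⁻¹ : SL(2, ℤ)) : SL(2, ℤ) ⧸ Γ) := by
        intro k
        have := hΛFval k⁻¹
        rwa [inv_inv] at this
      rw [← slAct_mul, ← slAct_mul, e3, e3]
      congr 1
      rw [QuotientGroup.eq]
      have : ((γ * k)⁻¹)⁻¹ * k⁻¹ = γ := by group
      rw [this]
      exact hγ)
  exact ⟨Λ, hΛalt, fun γ hγ a b => hΛinv _ ⟨γ, hγ, rfl⟩ a b, hΛcob⟩

end Vanishing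

section Conj

theorem alt3_add_smul_orc {Ξ : OnePoint ℚ → OnePoint ℚ → OnePoint ℚ → ℚ} (hΞ : Alt3 Ξ) (r : ℚ) :
    Alt3 (fun a b c => Ξ a b c + r * orc a b c) := by
  refine ⟨fun a b c => ?_, fun a b c => ?_⟩
  · show Ξ b a c + r * orc b a c = -(Ξ a b c + r * orc a b c)
    rw [hΞ.1, alt3_orc.1]; ring
  · show Ξ a c b + r * orc a c b = -(Ξ a b c + r * orc a b c)
    rw [hΞ.2, alt3_orc.2]; ring

theorem isCoc3_add_smul_orc {Ξ : OnePoint ℚ → OnePoint ℚ → OnePoint ℚ → ℚ} (hΞ : IsCoc3 Ξ)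
    (r : ℚ) : IsCoc3 (fun a b c => Ξ a b c + r * orc a b c) := by
  intro a b c d
  have h1 := hΞ a b c d
  have h2 := isCoc3_orc a b c d
  show Ξ b c d + r * orc b c d - (Ξ a c d + r * orc a c d) + (Ξ a b d + r * orc a b d) -
    (Ξ a b c + r * orc a b c) = 0
  linear_combination h1 + r * h2

/-- **`GL₂⁺(ℚ)`-invariance of the normalised Farey integral.** -/
theorem triSum_conj {Γ Γ' : Subgroup SL(2, ℤ)} [Γ.FiniteIndex] [Γ'.FiniteIndex]
    (hneg : (-1 : SL(2, ℤ)) ∈ Γ) (hconn : FareyConnQ) (hH1 : FareyH1Q)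
    (g : GL (Fin 2) ℚ) (hg : 0 < (g : Matrix (Fin 2) (Fin 2) ℚ).det)
    (hΓ' : ∀ γ' ∈ Γ', ∃ γ ∈ Γ, g * mapGL ℚ γ' = mapGL ℚ γ * g)
    {Ξ : OnePoint ℚ → OnePoint ℚ → OnePoint ℚ → ℚ} (hΞ : Alt3 Ξ) (hcoc : IsCoc3 Ξ)
    (hinv : IsInv3 Γ Ξ) :
    triSum Γ' (fun a b c => Ξ (g • a) (g • b) (g • c)) / (Γ'.index : ℚ) =
      triSum Γ Ξ / (Γ.index : ℚ) := by
  have hi : (Γ.index : ℚ) ≠ 0 := by exact_mod_cast Subgroup.FiniteIndex.index_ne_zero
  have hi' : (Γ'.index : ℚ) ≠ 0 := by exact_mod_cast Subgroup.FiniteIndex.index_ne_zero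
  set c : ℚ := triSum Γ Ξ / (Γ.index : ℚ) with hc
  have hinv' : IsInv3 Γ (fun a b c' => Ξ a b c' + (-c) * orc a b c') := by
    intro γ hγ a b c'
    show Ξ _ _ _ + (-c) * orc _ _ _ = Ξ a b c' + (-c) * orc a b c'
    rw [hinv γ hγ, orc_slAct]
  have h0 : triSum Γ (fun a b c' => Ξ a b c' + (-c) * orc a b c') = 0 := by
    rw [triSum_add, triSum_smul, triSum_orc, hc]
    field_simp
    ring
  obtain ⟨Λ, hΛalt, hΛinv, hΛcob⟩ := exists_invariant_primitive hneg hconn hH1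
    (alt3_add_smul_orc hΞ (-c)) (isCoc3_add_smul_orc hcoc (-c)) hinv' h0
  have hsm : ∀ γ' ∈ Γ', ∃ γ ∈ Γ, ∀ x : OnePoint ℚ, g • slAct γ' x = slAct γ (g • x) := by
    intro γ' hγ'
    obtain ⟨γ, hγ, h⟩ := hΓ' γ' hγ'
    refine ⟨γ, hγ, fun x => ?_⟩
    simp only [slAct]
    rw [← mul_smul, ← mul_smul, h]
  have hΛg_alt : Alt2 (fun a b => Λ (g • a) (g • b)) := fun a b => hΛalt _ _
  have hΛg_inv : IsInv2 Γ' (fun a b => Λ (g • a) (g • b)) := by
    intro γ' hγ' a b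
    obtain ⟨γ, hγ, h⟩ := hsm γ' hγ'
    show Λ (g • slAct γ' a) (g • slAct γ' b) = Λ (g • a) (g • b)
    rw [h, h, hΛinv γ hγ]
  have h1 := triSum_cobd2 hΛg_alt hΛg_inv
  have h2 : triSum Γ' (cobd2 (fun a b => Λ (g • a) (g • b))) =
      triSum Γ' (fun a b c' => Ξ (g • a) (g • b) (g • c') + (-c) * orc a b c') := by
    refine triSum_congr fun a b c' => ?_
    have := hΛcob (g • a) (g • b) (g • c')
    simp only [cobd2] at this ⊢
    rw [this, orc_smul g hg]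
  rw [h2, triSum_add, triSum_smul, triSum_orc] at h1
  rw [div_eq_iff hi']
  linarith

end Conj

end Fermat.Agent.LR
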