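/-
LR (level raising, S41) — helper9 — [FAREY] part 1: points of `ℙ¹(ℚ) = OnePoint ℚ` as classes of
primitive integral vectors; Farey edges and triangles in terms of vectors; heights.
-/
import Mathlib
import Fermat.Agent.LR.DUAL_helper6_Defs

set_option autoImplicit false
set_option linter.unusedSectionVars false

open OnePoint Matrix.SpecialLinearGroup

open scoped MatrixGroups

namespace Fermat.Agent.LR

noncomputable section

/-- the point `[n : d]` of `ℙ¹(ℚ)`. -/
def fPt (n d : ℤ) : OnePoint ℚ := if d = 0 then ∞ else ((((n : ℚ) / (d : ℚ) : ℚ)) : OnePoint ℚ)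

theorem fPt_zero (n : ℤ) : fPt n 0 = ∞ := by simp [fPt]

theorem fPt_of_ne {n d : ℤ} (hd : d ≠ 0) : fPt n d = ((((n : ℚ) / (d : ℚ) : ℚ)) : OnePoint ℚ) := by
  simp [fPt, hd]

theorem fPt_neg (n d : ℤ) : fPt (-n) (-d) = fPt n d := by
  by_cases hd : d = 0
  · subst hd; simp [fPt]
  · rw [fPt_of_ne hd, fPt_of_ne (neg_ne_zero.mpr hd)]
    congr 1
    push_cast
    rw [neg_div_neg_eq]

theorem fPt_one_zero : fPt 1 0 = ∞ := fPt_zero 1

theorem fPt_coe (r : ℚ) : fPt r.num r.den = (r : OnePoint ℚ) := by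
  have hd : (r.den : ℤ) ≠ 0 := by exact_mod_cast r.den_ne_zero
  rw [fPt_of_ne hd]
  congr 1
  exact_mod_cast r.num_div_den

/-- equality of points. -/
theorem fPt_eq_fPt_iff {n d n' d' : ℤ} (h : n ≠ 0 ∨ d ≠ 0) (h' : n' ≠ 0 ∨ d' ≠ 0) :
    fPt n d = fPt n' d' ↔ n * d' = n' * d := by
  by_cases hd : d = 0
  · subst hd
    have hn : n ≠ 0 := h.resolve_right (fun h => h rfl)
    by_cases hd' : d' = 0
    · subst hd'; simp [fPt]
    · rw [fPt_zero, fPt_of_ne hd']
      constructor
      · intro h1; exact absurd h1 (OnePoint.infty_ne_coe _)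
      · intro h1
        rw [mul_zero] at h1
        exact absurd h1 (mul_ne_zero hn hd')
  · by_cases hd' : d' = 0
    · subst hd'
      have hn' : n' ≠ 0 := h'.resolve_right (fun h => h rfl)
      rw [fPt_zero, fPt_of_ne hd]
      constructor
      · intro h1; exact absurd h1 (OnePoint.coe_ne_infty _)
      · intro h1
        rw [mul_zero] at h1
        exact absurd h1.symm (mul_ne_zero hn' hd)
    · rw [fPt_of_ne hd, fPt_of_ne hd', OnePoint.coe_eq_coe]
      have hdq : (d : ℚ) ≠ 0 := by exact_mod_cast hd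
      have hdq' : (d' : ℚ) ≠ 0 := by exact_mod_cast hd'
      rw [div_eq_div_iff hdq hdq']
      constructor
      · intro h1; exact_mod_cast h1
      · intro h1; exact_mod_cast h1

/-! ### the action of `SL(2,ℤ)` -/

theorem slAct_infty_eq_fPt (g : SL(2, ℤ)) : slAct g ∞ = fPt (g 0 0) (g 1 0) := by
  rw [slAct_infty, fPt]
  simp only [Int.cast_eq_zero]

theorem slAct_zero_eq_fPt (g : SL(2, ℤ)) :
    slAct g ((0 : ℚ) : OnePoint ℚ) = fPt (g 0 1) (g 1 1) := by
  rw [slAct_coe, fPt]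
  simp only [mul_zero, zero_add, Int.cast_eq_zero]

theorem slAct_one_eq_fPt (g : SL(2, ℤ)) :
    slAct g ((1 : ℚ) : OnePoint ℚ) = fPt (g 0 0 + g 0 1) (g 1 0 + g 1 1) := by
  rw [slAct_coe, fPt]
  simp only [mul_one]
  have h1 : ((g 1 0 : ℤ) : ℚ) + ((g 1 1 : ℤ) : ℚ) = 0 ↔ g 1 0 + g 1 1 = 0 := by
    constructor
    · intro h; exact_mod_cast h
    · intro h; exact_mod_cast h
  simp only [h1]
  push_cast
  rfl

/-- the matrix with columns `(n, d)`, `(n', d')`. -/
def fMat (n d n' d' : ℤ) (h : n * d' - n' * d = 1) : SL(2, ℤ) :=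
  ⟨!![n, n'; d, d'], by rw [Matrix.det_fin_two_of]; exact h⟩

theorem fAdj_iff {a b : OnePoint ℚ} :
    FAdj a b ↔ ∃ n d n' d' : ℤ, n * d' - n' * d = 1 ∧ a = fPt n d ∧ b = fPt n' d' := by
  constructor
  · rintro ⟨g, rfl, rfl⟩
    refine ⟨g 0 0, g 1 0, g 0 1, g 1 1, ?_, slAct_infty_eq_fPt g, slAct_zero_eq_fPt g⟩
    have := g.det_coe
    rw [Matrix.det_fin_two] at this
    exact this
  · rintro ⟨n, d, n', d', h, rfl, rfl⟩
    refine ⟨fMat n d n' d' h, ?_, ?_⟩
    · rw [slAct_infty_eq_fPt]; rfl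
    · rw [slAct_zero_eq_fPt]; rfl

theorem fTri_iff {a b c : OnePoint ℚ} :
    FTri a b c ↔ ∃ n d n' d' : ℤ, n * d' - n' * d = 1 ∧ a = fPt n d ∧ b = fPt n' d' ∧
      c = fPt (n + n') (d + d') := by
  constructor
  · rintro ⟨g, rfl, rfl, rfl⟩
    refine ⟨g 0 0, g 1 0, g 0 1, g 1 1, ?_, slAct_infty_eq_fPt g, slAct_zero_eq_fPt g,
      slAct_one_eq_fPt g⟩
    have := g.det_coe
    rw [Matrix.det_fin_two] at this
    exact this
  · rintro ⟨n, d, n', d', h, rfl, rfl, rfl⟩
    refine ⟨fMat n d n' d' h, ?_, ?_, ?_⟩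
    · rw [slAct_infty_eq_fPt]; rfl
    · rw [slAct_zero_eq_fPt]; rfl
    · rw [slAct_one_eq_fPt]; rfl

/-! ### heights -/

/-- the height (denominator) of a point. -/
def fHt (x : OnePoint ℚ) : ℕ := Option.elim x 0 (fun r => r.den)

theorem fHt_infty : fHt ∞ = 0 := rfl

theorem fHt_coe (r : ℚ) : fHt (r : OnePoint ℚ) = r.den := rfl

theorem fHt_fPt {n d : ℤ} (h : IsCoprime n d) : fHt (fPt n d) = d.natAbs := by
  by_cases hd : d = 0
  · subst hd; simp [fPt, fHt_infty]
  · rw [fPt_of_ne hd, fHt_coe, ← Rat.divInt_eq_div, Rat.den_divInt, if_neg hd]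
    have : d.gcd n = 1 := by
      rw [Int.gcd_comm]
      exact Int.isCoprime_iff_gcd_eq_one.mp h
    rw [this, Nat.div_one]

/-- every point is the class of a primitive vector with non-negative second coordinate. -/
theorem exists_fPt_eq (x : OnePoint ℚ) :
    ∃ n d : ℤ, IsCoprime n d ∧ 0 ≤ d ∧ x = fPt n d ∧ fHt x = d.natAbs := by
  cases x using OnePoint.rec with
  | infty => exact ⟨1, 0, isCoprime_one_left, le_refl _, (fPt_zero 1).symm, rfl⟩
  | coe r =>
    exact ⟨r.num, r.den, r.isCoprime_num_den, by positivity, (fPt_coe r).symm, by simp [fHt_coe]⟩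

theorem isCoprime_of_det_left {n d n' d' : ℤ} (h : n * d' - n' * d = 1) : IsCoprime n d :=
  ⟨d', -n', by rw [← h]; ring⟩

theorem isCoprime_of_det_right {n d n' d' : ℤ} (h : n * d' - n' * d = 1) : IsCoprime n' d' :=
  ⟨-d, n, by rw [← h]; ring⟩

/-- two primitive vectors with the same class differ by a sign. -/
theorem eq_or_eq_neg_of_fPt_eq {n d n' d' : ℤ} (h : IsCoprime n d) (h' : IsCoprime n' d')
    (he : fPt n d = fPt n' d') : (n' = n ∧ d' = d) ∨ (n' = -n ∧ d' = -d) := by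
  have hne : n ≠ 0 ∨ d ≠ 0 := by
    by_contra hcon
    rw [not_or, not_not, not_not] at hcon
    obtain ⟨rfl, rfl⟩ := hcon
    exact not_isCoprime_zero_zero h
  have hne' : n' ≠ 0 ∨ d' ≠ 0 := by
    by_contra hcon
    rw [not_or, not_not, not_not] at hcon
    obtain ⟨rfl, rfl⟩ := hcon
    exact not_isCoprime_zero_zero h'
  have hdet := (fPt_eq_fPt_iff hne hne').mp he
  obtain ⟨s, t, hst⟩ := h
  obtain ⟨s', t', hst'⟩ := h'
  set c := s * n' + t * d' with hc
  set c' := s' * n + t' * d with hc'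
  have h1 : n' = c * n := by
    have : n' = n' * (s * n + t * d) := by rw [hst, mul_one]
    rw [this, hc]
    have hx : n' * (s * n + t * d) = s * n * n' + t * (n' * d) := by ring
    rw [hx, ← hdet]; ring
  have h2 : d' = c * d := by
    have : d' = d' * (s * n + t * d) := by rw [hst, mul_one]
    rw [this, hc]
    have hx : d' * (s * n + t * d) = s * (n * d') + t * d * d' := by ring
    rw [hx, hdet]; ring
  have h3 : c' * c = 1 := by
    have : (1 : ℤ) = s' * n' + t' * d' := hst'.symm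
    rw [this]
    conv_rhs => rw [h1, h2]
    rw [hc']; ring
  rcases Int.eq_one_or_neg_one_of_mul_eq_one' h3 with ⟨-, hc1⟩ | ⟨-, hc1⟩
  · left; rw [h1, h2, hc1]; simp
  · right; rw [h1, h2, hc1]; simp

/-- a vector with zero determinant against a primitive vector is a multiple of it. -/
theorem exists_eq_mul_of_det_eq_zero {n d x y : ℤ} (h : IsCoprime n d) (hdet : x * d = n * y) :
    ∃ k : ℤ, x = k * n ∧ y = k * d := by
  obtain ⟨s, t, hst⟩ := h
  refine ⟨s * x + t * y, ?_, ?_⟩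
  · have : x = x * (s * n + t * d) := by rw [hst, mul_one]
    conv_lhs => rw [this]
    have hx : x * (s * n + t * d) = s * x * n + t * (x * d) := by ring
    rw [hx, hdet]; ring
  · have : y = y * (s * n + t * d) := by rw [hst, mul_one]
    conv_lhs => rw [this]
    have hx : y * (s * n + t * d) = s * (n * y) + t * y * d := by ring
    rw [hx, ← hdet]; ring

end

end Fermat.Agent.LR
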