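/-
LR (level raising, S41) — helper9 — [FAREY] part 2: **the Farey complex is connected and simply
connected**: `farey_conn`, `farey_H1`; every point is an `SL(2,ℤ)`-translate of `∞`; stabilisers of
points have trace `±2`.
-/
import Mathlib
import Fermat.Agent.LR.FAREY_helper9_Vec

set_option autoImplicit false
set_option linter.unusedSectionVars false

open OnePoint Matrix.SpecialLinearGroup

open scoped MatrixGroups

namespace Fermat.Agent.LR

noncomputable section

/-! ### parents -/

/-- a point of positive height has a neighbour of smaller height. -/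
theorem exists_fParent (x : OnePoint ℚ) (hx : 0 < fHt x) :
    ∃ p : OnePoint ℚ, FAdj p x ∧ fHt p < fHt x := by
  obtain ⟨n, d, hcop, hd0, rfl, hht⟩ := exists_fPt_eq x
  rw [hht] at hx ⊢
  have hdpos : 0 < d := by
    rcases hd0.lt_or_eq with h | h
    · exact h
    · subst h; simp at hx
  obtain ⟨s, t, hst⟩ := hcop
  -- `a d - b n = 1` with `a = t`, `b = -s`
  set b := (-s) % d with hb
  set a := t - n * ((-s) / d) with ha
  have hb0 : 0 ≤ b := Int.emod_nonneg _ hdpos.ne'
  have hbd : b < d := Int.emod_lt_of_pos _ hdpos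
  have hdet : a * d - b * n = 1 := by
    have h1 : b = -s - d * ((-s) / d) := by
      rw [hb, Int.emod_def]
    rw [h1, ha, ← hst]; ring
  have hdet' : a * d - n * b = 1 := by rw [← hdet]; ring
  refine ⟨fPt a b, fAdj_iff.mpr ⟨a, b, n, d, hdet', rfl, rfl⟩, ?_⟩
  rw [fHt_fPt (isCoprime_of_det_left hdet')]
  omega

/-- a chosen parent. -/
def fParent (x : OnePoint ℚ) : OnePoint ℚ :=
  if h : 0 < fHt x then (exists_fParent x h).choose else x

theorem fParent_adj {x : OnePoint ℚ} (h : 0 < fHt x) : FAdj (fParent x) x := by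
  rw [fParent, dif_pos h]
  exact (exists_fParent x h).choose_spec.1

theorem fHt_fParent_lt {x : OnePoint ℚ} (h : 0 < fHt x) : fHt (fParent x) < fHt x := by
  rw [fParent, dif_pos h]
  exact (exists_fParent x h).choose_spec.2

theorem eq_infty_of_fHt_eq_zero {x : OnePoint ℚ} (h : fHt x = 0) : x = ∞ := by
  cases x using OnePoint.rec with
  | infty => rfl
  | coe r =>
    rw [fHt_coe] at h
    exact absurd h r.den_ne_zero

/-! ### connectedness -/

/-- **(F-conn)**: a function which is constant along Farey edges is constant. -/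
theorem farey_conn {R : Type*} (φ : OnePoint ℚ → R) (h : ∀ a b, FAdj a b → φ a = φ b) :
    ∀ a b, φ a = φ b := by
  have key : ∀ (m : ℕ) (x : OnePoint ℚ), fHt x = m → φ x = φ ∞ := by
    intro m
    induction m using Nat.strong_induction_on with
    | _ m ih =>
      intro x hx
      rcases Nat.eq_zero_or_pos m with hm | hm
      · rw [eq_infty_of_fHt_eq_zero (hx.trans hm)]
      · have hpos : 0 < fHt x := by rw [hx]; exact hm
        rw [← h _ _ (fParent_adj hpos)]
        exact ih _ (by rw [← hx]; exact fHt_fParent_lt hpos) _ rfl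
  intro a b
  rw [key _ a rfl, key _ b rfl]

/-! ### the key lemma: two small neighbours of a point span a Farey triangle with it -/

theorem fAdj_ne {a b : OnePoint ℚ} (h : FAdj a b) : a ≠ b := by
  obtain ⟨n, d, n', d', hdet, rfl, rfl⟩ := fAdj_iff.mp h
  intro he
  have h1 := isCoprime_of_det_left hdet
  have h2 := isCoprime_of_det_right hdet
  rcases eq_or_eq_neg_of_fPt_eq h1 h2 he with ⟨e1, e2⟩ | ⟨e1, e2⟩
  · rw [e1, e2] at hdet
    have : n * d - n * d = 0 := sub_self _
    omega
  · rw [e1, e2] at hdet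
    have : n * -d - -n * d = 0 := by ring
    omega

theorem fTri_of_fAdj_fAdj {a p b : OnePoint ℚ} (hab : FAdj a b) (hpb : FAdj p b) (hne : a ≠ p)
    (ha : fHt a ≤ fHt b) (hp : fHt p < fHt b) : FTri a p b ∨ FTri p a b := by
  obtain ⟨n, d, n', d', hdet, rfl, rfl⟩ := fAdj_iff.mp hab
  obtain ⟨m, e, m', e', hdet2, rfl, hb⟩ := fAdj_iff.mp hpb
  have hca := isCoprime_of_det_left hdet
  have hcb := isCoprime_of_det_right hdet
  have hcp := isCoprime_of_det_left hdet2
  have hcb' := isCoprime_of_det_right hdet2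
  rw [fHt_fPt hca, fHt_fPt hcb] at ha
  rw [fHt_fPt hcp, fHt_fPt hcb] at hp
  -- normalise the second pair so that its second vector is `(n', d')`
  obtain ⟨m₁, e₁, hdet3, hp1⟩ : ∃ m₁ e₁ : ℤ, m₁ * d' - n' * e₁ = 1 ∧ fPt m e = fPt m₁ e₁ ∧
      e₁.natAbs = e.natAbs := by
    rcases eq_or_eq_neg_of_fPt_eq hcb hcb' hb with ⟨h1, h2⟩ | ⟨h1, h2⟩
    · exact ⟨m, e, by rw [← hdet2, h1, h2], rfl, rfl⟩
    · refine ⟨-m, -e, by rw [← hdet2, h1, h2]; ring, (fPt_neg m e).symm, Int.natAbs_neg e⟩
  obtain ⟨hpe, hee⟩ := hp1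
  rw [hpe] at hne ⊢
  rw [← hee] at hp
  -- `(n, d) - (m₁, e₁) = k (n', d')`
  obtain ⟨k, hk1, hk2⟩ := exists_eq_mul_of_det_eq_zero (x := n - m₁) (y := d - e₁) hcb (by
    have : (n - m₁) * d' = n * d' - m₁ * d' := by ring
    rw [this]
    have h2 : n' * (d - e₁) = n' * d - n' * e₁ := by ring
    rw [h2]
    linarith)
  have hk : k = 0 ∨ k = 1 ∨ k = -1 := by
    have hd'pos : 0 < d'.natAbs := by omega
    have h1 : (k * d').natAbs ≤ d.natAbs + e₁.natAbs := by
      rw [← hk2]
      exact Int.natAbs_sub_le d e₁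
    rw [Int.natAbs_mul] at h1
    have h2 : k.natAbs * d'.natAbs < 2 * d'.natAbs := by omega
    have h3 : k.natAbs < 2 := lt_of_mul_lt_mul_right h2 (Nat.zero_le _)
    omega
  rcases hk with rfl | rfl | rfl
  · exfalso
    apply hne
    have h1 : n = m₁ := by linarith
    have h2 : d = e₁ := by linarith
    rw [h1, h2]
  · -- `(n', d') = (n, d) + (-m₁, -e₁)`
    left
    refine fTri_iff.mpr ⟨n, d, -m₁, -e₁, ?_, rfl, (fPt_neg m₁ e₁).symm, ?_⟩
    · have h1 : n = m₁ + n' := by linarith
      have h2 : d = e₁ + d' := by linarith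
      rw [h1, h2]
      have : (m₁ + n') * -e₁ - -m₁ * (e₁ + d') = m₁ * d' - n' * e₁ := by ring
      rw [this]
      exact hdet3
    · have h1 : n + -m₁ = n' := by linarith
      have h2 : d + -e₁ = d' := by linarith
      rw [h1, h2]
  · -- `(n', d') = (m₁, e₁) + (-n, -d)`
    right
    refine fTri_iff.mpr ⟨m₁, e₁, -n, -d, ?_, rfl, (fPt_neg n d).symm, ?_⟩
    · have h1 : m₁ = n + n' := by linarith
      have h2 : e₁ = d + d' := by linarith
      rw [h1, h2]
      have : (n + n') * -d - -n * (d + d') = n * d' - n' * d := by ring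
      rw [this]
      exact hdet
    · have h1 : m₁ + -n = n' := by linarith
      have h2 : e₁ + -d = d' := by linarith
      rw [h1, h2]

/-! ### the potential -/

section Potential

variable {R : Type*} [AddCommGroup R] (ω : OnePoint ℚ → OnePoint ℚ → R)

/-- the potential of a closed 1-cochain on the Farey complex: integrate along the chain of
parents. -/
def fPot (x : OnePoint ℚ) : R :=
  if h : 0 < fHt x then fPot (fParent x) + ω (fParent x) x else 0
termination_by fHt x
decreasing_by exact fHt_fParent_lt h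

theorem fPot_of_pos {x : OnePoint ℚ} (h : 0 < fHt x) :
    fPot ω x = fPot ω (fParent x) + ω (fParent x) x := by
  rw [fPot, dif_pos h]

/-- **(F-H1)**: the Farey complex is simply connected: an alternating 1-cochain which is closed on
all Farey triangles is a coboundary. -/
theorem farey_H1 (halt : ∀ a b, FAdj a b → ω b a = - ω a b)
    (hcl : ∀ a b c, FTri a b c → ω a b + ω b c + ω c a = 0) :
    ∃ φ : OnePoint ℚ → R, ∀ a b, FAdj a b → ω a b = φ b - φ a := by
  refine ⟨fPot ω, ?_⟩
  -- the oriented statement, by induction on the sum of the heights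
  have key : ∀ (m : ℕ) (a b : OnePoint ℚ), FAdj a b → fHt a ≤ fHt b → fHt a + fHt b = m →
      ω a b = fPot ω b - fPot ω a := by
    intro m
    induction m using Nat.strong_induction_on with
    | _ m ih =>
      intro a b hab hle hm
      have hbpos : 0 < fHt b := by
        rcases Nat.eq_zero_or_pos (fHt b) with h0 | h0
        · exfalso
          have ha0 : fHt a = 0 := by omega
          exact fAdj_ne hab
            ((eq_infty_of_fHt_eq_zero ha0).trans (eq_infty_of_fHt_eq_zero h0).symm)
        · exact h0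
      have hpb := fParent_adj hbpos
      have hplt := fHt_fParent_lt hbpos
      rw [fPot_of_pos ω hbpos]
      by_cases hap : a = fParent b
      · rw [← hap]; abel
      · -- the edge `(a, parent b)` has a smaller sum of heights
        have hIH : ∀ (hadj : FAdj a (fParent b)),
            ω a (fParent b) = fPot ω (fParent b) - fPot ω a := by
          intro hadj
          rcases le_total (fHt a) (fHt (fParent b)) with h1 | h1
          · exact ih _ (by omega) a (fParent b) hadj h1 rfl
          · have h2 := ih _ (by omega) (fParent b) a hadj.symm h1 rfl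
            rw [halt _ _ hadj.symm, h2]; abel
        rcases fTri_of_fAdj_fAdj hab hpb hap hle hplt with htri | htri
        · -- `FTri a p b`
          have h1 := hcl _ _ _ htri
          have h2 := hIH htri.adj₁
          have h3 := halt _ _ hab
          rw [h2, h3] at h1
          calc ω a b = -(fPot ω (fParent b) - fPot ω a + ω (fParent b) b + -ω a b) +
                (fPot ω (fParent b) + ω (fParent b) b - fPot ω a) := by abel
            _ = fPot ω (fParent b) + ω (fParent b) b - fPot ω a := by
                rw [h1, neg_zero, zero_add]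
        · -- `FTri p a b`
          have h1 := hcl _ _ _ htri
          have h2 := hIH htri.adj₁.symm
          have h3 := halt _ _ htri.adj₁.symm
          have h4 := halt _ _ hpb
          rw [h3, h2, h4] at h1
          calc ω a b = (-(fPot ω (fParent b) - fPot ω a) + ω a b + -ω (fParent b) b) +
                (fPot ω (fParent b) + ω (fParent b) b - fPot ω a) := by abel
            _ = fPot ω (fParent b) + ω (fParent b) b - fPot ω a := by
                rw [h1, zero_add]
  intro a b hab
  rcases le_total (fHt a) (fHt b) with h1 | h1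
  · exact key _ a b hab h1 rfl
  · have h2 := key _ b a hab.symm h1 rfl
    rw [← neg_neg (ω a b), ← halt _ _ hab, h2]; abel

end Potential

/-! ### transitivity and stabilisers -/

theorem exists_slAct_infty (x : OnePoint ℚ) : ∃ g : SL(2, ℤ), x = slAct g ∞ := by
  obtain ⟨n, d, ⟨s, t, hst⟩, -, rfl, -⟩ := exists_fPt_eq x
  refine ⟨fMat n d (-t) s (by rw [← hst]; ring), ?_⟩
  rw [slAct_infty_eq_fPt]
  rfl

theorem trace_sq_of_slAct_infty_eq {γ : SL(2, ℤ)} (h : slAct γ ∞ = ∞) :
    (γ : Matrix (Fin 2) (Fin 2) ℤ).trace ^ 2 = 4 := by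
  rw [slAct_infty_eq_fPt, fPt] at h
  have h10 : γ 1 0 = 0 := by
    by_contra hne
    rw [if_neg hne] at h
    exact OnePoint.coe_ne_infty _ h
  have hdet := γ.det_coe
  rw [Matrix.det_fin_two, h10, mul_zero, sub_zero] at hdet
  rw [Matrix.trace_fin_two]
  rcases Int.eq_one_or_neg_one_of_mul_eq_one' hdet with ⟨h1, h2⟩ | ⟨h1, h2⟩
  · rw [h1, h2]; norm_num
  · rw [h1, h2]; norm_num

theorem trace_sq_of_slAct_eq {γ : SL(2, ℤ)} {x : OnePoint ℚ} (h : slAct γ x = x) :
    (γ : Matrix (Fin 2) (Fin 2) ℤ).trace ^ 2 = 4 := by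
  obtain ⟨g, rfl⟩ := exists_slAct_infty x
  have h1 : slAct (g⁻¹ * γ * g) ∞ = ∞ := by
    rw [slAct_mul, slAct_mul, h, slAct_inv_slAct]
  have h2 := trace_sq_of_slAct_infty_eq h1
  have h3 : ((g⁻¹ * γ * g : SL(2, ℤ)) : Matrix (Fin 2) (Fin 2) ℤ).trace =
      (γ : Matrix (Fin 2) (Fin 2) ℤ).trace := by
    rw [Matrix.SpecialLinearGroup.coe_mul, Matrix.SpecialLinearGroup.coe_mul,
      Matrix.trace_mul_comm, ← mul_assoc, ← Matrix.SpecialLinearGroup.coe_mul, mul_inv_cancel,
      Matrix.SpecialLinearGroup.coe_one, one_mul]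
  rw [h3] at h2
  exact h2

end

end Fermat.Agent.LR
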