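/-
PROJECT LR (S41), package [DUAL] (helper6), part 6: **potentials** of parabolic homomorphisms and
the cup-product cocycle.

For a homomorphism `ψ : Γ → ℤ` a *potential* is `P : ℙ¹(ℚ) → ℤ` with `P (γ x) = P x + ψ γ`; it
exists as soon as `ψ` kills the stabilisers of the cusps, i.e. for parabolic `ψ`.  The cup product
of two potentials is the `2`-cocycle `cupXi P P' (a,b,c) = det [[P b - P a, P c - P a], [P' b - P' a,
P' c - P' a]]` (twice the oriented area of the triangle `(p a, p b, p c)`, `p = (P, P')`).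
-/
import Fermat.Agent.LR.DUAL_helper6_H2Main
import Fermat.Agent.LR.FAREY_helper9_Main
import Fermat.Prelude.Def_ModularCurve_PeriodMap

set_option autoImplicit false

namespace Fermat.Agent.LR

open OnePoint Matrix Matrix.SpecialLinearGroup ModularCurve.Period
open scoped MatrixGroups

theorem fareyConnQ : FareyConnQ := fun φ h => farey_conn φ h

theorem fareyH1Q : FareyH1Q := fun ω h1 h2 => farey_H1 ω h1 h2

/-- `P` is a potential of the homomorphism `ψ`. -/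
def IsPot (Γ : Subgroup SL(2, ℤ)) (ψ : Additive Γ →+ ℤ) (P : OnePoint ℚ → ℤ) : Prop :=
  ∀ (γ : Γ) (x : OnePoint ℚ), P (slAct (γ : SL(2, ℤ)) x) = P x + ψ (Additive.ofMul γ)

/-- `P` is a quasi-potential for `Γ`: `P ∘ γ - P` is constant for every `γ ∈ Γ`. -/
def IsQPot (Γ : Subgroup SL(2, ℤ)) (P : OnePoint ℚ → ℤ) : Prop :=
  ∀ γ ∈ Γ, ∃ c : ℤ, ∀ x : OnePoint ℚ, P (slAct γ x) = P x + c

theorem IsPot.isQPot {Γ : Subgroup SL(2, ℤ)} {ψ : Additive Γ →+ ℤ} {P : OnePoint ℚ → ℤ}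
    (h : IsPot Γ ψ P) : IsQPot Γ P :=
  fun γ hγ => ⟨ψ (Additive.ofMul ⟨γ, hγ⟩), fun x => h ⟨γ, hγ⟩ x⟩

theorem IsQPot.mono {Γ Γ' : Subgroup SL(2, ℤ)} (hle : Γ' ≤ Γ) {P : OnePoint ℚ → ℤ}
    (h : IsQPot Γ P) : IsQPot Γ' P := fun γ hγ => h γ (hle hγ)

theorem IsQPot.add {Γ : Subgroup SL(2, ℤ)} {P P' : OnePoint ℚ → ℤ} (h : IsQPot Γ P)
    (h' : IsQPot Γ P') : IsQPot Γ (fun x => P x + P' x) := by
  intro γ hγ
  obtain ⟨c, hc⟩ := h γ hγ
  obtain ⟨c', hc'⟩ := h' γ hγ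
  exact ⟨c + c', fun x => by
    show P (slAct γ x) + P' (slAct γ x) = P x + P' x + (c + c')
    rw [hc, hc']; ring⟩

/-- **existence of potentials** for parabolic homomorphisms. -/
theorem exists_isPot {Γ : Subgroup SL(2, ℤ)} {ψ : Additive Γ →+ ℤ} (hψ : IsParabolicHom Γ ψ) :
    ∃ P : OnePoint ℚ → ℤ, IsPot Γ ψ P := by
  classical
  let r : Setoid (OnePoint ℚ) :=
    { r := fun x y => ∃ γ : Γ, y = slAct (γ : SL(2, ℤ)) x
      iseqv :=
        { refl := fun x => ⟨1, by rw [Subgroup.coe_one, slAct_one]⟩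
          symm := by
            rintro x y ⟨γ, rfl⟩
            exact ⟨γ⁻¹, by rw [Subgroup.coe_inv, slAct_inv_slAct]⟩
          trans := by
            rintro x y z ⟨γ, rfl⟩ ⟨δ, rfl⟩
            exact ⟨δ * γ, by rw [Subgroup.coe_mul, slAct_mul]⟩ } }
  have hrep : ∀ x : OnePoint ℚ, ∃ γ : Γ, x = slAct (γ : SL(2, ℤ)) (Quotient.out (Quotient.mk r x)) :=
    fun x => Quotient.exact (Quotient.out_eq (Quotient.mk r x))
  choose γx hγx using hrep
  refine ⟨fun x => ψ (Additive.ofMul (γx x)), fun γ x => ?_⟩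
  have hcls : Quotient.mk r (slAct (γ : SL(2, ℤ)) x) = Quotient.mk r x :=
    Quotient.sound (Setoid.symm' r ⟨γ, rfl⟩)
  set x₀ := Quotient.out (Quotient.mk r x) with hx₀
  obtain ⟨g₁, hg₁, h1⟩ : ∃ g₁ : Γ, g₁ = γx (slAct (γ : SL(2, ℤ)) x) ∧
      slAct ((γ : SL(2, ℤ))) x = slAct ((g₁ : Γ) : SL(2, ℤ)) x₀ := by
    refine ⟨_, rfl, ?_⟩
    have := hγx (slAct (γ : SL(2, ℤ)) x)
    rw [hcls] at this
    exact this
  obtain ⟨g₂, hg₂, h2⟩ : ∃ g₂ : Γ, g₂ = γx x ∧ x = slAct ((g₂ : Γ) : SL(2, ℤ)) x₀ :=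
    ⟨_, rfl, hγx x⟩
  show ψ (Additive.ofMul (γx (slAct (γ : SL(2, ℤ)) x))) =
    ψ (Additive.ofMul (γx x)) + ψ (Additive.ofMul γ)
  rw [← hg₁, ← hg₂]
  clear_value x₀
  clear hg₁ hg₂ hcls
  have hfix : slAct (((g₁⁻¹ * γ * g₂ : Γ)) : SL(2, ℤ)) x₀ = x₀ := by
    rw [Subgroup.coe_mul, Subgroup.coe_mul, Subgroup.coe_inv, slAct_mul, slAct_mul, ← h2, h1,
      slAct_inv_slAct]
  have hδ0 : ψ (Additive.ofMul (g₁⁻¹ * γ * g₂)) = 0 := hψ _ (trace_sq_of_slAct_eq hfix)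
  rw [ofMul_mul, ofMul_mul, ofMul_inv, map_add, map_add, map_neg] at hδ0
  linarith

/-- **the cup-product cocycle** of two potentials. -/
def cupXi (P P' : OnePoint ℚ → ℤ) (a b c : OnePoint ℚ) : ℚ :=
  (((P b - P a) * (P' c - P' a) - (P c - P a) * (P' b - P' a) : ℤ) : ℚ)

theorem alt3_cupXi (P P' : OnePoint ℚ → ℤ) : Alt3 (cupXi P P') := by
  refine ⟨fun a b c => ?_, fun a b c => ?_⟩ <;>
  · simp only [cupXi]
    push_cast
    ring

theorem isCoc3_cupXi (P P' : OnePoint ℚ → ℤ) : IsCoc3 (cupXi P P') := by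
  intro a b c d
  simp only [cupXi]
  push_cast
  ring

theorem isInv3_cupXi {Γ : Subgroup SL(2, ℤ)} {P P' : OnePoint ℚ → ℤ} (h : IsQPot Γ P)
    (h' : IsQPot Γ P') : IsInv3 Γ (cupXi P P') := by
  intro γ hγ a b c
  obtain ⟨k, hk⟩ := h γ hγ
  obtain ⟨k', hk'⟩ := h' γ hγ
  simp only [cupXi, hk, hk']
  push_cast
  ring

theorem cupXi_swap (P P' : OnePoint ℚ → ℤ) (a b c : OnePoint ℚ) :
    cupXi P' P a b c = - cupXi P P' a b c := by
  simp only [cupXi]; push_cast; ring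

theorem cupXi_add_left (P₁ P₂ P' : OnePoint ℚ → ℤ) (a b c : OnePoint ℚ) :
    cupXi (fun x => P₁ x + P₂ x) P' a b c = cupXi P₁ P' a b c + cupXi P₂ P' a b c := by
  simp only [cupXi]; push_cast; ring

theorem cupXi_add_right (P P₁ P₂ : OnePoint ℚ → ℤ) (a b c : OnePoint ℚ) :
    cupXi P (fun x => P₁ x + P₂ x) a b c = cupXi P P₁ a b c + cupXi P P₂ a b c := by
  simp only [cupXi]; push_cast; ring

theorem cupXi_sum_right {ι : Type*} (s : Finset ι) (P : OnePoint ℚ → ℤ)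
    (Q : ι → OnePoint ℚ → ℤ) (a b c : OnePoint ℚ) :
    cupXi P (fun x => ∑ i ∈ s, Q i x) a b c = ∑ i ∈ s, cupXi P (Q i) a b c := by
  classical
  induction s using Finset.induction_on with
  | empty => simp [cupXi]
  | insert i s hi ih =>
    have : (fun x => ∑ j ∈ insert i s, Q j x) = fun x => Q i x + ∑ j ∈ s, Q j x := by
      funext x; rw [Finset.sum_insert hi]
    rw [this, cupXi_add_right, ih, Finset.sum_insert hi]

theorem cupXi_smul_left (n : ℤ) (P P' : OnePoint ℚ → ℤ) (a b c : OnePoint ℚ) :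
    cupXi (fun x => n * P x) P' a b c = n * cupXi P P' a b c := by
  simp only [cupXi]; push_cast; ring

theorem cupXi_add_const_left (P P' : OnePoint ℚ → ℤ) (k : ℤ) (a b c : OnePoint ℚ) :
    cupXi (fun x => P x + k) P' a b c = cupXi P P' a b c := by
  simp only [cupXi]; push_cast; ring

theorem cupXi_add_const_right (P P' : OnePoint ℚ → ℤ) (k : ℤ) (a b c : OnePoint ℚ) :
    cupXi P (fun x => P' x + k) a b c = cupXi P P' a b c := by
  simp only [cupXi]; push_cast; ring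

/-- the cup product with a `Γ`-invariant function is the coboundary of an invariant alternating
cochain. -/
theorem cupXi_eq_cobd2_of_invariant (u P' : OnePoint ℚ → ℤ) (a b c : OnePoint ℚ) :
    cupXi u P' a b c =
      cobd2 (fun a b => (((u a + u b) * (P' b - P' a) : ℤ) : ℚ)) a b c := by
  simp only [cupXi, cobd2]; push_cast; ring

/-- **independence of the potential**: the Farey integral of `cupXi u P'` vanishes for a
`Γ`-invariant function `u`. -/
theorem triSum_cupXi_of_invariant {Γ : Subgroup SL(2, ℤ)} [Γ.FiniteIndex] {u P' : OnePoint ℚ → ℤ}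
    (hu : ∀ γ ∈ Γ, ∀ x, u (slAct γ x) = u x) (h' : IsQPot Γ P') :
    triSum Γ (cupXi u P') = 0 := by
  rw [triSum_congr (cupXi_eq_cobd2_of_invariant u P')]
  refine triSum_cobd2 (fun a b => ?_) (fun γ hγ a b => ?_)
  · show (((u b + u a) * (P' a - P' b) : ℤ) : ℚ) = -(((u a + u b) * (P' b - P' a) : ℤ) : ℚ)
    push_cast; ring
  · obtain ⟨k', hk'⟩ := h' γ hγ
    show (((u (slAct γ a) + u (slAct γ b)) * (P' (slAct γ b) - P' (slAct γ a)) : ℤ) : ℚ) =
      (((u a + u b) * (P' b - P' a) : ℤ) : ℚ)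
    rw [hu γ hγ, hu γ hγ, hk', hk']
    push_cast; ring

end Fermat.Agent.LR
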