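/-
PROJECT LR (S41), package [DUAL] (helper6), part 7: **the abstract adjunction** between a pull-back
`φ ↦ φ ∘ (conjugation by s)` and a transfer with coset representatives `s gᵢ` (`gᵢ ∈ Γ`), for the
Farey cup product of potentials.
-/
import Fermat.Agent.LR.DUAL_helper6_Pot

set_option autoImplicit false

namespace Fermat.Agent.LR

open OnePoint Matrix Matrix.SpecialLinearGroup
open scoped MatrixGroups

theorem triSum_sum {Γ : Subgroup SL(2, ℤ)} [Γ.FiniteIndex] {ι : Type*} (s : Finset ι)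
    (Ξ : ι → OnePoint ℚ → OnePoint ℚ → OnePoint ℚ → ℚ) :
    triSum Γ (fun a b c => ∑ i ∈ s, Ξ i a b c) = ∑ i ∈ s, triSum Γ (Ξ i) := by
  simp only [triSum, triVal]
  rw [Finset.sum_comm]

/-- the normalised Farey integral is independent of the level. -/
theorem triSum_div_index_of_le {Γ Γ' : Subgroup SL(2, ℤ)} [Γ.FiniteIndex] [Γ'.FiniteIndex]
    (hneg : (-1 : SL(2, ℤ)) ∈ Γ) (hle : Γ' ≤ Γ)
    {Ξ : OnePoint ℚ → OnePoint ℚ → OnePoint ℚ → ℚ} (hΞ : Alt3 Ξ) (hcoc : IsCoc3 Ξ)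
    (hinv : IsInv3 Γ Ξ) :
    triSum Γ' Ξ / (Γ'.index : ℚ) = triSum Γ Ξ / (Γ.index : ℚ) := by
  have h := triSum_conj (Γ := Γ) (Γ' := Γ') hneg fareyConnQ fareyH1Q 1
    (by simp) (fun γ' hγ' => ⟨γ', hle hγ', by simp⟩) hΞ hcoc hinv
  simpa using h

/-- **the abstract adjunction.** -/
theorem triSum_cupXi_adjoint {Γ Γ' Γ'' : Subgroup SL(2, ℤ)} [Γ.FiniteIndex] [Γ'.FiniteIndex]
    [Γ''.FiniteIndex] (hneg : (-1 : SL(2, ℤ)) ∈ Γ) (hneg' : (-1 : SL(2, ℤ)) ∈ Γ')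
    (hle : Γ'' ≤ Γ) (s : GL (Fin 2) ℚ) (hs : 0 < (s : Matrix (Fin 2) (Fin 2) ℚ).det)
    {ι : Type*} [Fintype ι] (g : ι → SL(2, ℤ)) (hg : ∀ i, g i ∈ Γ)
    {Q P' : OnePoint ℚ → ℤ} (hQ : IsQPot Γ Q) (hP' : IsQPot Γ' P')
    (hpull : IsQPot Γ' (fun x => Q (s⁻¹ • x)))
    (htr : IsQPot Γ (fun x => ∑ i, P' (s • slAct (g i) x)))
    (hdeep : ∀ i, ∀ γ'' ∈ Γ'', ∃ γ' ∈ Γ',
      (s * mapGL ℚ (g i)) * mapGL ℚ γ'' = mapGL ℚ γ' * (s * mapGL ℚ (g i)))
    (hidx : Γ'.index = Fintype.card ι * Γ.index) :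
    triSum Γ' (cupXi (fun x => Q (s⁻¹ • x)) P') =
      triSum Γ (cupXi Q (fun x => ∑ i, P' (s • slAct (g i) x))) := by
  have hi : (Γ.index : ℚ) ≠ 0 := by exact_mod_cast Subgroup.FiniteIndex.index_ne_zero
  have hi' : (Γ'.index : ℚ) ≠ 0 := by exact_mod_cast Subgroup.FiniteIndex.index_ne_zero
  have hi'' : (Γ''.index : ℚ) ≠ 0 := by exact_mod_cast Subgroup.FiniteIndex.index_ne_zero
  set Ξb := cupXi (fun x => Q (s⁻¹ • x)) P' with hΞb
  have hΞb_inv : IsInv3 Γ' Ξb := isInv3_cupXi hpull hP'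
  -- step 1: descend the right-hand side to the deep level
  have h1 := triSum_div_index_of_le (Γ := Γ) (Γ' := Γ'') hneg hle
    (alt3_cupXi Q (fun x => ∑ i, P' (s • slAct (g i) x)))
    (isCoc3_cupXi Q (fun x => ∑ i, P' (s • slAct (g i) x))) (isInv3_cupXi hQ htr)
  -- step 2: split the sum
  have h2 : triSum Γ'' (cupXi Q (fun x => ∑ i, P' (s • slAct (g i) x))) =
      ∑ i, triSum Γ'' (cupXi Q (fun x => P' (s • slAct (g i) x))) := by
    rw [← triSum_sum]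
    exact triSum_congr fun a b c => cupXi_sum_right Finset.univ Q _ a b c
  -- step 3: each summand is a conjugate of `Ξb`
  have h3 : ∀ i, triSum Γ'' (cupXi Q (fun x => P' (s • slAct (g i) x))) / (Γ''.index : ℚ) =
      triSum Γ' Ξb / (Γ'.index : ℚ) := by
    intro i
    obtain ⟨c, hc⟩ := hQ (g i) (hg i)
    have hconj := triSum_conj (Γ := Γ') (Γ' := Γ'') hneg' fareyConnQ fareyH1Q
      (s * mapGL ℚ (g i))
      (by
        rw [Units.val_mul, Matrix.det_mul]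
        have : ((mapGL ℚ (g i) : GL (Fin 2) ℚ) : Matrix (Fin 2) (Fin 2) ℚ).det = 1 := by
          have h := (Matrix.SpecialLinearGroup.map (Int.castRingHom ℚ) (g i)).det_coe
          simpa using h
        rw [this, mul_one]
        exact hs)
      (hdeep i) (alt3_cupXi _ _) (isCoc3_cupXi _ _) hΞb_inv
    rw [← hconj]
    congr 1
    refine triSum_congr fun a b c' => ?_
    have e : ∀ x : OnePoint ℚ, Q (s⁻¹ • ((s * mapGL ℚ (g i)) • x)) = Q x + c := by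
      intro x
      rw [mul_smul, inv_smul_smul]
      exact hc x
    have e' : ∀ x : OnePoint ℚ, P' ((s * mapGL ℚ (g i)) • x) = P' (s • slAct (g i) x) := by
      intro x
      rw [mul_smul]; rfl
    simp only [hΞb, cupXi, e, e']
    push_cast
    ring
  -- assemble
  have h4 : triSum Γ (cupXi Q (fun x => ∑ i, P' (s • slAct (g i) x))) =
      (Γ.index : ℚ) * ((Fintype.card ι : ℚ) * (triSum Γ' Ξb / (Γ'.index : ℚ))) := by
    have : triSum Γ'' (cupXi Q (fun x => ∑ i, P' (s • slAct (g i) x))) / (Γ''.index : ℚ) =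
        (Fintype.card ι : ℚ) * (triSum Γ' Ξb / (Γ'.index : ℚ)) := by
      rw [h2, Finset.sum_div, Finset.sum_congr rfl fun i _ => h3 i, Finset.sum_const,
        Finset.card_univ, nsmul_eq_mul]
    rw [this] at h1
    rw [h1]
    field_simp
  rw [h4]
  have hidxQ : (Γ'.index : ℚ) = (Fintype.card ι : ℚ) * (Γ.index : ℚ) := by
    exact_mod_cast hidx
  rw [hidxQ]
  have hcard : (Fintype.card ι : ℚ) ≠ 0 := by
    intro h0
    rw [h0, zero_mul] at hidxQ
    exact hi' hidxQ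
  field_simp

end Fermat.Agent.LR
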