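/-
PROJECT LR (S41), package [DUAL] (helper6), part 8: potentials of transfers and pull-backs for the
groups `Γ₀(N)`; bridge between the `GL₂(ℝ)`-valued transfer data of the team and the
`GL₂(ℚ)`-action on `ℙ¹(ℚ)`.
-/
import Fermat.Agent.LR.DUAL_helper6_Adj
import Fermat.Agent.LR.XFER_helper4_Defs

set_option autoImplicit false

namespace Fermat.Agent.LR

open OnePoint Matrix Matrix.SpecialLinearGroup CongruenceSubgroup ModularCurve.Period
open Fermat.Agent.GR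
open scoped MatrixGroups

/-- `GL₂(ℚ) → GL₂(ℝ)`. -/
noncomputable def glQR : GL (Fin 2) ℚ →* GL (Fin 2) ℝ :=
  Matrix.GeneralLinearGroup.map (Rat.castHom ℝ)

theorem glQR_injective : Function.Injective glQR := by
  intro a b h
  have h' := congrArg (fun g : GL (Fin 2) ℝ => (g : Matrix (Fin 2) (Fin 2) ℝ)) h
  simp only [glQR, Matrix.GeneralLinearGroup.map_apply] at h'
  ext i j
  have := congrFun (congrFun h' i) j
  simpa using this

theorem glQR_mapGL (γ : SL(2, ℤ)) : glQR (mapGL ℚ γ) = (γ : GL (Fin 2) ℝ) := by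
  ext i j
  simp [glQR]

theorem glQR_gammaEmb {N : ℕ} (γ : Gamma0 N) :
    glQR (mapGL ℚ (γ : SL(2, ℤ))) = gammaEmb N γ := glQR_mapGL _

/-- **the potential of a transfer.** -/
theorem isPot_transferGrp {N' N : ℕ} {ι : Type*} [Fintype ι]
    (X : TransferDatum (Gamma0 N') (Gamma0 N) (GL (Fin 2) ℝ) ι)
    (hX' : X.e' = gammaEmb N') (hX : X.e = gammaEmb N) (a : ι → GL (Fin 2) ℚ)
    (ha : ∀ i, X.α i = glQR (a i))
    {ψ' : Additive (Gamma0 N') →+ ℤ} {P' : OnePoint ℚ → ℤ} (hP' : IsPot (Gamma0 N') ψ' P') :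
    IsPot (Gamma0 N) (X.transferGrp ℤ ψ') (fun x => ∑ i, P' (a i • x)) := by
  intro γ x
  have key : ∀ i, a i * mapGL ℚ (γ : SL(2, ℤ)) =
      mapGL ℚ ((X.cocycle γ i : Gamma0 N') : SL(2, ℤ)) * a (X.perm γ i) := by
    intro i
    apply glQR_injective
    rw [map_mul, map_mul, glQR_gammaEmb, glQR_gammaEmb, ← ha, ← ha, ← hX, ← hX']
    exact X.spec γ i
  have h1 : ∀ i, P' (a i • slAct (γ : SL(2, ℤ)) x) =
      P' (a (X.perm γ i) • x) + ψ' (Additive.ofMul (X.cocycle γ i)) := by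
    intro i
    have : a i • slAct (γ : SL(2, ℤ)) x =
        slAct ((X.cocycle γ i : Gamma0 N') : SL(2, ℤ)) (a (X.perm γ i) • x) := by
      simp only [slAct]
      rw [← mul_smul, ← mul_smul, key]
    rw [this, hP']
  show ∑ i, P' (a i • slAct (γ : SL(2, ℤ)) x) = ∑ i, P' (a i • x) + _
  rw [Finset.sum_congr rfl fun i _ => h1 i, Finset.sum_add_distrib, TransferDatum.transferGrp_apply]
  congr 1
  exact Equiv.sum_comp (X.permEquiv γ) (fun i => P' (a i • x))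

/-- **the potential of a pull-back** along a homomorphism `j : Γ₀(N') → Γ₀(N)` induced by
conjugation: `s · j γ = γ · s`. -/
theorem isPot_pullHom {N' N : ℕ} (j : Gamma0 N' →* Gamma0 N) (s : GL (Fin 2) ℚ)
    (hj : ∀ γ : Gamma0 N', s * mapGL ℚ ((j γ : Gamma0 N) : SL(2, ℤ)) =
      mapGL ℚ (γ : SL(2, ℤ)) * s)
    {φ : Additive (Gamma0 N) →+ ℤ} {Q : OnePoint ℚ → ℤ} (hQ : IsPot (Gamma0 N) φ Q) :
    IsPot (Gamma0 N') (pullHom j ℤ φ) (fun x => Q (s⁻¹ • x)) := by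
  intro γ x
  have : s⁻¹ • slAct (γ : SL(2, ℤ)) x = slAct ((j γ : Gamma0 N) : SL(2, ℤ)) (s⁻¹ • x) := by
    simp only [slAct]
    rw [← mul_smul, ← mul_smul]
    congr 1
    rw [inv_mul_eq_iff_eq_mul, ← mul_assoc, hj, mul_assoc, mul_inv_cancel, mul_one]
  show Q (s⁻¹ • slAct (γ : SL(2, ℤ)) x) = Q (s⁻¹ • x) + _
  rw [this, hQ]
  rfl

end Fermat.Agent.LR
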