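/-
PROJECT LR (S41), package [DUAL] (helper6), part 9: **the cup product `cupQ N` on
`L_N = parabolicHoms ℤ Γ₀(N) ℤ`** (rational valued; `= 6 ×` the topological cup product) and the
adjunctions `(α^*, α_*)`, `(β^*, β_*)` against helper4's `pullA/pullB/pushA/pushB`.
-/
import Fermat.Agent.LR.DUAL_helper6_Gamma0
import Fermat.Agent.X0N.Cosets_helper9_Count

set_option autoImplicit false

namespace Fermat.Agent.LR

open OnePoint Matrix Matrix.SpecialLinearGroup CongruenceSubgroup ModularCurve.Period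
open Fermat.Agent.GR
open scoped MatrixGroups

/-- a chosen potential of a parabolic homomorphism. -/
noncomputable def potOf {N : ℕ} (ψ : parabolicHoms ℤ (Gamma0 N) ℤ) : OnePoint ℚ → ℤ :=
  Classical.choose (exists_isPot (mem_parabolicHoms_iff.mp ψ.2))

theorem isPot_potOf {N : ℕ} (ψ : parabolicHoms ℤ (Gamma0 N) ℤ) :
    IsPot (Gamma0 N) (ψ : Additive (Gamma0 N) →+ ℤ) (potOf ψ) :=
  Classical.choose_spec (exists_isPot (mem_parabolicHoms_iff.mp ψ.2))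

/-- **the (rational) cup product on `L_N`**: the Farey integral of the cup product of potentials. -/
noncomputable def cupQ (N : ℕ) [NeZero N] (ψ₁ ψ₂ : parabolicHoms ℤ (Gamma0 N) ℤ) : ℚ :=
  triSum (Gamma0 N) (cupXi (potOf ψ₁) (potOf ψ₂))

theorem neg_one_mem_Gamma0' (N : ℕ) : (-1 : SL(2, ℤ)) ∈ Gamma0 N := by
  rw [Gamma0_mem]
  simp

theorem invariant_sub_of_isPot {Γ : Subgroup SL(2, ℤ)} {ψ : Additive Γ →+ ℤ}
    {P R : OnePoint ℚ → ℤ} (hP : IsPot Γ ψ P) (hR : IsPot Γ ψ R) :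
    ∀ γ ∈ Γ, ∀ x, (fun x => P x - R x) (slAct γ x) = (fun x => P x - R x) x := by
  intro γ hγ x
  show P (slAct γ x) - R (slAct γ x) = P x - R x
  rw [hP ⟨γ, hγ⟩ x, hR ⟨γ, hγ⟩ x]
  ring

/-- the Farey integral of the cup product does not depend on the potentials. -/
theorem triSum_cupXi_eq_of_isPot {Γ : Subgroup SL(2, ℤ)} [Γ.FiniteIndex]
    {ψ₁ ψ₂ : Additive Γ →+ ℤ} {P₁ R₁ P₂ R₂ : OnePoint ℚ → ℤ} (hP₁ : IsPot Γ ψ₁ P₁)
    (hR₁ : IsPot Γ ψ₁ R₁) (hP₂ : IsPot Γ ψ₂ P₂) (hR₂ : IsPot Γ ψ₂ R₂) :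
    triSum Γ (cupXi P₁ P₂) = triSum Γ (cupXi R₁ R₂) := by
  have e1 : P₁ = fun x => R₁ x + (P₁ x - R₁ x) := by funext x; ring
  have e2 : P₂ = fun x => R₂ x + (P₂ x - R₂ x) := by funext x; ring
  have s1 : triSum Γ (cupXi P₁ P₂) = triSum Γ (cupXi R₁ P₂) := by
    conv_lhs => rw [e1]
    have h0 : triSum Γ (cupXi (fun x => P₁ x - R₁ x) P₂) = 0 :=
      triSum_cupXi_of_invariant (u := fun x => P₁ x - R₁ x) (invariant_sub_of_isPot hP₁ hR₁)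
        hP₂.isQPot
    rw [triSum_congr (cupXi_add_left R₁ _ P₂), triSum_add, h0, add_zero]
  have s2 : triSum Γ (cupXi R₁ P₂) = triSum Γ (cupXi R₁ R₂) := by
    conv_lhs => rw [e2]
    rw [triSum_congr (cupXi_add_right R₁ R₂ _), triSum_add]
    have : triSum Γ (cupXi R₁ fun x => P₂ x - R₂ x) = 0 := by
      have h := triSum_cupXi_of_invariant (u := fun x => P₂ x - R₂ x)
        (invariant_sub_of_isPot hP₂ hR₂) hR₁.isQPot
      have hneg : triSum Γ (cupXi R₁ fun x => P₂ x - R₂ x) =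
          (-1) * triSum Γ (cupXi (fun x => P₂ x - R₂ x) R₁) := by
        rw [← triSum_smul]
        exact triSum_congr fun a b c => by rw [cupXi_swap]; ring
      rw [hneg, h, mul_zero]
    rw [this, add_zero]
  rw [s1, s2]

theorem cupQ_eq_of_isPot {N : ℕ} [NeZero N] {ψ₁ ψ₂ : parabolicHoms ℤ (Gamma0 N) ℤ}
    {P₁ P₂ : OnePoint ℚ → ℤ} (h₁ : IsPot (Gamma0 N) (ψ₁ : Additive (Gamma0 N) →+ ℤ) P₁)
    (h₂ : IsPot (Gamma0 N) (ψ₂ : Additive (Gamma0 N) →+ ℤ) P₂) :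
    cupQ N ψ₁ ψ₂ = triSum (Gamma0 N) (cupXi P₁ P₂) :=
  triSum_cupXi_eq_of_isPot (isPot_potOf ψ₁) h₁ (isPot_potOf ψ₂) h₂

theorem IsPot.add {Γ : Subgroup SL(2, ℤ)} {ψ ψ' : Additive Γ →+ ℤ} {P P' : OnePoint ℚ → ℤ}
    (h : IsPot Γ ψ P) (h' : IsPot Γ ψ' P') : IsPot Γ (ψ + ψ') (fun x => P x + P' x) := by
  intro γ x
  show P (slAct _ x) + P' (slAct _ x) = P x + P' x + (ψ _ + ψ' _)
  rw [h, h']; ring

theorem IsPot.smul {Γ : Subgroup SL(2, ℤ)} {ψ : Additive Γ →+ ℤ} {P : OnePoint ℚ → ℤ}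
    (h : IsPot Γ ψ P) (n : ℤ) : IsPot Γ (n • ψ) (fun x => n * P x) := by
  intro γ x
  show n * P (slAct _ x) = n * P x + n • ψ _
  rw [h, smul_eq_mul]; ring

theorem cupQ_swap {N : ℕ} [NeZero N] (ψ₁ ψ₂ : parabolicHoms ℤ (Gamma0 N) ℤ) :
    cupQ N ψ₂ ψ₁ = - cupQ N ψ₁ ψ₂ := by
  simp only [cupQ]
  rw [← neg_one_mul, ← triSum_smul]
  exact triSum_congr fun a b c => by rw [cupXi_swap]; ring

theorem cupQ_add_left {N : ℕ} [NeZero N] (ψ₁ ψ₂ ψ : parabolicHoms ℤ (Gamma0 N) ℤ) :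
    cupQ N (ψ₁ + ψ₂) ψ = cupQ N ψ₁ ψ + cupQ N ψ₂ ψ := by
  rw [cupQ_eq_of_isPot (ψ₁ := ψ₁ + ψ₂) ((isPot_potOf ψ₁).add (isPot_potOf ψ₂)) (isPot_potOf ψ),
    triSum_congr (cupXi_add_left _ _ _), triSum_add]
  rfl

theorem cupQ_smul_left {N : ℕ} [NeZero N] (n : ℤ) (ψ₁ ψ : parabolicHoms ℤ (Gamma0 N) ℤ) :
    cupQ N (n • ψ₁) ψ = n * cupQ N ψ₁ ψ := by
  rw [cupQ_eq_of_isPot (ψ₁ := n • ψ₁) ((isPot_potOf ψ₁).smul n) (isPot_potOf ψ),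
    triSum_congr (cupXi_smul_left n _ _), triSum_smul]
  rfl

theorem cupQ_add_right {N : ℕ} [NeZero N] (ψ ψ₁ ψ₂ : parabolicHoms ℤ (Gamma0 N) ℤ) :
    cupQ N ψ (ψ₁ + ψ₂) = cupQ N ψ ψ₁ + cupQ N ψ ψ₂ := by
  rw [cupQ_swap, cupQ_add_left, cupQ_swap ψ ψ₁, cupQ_swap ψ ψ₂]; ring

theorem cupQ_smul_right {N : ℕ} [NeZero N] (n : ℤ) (ψ ψ₁ : parabolicHoms ℤ (Gamma0 N) ℤ) :
    cupQ N ψ (n • ψ₁) = n * cupQ N ψ ψ₁ := by
  rw [cupQ_swap, cupQ_smul_left, cupQ_swap ψ ψ₁]; ring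

end Fermat.Agent.LR
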