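/-
PROJECT LR (S41), package [DUAL] (helper6), part 12: **the integral cup product.**

For potentials `P, P' : ℙ¹(ℚ) → ℤ` the *integral triangle potential* is
`triQ P g = ⌊(P(g⁻¹∞) + P(g⁻¹0) + P(g⁻¹1)) / 3⌋`, its jump across the Farey edge `g⁻¹(∞,0)` is
`jmpZ P g = triQ P (S g) - triQ P g`, and the integral cup product is
`cupZsum Γ P P' = ∑_{y ∈ SL₂(ℤ)/Γ} jmpZ P (g_y) * (P'(g_y⁻¹ 0) - P'(g_y⁻¹ ∞))`.

Main result: `cupZsum_mul_three : (cupZsum Γ P P' : ℚ) * 3 = triSum Γ (cupXi P P')`.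
-/
import Fermat.Agent.LR.DUAL_helper6_CupQ

set_option autoImplicit false

namespace Fermat.Agent.LR

open OnePoint Matrix.SpecialLinearGroup CongruenceSubgroup ModularCurve.Period
open scoped MatrixGroups

variable {Γ : Subgroup SL(2, ℤ)}

/-- re-indexing a sum over the cosets by a left translation. -/
theorem sum_out_mul_left [Γ.FiniteIndex] {M : Type*} [AddCommMonoid M] (F : SL(2, ℤ) → M)
    (hF : ∀ g, ∀ γ ∈ Γ, F (g * γ) = F g) (h : SL(2, ℤ)) :
    ∑ y : SL(2, ℤ) ⧸ Γ, F (h * Quotient.out y) = ∑ y : SL(2, ℤ) ⧸ Γ, F (Quotient.out y) := by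
  have key : ∀ y : SL(2, ℤ) ⧸ Γ, F (h * Quotient.out y) = F (Quotient.out (h • y : SL(2, ℤ) ⧸ Γ)) := by
    intro y
    have e : h • y = (QuotientGroup.mk (h * Quotient.out y) : SL(2, ℤ) ⧸ Γ) := by
      conv_lhs => rw [← QuotientGroup.out_eq' y]
      rfl
    obtain ⟨γ, hγ, hout⟩ := out_eq_mul (Γ := Γ) (h * Quotient.out y)
    rw [e, hout, hF _ γ hγ]
  simp only [key]
  exact Equiv.sum_comp (MulAction.toPerm h) (fun y : SL(2, ℤ) ⧸ Γ => F (Quotient.out y))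

/-- an invariant function may be evaluated at any representative. -/
theorem apply_outSL_eq {M : Type*} (F : SL(2, ℤ) → M)
    (hF : ∀ g, ∀ γ ∈ Γ, F (g * γ) = F g) (g : SL(2, ℤ)) :
    F (Quotient.out (g : SL(2, ℤ) ⧸ Γ)) = F g := by
  obtain ⟨γ, hγ, hout⟩ := out_eq_mul (Γ := Γ) g
  rw [hout, hF _ γ hγ]

/-! ### more values of the action -/

theorem slAct_neg_one (x : OnePoint ℚ) : slAct (-1) x = x := by
  induction x using OnePoint.rec with
  | infty => rw [slAct_infty]; simp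
  | coe k => rw [slAct_coe]; simp

theorem slAct_neg (g : SL(2, ℤ)) (x : OnePoint ℚ) : slAct (-g) x = slAct g x := by
  have : -g = g * (-1) := by simp
  rw [this, slAct_mul, slAct_neg_one]

theorem slAct_S_inv_one :
    slAct ModularGroup.S⁻¹ ((1:ℚ) : OnePoint ℚ) = (((-1:ℚ) : ℚ) : OnePoint ℚ) := by
  have h : slAct ModularGroup.S (((-1:ℚ) : ℚ) : OnePoint ℚ) = ((1:ℚ) : OnePoint ℚ) := by
    rw [slAct_coe]; simp [ModularGroup.S]
  rw [← h, slAct_inv_slAct]

theorem S_mul_S : ModularGroup.S * ModularGroup.S = -1 := by decide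

theorem fTau_inv_cube (g : SL(2, ℤ)) : fTau⁻¹ * (fTau⁻¹ * (fTau⁻¹ * g)) = -g := by
  have h : fTau⁻¹ * fTau⁻¹ * fTau⁻¹ = -1 := by decide
  rw [← mul_assoc, ← mul_assoc, h]
  simp

/-! ### vertex values -/

/-- `P (g⁻¹ ∞)`. -/
noncomputable def vInf (P : OnePoint ℚ → ℤ) (g : SL(2, ℤ)) : ℤ := P (slAct g⁻¹ ∞)
/-- `P (g⁻¹ 0)`. -/
noncomputable def vZero (P : OnePoint ℚ → ℤ) (g : SL(2, ℤ)) : ℤ := P (slAct g⁻¹ ((0:ℚ) : OnePoint ℚ))
/-- `P (g⁻¹ 1)`. -/
noncomputable def vOne (P : OnePoint ℚ → ℤ) (g : SL(2, ℤ)) : ℤ := P (slAct g⁻¹ ((1:ℚ) : OnePoint ℚ))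
/-- `P (g⁻¹ (-1))`. -/
noncomputable def vNeg (P : OnePoint ℚ → ℤ) (g : SL(2, ℤ)) : ℤ := P (slAct g⁻¹ (((-1:ℚ) : ℚ) : OnePoint ℚ))

section Vals

variable (P : OnePoint ℚ → ℤ) (g : SL(2, ℤ))

theorem vInf_S_mul : vInf P (ModularGroup.S * g) = vZero P g := by
  simp only [vInf, vZero, mul_inv_rev, slAct_mul, slAct_S_inv_infty]

theorem vZero_S_mul : vZero P (ModularGroup.S * g) = vInf P g := by
  simp only [vInf, vZero, mul_inv_rev, slAct_mul, slAct_S_inv_zero]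

theorem vOne_S_mul : vOne P (ModularGroup.S * g) = vNeg P g := by
  simp only [vOne, vNeg, mul_inv_rev, slAct_mul, slAct_S_inv_one]

theorem vInf_fTau_inv_mul : vInf P (fTau⁻¹ * g) = vZero P g := by
  simp only [vInf, vZero, mul_inv_rev, inv_inv, slAct_mul, slAct_fTau_infty]

theorem vZero_fTau_inv_mul : vZero P (fTau⁻¹ * g) = vOne P g := by
  simp only [vOne, vZero, mul_inv_rev, inv_inv, slAct_mul, slAct_fTau_zero]

theorem vOne_fTau_inv_mul : vOne P (fTau⁻¹ * g) = vInf P g := by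
  simp only [vOne, vInf, mul_inv_rev, inv_inv, slAct_mul, slAct_fTau_one]

theorem vInf_neg : vInf P (-g) = vInf P g := by
  simp only [vInf, inv_neg, slAct_neg]

theorem vZero_neg : vZero P (-g) = vZero P g := by
  simp only [vZero, inv_neg, slAct_neg]

theorem vOne_neg : vOne P (-g) = vOne P g := by
  simp only [vOne, inv_neg, slAct_neg]

end Vals

/-- the effect of a right translation by `γ ∈ Γ` on the vertex values of a quasi-potential. -/
theorem exists_vals_mul_right {P : OnePoint ℚ → ℤ} (hP : IsQPot Γ P) {γ : SL(2, ℤ)} (hγ : γ ∈ Γ) :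
    ∃ c : ℤ, ∀ g : SL(2, ℤ), vInf P (g * γ) = vInf P g + c ∧ vZero P (g * γ) = vZero P g + c ∧
      vOne P (g * γ) = vOne P g + c ∧ vNeg P (g * γ) = vNeg P g + c := by
  obtain ⟨c, hc⟩ := hP γ⁻¹ (Γ.inv_mem hγ)
  refine ⟨c, fun g => ?_⟩
  simp only [vInf, vZero, vOne, vNeg, mul_inv_rev, slAct_mul, hc, and_self]

/-! ### the integral triangle potential -/

/-- the integral triangle potential `⌊(P(g⁻¹∞) + P(g⁻¹0) + P(g⁻¹1)) / 3⌋`. -/
noncomputable def triQ (P : OnePoint ℚ → ℤ) (g : SL(2, ℤ)) : ℤ := (vInf P g + vZero P g + vOne P g) / 3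

/-- the residue `(P(g⁻¹∞) + P(g⁻¹0) + P(g⁻¹1)) mod 3`. -/
noncomputable def triR (P : OnePoint ℚ → ℤ) (g : SL(2, ℤ)) : ℤ := (vInf P g + vZero P g + vOne P g) % 3

/-- the jump of the triangle potential across the Farey edge `g⁻¹ (∞, 0)`. -/
noncomputable def jmpZ (P : OnePoint ℚ → ℤ) (g : SL(2, ℤ)) : ℤ := triQ P (ModularGroup.S * g) - triQ P g

/-- the difference of a potential along the Farey edge `g⁻¹ (∞, 0)`. -/
noncomputable def edgZ (P : OnePoint ℚ → ℤ) (g : SL(2, ℤ)) : ℤ := vZero P g - vInf P g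

theorem three_mul_triQ (P : OnePoint ℚ → ℤ) (g : SL(2, ℤ)) :
    3 * triQ P g = vInf P g + vZero P g + vOne P g - triR P g := by
  have := Int.emod_add_mul_ediv (vInf P g + vZero P g + vOne P g) 3
  simp only [triQ, triR]
  linarith

theorem triQ_fTau_inv_mul (P : OnePoint ℚ → ℤ) (g : SL(2, ℤ)) :
    triQ P (fTau⁻¹ * g) = triQ P g := by
  simp only [triQ, vInf_fTau_inv_mul, vZero_fTau_inv_mul, vOne_fTau_inv_mul]
  congr 1; ring

theorem triR_fTau_inv_mul (P : OnePoint ℚ → ℤ) (g : SL(2, ℤ)) :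
    triR P (fTau⁻¹ * g) = triR P g := by
  simp only [triR, vInf_fTau_inv_mul, vZero_fTau_inv_mul, vOne_fTau_inv_mul]
  congr 1; ring

theorem triQ_neg (P : OnePoint ℚ → ℤ) (g : SL(2, ℤ)) : triQ P (-g) = triQ P g := by
  simp only [triQ, vInf_neg, vZero_neg, vOne_neg]

theorem triQ_mul_right {P : OnePoint ℚ → ℤ} (hP : IsQPot Γ P) {γ : SL(2, ℤ)} (hγ : γ ∈ Γ) :
    ∃ c : ℤ, (∀ x, P (slAct γ⁻¹ x) = P x + c) ∧ ∀ g : SL(2, ℤ), triQ P (g * γ) = triQ P g + c := by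
  obtain ⟨c, hc⟩ := hP γ⁻¹ (Γ.inv_mem hγ)
  refine ⟨c, hc, fun g => ?_⟩
  simp only [triQ, vInf, vZero, vOne, mul_inv_rev, slAct_mul, hc]
  have : P (slAct g⁻¹ ∞) + c + (P (slAct g⁻¹ ((0:ℚ) : OnePoint ℚ)) + c) +
      (P (slAct g⁻¹ ((1:ℚ) : OnePoint ℚ)) + c) =
      P (slAct g⁻¹ ∞) + P (slAct g⁻¹ ((0:ℚ) : OnePoint ℚ)) +
      P (slAct g⁻¹ ((1:ℚ) : OnePoint ℚ)) + c * 3 := by ring
  rw [this, Int.add_mul_ediv_right _ _ (by norm_num : (3:ℤ) ≠ 0)]

theorem triR_mul_right {P : OnePoint ℚ → ℤ} (hP : IsQPot Γ P) (g : SL(2, ℤ)) {γ : SL(2, ℤ)}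
    (hγ : γ ∈ Γ) : triR P (g * γ) = triR P g := by
  obtain ⟨c, hc⟩ := exists_vals_mul_right hP hγ
  simp only [triR, (hc g).1, (hc g).2.1, (hc g).2.2.1]
  have : vInf P g + c + (vZero P g + c) + (vOne P g + c) =
      vInf P g + vZero P g + vOne P g + c * 3 := by ring
  omega

theorem jmpZ_mul_right {P : OnePoint ℚ → ℤ} (hP : IsQPot Γ P) (g : SL(2, ℤ)) {γ : SL(2, ℤ)}
    (hγ : γ ∈ Γ) : jmpZ P (g * γ) = jmpZ P g := by
  obtain ⟨c, -, hc⟩ := triQ_mul_right hP hγ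
  simp only [jmpZ, ← mul_assoc, hc]
  ring

theorem jmpZ_S_mul (P : OnePoint ℚ → ℤ) (g : SL(2, ℤ)) :
    jmpZ P (ModularGroup.S * g) = - jmpZ P g := by
  simp only [jmpZ, ← mul_assoc, S_mul_S, neg_mul, one_mul, triQ_neg]
  ring

theorem edgZ_mul_right {P : OnePoint ℚ → ℤ} (hP : IsQPot Γ P) (g : SL(2, ℤ)) {γ : SL(2, ℤ)}
    (hγ : γ ∈ Γ) : edgZ P (g * γ) = edgZ P g := by
  obtain ⟨c, hc⟩ := exists_vals_mul_right hP hγ
  simp only [edgZ, (hc g).1, (hc g).2.1]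
  ring

theorem edgZ_S_mul (P : OnePoint ℚ → ℤ) (g : SL(2, ℤ)) :
    edgZ P (ModularGroup.S * g) = - edgZ P g := by
  simp only [edgZ, vInf_S_mul, vZero_S_mul]
  ring

theorem edgZ_closed (P : OnePoint ℚ → ℤ) (g : SL(2, ℤ)) :
    edgZ P g + edgZ P (fTau⁻¹ * g) + edgZ P (fTau⁻¹ * (fTau⁻¹ * g)) = 0 := by
  simp only [edgZ, vInf_fTau_inv_mul, vZero_fTau_inv_mul, vOne_fTau_inv_mul]
  ring

theorem three_mul_jmpZ (P : OnePoint ℚ → ℤ) (g : SL(2, ℤ)) :
    3 * jmpZ P g = (vNeg P g - vOne P g) - (triR P (ModularGroup.S * g) - triR P g) := by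
  simp only [jmpZ, mul_sub, three_mul_triQ, vInf_S_mul, vZero_S_mul, vOne_S_mul]
  ring

/-- **the integral cup product** of two potentials. -/
noncomputable def cupZsum (Γ : Subgroup SL(2, ℤ)) [Γ.FiniteIndex] (P P' : OnePoint ℚ → ℤ) : ℤ :=
  ∑ y : SL(2, ℤ) ⧸ Γ, jmpZ P (Quotient.out y) * edgZ P' (Quotient.out y)

/-- the integral form of the Farey integral of `cupXi`. -/
theorem triSum_cupXi_eq_cast [Γ.FiniteIndex] (P P' : OnePoint ℚ → ℤ) :
    triSum Γ (cupXi P P') = ((∑ y : SL(2, ℤ) ⧸ Γ,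
      ((vZero P (Quotient.out y) - vInf P (Quotient.out y)) *
          (vOne P' (Quotient.out y) - vInf P' (Quotient.out y)) -
        (vOne P (Quotient.out y) - vInf P (Quotient.out y)) *
          (vZero P' (Quotient.out y) - vInf P' (Quotient.out y))) : ℤ) : ℚ) := by
  rw [Int.cast_sum]
  rfl

section Rel

variable [Γ.FiniteIndex] {P P' : OnePoint ℚ → ℤ}

/-- step (e): the residues do not contribute. -/
theorem sum_triR_mul_edgZ (hP : IsQPot Γ P) (hP' : IsQPot Γ P') :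
    ∑ y : SL(2, ℤ) ⧸ Γ, triR P (Quotient.out y) * edgZ P' (Quotient.out y) = 0 := by
  set R : SL(2, ℤ) → ℤ := fun g => triR P g * edgZ P' g with hR
  have hRinv : ∀ g, ∀ γ ∈ Γ, R (g * γ) = R g := fun g γ hγ => by
    simp only [hR, triR_mul_right hP g hγ, edgZ_mul_right hP' g hγ]
  have h1 := sum_out_mul_left R hRinv fTau⁻¹
  have h2 := sum_out_mul_left (Γ := Γ) (fun g => R (fTau⁻¹ * g))
    (fun g γ hγ => by simp only [← mul_assoc, hRinv _ γ hγ]) fTau⁻¹
  have h3 : ∑ y : SL(2, ℤ) ⧸ Γ, (R (Quotient.out y) + R (fTau⁻¹ * Quotient.out y) +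
      R (fTau⁻¹ * (fTau⁻¹ * Quotient.out y))) = 0 := by
    refine Finset.sum_eq_zero fun y _ => ?_
    simp only [hR, triR_fTau_inv_mul]
    have := edgZ_closed P' (Quotient.out y)
    linear_combination triR P (Quotient.out y) * this
  rw [Finset.sum_add_distrib, Finset.sum_add_distrib, h2, h1] at h3
  have h4 : (3:ℤ) * ∑ y : SL(2, ℤ) ⧸ Γ, R (Quotient.out y) = 0 := by linarith
  simpa using h4

/-- step (e'): the residue jumps do not contribute. -/
theorem sum_triR_S_sub_mul_edgZ (hP : IsQPot Γ P) (hP' : IsQPot Γ P') :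
    ∑ y : SL(2, ℤ) ⧸ Γ, (triR P (ModularGroup.S * Quotient.out y) - triR P (Quotient.out y)) *
      edgZ P' (Quotient.out y) = 0 := by
  set R : SL(2, ℤ) → ℤ := fun g => triR P g * edgZ P' g with hR
  have hRinv : ∀ g, ∀ γ ∈ Γ, R (g * γ) = R g := fun g γ hγ => by
    simp only [hR, triR_mul_right hP g hγ, edgZ_mul_right hP' g hγ]
  have h1 := sum_out_mul_left R hRinv ModularGroup.S
  have h0 := sum_triR_mul_edgZ hP hP'
  have h2 : ∀ y : SL(2, ℤ) ⧸ Γ, (triR P (ModularGroup.S * Quotient.out y) -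
      triR P (Quotient.out y)) * edgZ P' (Quotient.out y) =
      - R (ModularGroup.S * Quotient.out y) - R (Quotient.out y) := by
    intro y
    simp only [hR, edgZ_S_mul]
    ring
  simp only [h2, Finset.sum_sub_distrib, Finset.sum_neg_distrib, h1]
  simp only [hR, h0]
  ring

/-- step (c). -/
theorem sum_vNeg_sub_vOne_mul_edgZ (hP : IsQPot Γ P) (hP' : IsQPot Γ P') :
    ∑ y : SL(2, ℤ) ⧸ Γ, (vNeg P (Quotient.out y) - vOne P (Quotient.out y)) *
      edgZ P' (Quotient.out y) =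
    ∑ y : SL(2, ℤ) ⧸ Γ, (vInf P (Quotient.out y) + vZero P (Quotient.out y) -
      2 * vOne P (Quotient.out y)) * edgZ P' (Quotient.out y) := by
  set F : SL(2, ℤ) → ℤ := fun g => (vInf P g + vZero P g - 2 * vOne P g) * edgZ P' g with hF
  have hFinv : ∀ g, ∀ γ ∈ Γ, F (g * γ) = F g := fun g γ hγ => by
    obtain ⟨c, hc⟩ := exists_vals_mul_right hP hγ
    simp only [hF, edgZ_mul_right hP' g hγ, (hc g).1, (hc g).2.1, (hc g).2.2.1]
    ring
  have h1 := sum_out_mul_left F hFinv ModularGroup.S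
  have h2 : ∀ y : SL(2, ℤ) ⧸ Γ, 2 * ((vNeg P (Quotient.out y) - vOne P (Quotient.out y)) *
      edgZ P' (Quotient.out y)) = F (Quotient.out y) + F (ModularGroup.S * Quotient.out y) := by
    intro y
    simp only [hF, edgZ_S_mul, vInf_S_mul, vZero_S_mul, vOne_S_mul]
    ring
  have h3 : 2 * ∑ y : SL(2, ℤ) ⧸ Γ, (vNeg P (Quotient.out y) - vOne P (Quotient.out y)) *
      edgZ P' (Quotient.out y) = 2 * ∑ y : SL(2, ℤ) ⧸ Γ, F (Quotient.out y) := by
    rw [Finset.mul_sum]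
    simp only [h2, Finset.sum_add_distrib, h1]
    ring
  have h4 := mul_left_cancel₀ (by norm_num : (2:ℤ) ≠ 0) h3
  rw [h4]

/-- step (d). -/
theorem sum_F_eq_sum_Xi (hP : IsQPot Γ P) (hP' : IsQPot Γ P') :
    ∑ y : SL(2, ℤ) ⧸ Γ, (vInf P (Quotient.out y) + vZero P (Quotient.out y) -
      2 * vOne P (Quotient.out y)) * edgZ P' (Quotient.out y) =
    ∑ y : SL(2, ℤ) ⧸ Γ,
      ((vZero P (Quotient.out y) - vInf P (Quotient.out y)) *
          (vOne P' (Quotient.out y) - vInf P' (Quotient.out y)) -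
        (vOne P (Quotient.out y) - vInf P (Quotient.out y)) *
          (vZero P' (Quotient.out y) - vInf P' (Quotient.out y))) := by
  set B : SL(2, ℤ) → ℤ := fun g => (vZero P g - vInf P g) * (vInf P' g - vOne P' g) with hB
  have hBinv : ∀ g, ∀ γ ∈ Γ, B (g * γ) = B g := fun g γ hγ => by
    obtain ⟨c, hc⟩ := exists_vals_mul_right hP hγ
    obtain ⟨c', hc'⟩ := exists_vals_mul_right hP' hγ
    simp only [hB, (hc g).1, (hc g).2.1, (hc' g).1, (hc' g).2.2.1]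
    ring
  have h1 := sum_out_mul_left B hBinv fTau⁻¹
  have h2 : ∀ y : SL(2, ℤ) ⧸ Γ,
      ((vZero P (Quotient.out y) - vInf P (Quotient.out y)) *
          (vOne P' (Quotient.out y) - vInf P' (Quotient.out y)) -
        (vOne P (Quotient.out y) - vInf P (Quotient.out y)) *
          (vZero P' (Quotient.out y) - vInf P' (Quotient.out y))) =
      (vInf P (Quotient.out y) + vZero P (Quotient.out y) -
        2 * vOne P (Quotient.out y)) * edgZ P' (Quotient.out y) - B (Quotient.out y) +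
        B (fTau⁻¹ * Quotient.out y) := by
    intro y
    simp only [hB, edgZ, vInf_fTau_inv_mul, vZero_fTau_inv_mul, vOne_fTau_inv_mul]
    ring
  simp only [h2, Finset.sum_add_distrib, Finset.sum_sub_distrib, h1]
  ring

/-- **the integral cup product is one third of the Farey integral of the cup cocycle.** -/
theorem cupZsum_mul_three (hP : IsQPot Γ P) (hP' : IsQPot Γ P') :
    ((cupZsum Γ P P' : ℤ) : ℚ) * 3 = triSum Γ (cupXi P P') := by
  rw [triSum_cupXi_eq_cast, ← sum_F_eq_sum_Xi hP hP', ← sum_vNeg_sub_vOne_mul_edgZ hP hP']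
  have h : cupZsum Γ P P' * 3 = ∑ y : SL(2, ℤ) ⧸ Γ,
      (vNeg P (Quotient.out y) - vOne P (Quotient.out y)) * edgZ P' (Quotient.out y) := by
    have h0 := sum_triR_S_sub_mul_edgZ hP hP'
    have h1 : ∀ y : SL(2, ℤ) ⧸ Γ, jmpZ P (Quotient.out y) * edgZ P' (Quotient.out y) * 3 =
        (vNeg P (Quotient.out y) - vOne P (Quotient.out y)) * edgZ P' (Quotient.out y) -
        (triR P (ModularGroup.S * Quotient.out y) - triR P (Quotient.out y)) *
          edgZ P' (Quotient.out y) := by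
      intro y
      have := three_mul_jmpZ P (Quotient.out y)
      linear_combination edgZ P' (Quotient.out y) * this
    rw [cupZsum, Finset.sum_mul]
    simp only [h1, Finset.sum_sub_distrib, h0, sub_zero]
  exact_mod_cast congrArg (fun n : ℤ => (n : ℚ)) h

end Rel

end Fermat.Agent.LR
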