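/-
PROJECT LR (S41), package [DUAL] (helper6), part 13: **`p`-saturation of the integral cup
product** (`p` odd), modulo two inputs stated as hypotheses:

* `GraphSatHyp` ([LA], helper4): for a connected graph, (cycle space)^⊥ ⊆ cut space mod `p`;
* `IntegHyp` ([INTEG], helper7): every closed `Γ`-invariant integral Farey edge function is the
  differential of the potential of a parabolic homomorphism.

`dvd_hom_of_dvd_cupZsum` : if `p ∣ cupZsum Γ P P'` for the potentials `P'` of all parabolic `ψ'`, then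
`p ∣ ψ γ` for all `γ ∈ Γ` (`P` a potential of `ψ`).
-/
import Fermat.Agent.LR.DUAL_helper6_IntForm

set_option autoImplicit false

namespace Fermat.Agent.LR

open OnePoint Matrix.SpecialLinearGroup CongruenceSubgroup ModularCurve.Period
open scoped MatrixGroups

/-- **[LA]** as a hypothesis. -/
def GraphSatHyp : Prop :=
  ∀ (Y Tr : Type) [Fintype Y] [DecidableEq Y] [Fintype Tr] [DecidableEq Tr]
    (s : Y → Y) (_ : ∀ y, s (s y) = y) (π : Y → Tr) (_ : Function.Surjective π)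
    (_ : ∀ U : Set Y, U.Nonempty → (∀ y ∈ U, s y ∈ U) →
      (∀ y ∈ U, ∀ y', π y' = π y → y' ∈ U) → U = Set.univ)
    (p : ℕ) (_ : p.Prime) (_ : p ≠ 2)
    (mstar : Y → ℤ) (_ : ∀ y, mstar (s y) = - mstar y)
    (_ : ∀ m : Y → ℤ, (∀ y, m (s y) = - m y) →
      (∀ T, ∑ y ∈ Finset.univ.filter (fun y => π y = T), m y = 0) →
      (p : ℤ) ∣ ∑ y, mstar y * m y),
    ∃ c : Tr → ℤ, ∀ y, (p : ℤ) ∣ mstar y - (c (π (s y)) - c (π y))

/-- **[INTEG]** as a hypothesis. -/
def IntegHyp : Prop :=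
  ∀ (Γ : Subgroup SL(2, ℤ)) (_ : (-1 : SL(2, ℤ)) ∈ Γ)
    (m : SL(2, ℤ) → ℤ) (_ : ∀ g, ∀ γ ∈ Γ, m (g * γ) = m g)
    (_ : ∀ g, m (ModularGroup.S * g) = - m g)
    (_ : ∀ g, m g + m (fTau⁻¹ * g) + m (fTau⁻¹ * (fTau⁻¹ * g)) = 0),
    ∃ (ψ : Additive Γ →+ ℤ) (P : OnePoint ℚ → ℤ), IsParabolicHom Γ ψ ∧ IsPot Γ ψ P ∧
      ∀ g : SL(2, ℤ), P (slAct g⁻¹ ((0:ℚ) : OnePoint ℚ)) - P (slAct g⁻¹ ∞) = m g

variable {Γ : Subgroup SL(2, ℤ)}

theorem neg_one_smul_quotSL (hneg : (-1 : SL(2, ℤ)) ∈ Γ) (y : SL(2, ℤ) ⧸ Γ) :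
    (-1 : SL(2, ℤ)) • y = y := by
  induction y using QuotientGroup.induction_on with
  | H g =>
    show (QuotientGroup.mk ((-1 : SL(2, ℤ)) * g) : SL(2, ℤ) ⧸ Γ) = QuotientGroup.mk g
    rw [QuotientGroup.eq]
    have : ((-1 : SL(2, ℤ)) * g)⁻¹ * g = -1 := by simp
    rw [this]
    exact hneg

theorem S_smul_S_smul (hneg : (-1 : SL(2, ℤ)) ∈ Γ) (y : SL(2, ℤ) ⧸ Γ) :
    ModularGroup.S • ModularGroup.S • y = y := by
  rw [← mul_smul, S_mul_S, neg_one_smul_quotSL hneg]

theorem fTau_inv_smul_cube (hneg : (-1 : SL(2, ℤ)) ∈ Γ) (y : SL(2, ℤ) ⧸ Γ) :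
    fTau⁻¹ • fTau⁻¹ • fTau⁻¹ • y = y := by
  have h : fTau⁻¹ * fTau⁻¹ * fTau⁻¹ = (-1 : SL(2, ℤ)) := by decide
  rw [← mul_smul, ← mul_smul, h, neg_one_smul_quotSL hneg]

theorem apply_out_smul {M : Type*} (F : SL(2, ℤ) → M)
    (hF : ∀ g, ∀ γ ∈ Γ, F (g * γ) = F g) (h : SL(2, ℤ)) (y : SL(2, ℤ) ⧸ Γ) :
    F (Quotient.out (h • y : SL(2, ℤ) ⧸ Γ)) = F (h * Quotient.out y) := by
  have e : h • y = (QuotientGroup.mk (h * Quotient.out y) : SL(2, ℤ) ⧸ Γ) := by
    conv_lhs => rw [← QuotientGroup.out_eq' y]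
    rfl
  rw [e, apply_outSL_eq F hF]

/-- the three edges of the triangle of `y`, as a finite set of cosets. -/
noncomputable def triFib (y : SL(2, ℤ) ⧸ Γ) : Finset (SL(2, ℤ) ⧸ Γ) := by
  classical
  exact {y, fTau⁻¹ • y, fTau⁻¹ • fTau⁻¹ • y}

theorem mem_triFib {y y' : SL(2, ℤ) ⧸ Γ} :
    y' ∈ triFib y ↔ y' = y ∨ y' = fTau⁻¹ • y ∨ y' = fTau⁻¹ • fTau⁻¹ • y := by
  classical
  simp [triFib]

theorem triFib_fTau_inv_smul (hneg : (-1 : SL(2, ℤ)) ∈ Γ) (y : SL(2, ℤ) ⧸ Γ) :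
    triFib (fTau⁻¹ • y) = triFib y := by
  ext z
  rw [mem_triFib, mem_triFib, fTau_inv_smul_cube hneg]
  tauto

theorem triFib_eq_of_mem (hneg : (-1 : SL(2, ℤ)) ∈ Γ) {y y' : SL(2, ℤ) ⧸ Γ}
    (h : y' ∈ triFib y) : triFib y' = triFib y := by
  rcases mem_triFib.mp h with rfl | rfl | rfl
  · rfl
  · exact triFib_fTau_inv_smul hneg y
  · rw [triFib_fTau_inv_smul hneg, triFib_fTau_inv_smul hneg]

theorem self_mem_triFib (y : SL(2, ℤ) ⧸ Γ) : y ∈ triFib y := mem_triFib.mpr (Or.inl rfl)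

/-- a function whose sums over the triangles vanish is closed in the `3`-term sense. -/
theorem sum_three_of_sum_triFib (hneg : (-1 : SL(2, ℤ)) ∈ Γ) (m : SL(2, ℤ) ⧸ Γ → ℤ)
    (y : SL(2, ℤ) ⧸ Γ) (h : ∑ z ∈ triFib y, m z = 0) :
    m y + m (fTau⁻¹ • y) + m (fTau⁻¹ • fTau⁻¹ • y) = 0 := by
  classical
  by_cases hfix : fTau⁻¹ • y = y
  · have h1 : triFib y = {y} := by
      ext z
      rw [mem_triFib, hfix, hfix]
      simp
    rw [h1, Finset.sum_singleton] at h
    rw [hfix, hfix, h]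
    ring
  · have h2 : fTau⁻¹ • fTau⁻¹ • y ≠ fTau⁻¹ • y := fun e => hfix (smul_left_cancel _ e)
    have h3 : fTau⁻¹ • fTau⁻¹ • y ≠ y := by
      intro e
      have := fTau_inv_smul_cube hneg y
      rw [e] at this
      exact hfix this
    have h1 : ∑ z ∈ triFib y, m z = m y + (m (fTau⁻¹ • y) + m (fTau⁻¹ • fTau⁻¹ • y)) := by
      unfold triFib
      rw [Finset.sum_insert, Finset.sum_insert, Finset.sum_singleton]
      · rw [Finset.mem_singleton]; exact fun e => h2 e.symm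
      · simp only [Finset.mem_insert, Finset.mem_singleton, not_or]
        exact ⟨fun e => hfix e.symm, fun e => h3 e.symm⟩
    rw [h1] at h
    linarith

/-- **`p`-saturation of the integral cup product**, core statement. -/
theorem dvd_hom_of_dvd_cupZsum (hLA : GraphSatHyp) (hIN : IntegHyp) [Γ.FiniteIndex]
    (hneg : (-1 : SL(2, ℤ)) ∈ Γ) {p : ℕ} (hp : p.Prime) (hp2 : p ≠ 2)
    {ψ : Additive Γ →+ ℤ} {P : OnePoint ℚ → ℤ} (hP : IsPot Γ ψ P)
    (H : ∀ (ψ' : Additive Γ →+ ℤ) (P' : OnePoint ℚ → ℤ), IsParabolicHom Γ ψ' → IsPot Γ ψ' P' →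
      (p : ℤ) ∣ cupZsum Γ P P') :
    ∀ γ : Γ, (p : ℤ) ∣ ψ (Additive.ofMul γ) := by
  classical
  have hjinv : ∀ g, ∀ γ ∈ Γ, jmpZ P (g * γ) = jmpZ P g := fun g γ hγ =>
    jmpZ_mul_right hP.isQPot g hγ
  -- the graph
  let Y := SL(2, ℤ) ⧸ Γ
  let s : Y → Y := fun y => ModularGroup.S • y
  let Tr := {T : Finset Y // ∃ y : Y, triFib y = T}
  let π : Y → Tr := fun y => ⟨triFib y, y, rfl⟩
  have hπeq : ∀ y y' : Y, π y' = π y ↔ y' ∈ triFib y := by
    intro y y'
    constructor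
    · intro h
      have h' : triFib y' = triFib y := congrArg Subtype.val h
      rw [← h']
      exact self_mem_triFib y'
    · intro h
      exact Subtype.ext (triFib_eq_of_mem hneg h)
  have hπτ : ∀ y : Y, π (fTau⁻¹ • y) = π y := fun y =>
    Subtype.ext (triFib_fTau_inv_smul hneg y)
  have hconn : ∀ U : Set Y, U.Nonempty → (∀ y ∈ U, s y ∈ U) →
      (∀ y ∈ U, ∀ y', π y' = π y → y' ∈ U) → U = Set.univ := by
    intro U ⟨y₀, hy₀⟩ hUs hUπ
    have hUτ : ∀ y ∈ U, fTau⁻¹ • y ∈ U := fun y hy => hUπ y hy _ (hπτ y)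
    have hC := const_of_S_fTau_invariant (Γ := Γ) (fun y => y ∈ U)
      (fun y => propext ⟨fun h => by
          have := hUs _ h
          rwa [show s (ModularGroup.S • y) = y from S_smul_S_smul hneg y] at this,
        fun h => hUs y h⟩)
      (fun y => propext ⟨fun h => by
          have := hUτ _ (hUτ _ h)
          rwa [fTau_inv_smul_cube hneg] at this,
        fun h => hUτ y h⟩)
    ext y
    simp only [Set.mem_univ, iff_true]
    have := hC y y₀
    simp only [eq_iff_iff] at this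
    exact this.mpr hy₀
  -- the dual cocycle
  let mstar : Y → ℤ := fun y => jmpZ P (Quotient.out y)
  have hmstar : ∀ g : SL(2, ℤ), mstar (QuotientGroup.mk g) = jmpZ P g := fun g =>
    apply_outSL_eq (jmpZ P) hjinv g
  have hanti : ∀ y, mstar (s y) = - mstar y := by
    intro y
    show jmpZ P (Quotient.out (ModularGroup.S • y : SL(2, ℤ) ⧸ Γ)) = - jmpZ P (Quotient.out y)
    rw [apply_out_smul (jmpZ P) hjinv, jmpZ_S_mul]
  have hH : ∀ m : Y → ℤ, (∀ y, m (s y) = - m y) →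
      (∀ T, ∑ y ∈ Finset.univ.filter (fun y => π y = T), m y = 0) →
      (p : ℤ) ∣ ∑ y, mstar y * m y := by
    intro m hms hmT
    have hfil : ∀ y : Y, Finset.univ.filter (fun y' => π y' = π y) = triFib y := by
      intro y
      ext y'
      simp only [Finset.mem_filter, Finset.mem_univ, true_and]
      exact hπeq y y'
    obtain ⟨ψ', P', hψ', hP', hedge⟩ := hIN Γ hneg (fun g => m (QuotientGroup.mk g))
      (fun g γ hγ => by
        show m (QuotientGroup.mk (g * γ)) = m (QuotientGroup.mk g)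
        congr 1
        rw [QuotientGroup.eq]
        simpa using hγ)
      (fun g => hms (QuotientGroup.mk g))
      (fun g => by
        have := sum_three_of_sum_triFib hneg m (QuotientGroup.mk g)
          (by rw [← hfil]; exact hmT _)
        exact this)
    have hsum : cupZsum Γ P P' = ∑ y, mstar y * m y := by
      refine Finset.sum_congr rfl fun y _ => ?_
      have : edgZ P' (Quotient.out y) = m y := by
        have := hedge (Quotient.out y)
        rw [QuotientGroup.out_eq'] at this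
        exact this
      rw [this]
    rw [← hsum]
    exact H ψ' P' hψ' hP'
  obtain ⟨c, hc⟩ := hLA Y Tr s (fun y => S_smul_S_smul hneg y) π
    (fun T => by obtain ⟨T, y, rfl⟩ := T; exact ⟨y, rfl⟩) hconn p hp hp2 mstar hanti hH
  -- the corrected triangle potential is constant mod `p`
  obtain ⟨Q', hQ'⟩ : ∃ Q' : SL(2, ℤ) → ℤ,
      ∀ g, Q' g = triQ P g - c (π (QuotientGroup.mk g)) := ⟨_, fun _ => rfl⟩
  let K : Subgroup SL(2, ℤ) :=
    { carrier := {h | ∀ g, (p : ℤ) ∣ Q' (h * g) - Q' g}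
      one_mem' := fun g => by simp
      mul_mem' := fun {a b} ha hb g => by
        have := dvd_add (ha (b * g)) (hb g)
        have e : Q' (a * b * g) - Q' g = Q' (a * (b * g)) - Q' (b * g) + (Q' (b * g) - Q' g) := by
          rw [mul_assoc]; ring
        rw [e]
        exact this
      inv_mem' := fun {a} ha g => by
        have := ha (a⁻¹ * g)
        rw [mul_inv_cancel_left] at this
        have := (dvd_neg (a := (p:ℤ))).mpr this
        have e : Q' (a⁻¹ * g) - Q' g = -(Q' g - Q' (a⁻¹ * g)) := by ring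
        rw [e]
        exact this }
  have hK : K = ⊤ := by
    rw [eq_top_iff, ← closure_S_fTau, Subgroup.closure_le]
    rintro x (rfl | rfl)
    · intro g
      have := hc (QuotientGroup.mk g)
      rw [hmstar] at this
      show (p : ℤ) ∣ Q' (ModularGroup.S * g) - Q' g
      have e : (QuotientGroup.mk (ModularGroup.S * g) : SL(2, ℤ) ⧸ Γ) = s (QuotientGroup.mk g) := rfl
      have e' : Q' (ModularGroup.S * g) - Q' g =
          jmpZ P g - (c (π (s (QuotientGroup.mk g))) - c (π (QuotientGroup.mk g))) := by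
        rw [hQ', hQ', e, jmpZ]; ring
      rw [e']
      exact this
    · intro g
      show (p : ℤ) ∣ Q' (fTau * g) - Q' g
      rw [hQ', hQ']
      have e1 : triQ P (fTau * g) = triQ P g := by
        have := triQ_fTau_inv_mul P (fTau * g)
        rw [inv_mul_cancel_left] at this
        exact this.symm
      have e2 : π (QuotientGroup.mk (fTau * g)) = π (QuotientGroup.mk g) := by
        have := hπτ (QuotientGroup.mk (fTau * g))
        rw [← this]
        congr 1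
        show (QuotientGroup.mk (fTau⁻¹ * (fTau * g)) : SL(2, ℤ) ⧸ Γ) = _
        rw [inv_mul_cancel_left]
      rw [e1, e2]
      simp
  intro γ
  have h1 : (p : ℤ) ∣ Q' ((γ : SL(2, ℤ)) * 1) - Q' 1 := by
    have : (γ : SL(2, ℤ)) ∈ K := by rw [hK]; trivial
    exact this 1
  obtain ⟨k, hk, hkQ⟩ := triQ_mul_right hP.isQPot γ.2
  have hkψ : k = - ψ (Additive.ofMul γ) := by
    have h2 := hk ∞
    have h3 := hP γ⁻¹ ∞
    rw [Subgroup.coe_inv] at h3
    rw [h3] at h2
    have h4 : ψ (Additive.ofMul γ⁻¹) = - ψ (Additive.ofMul γ) := by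
      rw [ofMul_inv, map_neg]
    linarith
  have h5 : Q' ((γ : SL(2, ℤ)) * 1) - Q' 1 = - ψ (Additive.ofMul γ) := by
    rw [hQ', hQ']
    have e1 : (γ : SL(2, ℤ)) * 1 = 1 * (γ : SL(2, ℤ)) := by rw [mul_one, one_mul]
    have e2 : (QuotientGroup.mk ((γ : SL(2, ℤ)) * 1) : SL(2, ℤ) ⧸ Γ) = QuotientGroup.mk 1 := by
      rw [QuotientGroup.eq]
      simp
    rw [e2, e1, hkQ 1, hkψ]
    ring
  rw [h5] at h1
  exact (dvd_neg (a := (p:ℤ))).mp h1

end Fermat.Agent.LR
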