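/-
PROJECT LR (S41), package [DUAL] (helper6), part 10: **the adjunctions `(α^*, α_*)` and
`(β^*, β_*)`** for `cupQ`, against helper4's `pullAPar/pullBPar/pushAPar/pushBPar`.
-/
import Fermat.Agent.LR.DUAL_helper6_CupQ

set_option autoImplicit false

namespace Fermat.Agent.LR

open OnePoint Matrix Matrix.SpecialLinearGroup CongruenceSubgroup ModularCurve.Period ModularForm
open Fermat.Agent.GR Fermat.Agent.X0N
open scoped MatrixGroups

/-- `diag(1, q) ∈ GL₂(ℚ)`. -/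
noncomputable def sigQ (q : ℕ) [NeZero q] : GL (Fin 2) ℚ :=
  Matrix.GeneralLinearGroup.mkOfDetNeZero !![1, 0; 0, (q : ℚ)]
    (by rw [Matrix.det_fin_two_of]; simpa using NeZero.ne q)

theorem coe_sigQ (q : ℕ) [NeZero q] :
    ((sigQ q : GL (Fin 2) ℚ) : Matrix (Fin 2) (Fin 2) ℚ) = !![1, 0; 0, (q : ℚ)] := rfl

theorem glQR_sigQ (q : ℕ) [NeZero q] : glQR (sigQ q) = heckeMatrix q 0 := by
  ext i j
  rw [val_heckeMatrix (NeZero.ne q)]
  have h : ((glQR (sigQ q) : GL (Fin 2) ℝ) : Matrix (Fin 2) (Fin 2) ℝ) i j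
      = (((sigQ q : GL (Fin 2) ℚ) : Matrix (Fin 2) (Fin 2) ℚ) i j : ℝ) := rfl
  rw [h, coe_sigQ]
  fin_cases i <;> fin_cases j <;> simp

theorem det_sigQ_pos (q : ℕ) [NeZero q] :
    0 < ((sigQ q : GL (Fin 2) ℚ) : Matrix (Fin 2) (Fin 2) ℚ).det := by
  rw [coe_sigQ, Matrix.det_fin_two_of]
  have : (0:ℚ) < q := by exact_mod_cast Nat.pos_of_ne_zero (NeZero.ne q)
  simpa using this

theorem index_Gamma0_mul_prime (M q : ℕ) [NeZero M] [NeZero q] (hq : q.Prime) (hqM : ¬ q ∣ M) :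
    (Gamma0 (M * q)).index = Fintype.card (Option (Fin q)) * (Gamma0 M).index := by
  rw [Fermat.Agent.X0N.index_Gamma0, Fermat.Agent.X0N.index_Gamma0,
    Fermat.Agent.X0N.dedekindPsi_mul ((Nat.Prime.coprime_iff_not_dvd hq).mpr hqM).symm]
  have := Fermat.Agent.X0N.dedekindPsi_prime_pow hq (n := 1) one_pos
  rw [pow_one] at this
  rw [this]
  simp
  ring

theorem Gamma_le_Gamma0 (N : ℕ) : Gamma N ≤ Gamma0 N := by
  intro γ hγ
  rw [Gamma_mem] at hγ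
  rw [Gamma0_mem]
  exact hγ.2.2.1

theorem dvd_of_mem_Gamma {N : ℕ} {γ : SL(2, ℤ)} (hγ : γ ∈ Gamma N) :
    (N : ℤ) ∣ γ 0 1 ∧ (N : ℤ) ∣ γ 1 0 := by
  rw [Gamma_mem] at hγ
  exact ⟨(ZMod.intCast_zmod_eq_zero_iff_dvd _ _).mp hγ.2.1,
    (ZMod.intCast_zmod_eq_zero_iff_dvd _ _).mp hγ.2.2.1⟩

section Adj

variable (M q : ℕ) [NeZero M] [NeZero q] (hq : q.Prime) (hqM : ¬ q ∣ M)

/-- **`(α^*, α_*)` are adjoint for the cup product.** -/
theorem cupQ_pullA_pushA (φ : parabolicHoms ℤ (Gamma0 M) ℤ)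
    (ψ' : parabolicHoms ℤ (Gamma0 (M * q)) ℤ) :
    cupQ (M * q) (pullAPar M q ℤ ℤ φ) ψ' = cupQ M φ (pushAPar M q hq hqM ℤ ℤ ψ') := by
  set Q := potOf φ with hQdef
  set P' := potOf ψ' with hP'def
  have hQ : IsPot (Gamma0 M) (φ : Additive (Gamma0 M) →+ ℤ) Q := isPot_potOf φ
  have hP' : IsPot (Gamma0 (M * q)) (ψ' : Additive (Gamma0 (M * q)) →+ ℤ) P' := isPot_potOf ψ'
  set X := xferAlpha M q (bez_eq hq hqM) hq with hX
  set g : Option (Fin q) → SL(2, ℤ) := fun i => ((alphaRep M q (bez_eq hq hqM) i : Gamma0 M) : SL(2, ℤ))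
    with hg
  -- potentials of `α^* φ` and `α_* ψ'`
  have hpull : IsPot (Gamma0 (M * q)) (pullA M q ℤ (φ : Additive (Gamma0 M) →+ ℤ))
      (fun x => Q ((1 : GL (Fin 2) ℚ)⁻¹ • x)) :=
    isPot_pullHom (inclHom M q) 1 (fun γ => by rw [one_mul, mul_one]; rfl) hQ
  have htr : IsPot (Gamma0 M) (pushA M q hq hqM ℤ (ψ' : Additive (Gamma0 (M * q)) →+ ℤ))
      (fun x => ∑ i, P' ((1 : GL (Fin 2) ℚ) • slAct (g i) x)) := by
    have := isPot_transferGrp X rfl rfl (fun i => 1 * mapGL ℚ (g i))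
      (fun i => by rw [one_mul, glQR_mapGL]; exact xferAlpha_α M q (bez_eq hq hqM) hq i) hP'
    refine fun γ x => ?_
    have h2 := this γ x
    simp only [mul_smul] at h2
    exact h2
  rw [cupQ_eq_of_isPot (ψ₁ := pullAPar M q ℤ ℤ φ) (ψ₂ := ψ') hpull hP',
    cupQ_eq_of_isPot (ψ₁ := φ) (ψ₂ := pushAPar M q hq hqM ℤ ℤ ψ') hQ htr]
  refine triSum_cupXi_adjoint (Γ'' := Gamma (M * q)) (neg_one_mem_Gamma0' M)
    (neg_one_mem_Gamma0' (M * q)) ((Gamma_le_Gamma0 _).trans (Gamma0_mul_le M q)) 1 (by simp) g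
    (fun i => (alphaRep M q (bez_eq hq hqM) i).2) hQ.isQPot hP'.isQPot hpull.isQPot htr.isQPot
    ?_ (index_Gamma0_mul_prime M q hq hqM)
  intro i γ'' hγ''
  refine ⟨g i * γ'' * (g i)⁻¹, Gamma_le_Gamma0 _ ((Gamma_normal (M * q)).conj_mem γ'' hγ'' (g i)), ?_⟩
  rw [one_mul, map_mul, map_mul, map_inv]
  group

/-- **`(β^*, β_*)` are adjoint for the cup product.** -/
theorem cupQ_pullB_pushB (φ : parabolicHoms ℤ (Gamma0 M) ℤ)
    (ψ' : parabolicHoms ℤ (Gamma0 (M * q)) ℤ) :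
    cupQ (M * q) (pullBPar M q hq ℤ ℤ φ) ψ' = cupQ M φ (pushBPar M q hq hqM ℤ ℤ ψ') := by
  set Q := potOf φ with hQdef
  set P' := potOf ψ' with hP'def
  have hQ : IsPot (Gamma0 M) (φ : Additive (Gamma0 M) →+ ℤ) Q := isPot_potOf φ
  have hP' : IsPot (Gamma0 (M * q)) (ψ' : Additive (Gamma0 (M * q)) →+ ℤ) P' := isPot_potOf ψ'
  set X := xferBeta M q (bez_eq hq hqM) hq with hX
  set g : Option (Fin q) → SL(2, ℤ) := fun i => ((betaRep M q (bez_eq hq hqM) i : Gamma0 M) : SL(2, ℤ))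
    with hg
  have hpull : IsPot (Gamma0 (M * q)) (pullB M q hq ℤ (φ : Additive (Gamma0 M) →+ ℤ))
      (fun x => Q ((sigQ q)⁻¹ • x)) :=
    isPot_pullHom (conjDownHom M q hq) (sigQ q) (fun γ => by
      apply glQR_injective
      rw [map_mul, map_mul, glQR_sigQ, glQR_gammaEmb, glQR_gammaEmb]
      exact heckeMatrix_mul_conjDownHom M q hq γ) hQ
  have htr : IsPot (Gamma0 M) (pushB M q hq hqM ℤ (ψ' : Additive (Gamma0 (M * q)) →+ ℤ))
      (fun x => ∑ i, P' (sigQ q • slAct (g i) x)) := by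
    have := isPot_transferGrp X rfl rfl (fun i => sigQ q * mapGL ℚ (g i))
      (fun i => by
        rw [map_mul, glQR_sigQ, glQR_mapGL]
        exact xferBeta_α M q (bez_eq hq hqM) hq i) hP'
    refine fun γ x => ?_
    have h2 := this γ x
    simp only [mul_smul] at h2
    exact h2
  rw [cupQ_eq_of_isPot (ψ₁ := pullBPar M q hq ℤ ℤ φ) (ψ₂ := ψ') hpull hP',
    cupQ_eq_of_isPot (ψ₁ := φ) (ψ₂ := pushBPar M q hq hqM ℤ ℤ ψ') hQ htr]
  refine triSum_cupXi_adjoint (Γ'' := Gamma (M * q)) (neg_one_mem_Gamma0' M)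
    (neg_one_mem_Gamma0' (M * q)) ((Gamma_le_Gamma0 _).trans (Gamma0_mul_le M q)) (sigQ q)
    (det_sigQ_pos q) g
    (fun i => (betaRep M q (bez_eq hq hqM) i).2) hQ.isQPot hP'.isQPot hpull.isQPot htr.isQPot
    ?_ (index_Gamma0_mul_prime M q hq hqM)
  intro i γ'' hγ''
  obtain ⟨δ, hδ⟩ : ∃ δ : SL(2, ℤ), δ = g i * γ'' * (g i)⁻¹ := ⟨_, rfl⟩
  have hδmem : δ ∈ Gamma (M * q) := hδ ▸ (Gamma_normal (M * q)).conj_mem γ'' hγ'' (g i)
  obtain ⟨h01, h10⟩ := dvd_of_mem_Gamma hδmem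
  have hq01 : (q : ℤ) ∣ δ 0 1 := dvd_trans ⟨(M : ℤ), by push_cast; ring⟩ h01
  refine ⟨xferdConjDiag q δ hq01, ?_, ?_⟩
  · rw [Gamma0_mem]
    show (((q : ℤ) * δ 1 0 : ℤ) : ZMod (M * q)) = 0
    rw [ZMod.intCast_zmod_eq_zero_iff_dvd]
    exact dvd_trans h10 (dvd_mul_left _ _)
  · have key : sigQ q * mapGL ℚ δ = mapGL ℚ (xferdConjDiag q δ hq01) * sigQ q := by
      apply glQR_injective
      rw [map_mul, map_mul, glQR_sigQ, glQR_mapGL, glQR_mapGL]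
      exact (((isZMat_heckeMatrix_zero (NeZero.ne q)).mul (isZMat_mapGL δ)).eq_iff
        ((isZMat_mapGL _).mul (isZMat_heckeMatrix_zero (NeZero.ne q)))).mpr
        (utZ_mul_xferdConjDiag q δ hq01)
    calc sigQ q * mapGL ℚ (g i) * mapGL ℚ γ''
        = sigQ q * mapGL ℚ δ * mapGL ℚ (g i) := by
          rw [hδ, map_mul, map_mul, map_inv]; group
      _ = mapGL ℚ (xferdConjDiag q δ hq01) * (sigQ q * mapGL ℚ (g i)) := by
          rw [key, mul_assoc]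

end Adj

end Fermat.Agent.LR
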