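/-
PROJECT LR (S41), package [DUAL] (helper6), part 11: **the Hecke operators `T_q` (`q ∤ M`) are
self-adjoint for the cup product** — a formal consequence of the two adjunctions, the
antisymmetry of `cupQ` and helper4's `β_* α^* = T_q = α_* β^*`.
-/
import Fermat.Agent.LR.DUAL_helper6_AdjG0
import Fermat.Agent.LR.XFER_helper4_JI

set_option autoImplicit false

namespace Fermat.Agent.LR

open OnePoint Matrix Matrix.SpecialLinearGroup CongruenceSubgroup ModularCurve.Period ModularForm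
open Fermat.Agent.GR Fermat.Agent.X0N
open scoped MatrixGroups

section SelfAdj

variable (M q : ℕ) [NeZero M] [NeZero q] (hq : q.Prime) (hqM : ¬ q ∣ M)

/-- the adjunction `(α^*, α_*)`, with the push-forward on the left. -/
theorem cupQ_pushA_pullA (ψ' : parabolicHoms ℤ (Gamma0 (M * q)) ℤ)
    (φ : parabolicHoms ℤ (Gamma0 M) ℤ) :
    cupQ M (pushAPar M q hq hqM ℤ ℤ ψ') φ = cupQ (M * q) ψ' (pullAPar M q ℤ ℤ φ) := by
  rw [cupQ_swap, ← cupQ_pullA_pushA, cupQ_swap, neg_neg]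

/-- the adjunction `(β^*, β_*)`, with the push-forward on the left. -/
theorem cupQ_pushB_pullB (ψ' : parabolicHoms ℤ (Gamma0 (M * q)) ℤ)
    (φ : parabolicHoms ℤ (Gamma0 M) ℤ) :
    cupQ M (pushBPar M q hq hqM ℤ ℤ ψ') φ = cupQ (M * q) ψ' (pullBPar M q hq ℤ ℤ φ) := by
  rw [cupQ_swap, ← cupQ_pullB_pushB, cupQ_swap, neg_neg]

include hqM in
/-- **`T_q` is self-adjoint for the cup product** (`q ∤ M` prime). -/
theorem cupQ_heckeParP (x y : parabolicHoms ℤ (Gamma0 M) ℤ) :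
    cupQ M (heckeParP M ⟨q, hq⟩ ℤ ℤ x) y = cupQ M x (heckeParP M ⟨q, hq⟩ ℤ ℤ y) := by
  rw [← pushBPar_pullAPar M q hq hqM ℤ ℤ x, cupQ_pushB_pullB, cupQ_pullA_pushA M q hq hqM,
    pushAPar_pullBPar]

end SelfAdj

end Fermat.Agent.LR
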