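/-
PROJECT LR (S41), package [DUAL] (helper6), part 14: **the integral cup product `cupZ N` on
`L_N = H¹_par(Γ₀(N), ℤ)`**: a `ℤ`-bilinear alternating form with `3 · cupZ = cupQ`, for which
`α^* ⊣ α_*`, `β^* ⊣ β_*`, the `T_q` (`q ∤ N`) are self-adjoint, and which is `p`-saturated for
every odd prime `p` (modulo the hypotheses `GraphSatHyp`, `IntegHyp`).
-/
import Fermat.Agent.LR.DUAL_helper6_Sat
import Fermat.Agent.LR.DUAL_helper6_SelfAdj

set_option autoImplicit false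

namespace Fermat.Agent.LR

open OnePoint Matrix.SpecialLinearGroup CongruenceSubgroup ModularCurve.Period ModularForm
open Fermat.Agent.GR Fermat.Agent.X0N
open scoped MatrixGroups

section

variable (N : ℕ) [NeZero N]

/-- the integral cup product, as a function. -/
noncomputable def cupZfun (x y : parabolicHoms ℤ (Gamma0 N) ℤ) : ℤ :=
  cupZsum (Gamma0 N) (potOf x) (potOf y)

theorem cupZfun_cast (x y : parabolicHoms ℤ (Gamma0 N) ℤ) :
    ((cupZfun N x y : ℤ) : ℚ) * 3 = cupQ N x y :=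
  cupZsum_mul_three (isPot_potOf x).isQPot (isPot_potOf y).isQPot

theorem cupZfun_eq_iff (a b : ℤ) (r : ℚ) (ha : (a : ℚ) * 3 = r) (hb : (b : ℚ) * 3 = r) : a = b := by
  have : (a : ℚ) = b := mul_right_cancel₀ (by norm_num : (3:ℚ) ≠ 0) (ha.trans hb.symm)
  exact_mod_cast this

/-- **the integral cup product on `L_N`.** -/
noncomputable def cupZ : parabolicHoms ℤ (Gamma0 N) ℤ →ₗ[ℤ] parabolicHoms ℤ (Gamma0 N) ℤ →ₗ[ℤ] ℤ :=
  LinearMap.mk₂ ℤ (cupZfun N)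
    (fun x x' y => cupZfun_eq_iff _ _ (cupQ N (x + x') y) (cupZfun_cast N _ _) (by
      push_cast
      rw [add_mul, cupZfun_cast, cupZfun_cast, cupQ_add_left]))
    (fun n x y => cupZfun_eq_iff _ _ (cupQ N (n • x) y) (cupZfun_cast N _ _) (by
      rw [smul_eq_mul]
      push_cast
      rw [mul_assoc, cupZfun_cast, cupQ_smul_left]))
    (fun x y y' => cupZfun_eq_iff _ _ (cupQ N x (y + y')) (cupZfun_cast N _ _) (by
      push_cast
      rw [add_mul, cupZfun_cast, cupZfun_cast, cupQ_add_right]))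
    (fun n x y => cupZfun_eq_iff _ _ (cupQ N x (n • y)) (cupZfun_cast N _ _) (by
      rw [smul_eq_mul]
      push_cast
      rw [mul_assoc, cupZfun_cast, cupQ_smul_right]))

theorem cupZ_cast (x y : parabolicHoms ℤ (Gamma0 N) ℤ) :
    ((cupZ N x y : ℤ) : ℚ) * 3 = cupQ N x y :=
  cupZfun_cast N x y

variable {N}

theorem cupZ_eq_of_cupQ_eq {M : ℕ} [NeZero M] {x y : parabolicHoms ℤ (Gamma0 N) ℤ}
    {x' y' : parabolicHoms ℤ (Gamma0 M) ℤ} (h : cupQ N x y = cupQ M x' y') :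
    cupZ N x y = cupZ M x' y' :=
  cupZfun_eq_iff _ _ _ (cupZ_cast N x y) ((cupZ_cast M x' y').trans h.symm)

theorem cupZ_swap (x y : parabolicHoms ℤ (Gamma0 N) ℤ) : cupZ N y x = - cupZ N x y := by
  refine cupZfun_eq_iff _ _ (cupQ N y x) (cupZ_cast N y x) ?_
  push_cast
  rw [neg_mul, cupZ_cast, cupQ_swap, neg_neg]

end

section Adj

variable (M q : ℕ) [NeZero M] [NeZero q] (hq : q.Prime) (hqM : ¬ q ∣ M)

theorem cupZ_pullA_pushA (φ : parabolicHoms ℤ (Gamma0 M) ℤ)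
    (ψ' : parabolicHoms ℤ (Gamma0 (M * q)) ℤ) :
    cupZ (M * q) (pullAPar M q ℤ ℤ φ) ψ' = cupZ M φ (pushAPar M q hq hqM ℤ ℤ ψ') :=
  cupZ_eq_of_cupQ_eq (cupQ_pullA_pushA M q hq hqM φ ψ')

theorem cupZ_pullB_pushB (φ : parabolicHoms ℤ (Gamma0 M) ℤ)
    (ψ' : parabolicHoms ℤ (Gamma0 (M * q)) ℤ) :
    cupZ (M * q) (pullBPar M q hq ℤ ℤ φ) ψ' = cupZ M φ (pushBPar M q hq hqM ℤ ℤ ψ') :=
  cupZ_eq_of_cupQ_eq (cupQ_pullB_pushB M q hq hqM φ ψ')

include hqM in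
theorem cupZ_heckeParP (x y : parabolicHoms ℤ (Gamma0 M) ℤ) :
    cupZ M (heckeParP M ⟨q, hq⟩ ℤ ℤ x) y = cupZ M x (heckeParP M ⟨q, hq⟩ ℤ ℤ y) :=
  cupZ_eq_of_cupQ_eq (cupQ_heckeParP M q hq hqM x y)

end Adj

section Sat

variable {N : ℕ} [NeZero N]

/-- **`cupZ` is `p`-saturated** (`p` an odd prime), in the second variable. -/
theorem cupZ_sat (hLA : GraphSatHyp) (hIN : IntegHyp) {p : ℕ} (hp : p.Prime) (hp2 : p ≠ 2)
    (y : parabolicHoms ℤ (Gamma0 N) ℤ) (h : ∀ x, (p : ℤ) ∣ cupZ N x y) :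
    ∃ z : parabolicHoms ℤ (Gamma0 N) ℤ, y = (p : ℤ) • z := by
  have hp0 : (p : ℤ) ≠ 0 := by exact_mod_cast hp.ne_zero
  have hdvd : ∀ γ : Gamma0 N, (p : ℤ) ∣ (y : Additive (Gamma0 N) →+ ℤ) (Additive.ofMul γ) := by
    refine dvd_hom_of_dvd_cupZsum hLA hIN (neg_one_mem_Gamma0' N) hp hp2 (isPot_potOf y) ?_
    intro ψ' P' hψ' hP'
    set x : parabolicHoms ℤ (Gamma0 N) ℤ := ⟨ψ', mem_parabolicHoms_iff.mpr hψ'⟩ with hx
    have h1 : cupZsum (Gamma0 N) (potOf y) P' = cupZ N y x := by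
      refine cupZfun_eq_iff _ _ (cupQ N y x)
        ((cupZsum_mul_three (isPot_potOf y).isQPot hP'.isQPot).trans ?_) (cupZ_cast N y x)
      exact (cupQ_eq_of_isPot (ψ₁ := y) (ψ₂ := x) (isPot_potOf y) hP').symm
    rw [h1, cupZ_swap]
    exact (dvd_neg (a := (p:ℤ))).mpr (h x)
  -- divide by `p`
  let z₀ : Additive (Gamma0 N) →+ ℤ :=
    { toFun := fun γ => (y : Additive (Gamma0 N) →+ ℤ) γ / (p : ℤ)
      map_zero' := by simp
      map_add' := fun a b => by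
        obtain ⟨k, hk⟩ := hdvd (Additive.toMul a)
        obtain ⟨k', hk'⟩ := hdvd (Additive.toMul b)
        have ha : (y : Additive (Gamma0 N) →+ ℤ) a = (p : ℤ) * k := hk
        have hb : (y : Additive (Gamma0 N) →+ ℤ) b = (p : ℤ) * k' := hk'
        show (y : Additive (Gamma0 N) →+ ℤ) (a + b) / (p : ℤ) = _
        rw [map_add, ha, hb, ← mul_add, Int.mul_ediv_cancel_left _ hp0,
          Int.mul_ediv_cancel_left _ hp0, Int.mul_ediv_cancel_left _ hp0] }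
  have hz₀ : ∀ γ, (y : Additive (Gamma0 N) →+ ℤ) γ = (p : ℤ) * z₀ γ := by
    intro γ
    obtain ⟨k, hk⟩ := hdvd (Additive.toMul γ)
    have ha : (y : Additive (Gamma0 N) →+ ℤ) γ = (p : ℤ) * k := hk
    show _ = (p : ℤ) * ((y : Additive (Gamma0 N) →+ ℤ) γ / (p : ℤ))
    rw [ha, Int.mul_ediv_cancel_left _ hp0]
  have hz₀par : IsParabolicHom (Gamma0 N) z₀ := by
    intro γ hγ
    have h1 := mem_parabolicHoms_iff.mp y.2 γ hγ
    rw [hz₀] at h1
    exact (mul_eq_zero.mp h1).resolve_left hp0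
  refine ⟨⟨z₀, mem_parabolicHoms_iff.mpr hz₀par⟩, Subtype.ext ?_⟩
  ext γ
  exact hz₀ γ

end Sat

end Fermat.Agent.LR
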