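/-
PROJECT LR (S41), package [DUAL] (helper6), part 15: **helper2's `DualHyp`** from the integral cup
product, modulo the three abstract inputs `GraphSatHyp` ([LA]), `IntegHyp` ([INTEG]) and
`FinRepHyp` ([FIN]).
-/
import Fermat.Agent.LR.DUAL_helper6_CupZ
import Fermat.Agent.LR.RAISE_helper2_Mid

set_option autoImplicit false

namespace Fermat.Agent.LR

open OnePoint Matrix.SpecialLinearGroup CongruenceSubgroup ModularCurve.Period ModularForm
open Fermat.Agent.GR Fermat.Agent.X0N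
open scoped MatrixGroups

/-- **[FIN]** as a hypothesis: a `p`-saturated bilinear form on a finite free `ℤ`-module is
non-degenerate and represents every functional up to an integer prime to `p`. -/
def FinRepHyp : Prop :=
  ∀ (L : Type) [AddCommGroup L] [Module.Free ℤ L] [Module.Finite ℤ L]
    (B : L →ₗ[ℤ] L →ₗ[ℤ] ℤ) (p : ℕ) (_ : p.Prime)
    (_ : ∀ y : L, (∀ x, (p : ℤ) ∣ B x y) → ∃ z : L, y = (p : ℤ) • z),
    (∀ y : L, (∀ x, B x y = 0) → y = 0) ∧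
    ∀ φ : L →ₗ[ℤ] ℤ, ∃ (m : ℤ) (x' : L), ¬ (p : ℤ) ∣ m ∧ ∀ x, m * φ x = B x x'

/-- **(DUAL)**, modulo [LA], [INTEG], [FIN]. -/
theorem dualHyp_of_hyps (hLA : GraphSatHyp) (hIN : IntegHyp) (hFIN : FinRepHyp)
    (N q p : ℕ) [NeZero N] (hq : q.Prime) (hqN : ¬ q ∣ N) (hp : p.Prime) (hp2 : p ≠ 2) :
    DualHyp N q p hq hqN := by
  have : NeZero q := ⟨hq.ne_zero⟩
  have : NeZero (N * q) := ⟨Nat.mul_ne_zero (NeZero.ne N) (NeZero.ne q)⟩
  refine ⟨cupZ N, cupZ (N * q), ?_, ?_, ?_, ?_⟩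
  · intro ℓ hℓ x y
    have : NeZero (ℓ : ℕ) := ⟨ℓ.2.ne_zero⟩
    exact cupZ_heckeParP N (ℓ : ℕ) ℓ.2 hℓ x y
  · exact (hFIN (LPar N) (cupZ N) p hp (fun y h => cupZ_sat hLA hIN hp hp2 y h)).1
  · exact (hFIN (LPar (N * q)) (cupZ (N * q)) p hp
      (fun y h => cupZ_sat hLA hIN hp hp2 y h)).2
  · intro a₁ a₂ x'
    rw [map_add, LinearMap.add_apply, cupZ_pullA_pushA N q hq hqN, cupZ_pullB_pushB N q hq hqN]

end Fermat.Agent.LR
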