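/-
PROJECT LR (S41), package [DUAL] (helper6), part 16: **[INTEG]** every closed `Γ`-invariant
integral function on the Farey edges is the differential of the potential of a parabolic
homomorphism (`integHyp : IntegHyp`).
-/
import Fermat.Agent.LR.DUAL_helper6_Sat

set_option autoImplicit false

namespace Fermat.Agent.LR

open OnePoint Matrix.SpecialLinearGroup CongruenceSubgroup ModularCurve.Period
open scoped MatrixGroups

/-- an element of `SL(2, ℤ)` with `trace² = 4` fixes a point of `ℙ¹(ℚ)`. -/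
theorem exists_slAct_eq_of_trace_sq {γ : SL(2, ℤ)}
    (h : ((γ : SL(2, ℤ)) : Matrix (Fin 2) (Fin 2) ℤ).trace ^ 2 = 4) :
    ∃ x : OnePoint ℚ, slAct γ x = x := by
  have hdet : γ 0 0 * γ 1 1 - γ 0 1 * γ 1 0 = 1 := by
    have := γ.det_coe
    rwa [Matrix.det_fin_two] at this
  rw [Matrix.trace_fin_two] at h
  by_cases hc : γ 1 0 = 0
  · refine ⟨∞, ?_⟩
    rw [slAct_infty, if_pos (by exact_mod_cast hc)]
  · have hcQ : (γ 1 0 : ℚ) ≠ 0 := by exact_mod_cast hc
    have hdetQ : (γ 0 0 : ℚ) * γ 1 1 - γ 0 1 * γ 1 0 = 1 := by exact_mod_cast hdet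
    have hQ : ((γ 0 0 : ℚ) + γ 1 1) ^ 2 = 4 := by exact_mod_cast h
    have hne : (γ 0 0 : ℚ) + γ 1 1 ≠ 0 := by
      intro h0
      rw [h0] at hQ
      norm_num at hQ
    refine ⟨((((γ 0 0 : ℚ) - γ 1 1) / (2 * γ 1 0) : ℚ) : OnePoint ℚ), ?_⟩
    have hden : (γ 1 0 : ℚ) * (((γ 0 0 : ℚ) - γ 1 1) / (2 * γ 1 0)) + γ 1 1 =
        ((γ 0 0 : ℚ) + γ 1 1) / 2 := by
      field_simp
      ring
    rw [slAct_coe, hden, if_neg (div_ne_zero hne (by norm_num))]
    congr 1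
    rw [div_eq_iff (div_ne_zero hne (by norm_num))]
    field_simp
    linear_combination hQ - 4 * hdetQ

/-- **[INTEG]**. -/
theorem integHyp : IntegHyp := by
  intro Γ hneg m hΓ hS hT
  classical
  have hmneg : ∀ g, m (-g) = m g := fun g => by
    have : -g = g * (-1) := by simp
    rw [this, hΓ g (-1) hneg]
  -- the edge cochain
  let ω : OnePoint ℚ → OnePoint ℚ → ℤ := fun a b =>
    if h : FAdj a b then m (Classical.choose h)⁻¹ else 0
  have hω : ∀ k : SL(2, ℤ), ω (slAct k ∞) (slAct k ((0:ℚ) : OnePoint ℚ)) = m k⁻¹ := by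
    intro k
    have hadj : FAdj (slAct k ∞) (slAct k ((0:ℚ) : OnePoint ℚ)) := ⟨k, rfl, rfl⟩
    show (if h : FAdj (slAct k ∞) (slAct k ((0:ℚ) : OnePoint ℚ)) then
      m (Classical.choose h)⁻¹ else 0) = m k⁻¹
    rw [dif_pos hadj]
    obtain ⟨h1, h2⟩ := Classical.choose_spec hadj
    set k' := Classical.choose hadj with hk'
    have f1 : slAct (k⁻¹ * k') ∞ = ∞ := by rw [slAct_mul, ← h1, slAct_inv_slAct]
    have f2 : slAct (k⁻¹ * k') ((0:ℚ) : OnePoint ℚ) = ((0:ℚ) : OnePoint ℚ) := by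
      rw [slAct_mul, ← h2, slAct_inv_slAct]
    rcases eq_one_or_neg_one_of_fix f1 f2 with h | h
    · have : k' = k := by
        have := congrArg (fun x => k * x) h
        simpa using this
      rw [this]
    · have : k' = -k := by
        have := congrArg (fun x => k * x) h
        simpa using this
      rw [this, inv_neg, hmneg]
  have halt : ∀ a b, FAdj a b → ω b a = - ω a b := by
    rintro a b ⟨k, rfl, rfl⟩
    have e1 : slAct k ((0:ℚ) : OnePoint ℚ) = slAct (k * ModularGroup.S) ∞ := by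
      rw [slAct_mul, slAct_S_infty]
    have e2 : slAct k ∞ = slAct (k * ModularGroup.S) ((0:ℚ) : OnePoint ℚ) := by
      rw [slAct_mul, slAct_S_zero]
    rw [hω k]
    conv_lhs => rw [e1, e2]
    rw [hω, _root_.mul_inv_rev]
    have := hS (ModularGroup.S⁻¹ * k⁻¹)
    rw [mul_inv_cancel_left] at this
    rw [this, neg_neg]
  have hcl : ∀ a b c, FTri a b c → ω a b + ω b c + ω c a = 0 := by
    rintro a b c ⟨k, rfl, rfl, rfl⟩
    have e1 : slAct k ((0:ℚ) : OnePoint ℚ) = slAct (k * fTau) ∞ := by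
      rw [slAct_mul, slAct_fTau_infty]
    have e2 : slAct k ((1:ℚ) : OnePoint ℚ) = slAct (k * fTau) ((0:ℚ) : OnePoint ℚ) := by
      rw [slAct_mul, slAct_fTau_zero]
    have e3 : slAct k ((1:ℚ) : OnePoint ℚ) = slAct (k * fTau * fTau) ∞ := by
      rw [slAct_mul, slAct_mul, slAct_fTau_infty, slAct_fTau_zero]
    have e4 : slAct k ∞ = slAct (k * fTau * fTau) ((0:ℚ) : OnePoint ℚ) := by
      rw [slAct_mul, slAct_mul, slAct_fTau_zero, slAct_fTau_one]
    have h1 := hω k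
    have h2 : ω (slAct k ((0:ℚ) : OnePoint ℚ)) (slAct k ((1:ℚ) : OnePoint ℚ)) =
        m (fTau⁻¹ * k⁻¹) := by
      conv_lhs => rw [e1, e2]
      rw [hω, _root_.mul_inv_rev]
    have h3 : ω (slAct k ((1:ℚ) : OnePoint ℚ)) (slAct k ∞) = m (fTau⁻¹ * (fTau⁻¹ * k⁻¹)) := by
      conv_lhs => rw [e3, e4]
      rw [hω, _root_.mul_inv_rev, _root_.mul_inv_rev]
    rw [h1, h2, h3]
    exact hT k⁻¹
  obtain ⟨φ, hφ⟩ := farey_H1 ω halt hcl
  have hφk : ∀ k : SL(2, ℤ), φ (slAct k ((0:ℚ) : OnePoint ℚ)) - φ (slAct k ∞) = m k⁻¹ := by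
    intro k
    rw [← hω k]
    exact (hφ _ _ ⟨k, rfl, rfl⟩).symm
  -- equivariance
  have hconst : ∀ γ ∈ Γ, ∀ a b : OnePoint ℚ, φ (slAct γ a) - φ a = φ (slAct γ b) - φ b := by
    intro γ hγ
    refine farey_conn (fun x => φ (slAct γ x) - φ x) ?_
    rintro a b ⟨k, rfl, rfl⟩
    have h1 := hφk k
    have h2 := hφk (γ * k)
    rw [slAct_mul, slAct_mul, _root_.mul_inv_rev, hΓ _ _ (Γ.inv_mem hγ)] at h2
    show φ (slAct γ (slAct k ∞)) - φ (slAct k ∞) =
      φ (slAct γ (slAct k ((0:ℚ) : OnePoint ℚ))) - φ (slAct k ((0:ℚ) : OnePoint ℚ))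
    linarith
  let ψ : Additive Γ →+ ℤ :=
    { toFun := fun γ => φ (slAct ((Additive.toMul γ : Γ) : SL(2, ℤ)) ∞) - φ ∞
      map_zero' := by
        show φ (slAct ((1 : Γ) : SL(2, ℤ)) ∞) - φ ∞ = 0
        rw [Subgroup.coe_one, slAct_one, sub_self]
      map_add' := fun γ γ' => by
        show φ (slAct ((Additive.toMul γ * Additive.toMul γ' : Γ) : SL(2, ℤ)) ∞) - φ ∞ =
          (φ (slAct ((Additive.toMul γ : Γ) : SL(2, ℤ)) ∞) - φ ∞) +
          (φ (slAct ((Additive.toMul γ' : Γ) : SL(2, ℤ)) ∞) - φ ∞)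
        rw [Subgroup.coe_mul, slAct_mul]
        have := hconst _ (Additive.toMul γ).2
          (slAct ((Additive.toMul γ' : Γ) : SL(2, ℤ)) ∞) ∞
        linarith }
  have hψ : ∀ γ : Γ, ψ (Additive.ofMul γ) = φ (slAct (γ : SL(2, ℤ)) ∞) - φ ∞ := fun γ => rfl
  have hpot : IsPot Γ ψ φ := by
    intro γ x
    rw [hψ]
    have := hconst _ γ.2 x ∞
    linarith
  refine ⟨ψ, φ, ?_, hpot, ?_⟩
  · intro γ hγ
    obtain ⟨x, hx⟩ := exists_slAct_eq_of_trace_sq hγ
    have := hpot γ x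
    rw [hx] at this
    linarith
  · intro g
    have := hφk g⁻¹
    rwa [inv_inv] at this

end Fermat.Agent.LR
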