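/-
PROJECT LR (S41), package [DUAL] (helper6), final: **helper2's `DualHyp` holds** for every odd
prime `p`: `B = cupZ N`, `B' = cupZ (N q)` (one third of the Farey integral of the cup product of
potentials), with helper4's [LA] (`sat_of_connected`) and [FIN] (`finRep_of_saturated`).
-/
import Fermat.Agent.LR.DUAL_helper6_DualHyp
import Fermat.Agent.LR.DUAL_helper6_Integ
import Fermat.Agent.LR.DUAL_helper4_Graph
import Fermat.Agent.LR.DUAL_helper4_Fin

set_option autoImplicit false

namespace Fermat.Agent.LR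

theorem graphSatHyp : GraphSatHyp :=
  fun _ _ _ _ _ _ s hs π hπ hconn p hp hp2 mstar hanti H =>
    sat_of_connected s hs π hπ hconn p hp hp2 mstar hanti H

theorem finRepHyp : FinRepHyp :=
  fun _ _ _ _ B p hp hsat => finRep_of_saturated B p hp hsat

/-- **`cupZ` is `p`-saturated** for every odd prime `p`. -/
theorem cupZ_saturated {N : ℕ} [NeZero N] {p : ℕ} (hp : p.Prime) (hp2 : p ≠ 2)
    (y : LPar N) (h : ∀ x, (p : ℤ) ∣ cupZ N x y) : ∃ z : LPar N, y = (p : ℤ) • z :=
  cupZ_sat graphSatHyp integHyp hp hp2 y h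

/-- **(DUAL)**. -/
theorem dualHyp (N q p : ℕ) [NeZero N] (hq : q.Prime) (hqN : ¬ q ∣ N) (hp : p.Prime)
    (hp2 : p ≠ 2) : DualHyp N q p hq hqN :=
  dualHyp_of_hyps graphSatHyp integHyp finRepHyp N q p hq hqN hp hp2

end Fermat.Agent.LR
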