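/-
PROJECT LR (S41), package [RAISE] (helper2), part 6: **the final assembly with a flexible (IHARA)
input**. `EisHyp2 N q p hq` ("the kernel of `α^* + β^*` modulo `p` is killed by
`(T_ℓ' − ℓ' − 1)(T_ℓ − ℓ − 1)` for all primes `ℓ, ℓ' ≡ 1 mod D`") is implied by the one-operator
form `EisHyp1` (the conclusion of helper9's `ihara_par_of_csp`), and implies `IharaAll` (the hypothesis
(IHARA) for every non-Eisenstein maximal ideal), from which `S41` follows ([DUAL] is helper6's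
`dualHyp`).
-/
import Mathlib
import Fermat.Agent.LR.RAISE_helper2_Top
import Fermat.Agent.LR.DUAL_helper6_Final

set_option autoImplicit false
set_option linter.unusedSectionVars false
set_option linter.style.haveILetI false

namespace Fermat.Agent.LR

open MvPolynomial CongruenceSubgroup ModularCurve.Period Fermat.Agent.GR
open scoped MatrixGroups

section Eis

/-- the Eisenstein operator `T_ℓ − (ℓ + 1)` on the lattice of level `N`. -/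
noncomputable def eisOp (N : ℕ) (ℓ : Nat.Primes) : Module.End ℤ (LPar N) :=
  heckeZ N ℓ - ((((ℓ : ℕ) + 1 : ℕ) : ℤ) : Module.End ℤ (LPar N))

theorem eisOp_apply (N : ℕ) (ℓ : Nat.Primes) (φ : LPar N) :
    eisOp N ℓ φ = heckeZ N ℓ φ - (((ℓ : ℕ) + 1 : ℕ) : ℤ) • φ := by
  rw [eisOp, LinearMap.sub_apply, Module.End.intCast_apply]

/-- **(EIS), one operator**: the kernel of `α^* + β^*` modulo `p` is Eisenstein. -/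
def EisHyp1 (N q p : ℕ) (hq : q.Prime) : Prop :=
  ∀ (φ₁ φ₂ : LPar N) (y : LPar (N * q)),
    pullAPar N q ℤ ℤ φ₁ + pullBPar N q hq ℤ ℤ φ₂ = (p : ℤ) • y →
    ∃ D : ℕ, 0 < D ∧ ∀ ℓ : Nat.Primes, ¬ (ℓ : ℕ) ∣ N → (ℓ : ℕ) ≡ 1 [MOD D] →
      ∃ ψ₁ ψ₂ : LPar N, eisOp N ℓ φ₁ = (p : ℤ) • ψ₁ ∧ eisOp N ℓ φ₂ = (p : ℤ) • ψ₂

/-- **(EIS), two operators**: the kernel of `α^* + β^*` modulo `p` is killed by products of two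
Eisenstein operators. -/
def EisHyp2 (N q p : ℕ) (hq : q.Prime) : Prop :=
  ∀ (φ₁ φ₂ : LPar N) (y : LPar (N * q)),
    pullAPar N q ℤ ℤ φ₁ + pullBPar N q hq ℤ ℤ φ₂ = (p : ℤ) • y →
    ∃ D : ℕ, 0 < D ∧ ∀ ℓ ℓ' : Nat.Primes, ¬ (ℓ : ℕ) ∣ N → ¬ (ℓ' : ℕ) ∣ N →
      (ℓ : ℕ) ≡ 1 [MOD D] → (ℓ' : ℕ) ≡ 1 [MOD D] →
      ∃ ψ₁ ψ₂ : LPar N, eisOp N ℓ' (eisOp N ℓ φ₁) = (p : ℤ) • ψ₁ ∧
        eisOp N ℓ' (eisOp N ℓ φ₂) = (p : ℤ) • ψ₂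

theorem EisHyp1.eisHyp2 {N q p : ℕ} {hq : q.Prime} (h : EisHyp1 N q p hq) : EisHyp2 N q p hq := by
  intro φ₁ φ₂ y hy
  obtain ⟨D, hD, hDℓ⟩ := h φ₁ φ₂ y hy
  refine ⟨D, hD, fun ℓ ℓ' hℓ _ hℓD _ => ?_⟩
  obtain ⟨ψ₁, ψ₂, h1, h2⟩ := hDℓ ℓ hℓ hℓD
  exact ⟨eisOp N ℓ' ψ₁, eisOp N ℓ' ψ₂, by rw [h1, map_zsmul], by rw [h2, map_zsmul]⟩

/-- helper9's `ihara_par_of_csp` in the form `EisHyp1`. -/
theorem eisHyp1_of_csp {N q p : ℕ} [NeZero q] (hq : q.Prime) (hqN : ¬ q ∣ N) (hp : p ≠ 0)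
    (hcsp : CSPHyp N q p) : EisHyp1 N q p hq := by
  intro φ₁ φ₂ y hy
  obtain ⟨D, hD, hDℓ⟩ := ihara_par_of_csp hq hqN hp hcsp φ₁ φ₂ y hy
  refine ⟨D, hD, fun ℓ hℓ hℓD => ?_⟩
  obtain ⟨ψ₁, ψ₂, h1, h2⟩ := hDℓ ℓ hℓ hℓD
  exact ⟨ψ₁, ψ₂, by rw [eisOp_apply]; exact h1, by rw [eisOp_apply]; exact h2⟩

end Eis

section IharaAll

variable {N q p : ℕ} [NeZero N] [NeZero q]

/-- **(IHARA) for all non-Eisenstein maximal ideals** of the polynomial Hecke ring. -/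
def IharaAll (N q p : ℕ) [NeZero N] [NeZero q] (hq : q.Prime) : Prop :=
  ∀ 𝔪 : Ideal (HRing N q), 𝔪.IsMaximal →
    (∀ m : ℤ, (C m : HRing N q) ∈ 𝔪 → (p : ℤ) ∣ m) →
    ∀ (Good : Nat.Primes → Prop) (c : Nat.Primes → ℤ),
      (∀ ℓ : HIdx N q, Good ℓ.1 → (X ℓ - C (c ℓ.1) : HRing N q) ∈ 𝔪) →
      (∀ D : ℕ, 0 < D → ∃ ℓ : HIdx N q, Good ℓ.1 ∧ ((ℓ.1 : ℕ) ≡ 1 [MOD D]) ∧
        ¬ (p : ℤ) ∣ c ℓ.1 - (((ℓ.1 : ℕ) : ℤ) + 1)) →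
      IharaHyp p 𝔪 (degIR (N := N) hq)

theorem eis_smul_low (ℓ : HIdx N q) (φ : LPar N) :
    (X ℓ - C ((((ℓ.1 : ℕ) + 1 : ℕ)) : ℤ) : HRing N q) • φ = eisOp N ℓ.1 φ := by
  rw [sub_smul, X_smul_low, C_smul_low, eisOp_apply]

theorem iharaAll_of_eisHyp2 {hq : q.Prime} (heis : EisHyp2 N q p hq) : IharaAll N q p hq := by
  intro 𝔪 h𝔪 h𝔪int Good c hcong hnoneis
  haveI := h𝔪.isPrime
  rintro ⟨φ₁, φ₂⟩ ⟨y, hy⟩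
  rw [degIR_apply] at hy
  obtain ⟨D, hD, hDℓ⟩ := heis φ₁ φ₂ y hy
  obtain ⟨ℓ, hgood, hℓD, hℓc⟩ := hnoneis D hD
  have hℓN : ¬ ((ℓ.1 : Nat.Primes) : ℕ) ∣ N := fun h => ℓ.2 (Dvd.dvd.mul_right h q)
  obtain ⟨ψ₁, ψ₂, h1, h2⟩ := hDℓ ℓ.1 ℓ.1 hℓN hℓN hℓD hℓD
  have hr : (X ℓ - C ((((ℓ.1 : ℕ) + 1 : ℕ)) : ℤ) : HRing N q) ∉ 𝔪 := by
    intro hmem
    apply hℓc
    have h3 : (C ((((ℓ.1 : ℕ) + 1 : ℕ) : ℤ) - c ℓ.1) : HRing N q) ∈ 𝔪 := by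
      have := 𝔪.sub_mem (hcong ℓ hgood) hmem
      have e : (X ℓ - C (c ℓ.1) : HRing N q) - (X ℓ - C ((((ℓ.1 : ℕ) + 1 : ℕ)) : ℤ))
          = C ((((ℓ.1 : ℕ) + 1 : ℕ) : ℤ) - c ℓ.1) := by
        rw [map_sub]; ring
      rwa [e] at this
    have h4 := h𝔪int _ h3
    have e : c ℓ.1 - (((ℓ.1 : ℕ) : ℤ) + 1) = -((((ℓ.1 : ℕ) + 1 : ℕ) : ℤ) - c ℓ.1) := by
      push_cast; ring
    rw [e]
    exact (dvd_neg).2 h4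
  refine ⟨(X ℓ - C ((((ℓ.1 : ℕ) + 1 : ℕ)) : ℤ)) * (X ℓ - C ((((ℓ.1 : ℕ) + 1 : ℕ)) : ℤ)),
    fun hmem => ?_, (ψ₁, ψ₂), ?_⟩
  · rcases Ideal.IsPrime.mem_or_mem inferInstance hmem with h | h <;> exact hr h
  · refine Prod.ext ?_ ?_
    · show ((X ℓ - C ((((ℓ.1 : ℕ) + 1 : ℕ)) : ℤ)) * (X ℓ - C ((((ℓ.1 : ℕ) + 1 : ℕ)) : ℤ)) :
        HRing N q) • φ₁ = (p : ℤ) • ψ₁
      rw [mul_smul, eis_smul_low, eis_smul_low]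
      exact h1
    · show ((X ℓ - C ((((ℓ.1 : ℕ) + 1 : ℕ)) : ℤ)) * (X ℓ - C ((((ℓ.1 : ℕ) + 1 : ℕ)) : ℤ)) :
        HRing N q) • φ₂ = (p : ℤ) • ψ₂
      rw [mul_smul, eis_smul_low, eis_smul_low]
      exact h2

end IharaAll

section Final

open WeierstrassCurve WeierstrassCurve.Affine WeierstrassCurve.Affine.Point

/-- **level raising from `IharaAll` and `DualHyp`**: the statement of `S41`. -/
theorem s41_of_iharaAll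
    (E : WeierstrassCurve ℚ) [E.IsElliptic] {W : WeierstrassCurve ℤ} (hW : W.IsIntegralModelOf E)
    {p N q : ℕ} [NeZero N] [NeZero q] (hp : p.Prime) (hp2 : p ≠ 2) (hN : 0 < N) (hq : q.Prime)
    (hqN : ¬ q ∣ N)
    (hirr : GaloisRepIsIrreducible (K := AlgebraicClosure ℚ) ℚ E p)
    (f : CuspForm (CongruenceSubgroup.Gamma0 N) 2) (𝔪 : Ideal (integralClosure ℤ ℂ))
    (hf : f.IsNormalizedEigenform) (hmax : 𝔪.IsMaximal) (hpm : (p : integralClosure ℤ ℂ) ∈ 𝔪)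
    (hcong : ∀ ℓ : ℕ, ℓ.Prime → W.IsGoodPrimeFor ℓ → ¬ ℓ ∣ N → ℓ ≠ p →
      ∃ a : integralClosure ℤ ℂ, (a : ℂ) = ModularFormClass.qCoeff f ℓ ∧
        a - ((W.apOfModel ℓ : ℤ) : integralClosure ℤ ℂ) ∈ 𝔪)
    (hLR : ∃ a : integralClosure ℤ ℂ, (a : ℂ) = ModularFormClass.qCoeff f q ∧
      a ^ 2 - ((q : integralClosure ℤ ℂ) + 1) ^ 2 ∈ 𝔪)
    (hIh : IharaAll N q p hq) (hdual : DualHyp N q p hq hqN) :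
    ∃ (g : CuspForm (CongruenceSubgroup.Gamma0 (N * q)) 2)
      (𝔪' : Ideal (integralClosure ℤ ℂ)),
      g.IsNormalizedEigenform ∧ 𝔪'.IsMaximal ∧ (p : integralClosure ℤ ℂ) ∈ 𝔪' ∧
      (∀ ℓ : ℕ, ℓ.Prime → W.IsGoodPrimeFor ℓ → ¬ ℓ ∣ N * q → ℓ ≠ p →
        ∃ a : integralClosure ℤ ℂ, (a : ℂ) = ModularFormClass.qCoeff g ℓ ∧
          a - ((W.apOfModel ℓ : ℤ) : integralClosure ℤ ℂ) ∈ 𝔪') ∧
      g.IsNewAt q := by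
  obtain ⟨a, ha, haq⟩ := exists_eigenPar_of_isNormalizedEigenform hf
  have hLR' : ∃ z : integralClosure ℤ ℂ, (z : ℂ) = a ⟨q, hq⟩ ∧
      z ^ 2 - ((q : integralClosure ℤ ℂ) + 1) ^ 2 ∈ 𝔪 := by
    obtain ⟨z, hz, hz2⟩ := hLR
    exact ⟨z, by rw [hz, haq], hz2⟩
  obtain ⟨χ, hχ, w, ε, hε, hw, hw𝔪, hT⟩ := exists_occ N q p hq hp a ha 𝔪 hmax hpm hLR'
  -- the maximal ideal of the polynomial Hecke ring
  set 𝔪R : Ideal (HRing N q) := 𝔪.comap χ with h𝔪Rdef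
  have h𝔪R : 𝔪R.IsMaximal := isMaximal_comap_intClosure χ 𝔪 hmax
  have hp𝔪R : (p : HRing N q) ∈ 𝔪R := by
    rw [h𝔪Rdef, Ideal.mem_comap, map_natCast]
    exact hpm
  have h𝔪int : ∀ m : ℤ, (C m : HRing N q) ∈ 𝔪R → (p : ℤ) ∣ m := by
    intro m hm
    by_contra h
    have h1 := intCast_notMem_of_not_dvd (R := integralClosure ℤ ℂ) hp hmax.ne_top hpm h
    apply h1
    rw [h𝔪Rdef, Ideal.mem_comap, ringHom_C_int] at hm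
    exact hm
  -- the good primes and the integers `a_ℓ(W)`
  let Good : Nat.Primes → Prop := fun ℓ => W.IsGoodPrimeFor (ℓ : ℕ) ∧ (ℓ : ℕ) ≠ p
  let c : Nat.Primes → ℤ := fun ℓ => W.apOfModel (ℓ : ℕ)
  have hcongR : ∀ ℓ : HIdx N q, Good ℓ.1 → (X ℓ - C (c ℓ.1) : HRing N q) ∈ 𝔪R := by
    rintro ℓ ⟨hgood, hℓp⟩
    obtain ⟨z, hz, hz2⟩ := hcong (ℓ.1 : ℕ) ℓ.1.2 hgood
      (fun h => ℓ.2 (Dvd.dvd.mul_right h q)) hℓp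
    have hzχ : χ (X ℓ) = z := by
      apply Subtype.ext
      rw [hχ ℓ, hz]
      exact haq _ _
    rw [h𝔪Rdef, Ideal.mem_comap, map_sub, hzχ, ringHom_C_int]
    exact hz2
  have hnoneis : ∀ D : ℕ, 0 < D → ∃ ℓ : HIdx N q, Good ℓ.1 ∧ ((ℓ.1 : ℕ) ≡ 1 [MOD D]) ∧
      ¬ (p : ℤ) ∣ c ℓ.1 - (((ℓ.1 : ℕ) : ℤ) + 1) := by
    intro D hD
    obtain ⟨ℓ, hℓ, hgood, hnd, hmod, hne⟩ :=
      NonEis.exists_prime_noneis_G E hW hp hp2 hirr N q hN hq.pos D hD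
    refine ⟨⟨⟨ℓ, hℓ⟩, fun h => hnd (Dvd.dvd.mul_right h p)⟩, ⟨hgood, ?_⟩, hmod, hne⟩
    intro h
    have h' : ℓ = p := h
    apply hnd
    rw [h']
    exact Dvd.intro_left _ rfl
  have hI : IharaHyp p 𝔪R (degIR (N := N) hq) :=
    hIh 𝔪R h𝔪R h𝔪int Good c hcongR hnoneis
  obtain ⟨x, hjx, hx, h𝔪x⟩ := exists_new_mod hq hqN hp hdual 𝔪R h𝔪R hp𝔪R hI w hw
    (fun r hr => hw𝔪 r hr) ε hε hT
  obtain ⟨g, χ', 𝔪', hgnew, hg0, h𝔪', hgχ, hχ𝔪⟩ :=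
    exists_new_eigen_complex hq hqN 𝔪R h𝔪R x hjx hx h𝔪x
  obtain ⟨a', ha', ha'q, ha'c⟩ := exists_new_eigensystem hq hqN g hgnew hg0
    (fun ℓ => ((χ' (X ℓ) : integralClosure ℤ ℂ) : ℂ))
    (fun ℓ => by rw [← hgχ (X ℓ), heckeRingHomC_X])
  have hp𝔪' : (p : integralClosure ℤ ℂ) ∈ 𝔪' := by
    have := hχ𝔪 _ hp𝔪R
    rwa [map_natCast] at this
  refine s41_of_eigenPar hq W a' ha' ha'q 𝔪' h𝔪' hp𝔪' (fun ℓ hℓ hgood hℓNq hℓp => ?_)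
  refine ⟨χ' (X ⟨⟨ℓ, hℓ⟩, hℓNq⟩), (ha'c ⟨⟨ℓ, hℓ⟩, hℓNq⟩).symm, ?_⟩
  have h1 := hχ𝔪 _ (hcongR ⟨⟨ℓ, hℓ⟩, hℓNq⟩ ⟨hgood, hℓp⟩)
  rw [map_sub, ringHom_C_int] at h1
  exact h1

/-- **level raising from `EisHyp2`** (the only remaining input): the statement of `S41`. -/
theorem s41_of_eisHyp2
    (E : WeierstrassCurve ℚ) [E.IsElliptic] {W : WeierstrassCurve ℤ} (hW : W.IsIntegralModelOf E)
    {p N q : ℕ} (hp : p.Prime) (hp2 : p ≠ 2) (hN : 0 < N) (hq : q.Prime)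
    (hqN : ¬ q ∣ N)
    (hirr : GaloisRepIsIrreducible (K := AlgebraicClosure ℚ) ℚ E p)
    (f : CuspForm (CongruenceSubgroup.Gamma0 N) 2) (𝔪 : Ideal (integralClosure ℤ ℂ))
    (hf : f.IsNormalizedEigenform) (hmax : 𝔪.IsMaximal) (hpm : (p : integralClosure ℤ ℂ) ∈ 𝔪)
    (hcong : ∀ ℓ : ℕ, ℓ.Prime → W.IsGoodPrimeFor ℓ → ¬ ℓ ∣ N → ℓ ≠ p →
      ∃ a : integralClosure ℤ ℂ, (a : ℂ) = ModularFormClass.qCoeff f ℓ ∧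
        a - ((W.apOfModel ℓ : ℤ) : integralClosure ℤ ℂ) ∈ 𝔪)
    (hLR : ∃ a : integralClosure ℤ ℂ, (a : ℂ) = ModularFormClass.qCoeff f q ∧
      a ^ 2 - ((q : integralClosure ℤ ℂ) + 1) ^ 2 ∈ 𝔪)
    (heis : EisHyp2 N q p hq) :
    ∃ (g : CuspForm (CongruenceSubgroup.Gamma0 (N * q)) 2)
      (𝔪' : Ideal (integralClosure ℤ ℂ)),
      g.IsNormalizedEigenform ∧ 𝔪'.IsMaximal ∧ (p : integralClosure ℤ ℂ) ∈ 𝔪' ∧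
      (∀ ℓ : ℕ, ℓ.Prime → W.IsGoodPrimeFor ℓ → ¬ ℓ ∣ N * q → ℓ ≠ p →
        ∃ a : integralClosure ℤ ℂ, (a : ℂ) = ModularFormClass.qCoeff g ℓ ∧
          a - ((W.apOfModel ℓ : ℤ) : integralClosure ℤ ℂ) ∈ 𝔪') ∧
      g.IsNewAt q := by
  haveI : NeZero N := ⟨hN.ne'⟩
  haveI : NeZero q := ⟨hq.ne_zero⟩
  exact s41_of_iharaAll E hW hp hp2 hN hq hqN hirr f 𝔪 hf hmax hpm hcong hLR
    (iharaAll_of_eisHyp2 heis) (dualHyp N q p hq hqN hp hp2)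

end Final

end Fermat.Agent.LR
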