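/-
LR (level raising, S41) — helper9 — [AMALG] part 3: **gluing homomorphisms on
`Δ = ⟨Γ₀(N), g⁻¹ Γ₀(N) g⟩ = Γ₀(N)[1/q] ⊂ GL₂(ℚ)`** (`g = diag(q, 1)`, `q` prime, `q ∤ N`):
`Δ = Γ₀(N) *_{Γ₀(N q)} g⁻¹ Γ₀(N) g`.  Two homomorphisms `φ₁, φ₂ : Γ₀(N) → K` with
`φ₁ (a b; c d) = φ₂ (a, q b; c / q, d)` on `Γ₀(N q)` glue to `Φ : Δ → K` with `Φ γ = φ₁ γ`,
`Φ (g⁻¹ γ g) = φ₂ γ`.
-/
import Mathlib
import Fermat.Agent.LR.AMALG_helper9_NF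

set_option autoImplicit false
set_option linter.unusedSectionVars false

open Matrix CongruenceSubgroup

open scoped MatrixGroups

namespace Fermat.Agent.LR

noncomputable section

section Glue

variable (N q : ℕ) [NeZero q]

theorem embA_injective : Function.Injective (embA N) := by
  intro γ γ' h
  apply Subtype.ext
  exact Matrix.SpecialLinearGroup.mapGL_injective (S := ℚ) h

theorem embB_injective : Function.Injective (embB N q) := by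
  intro γ γ' h
  rw [embB_apply, embB_apply] at h
  exact embA_injective N (mul_left_cancel (mul_right_cancel h))

theorem embA_mem_Delta (γ : ↥(Gamma0 N)) : embA N γ ∈ Delta N q :=
  (le_sup_left : grpA N ≤ grpA N ⊔ grpB N q) ⟨γ, rfl⟩

theorem embB_mem_Delta (γ : ↥(Gamma0 N)) : embB N q γ ∈ Delta N q :=
  (le_sup_right : grpB N q ≤ grpA N ⊔ grpB N q) ⟨γ, rfl⟩

/-- an element of `A ⊓ B` comes from `Γ₀(N q)`. -/
theorem dvd_of_embA_eq_embB {γ γ' : ↥(Gamma0 N)} (h : embA N γ = embB N q γ') :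
    (q : ℤ) ∣ (γ : SL(2, ℤ)) 1 0 := by
  have hq : (q : ℚ) ≠ 0 := Nat.cast_ne_zero.mpr (NeZero.ne q)
  have h1 := congrArg (fun x : GL (Fin 2) ℚ => (x : Matrix (Fin 2) (Fin 2) ℚ)) h
  simp only [coe_embA, coe_embB] at h1
  -- `q • γ = gS γ' gD`
  have h2 : castQ ((q : ℤ) • ((γ : SL(2, ℤ)) : Matrix (Fin 2) (Fin 2) ℤ)) =
      castQ (gS q * ((γ' : SL(2, ℤ)) : Matrix (Fin 2) (Fin 2) ℤ) * gD q) := by
    rw [← inv_smul_castQ_smul q hq ((γ : SL(2, ℤ)) : Matrix (Fin 2) (Fin 2) ℤ)] at h1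
    exact (smul_right_injective _ (inv_ne_zero hq)) h1
  have h3 := castQ_injective h2
  rw [gS_mul_mul_gD] at h3
  have h4 := congrFun (congrFun h3 1) 0
  have h5 : (q : ℤ) * (γ : SL(2, ℤ)) 1 0 = (q : ℤ) * (q : ℤ) * (γ' : SL(2, ℤ)) 1 0 := h4
  have hq0 : (q : ℤ) ≠ 0 := Int.natCast_ne_zero.mpr (NeZero.ne q)
  rw [mul_assoc] at h5
  exact ⟨_, mul_left_cancel₀ hq0 h5⟩

/-- **gluing on `Δ`.** -/
theorem exists_hom_Delta (hq : q.Prime) (hcop : Nat.Coprime N q) {K : Type*} [Group K]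
    (φ₁ φ₂ : ↥(Gamma0 N) →* K)
    (h : ∀ (γ : SL(2, ℤ)) (hγN : γ ∈ Gamma0 N) (hγ : (q : ℤ) ∣ γ 1 0),
      φ₁ ⟨γ, hγN⟩ = φ₂ ⟨conjDownSL q γ hγ, conjDownSL_mem N q hγN hγ hcop⟩) :
    ∃ Φ : ↥(Delta N q) →* K,
      (∀ γ : ↥(Gamma0 N), Φ ⟨embA N γ, embA_mem_Delta N q γ⟩ = φ₁ γ) ∧
      (∀ γ : ↥(Gamma0 N), Φ ⟨embB N q γ, embB_mem_Delta N q γ⟩ = φ₂ γ) := by
  let eA : ↥(Gamma0 N) ≃* ↥(grpA N) := MonoidHom.ofInjective (embA_injective N)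
  let eB : ↥(Gamma0 N) ≃* ↥(grpB N q) := MonoidHom.ofInjective (embB_injective N q)
  let fA : ↥(grpA N) →* K := φ₁.comp eA.symm.toMonoidHom
  let fB : ↥(grpB N q) →* K := φ₂.comp eB.symm.toMonoidHom
  have hfA : ∀ (γ : ↥(Gamma0 N)) (hx : embA N γ ∈ grpA N), fA ⟨embA N γ, hx⟩ = φ₁ γ := by
    intro γ hx
    show φ₁ (eA.symm ⟨embA N γ, hx⟩) = φ₁ γ
    congr 1
    rw [MulEquiv.symm_apply_eq]
    rfl
  have hfB : ∀ (γ : ↥(Gamma0 N)) (hx : embB N q γ ∈ grpB N q), fB ⟨embB N q γ, hx⟩ = φ₂ γ := by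
    intro γ hx
    show φ₂ (eB.symm ⟨embB N q γ, hx⟩) = φ₂ γ
    congr 1
    rw [MulEquiv.symm_apply_eq]
    rfl
  obtain ⟨F, hFA, hFB⟩ := exists_hom_of_normalFormProp (normalFormProp_grpA_grpB N q hq hcop)
    fA fB (by
      rintro c ⟨γ, rfl⟩ ⟨γ', hγ'⟩
      rw [hfA]
      have hdvd := dvd_of_embA_eq_embB N q hγ'.symm
      have h1 : embB N q γ' = embB N q ⟨conjDownSL q γ.1 hdvd,
          conjDownSL_mem N q γ.2 hdvd hcop⟩ := by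
        rw [hγ', embB_conjDown N q γ.2 hdvd hcop]
      have h2 := embB_injective N q h1
      have h3 : fB ⟨embA N γ, ⟨γ', hγ'⟩⟩ = φ₂ γ' := by
        have : (⟨embA N γ, ⟨γ', hγ'⟩⟩ : ↥(grpB N q)) = ⟨embB N q γ', ⟨γ', rfl⟩⟩ :=
          Subtype.ext hγ'.symm
        rw [this, hfB]
      rw [h3, h2]
      exact h γ.1 γ.2 hdvd)
  refine ⟨F, fun γ => ?_, fun γ => ?_⟩
  · rw [← hfA γ ⟨γ, rfl⟩]
    exact hFA (embA N γ) ⟨γ, rfl⟩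
  · rw [← hfB γ ⟨γ, rfl⟩]
    exact hFB (embB N q γ) ⟨γ, rfl⟩

end Glue

end

end Fermat.Agent.LR
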