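/-
LR (level raising, S41) — helper9 — [AMALG] part 2: **the normal form property for
`A = Γ₀(N)`, `B = g⁻¹ Γ₀(N) g ⊂ GL₂(ℚ)`, `g = diag(q, 1)`** (`q` prime): a nonempty alternating
product of letters of `A ∖ C`, `B ∖ C` (`C = A ⊓ B`) does not lie in `C`.  Elementary proof:
clear denominators; a word with `k ≥ 1` letters of `B` is `q^{-k} Z`, `Z` an integral matrix
which is nonzero modulo `q`, hence the word is not integral.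
-/
import Mathlib
import Fermat.Agent.LR.AMALG_helper9_Abstract

set_option autoImplicit false
set_option linter.unusedSectionVars false

open Matrix CongruenceSubgroup

open scoped MatrixGroups

namespace Fermat.Agent.LR

noncomputable section

/-! ### integral matrices modulo `q` -/

section IntCore

variable (q : ℕ)

/-- `diag(1, q)`. -/
def gS : Matrix (Fin 2) (Fin 2) ℤ := !![1, 0; 0, (q : ℤ)]

/-- `diag(q, 1)`. -/
def gD : Matrix (Fin 2) (Fin 2) ℤ := !![(q : ℤ), 0; 0, 1]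

/-- the first column is nonzero modulo `q`. -/
def ColA (Z : Matrix (Fin 2) (Fin 2) ℤ) : Prop := ¬ ((q : ℤ) ∣ Z 0 0 ∧ (q : ℤ) ∣ Z 1 0)

/-- the first column is zero and the second column is nonzero modulo `q`. -/
def ColB (Z : Matrix (Fin 2) (Fin 2) ℤ) : Prop :=
  (q : ℤ) ∣ Z 0 0 ∧ (q : ℤ) ∣ Z 1 0 ∧ ¬ ((q : ℤ) ∣ Z 0 1 ∧ (q : ℤ) ∣ Z 1 1)

variable {q}

theorem colB_step (hq : q.Prime) {Z Y : Matrix (Fin 2) (Fin 2) ℤ} (hZ : ColA q Z)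
    (hY : ¬ (q : ℤ) ∣ Y 0 1) : ColB q (Z * gS q * Y * gD q) := by
  have hqp : Prime (q : ℤ) := Nat.prime_iff_prime_int.mp hq
  have e00 : (Z * gS q * Y * gD q) 0 0 = (q : ℤ) * (Z 0 0 * Y 0 0 + (q : ℤ) * Z 0 1 * Y 1 0) := by
    simp [Matrix.mul_apply, Fin.sum_univ_two, gS, gD]; ring
  have e10 : (Z * gS q * Y * gD q) 1 0 = (q : ℤ) * (Z 1 0 * Y 0 0 + (q : ℤ) * Z 1 1 * Y 1 0) := by
    simp [Matrix.mul_apply, Fin.sum_univ_two, gS, gD]; ring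
  have e01 : (Z * gS q * Y * gD q) 0 1 = Z 0 0 * Y 0 1 + (q : ℤ) * (Z 0 1 * Y 1 1) := by
    simp [Matrix.mul_apply, Fin.sum_univ_two, gS, gD]; ring
  have e11 : (Z * gS q * Y * gD q) 1 1 = Z 1 0 * Y 0 1 + (q : ℤ) * (Z 1 1 * Y 1 1) := by
    simp [Matrix.mul_apply, Fin.sum_univ_two, gS, gD]; ring
  refine ⟨by rw [e00]; exact dvd_mul_right _ _, by rw [e10]; exact dvd_mul_right _ _, ?_⟩
  rintro ⟨h1, h2⟩
  apply hZ
  rw [e01] at h1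
  rw [e11] at h2
  have h1' : (q : ℤ) ∣ Z 0 0 * Y 0 1 := (dvd_add_left (dvd_mul_right _ _)).mp h1
  have h2' : (q : ℤ) ∣ Z 1 0 * Y 0 1 := (dvd_add_left (dvd_mul_right _ _)).mp h2
  exact ⟨(hqp.dvd_or_dvd h1').resolve_right hY, (hqp.dvd_or_dvd h2').resolve_right hY⟩

theorem colA_step (hq : q.Prime) {Z X : Matrix (Fin 2) (Fin 2) ℤ} (hZ : ColB q Z)
    (hX : ¬ (q : ℤ) ∣ X 1 0) : ColA q (Z * X) := by
  have hqp : Prime (q : ℤ) := Nat.prime_iff_prime_int.mp hq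
  obtain ⟨z00, z10, hz⟩ := hZ
  have e00 : (Z * X) 0 0 = Z 0 0 * X 0 0 + Z 0 1 * X 1 0 := by
    simp [Matrix.mul_apply, Fin.sum_univ_two]
  have e10 : (Z * X) 1 0 = Z 1 0 * X 0 0 + Z 1 1 * X 1 0 := by
    simp [Matrix.mul_apply, Fin.sum_univ_two]
  rintro ⟨h1, h2⟩
  apply hz
  rw [e00] at h1
  rw [e10] at h2
  have h1' : (q : ℤ) ∣ Z 0 1 * X 1 0 := (dvd_add_right (Dvd.dvd.mul_right z00 _)).mp h1
  have h2' : (q : ℤ) ∣ Z 1 1 * X 1 0 := (dvd_add_right (Dvd.dvd.mul_right z10 _)).mp h2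
  exact ⟨(hqp.dvd_or_dvd h1').resolve_right hX, (hqp.dvd_or_dvd h2').resolve_right hX⟩

end IntCore

/-! ### the groups `A`, `B` in `GL₂(ℚ)` -/

section Groups

variable (N q : ℕ)

/-- integral matrices as rational matrices. -/
abbrev castQ (Z : Matrix (Fin 2) (Fin 2) ℤ) : Matrix (Fin 2) (Fin 2) ℚ := Z.map (algebraMap ℤ ℚ)

theorem castQ_injective : Function.Injective castQ :=
  Matrix.map_injective (algebraMap ℤ ℚ).injective_int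

theorem castQ_mul (Z Z' : Matrix (Fin 2) (Fin 2) ℤ) : castQ (Z * Z') = castQ Z * castQ Z' :=
  Matrix.map_mul

theorem gS_mul_mul_gD (Y : Matrix (Fin 2) (Fin 2) ℤ) :
    gS q * Y * gD q =
      !![(q : ℤ) * Y 0 0, Y 0 1; (q : ℤ) * (q : ℤ) * Y 1 0, (q : ℤ) * Y 1 1] := by
  ext i j
  fin_cases i <;> fin_cases j <;>
    simp [Matrix.mul_apply, Fin.sum_univ_two, gS, gD, Matrix.vecMul, dotProduct] <;> ring

theorem inv_smul_castQ_smul (hq : (q : ℚ) ≠ 0) (Z : Matrix (Fin 2) (Fin 2) ℤ) :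
    (q : ℚ)⁻¹ • castQ ((q : ℤ) • Z) = castQ Z := by
  ext i j
  simp only [castQ, Matrix.smul_apply, Matrix.map_apply, smul_eq_mul, map_mul]
  have : (algebraMap ℤ ℚ) (q : ℤ) = (q : ℚ) := by simp
  rw [this, ← mul_assoc, inv_mul_cancel₀ hq, one_mul]

/-- the embedding `Γ₀(N) → GL₂(ℚ)`. -/
def embA : ↥(Gamma0 N) →* GL (Fin 2) ℚ :=
  (Matrix.SpecialLinearGroup.mapGL ℚ).comp (Gamma0 N).subtype

theorem coe_embA (γ : ↥(Gamma0 N)) :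
    ((embA N γ : GL (Fin 2) ℚ) : Matrix (Fin 2) (Fin 2) ℚ) =
      castQ ((γ : SL(2, ℤ)) : Matrix (Fin 2) (Fin 2) ℤ) :=
  Matrix.SpecialLinearGroup.mapGL_coe_matrix _

/-- `g = diag(q, 1) ∈ GL₂(ℚ)`, `q ≠ 0`. -/
def gQ [NeZero q] : GL (Fin 2) ℚ :=
  ⟨castQ (gD q), !![(q : ℚ)⁻¹, 0; 0, 1], by
    have hq : (q : ℚ) ≠ 0 := Nat.cast_ne_zero.mpr (NeZero.ne q)
    ext i j
    fin_cases i <;> fin_cases j <;> simp [gD, Matrix.mul_apply, Fin.sum_univ_two, hq], by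
    have hq : (q : ℚ) ≠ 0 := Nat.cast_ne_zero.mpr (NeZero.ne q)
    ext i j
    fin_cases i <;> fin_cases j <;> simp [gD, Matrix.mul_apply, Fin.sum_univ_two, hq]⟩

variable [NeZero q]

theorem coe_gQ : ((gQ q : GL (Fin 2) ℚ) : Matrix (Fin 2) (Fin 2) ℚ) = castQ (gD q) := rfl

theorem coe_gQ_inv : (((gQ q)⁻¹ : GL (Fin 2) ℚ) : Matrix (Fin 2) (Fin 2) ℚ) =
    (q : ℚ)⁻¹ • castQ (gS q) := by
  have hq : (q : ℚ) ≠ 0 := Nat.cast_ne_zero.mpr (NeZero.ne q)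
  show !![(q : ℚ)⁻¹, 0; 0, 1] = _
  ext i j
  fin_cases i <;> fin_cases j <;> simp [gS, hq]

/-- the conjugate embedding `γ ↦ g⁻¹ γ g`. -/
def embB : ↥(Gamma0 N) →* GL (Fin 2) ℚ :=
  (MulAut.conj (gQ q)⁻¹).toMonoidHom.comp (embA N)

theorem embB_apply (γ : ↥(Gamma0 N)) : embB N q γ = (gQ q)⁻¹ * embA N γ * gQ q := by
  simp [embB]

theorem coe_embB (γ : ↥(Gamma0 N)) :
    ((embB N q γ : GL (Fin 2) ℚ) : Matrix (Fin 2) (Fin 2) ℚ) =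
      (q : ℚ)⁻¹ • castQ (gS q * ((γ : SL(2, ℤ)) : Matrix (Fin 2) (Fin 2) ℤ) * gD q) := by
  rw [embB_apply, Units.val_mul, Units.val_mul, coe_gQ_inv, coe_embA, coe_gQ, castQ_mul, castQ_mul,
    Matrix.smul_mul, Matrix.smul_mul]

/-- `A = Γ₀(N) ⊂ GL₂(ℚ)`. -/
def grpA : Subgroup (GL (Fin 2) ℚ) := (embA N).range

/-- `B = g⁻¹ Γ₀(N) g ⊂ GL₂(ℚ)`. -/
def grpB : Subgroup (GL (Fin 2) ℚ) := (embB N q).range

/-- `Δ = ⟨A, B⟩ = Γ₀(N)[1/q]`. -/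
def Delta : Subgroup (GL (Fin 2) ℚ) := grpA N ⊔ grpB N q

/-- the matrix `(a, q b; c / q, d)` of `Γ₀(N)`, for `(a b; c d) ∈ Γ₀(N)` with `q ∣ c`, `(q, N) = 1`. -/
def conjDownSL (γ : SL(2, ℤ)) (hγ : (q : ℤ) ∣ γ 1 0) : SL(2, ℤ) :=
  ⟨!![γ 0 0, (q : ℤ) * γ 0 1; γ 1 0 / (q : ℤ), γ 1 1], by
    rw [Matrix.det_fin_two_of]
    have h1 : γ 0 0 * γ 1 1 - γ 0 1 * γ 1 0 = 1 := by
      have := γ.det_coe
      rw [Matrix.det_fin_two] at this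
      exact this
    have h2 : (q : ℤ) * γ 0 1 * (γ 1 0 / (q : ℤ)) = γ 0 1 * γ 1 0 := by
      rw [mul_comm (q : ℤ), mul_assoc, Int.mul_ediv_cancel' hγ]
    rw [h2]; exact h1⟩

/-- the matrix `(a, b / q; q c, d)` of `Γ₀(N q)`, for `(a b; c d) ∈ Γ₀(N)` with `q ∣ b`. -/
def conjUpSL (γ : SL(2, ℤ)) (hγ : (q : ℤ) ∣ γ 0 1) : SL(2, ℤ) :=
  ⟨!![γ 0 0, γ 0 1 / (q : ℤ); (q : ℤ) * γ 1 0, γ 1 1], by
    rw [Matrix.det_fin_two_of]
    have h1 : γ 0 0 * γ 1 1 - γ 0 1 * γ 1 0 = 1 := by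
      have := γ.det_coe
      rw [Matrix.det_fin_two] at this
      exact this
    have h2 : γ 0 1 / (q : ℤ) * ((q : ℤ) * γ 1 0) = γ 0 1 * γ 1 0 := by
      rw [← mul_assoc, Int.ediv_mul_cancel hγ]
    rw [h2]; exact h1⟩

theorem mem_Gamma0_iff_dvd' {N : ℕ} (γ : SL(2, ℤ)) : γ ∈ Gamma0 N ↔ (N : ℤ) ∣ γ 1 0 := by
  rw [Gamma0_mem, ZMod.intCast_zmod_eq_zero_iff_dvd]

theorem conjDownSL_mem {γ : SL(2, ℤ)} (hγN : γ ∈ Gamma0 N) (hγ : (q : ℤ) ∣ γ 1 0)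
    (hcop : Nat.Coprime N q) : conjDownSL q γ hγ ∈ Gamma0 N := by
  rw [mem_Gamma0_iff_dvd'] at hγN ⊢
  show (N : ℤ) ∣ γ 1 0 / (q : ℤ)
  obtain ⟨c, hc⟩ := hγ
  have hq0 : (q : ℤ) ≠ 0 := Int.natCast_ne_zero.mpr (NeZero.ne q)
  rw [hc, Int.mul_ediv_cancel_left _ hq0]
  rw [hc] at hγN
  have hcop' : IsCoprime (N : ℤ) (q : ℤ) := Nat.isCoprime_iff_coprime.mpr hcop
  exact hcop'.dvd_of_dvd_mul_left hγN

theorem conjUpSL_mem {γ : SL(2, ℤ)} (hγN : γ ∈ Gamma0 N) (hγ : (q : ℤ) ∣ γ 0 1) :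
    conjUpSL q γ hγ ∈ Gamma0 N := by
  rw [mem_Gamma0_iff_dvd'] at hγN ⊢
  show (N : ℤ) ∣ (q : ℤ) * γ 1 0
  exact Dvd.dvd.mul_left hγN _

/-- `g⁻¹ (a, q b; c / q, d) g = (a b; c d)`. -/
theorem embB_conjDown {γ : SL(2, ℤ)} (hγN : γ ∈ Gamma0 N) (hγ : (q : ℤ) ∣ γ 1 0)
    (hcop : Nat.Coprime N q) :
    embB N q ⟨conjDownSL q γ hγ, conjDownSL_mem N q hγN hγ hcop⟩ = embA N ⟨γ, hγN⟩ := by
  have hq : (q : ℚ) ≠ 0 := Nat.cast_ne_zero.mpr (NeZero.ne q)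
  apply Units.ext
  rw [coe_embB, coe_embA]
  have h1 : gS q * ((conjDownSL q γ hγ : SL(2, ℤ)) : Matrix (Fin 2) (Fin 2) ℤ) * gD q =
      (q : ℤ) • ((γ : SL(2, ℤ)) : Matrix (Fin 2) (Fin 2) ℤ) := by
    rw [gS_mul_mul_gD]
    have e10 : (q : ℤ) * (q : ℤ) * (γ 1 0 / (q : ℤ)) = (q : ℤ) * γ 1 0 := by
      rw [mul_assoc, Int.mul_ediv_cancel' hγ]
    ext i j
    fin_cases i <;> fin_cases j
    · show (q : ℤ) * γ 0 0 = (q : ℤ) * γ 0 0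
      rfl
    · show (q : ℤ) * γ 0 1 = (q : ℤ) * γ 0 1
      rfl
    · show (q : ℤ) * (q : ℤ) * (γ 1 0 / (q : ℤ)) = (q : ℤ) * γ 1 0
      exact e10
    · show (q : ℤ) * γ 1 1 = (q : ℤ) * γ 1 1
      rfl
  rw [h1]
  exact inv_smul_castQ_smul q hq _

/-- `g⁻¹ (a b; c d) g = (a, b / q; q c, d)`. -/
theorem embB_eq_embA_conjUp {γ : SL(2, ℤ)} (hγN : γ ∈ Gamma0 N) (hγ : (q : ℤ) ∣ γ 0 1) :
    embB N q ⟨γ, hγN⟩ = embA N ⟨conjUpSL q γ hγ, conjUpSL_mem N q hγN hγ⟩ := by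
  have hq : (q : ℚ) ≠ 0 := Nat.cast_ne_zero.mpr (NeZero.ne q)
  apply Units.ext
  rw [coe_embB, coe_embA]
  have h1 : gS q * ((γ : SL(2, ℤ)) : Matrix (Fin 2) (Fin 2) ℤ) * gD q =
      (q : ℤ) • ((conjUpSL q γ hγ : SL(2, ℤ)) : Matrix (Fin 2) (Fin 2) ℤ) := by
    rw [gS_mul_mul_gD]
    ext i j
    fin_cases i <;> fin_cases j
    · show (q : ℤ) * γ 0 0 = (q : ℤ) * γ 0 0
      rfl
    · show γ 0 1 = (q : ℤ) * (γ 0 1 / (q : ℤ))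
      exact (Int.mul_ediv_cancel' hγ).symm
    · show (q : ℤ) * (q : ℤ) * γ 1 0 = (q : ℤ) * ((q : ℤ) * γ 1 0)
      ring
    · show (q : ℤ) * γ 1 1 = (q : ℤ) * γ 1 1
      rfl
  rw [h1]
  exact inv_smul_castQ_smul q hq _

end Groups


/-! ### the normal form property -/

section NF

variable (N q : ℕ) [NeZero q]

/-- `m = q^{-k} Z`. -/
def Rep (k : ℕ) (Z : Matrix (Fin 2) (Fin 2) ℤ) (m : GL (Fin 2) ℚ) : Prop :=
  (m : Matrix (Fin 2) (Fin 2) ℚ) = ((q : ℚ) ^ k)⁻¹ • castQ Z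

variable {q}

theorem Rep.mul_embA {k : ℕ} {Z : Matrix (Fin 2) (Fin 2) ℤ} {m : GL (Fin 2) ℚ}
    (h : Rep q k Z m) (γ : ↥(Gamma0 N)) :
    Rep q k (Z * ((γ : SL(2, ℤ)) : Matrix (Fin 2) (Fin 2) ℤ)) (m * embA N γ) := by
  unfold Rep at h ⊢
  rw [Units.val_mul, h, coe_embA, castQ_mul, Matrix.smul_mul]

theorem Rep.mul_embB {k : ℕ} {Z : Matrix (Fin 2) (Fin 2) ℤ} {m : GL (Fin 2) ℚ}
    (h : Rep q k Z m) (γ : ↥(Gamma0 N)) :
    Rep q (k + 1) (Z * gS q * ((γ : SL(2, ℤ)) : Matrix (Fin 2) (Fin 2) ℤ) * gD q)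
      (m * embB N q γ) := by
  unfold Rep at h ⊢
  rw [Units.val_mul, h, coe_embB, Matrix.smul_mul, Matrix.mul_smul, smul_smul, pow_succ, mul_inv,
    mul_assoc Z, mul_assoc Z, castQ_mul Z, mul_assoc (gS q)]

theorem Rep.not_mem_grpA (hq : q.Prime) {k : ℕ} {Z : Matrix (Fin 2) (Fin 2) ℤ}
    {m : GL (Fin 2) ℚ} (h : Rep q k Z m) (hk : 1 ≤ k) (hZ : ∃ i j, ¬ (q : ℤ) ∣ Z i j) :
    m ∉ grpA N := by
  rintro ⟨γ, rfl⟩
  obtain ⟨i, j, hij⟩ := hZ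
  apply hij
  have hq0 : (q : ℚ) ≠ 0 := Nat.cast_ne_zero.mpr hq.ne_zero
  unfold Rep at h
  rw [coe_embA] at h
  have h1 : castQ Z = castQ (((q : ℤ) ^ k) • ((γ : SL(2, ℤ)) : Matrix (Fin 2) (Fin 2) ℤ)) := by
    have h2 : castQ (((q : ℤ) ^ k) • ((γ : SL(2, ℤ)) : Matrix (Fin 2) (Fin 2) ℤ)) =
        ((q : ℚ) ^ k) • castQ ((γ : SL(2, ℤ)) : Matrix (Fin 2) (Fin 2) ℤ) := by
      ext a b
      simp only [castQ, Matrix.map_apply, Matrix.smul_apply, smul_eq_mul, map_mul, map_pow]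
      simp
    rw [h2, h, smul_smul, mul_inv_cancel₀ (pow_ne_zero k hq0), one_smul]
  have h3 := castQ_injective h1
  rw [h3, Matrix.smul_apply, smul_eq_mul]
  exact Dvd.dvd.mul_right (dvd_pow_self _ (by omega)) _

variable (q)

/-- a letter of `A ∖ C`. -/
theorem exists_embA_of_mem_of_not_mem (hcop : Nat.Coprime N q) {x : GL (Fin 2) ℚ}
    (hx : x ∈ grpA N) (hxC : x ∉ grpA N ⊓ grpB N q) :
    ∃ γ : ↥(Gamma0 N), embA N γ = x ∧ ¬ (q : ℤ) ∣ (γ : SL(2, ℤ)) 1 0 := by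
  obtain ⟨γ, rfl⟩ := hx
  refine ⟨γ, rfl, fun hdvd => hxC ⟨⟨γ, rfl⟩, ?_⟩⟩
  exact ⟨⟨conjDownSL q γ.1 hdvd, conjDownSL_mem N q γ.2 hdvd hcop⟩,
    embB_conjDown N q γ.2 hdvd hcop⟩

/-- a letter of `B ∖ C`. -/
theorem exists_embB_of_mem_of_not_mem {x : GL (Fin 2) ℚ}
    (hx : x ∈ grpB N q) (hxC : x ∉ grpA N ⊓ grpB N q) :
    ∃ γ : ↥(Gamma0 N), embB N q γ = x ∧ ¬ (q : ℤ) ∣ (γ : SL(2, ℤ)) 0 1 := by
  obtain ⟨γ, rfl⟩ := hx
  refine ⟨γ, rfl, fun hdvd => hxC ⟨?_, ⟨γ, rfl⟩⟩⟩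
  exact ⟨⟨conjUpSL q γ.1 hdvd, conjUpSL_mem N q γ.2 hdvd⟩,
    (embB_eq_embA_conjUp N q γ.2 hdvd).symm⟩

theorem normalForm_aux (hq : q.Prime) (hcop : Nat.Coprime N q) (l : List (GL (Fin 2) ℚ)) :
    (∀ (m : GL (Fin 2) ℚ) (k : ℕ) (Z : Matrix (Fin 2) (Fin 2) ℤ), Rep q k Z m → ColA q Z →
      AltList (grpA N) (grpB N q) false l → (l ≠ [] ∨ 1 ≤ k) → m * l.prod ∉ grpA N) ∧
    (∀ (m : GL (Fin 2) ℚ) (k : ℕ) (Z : Matrix (Fin 2) (Fin 2) ℤ), 1 ≤ k → Rep q k Z m →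
      ColB q Z → AltList (grpA N) (grpB N q) true l → m * l.prod ∉ grpA N) := by
  induction l with
  | nil =>
    refine ⟨fun m k Z hrep hZ _ hk => ?_, fun m k Z hk hrep hZ _ => ?_⟩
    · rw [List.prod_nil, mul_one]
      have hk1 : 1 ≤ k := hk.resolve_left (fun h => h rfl)
      refine hrep.not_mem_grpA N hq hk1 ?_
      by_contra hcon
      exact hZ ⟨not_not.mp fun h => hcon ⟨0, 0, h⟩, not_not.mp fun h => hcon ⟨1, 0, h⟩⟩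
    · rw [List.prod_nil, mul_one]
      refine hrep.not_mem_grpA N hq hk ?_
      by_contra hcon
      exact hZ.2.2 ⟨not_not.mp fun h => hcon ⟨0, 1, h⟩, not_not.mp fun h => hcon ⟨1, 1, h⟩⟩
  | cons y l ih =>
    refine ⟨fun m k Z hrep hZ halt _ => ?_, fun m k Z hk hrep hZ halt => ?_⟩
    · -- `y` is a letter of `B ∖ C`
      obtain ⟨hyB, hyC, halt'⟩ := halt
      obtain ⟨γ, rfl, hγ⟩ := exists_embB_of_mem_of_not_mem N q hyB hyC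
      rw [List.prod_cons, ← mul_assoc]
      exact ih.2 _ (k + 1) _ (by omega) (hrep.mul_embB N γ) (colB_step hq hZ hγ) halt'
    · -- `y` is a letter of `A ∖ C`
      obtain ⟨hyA, hyC, halt'⟩ := halt
      obtain ⟨γ, rfl, hγ⟩ := exists_embA_of_mem_of_not_mem N q hcop hyA hyC
      rw [List.prod_cons, ← mul_assoc]
      exact ih.1 _ k _ (hrep.mul_embA N γ) (colA_step hq hZ hγ) halt' (Or.inr hk)

/-- **(NF) for `A = Γ₀(N)`, `B = g⁻¹ Γ₀(N) g`.** -/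
theorem normalFormProp_grpA_grpB (hq : q.Prime) (hcop : Nat.Coprime N q) :
    NormalFormProp (grpA N) (grpB N q) := by
  intro s l hl halt
  have hrep1 : Rep q 0 1 (1 : GL (Fin 2) ℚ) := by
    unfold Rep
    rw [pow_zero, inv_one, one_smul, Units.val_one]
    ext i j
    fin_cases i <;> fin_cases j <;> simp [castQ]
  have hq1 : ¬ (q : ℤ) ∣ 1 := by
    intro h
    have := Int.natCast_dvd_natCast.mp (by simpa using h : ((q : ℕ) : ℤ) ∣ ((1 : ℕ) : ℤ))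
    exact hq.one_lt.ne' (Nat.dvd_one.mp this)
  cases s
  · -- the first letter is in `B`
    have h := (normalForm_aux N q hq hcop l).1 1 0 1 hrep1 ?_ halt (Or.inl hl)
    · rw [one_mul] at h
      exact fun hC => h hC.1
    · intro h
      exact hq1 (by simpa using h.1)
  · -- the first letter is in `A`
    obtain ⟨x, l', rfl⟩ := List.exists_cons_of_ne_nil hl
    obtain ⟨hxA, hxC, halt'⟩ := halt
    by_cases hl' : l' = []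
    · subst hl'
      rw [List.prod_cons, List.prod_nil, mul_one]
      exact hxC
    · obtain ⟨γ, rfl, hγ⟩ := exists_embA_of_mem_of_not_mem N q hcop hxA hxC
      have hrep : Rep q 0 (1 * ((γ : SL(2, ℤ)) : Matrix (Fin 2) (Fin 2) ℤ))
          (1 * embA N γ) := hrep1.mul_embA N γ
      have h := (normalForm_aux N q hq hcop l').1 (1 * embA N γ) 0 _ hrep ?_ halt' (Or.inl hl')
      · rw [one_mul] at h
        rw [List.prod_cons]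
        exact fun hC => h hC.1
      · rw [one_mul]
        intro h
        exact hγ h.2

end NF

end

end Fermat.Agent.LR
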