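/-
LR (level raising, S41) — helper7 — [CSP]/[K] counting step of finding 387 (K):
for a subgroup `Z` of `𝔽_r^*` with `2 |Z| ≤ r - 1` containing `Q ≠ 1` there is `s ∉ {0, -1, -Q}`
with `α_s = -1/s ∉ Z` and `θ_s = (s+1)/(s+Q) ∉ Z`.
-/
import Mathlib

set_option autoImplicit false

namespace Fermat.Agent.LR

theorem h7_exists_good_s {r : ℕ} [Fact r.Prime] (Z : Subgroup (ZMod r)ˣ)
    (hZ : 2 * Nat.card Z ≤ r - 1) (Qr : (ZMod r)ˣ) (hQ1 : Qr ≠ 1) (hQZ : Qr ∈ Z) :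
    ∃ s s1 sQ : (ZMod r)ˣ, (s1 : ZMod r) = (s : ZMod r) + 1 ∧
      (sQ : ZMod r) = (s : ZMod r) + (Qr : ZMod r) ∧ -s⁻¹ ∉ Z ∧ s1 * sQ⁻¹ ∉ Z := by
  classical
  have hr : r.Prime := Fact.out
  set Zs : Finset (ZMod r)ˣ := Finset.univ.filter (· ∈ Z) with hZs
  have hZs_mem : ∀ z, z ∈ Zs ↔ z ∈ Z := fun z => by simp [hZs]
  have hcardZs : Zs.card = Nat.card Z := by
    rw [Nat.card_eq_fintype_card, Fintype.card_subtype]
  set gα : (ZMod r)ˣ → ZMod r := fun z => -((z⁻¹ : (ZMod r)ˣ) : ZMod r) with hgα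
  set gθ : (ZMod r)ˣ → ZMod r :=
    fun z => ((z : ZMod r) * (Qr : ZMod r) - 1) / (1 - (z : ZMod r)) with hgθ
  set bad : Finset (ZMod r) := Zs.image gα ∪ (Zs.erase 1).image gθ with hbad
  have h1Z : (1 : (ZMod r)ˣ) ∈ Zs := (hZs_mem 1).mpr Z.one_mem
  have hQiZ : Qr⁻¹ ∈ Zs := (hZs_mem _).mpr (Z.inv_mem hQZ)
  have hQi1 : Qr⁻¹ ≠ 1 := by
    intro h
    exact hQ1 (inv_eq_one.mp h)
  have hcard : bad.card < (Finset.univ : Finset (ZMod r)).card := by
    have h1 : bad.card ≤ Zs.card + (Zs.erase 1).card :=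
      (Finset.card_union_le _ _).trans (Nat.add_le_add Finset.card_image_le Finset.card_image_le)
    have h2 : (Zs.erase 1).card = Zs.card - 1 := Finset.card_erase_of_mem h1Z
    have h3 : 0 < Zs.card := Finset.card_pos.mpr ⟨1, h1Z⟩
    have h4 : (Finset.univ : Finset (ZMod r)).card = r := by
      rw [Finset.card_univ, ZMod.card]
    have h5 := hr.two_le
    rw [h4]
    omega
  obtain ⟨s, -, hs⟩ := Finset.exists_mem_notMem_of_card_lt_card hcard
  have hsα : ∀ z ∈ Z, gα z ≠ s := by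
    intro z hz h
    apply hs
    rw [hbad]
    exact Finset.mem_union_left _ (Finset.mem_image.mpr ⟨z, (hZs_mem z).mpr hz, h⟩)
  have hsθ : ∀ z ∈ Z, z ≠ 1 → gθ z ≠ s := by
    intro z hz hz1 h
    apply hs
    rw [hbad]
    exact Finset.mem_union_right _
      (Finset.mem_image.mpr ⟨z, Finset.mem_erase.mpr ⟨hz1, (hZs_mem z).mpr hz⟩, h⟩)
  have hQne0 : (Qr : ZMod r) ≠ 0 := Qr.ne_zero
  have hQne1 : (Qr : ZMod r) ≠ 1 := by
    intro h
    apply hQ1
    exact Units.ext h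
  -- `s ≠ 0`
  have hs0 : s ≠ 0 := by
    intro h
    apply hsθ Qr⁻¹ (Z.inv_mem hQZ) hQi1
    rw [h]
    show (((Qr⁻¹ : (ZMod r)ˣ) : ZMod r) * (Qr : ZMod r) - 1) /
      (1 - ((Qr⁻¹ : (ZMod r)ˣ) : ZMod r)) = 0
    rw [Units.inv_mul, sub_self, zero_div]
  -- `s + 1 ≠ 0`
  have hs1 : s + 1 ≠ 0 := by
    intro h
    apply hsα 1 Z.one_mem
    rw [hgα]
    simp only [inv_one, Units.val_one]
    linear_combination -h
  -- `s + Q ≠ 0`
  have hsQ : s + (Qr : ZMod r) ≠ 0 := by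
    intro h
    apply hsα Qr⁻¹ (Z.inv_mem hQZ)
    rw [hgα]
    simp only [inv_inv]
    linear_combination -h
  refine ⟨Units.mk0 s hs0, Units.mk0 (s + 1) hs1, Units.mk0 (s + (Qr : ZMod r)) hsQ,
    by simp, by simp, ?_, ?_⟩
  · intro hmem
    apply hsα _ hmem
    rw [hgα]
    simp
  · intro hmem
    have hne1 : Units.mk0 (s + 1) hs1 * (Units.mk0 (s + (Qr : ZMod r)) hsQ)⁻¹ ≠ 1 := by
      intro h
      rw [mul_inv_eq_one] at h
      have h' := congrArg (fun u : (ZMod r)ˣ => (u : ZMod r)) h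
      simp only [Units.val_mk0] at h'
      apply hQne1
      linear_combination -h'
    apply hsθ _ hmem hne1
    rw [hgθ]
    simp only [Units.val_mul, Units.val_mk0, Units.val_inv_eq_inv_val]
    have hQ1' : (Qr : ZMod r) - 1 ≠ 0 := sub_ne_zero.mpr hQne1
    have hden : 1 - (s + 1) * (s + (Qr : ZMod r))⁻¹ ≠ 0 := by
      intro h
      have : (s + (Qr : ZMod r)) - (s + 1) = 0 := by
        have h2 : (s + (Qr : ZMod r)) * (1 - (s + 1) * (s + (Qr : ZMod r))⁻¹) = 0 := by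
          rw [h, mul_zero]
        rw [mul_sub, mul_one, mul_comm (s + 1), ← mul_assoc, mul_inv_cancel₀ hsQ, one_mul] at h2
        exact h2
      apply hQ1'
      linear_combination this
    rw [div_eq_iff hden]
    field_simp
    ring

end Fermat.Agent.LR
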