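/-
LR (level raising, S41) — helper3 — [EISG], abstract part.

**Lemma E.**  Let `G` be a group, `K ⊴ G`, `κ : K → M` a homomorphism to an abelian group which is
invariant under conjugation by `G`, and `D` a Hecke datum for `G` whose cocycle satisfies
`c(g, i) g⁻¹ ∈ K`.  Then `Ψ(g) = ∏ᵢ κ(c(g, i) g⁻¹)` is a homomorphism `G → M`.  Consequently, if
every homomorphism `G → M` is trivial on `K`, then `∏ᵢ κ(c(k, i)) = κ(k) ^ |ι|` for `k ∈ K`:
"`κ` is an eigenvector of the Hecke operator with eigenvalue its degree".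
-/
import Mathlib
import Fermat.Agent.GR.HGRP_helper2_Abstract

set_option autoImplicit false
set_option linter.unusedSectionVars false

namespace Fermat.Agent.LR.EisG

open Fermat.Agent.GR

section Twist

variable {Γ G ι : Type*} [Group Γ] [Group G] (D : HeckeDatum Γ G ι) (cc : ι → Γ)

/-- the Hecke datum with the representatives `e(ccᵢ)⁻¹ αᵢ`. -/
def twistDatum : HeckeDatum Γ G ι where
  e := D.e
  e_inj := D.e_inj
  α i := (D.e (cc i))⁻¹ * D.α i
  exists_eq γ i := by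
    refine ⟨D.perm γ i, (cc i)⁻¹ * D.cocycle γ i * cc (D.perm γ i), ?_⟩
    rw [mul_assoc, D.spec γ i, map_mul, map_mul, map_inv]
    group
  index_eq i j γ' h := by
    refine D.index_eq i j (cc i * γ' * (cc j)⁻¹) ?_
    rw [map_mul, map_mul, map_inv]
    have h' : D.α i = D.e (cc i) * (D.e γ' * ((D.e (cc j))⁻¹ * D.α j)) := by
      rw [← h, mul_inv_cancel_left]
    rw [h']
    group

theorem twistDatum_e : (twistDatum D cc).e = D.e := rfl

theorem twistDatum_spec (γ : Γ) (i : ι) :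
    (twistDatum D cc).α i * (twistDatum D cc).e γ =
      (twistDatum D cc).e ((cc i)⁻¹ * D.cocycle γ i * cc (D.perm γ i)) *
        (twistDatum D cc).α (D.perm γ i) := by
  show (D.e (cc i))⁻¹ * D.α i * D.e γ = D.e ((cc i)⁻¹ * D.cocycle γ i * cc (D.perm γ i)) *
    ((D.e (cc (D.perm γ i)))⁻¹ * D.α (D.perm γ i))
  rw [mul_assoc, D.spec γ i, map_mul, map_mul, map_inv]
  group

theorem twistDatum_perm (γ : Γ) (i : ι) : (twistDatum D cc).perm γ i = D.perm γ i :=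
  (twistDatum D cc).perm_eq (twistDatum_spec D cc γ i)

theorem twistDatum_cocycle (γ : Γ) (i : ι) :
    (twistDatum D cc).cocycle γ i = (cc i)⁻¹ * D.cocycle γ i * cc (D.perm γ i) :=
  (twistDatum D cc).cocycle_eq (twistDatum_spec D cc γ i)

end Twist

section LemmaE

variable {G 𝔾 ι M : Type*} [Group G] [Group 𝔾] [Fintype ι] [CommGroup M]
  (D : HeckeDatum G 𝔾 ι) (K : Subgroup G) [hK : K.Normal] (κ : ↥K →* M)

/-- **Lemma E**: the "defect" homomorphism `g ↦ ∏ᵢ κ(c(g, i) g⁻¹)`. -/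
noncomputable def defectHom
    (hκ : ∀ (g : G) (k : ↥K), κ ⟨g * (k : G) * g⁻¹, hK.conj_mem k k.2 g⟩ = κ k)
    (H : ∀ (g : G) (i : ι), D.cocycle g i * g⁻¹ ∈ K) : G →* M where
  toFun g := ∏ i, κ ⟨D.cocycle g i * g⁻¹, H g i⟩
  map_one' := by
    have : ∀ i, κ ⟨D.cocycle 1 i * (1 : G)⁻¹, H 1 i⟩ = 1 := by
      intro i
      have e : (⟨D.cocycle 1 i * (1 : G)⁻¹, H 1 i⟩ : ↥K) = 1 := by
        apply Subtype.ext
        simp
      rw [e, map_one]
    exact Finset.prod_eq_one fun i _ => this i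
  map_mul' g h := by
    have h1 : ∀ i, κ ⟨D.cocycle (g * h) i * (g * h)⁻¹, H (g * h) i⟩ =
        κ ⟨D.cocycle g i * g⁻¹, H g i⟩ *
          κ ⟨D.cocycle h (D.perm g i) * h⁻¹, H h (D.perm g i)⟩ := by
      intro i
      have e : (⟨D.cocycle (g * h) i * (g * h)⁻¹, H (g * h) i⟩ : ↥K) =
          ⟨D.cocycle g i * ((⟨D.cocycle h (D.perm g i) * h⁻¹, H h (D.perm g i)⟩ : ↥K) : G) *
            (D.cocycle g i)⁻¹, hK.conj_mem _ (H h (D.perm g i)) _⟩ *
          ⟨D.cocycle g i * g⁻¹, H g i⟩ := by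
        apply Subtype.ext
        show D.cocycle (g * h) i * (g * h)⁻¹ =
          D.cocycle g i * (D.cocycle h (D.perm g i) * h⁻¹) * (D.cocycle g i)⁻¹ *
            (D.cocycle g i * g⁻¹)
        rw [D.cocycle_mul]
        group
      rw [e, map_mul, hκ, mul_comm]
    rw [Finset.prod_congr rfl fun i _ => h1 i, Finset.prod_mul_distrib]
    congr 1
    exact Equiv.prod_comp (D.permEquiv g)
      (fun i => κ ⟨D.cocycle h i * h⁻¹, H h i⟩)

theorem defectHom_apply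
    (hκ : ∀ (g : G) (k : ↥K), κ ⟨g * (k : G) * g⁻¹, hK.conj_mem k k.2 g⟩ = κ k)
    (H : ∀ (g : G) (i : ι), D.cocycle g i * g⁻¹ ∈ K) (g : G) :
    defectHom D K κ hκ H g = ∏ i, κ ⟨D.cocycle g i * g⁻¹, H g i⟩ := rfl

theorem cocycle_mem_of_mem (H : ∀ (g : G) (i : ι), D.cocycle g i * g⁻¹ ∈ K) {k : G} (hk : k ∈ K)
    (i : ι) : D.cocycle k i ∈ K := by
  have := K.mul_mem (H k i) hk
  rwa [inv_mul_cancel_right] at this

/-- **Corollary of Lemma E**: if every homomorphism `G → M` is trivial on `K`, then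
`∏ᵢ κ(c(k, i)) = κ(k) ^ |ι|` for `k ∈ K`. -/
theorem prod_cocycle_eq_pow
    (hκ : ∀ (g : G) (k : ↥K), κ ⟨g * (k : G) * g⁻¹, hK.conj_mem k k.2 g⟩ = κ k)
    (H : ∀ (g : G) (i : ι), D.cocycle g i * g⁻¹ ∈ K)
    (hhom : ∀ ψ : G →* M, ∀ k ∈ K, ψ k = 1) (k : ↥K) :
    ∏ i, κ ⟨D.cocycle (k : G) i, cocycle_mem_of_mem D K H k.2 i⟩ = κ k ^ Fintype.card ι := by
  have h0 := hhom (defectHom D K κ hκ H) k k.2
  rw [defectHom_apply] at h0
  have h1 : ∀ i, κ ⟨D.cocycle (k : G) i * (k : G)⁻¹, H k i⟩ =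
      κ ⟨D.cocycle (k : G) i, cocycle_mem_of_mem D K H k.2 i⟩ * (κ k)⁻¹ := by
    intro i
    rw [← map_inv, ← map_mul]
    rfl
  rw [Finset.prod_congr rfl fun i _ => h1 i, Finset.prod_mul_distrib, Finset.prod_const,
    Finset.card_univ, mul_eq_one_iff_eq_inv, inv_pow, inv_inv] at h0
  exact h0

end LemmaE

end Fermat.Agent.LR.EisG
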