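/-
LR (level raising, S41) — helper3 — [EISG]: every homomorphism `SL₂(ℤ) → 𝔽_p` (`p` an odd prime)
is trivial on `Γ(m)` as soon as `p ∣ m`.  For `p ≥ 5` there is no non trivial homomorphism at all
(`S⁴ = (ST)⁶ = 1`); for `p = 3` every homomorphism is a power of the character
`χ₃ : SL₂(𝔽₃) → ℤ/3`, `(a b; c d) ↦ a c + b d + c d - b c² d`.
-/
import Mathlib

set_option autoImplicit false
set_option linter.unusedSectionVars false

open Matrix CongruenceSubgroup ModularGroup

open scoped MatrixGroups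

namespace Fermat.Agent.LR.EisG

/-- the polynomial giving the character of `SL₂(𝔽₃)` of order three. -/
def chi3F (a b c d : ZMod 3) : ZMod 3 := a * c + b * d + c * d - b * c ^ 2 * d

set_option maxRecDepth 100000 in
theorem chi3F_mul : ∀ a b c d a' b' c' d' : ZMod 3, a * d - b * c = 1 → a' * d' - b' * c' = 1 →
    chi3F (a * a' + b * c') (a * b' + b * d') (c * a' + d * c') (c * b' + d * d') =
      chi3F a b c d + chi3F a' b' c' d' := by
  decide

/-- **the character of order three of `SL₂(𝔽₃)`.** -/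
def chi3 : SL(2, ZMod 3) →* Multiplicative (ZMod 3) where
  toFun g := Multiplicative.ofAdd (chi3F (g 0 0) (g 0 1) (g 1 0) (g 1 1))
  map_one' := by
    simp [chi3F]
  map_mul' g h := by
    have hg : g 0 0 * g 1 1 - g 0 1 * g 1 0 = 1 := by
      have := g.det_coe
      rwa [Matrix.det_fin_two] at this
    have hh : h 0 0 * h 1 1 - h 0 1 * h 1 0 = 1 := by
      have := h.det_coe
      rwa [Matrix.det_fin_two] at this
    have e := chi3F_mul _ _ _ _ _ _ _ _ hg hh
    have e00 : (g * h) 0 0 = g 0 0 * h 0 0 + g 0 1 * h 1 0 := by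
      simp [Matrix.SpecialLinearGroup.coe_mul, Matrix.mul_apply, Fin.sum_univ_two]
    have e01 : (g * h) 0 1 = g 0 0 * h 0 1 + g 0 1 * h 1 1 := by
      simp [Matrix.SpecialLinearGroup.coe_mul, Matrix.mul_apply, Fin.sum_univ_two]
    have e10 : (g * h) 1 0 = g 1 0 * h 0 0 + g 1 1 * h 1 0 := by
      simp [Matrix.SpecialLinearGroup.coe_mul, Matrix.mul_apply, Fin.sum_univ_two]
    have e11 : (g * h) 1 1 = g 1 0 * h 0 1 + g 1 1 * h 1 1 := by
      simp [Matrix.SpecialLinearGroup.coe_mul, Matrix.mul_apply, Fin.sum_univ_two]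
    rw [e00, e01, e10, e11, e, ofAdd_add]

theorem S_pow_four : (S : SL(2, ℤ)) ^ 4 = 1 := by decide

theorem S_mul_T_pow_six : ((S : SL(2, ℤ)) * T) ^ 6 = 1 := by decide

theorem eq_one_of_pow_eq_one {p : ℕ} (z : Multiplicative (ZMod p)) {n : ℕ} (hn : Nat.Coprime n p)
    (hz : z ^ n = 1) : z = 1 := by
  have hp : z ^ p = 1 := by
    show Multiplicative.ofAdd (p • Multiplicative.toAdd z) = Multiplicative.ofAdd 0
    congr 1
    simp
  have h1 : orderOf z ∣ Nat.gcd n p := Nat.dvd_gcd (orderOf_dvd_of_pow_eq_one hz)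
    (orderOf_dvd_of_pow_eq_one hp)
  rw [hn, Nat.dvd_one, orderOf_eq_one_iff] at h1
  exact h1

/-- `Hom(SL₂(ℤ), 𝔽_p) = 0` for `p` prime to `6`. -/
theorem hom_SL2Z_eq_one {p : ℕ} (hp6 : Nat.Coprime 6 p) (ψ : SL(2, ℤ) →* Multiplicative (ZMod p))
    (g : SL(2, ℤ)) : ψ g = 1 := by
  have h4 : Nat.Coprime 4 p := by
    have h2 : Nat.Coprime 2 p := Nat.Coprime.coprime_dvd_left (by norm_num) hp6
    exact Nat.Coprime.pow_left 2 h2
  have hS : ψ S = 1 := eq_one_of_pow_eq_one _ h4 (by rw [← map_pow, S_pow_four, map_one])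
  have hST : ψ (S * T) = 1 :=
    eq_one_of_pow_eq_one _ hp6 (by rw [← map_pow, S_mul_T_pow_six, map_one])
  have hT : ψ T = 1 := by
    rw [map_mul, hS, one_mul] at hST
    exact hST
  have : ψ = 1 := by
    refine MonoidHom.eq_of_eqOn_dense SpecialLinearGroup.SL2Z_generators ?_
    intro x hx
    rcases hx with rfl | rfl
    · rw [hS]; rfl
    · rw [hT]; rfl
  rw [this]
  rfl

/-- every homomorphism `SL₂(ℤ) → 𝔽₃` is trivial on `Γ(3)`. -/
theorem hom_SL2Z_three (ψ : SL(2, ℤ) →* Multiplicative (ZMod 3)) {k : SL(2, ℤ)}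
    (hk : k ∈ Gamma 3) : ψ k = 1 := by
  set χ : SL(2, ℤ) →* Multiplicative (ZMod 3) :=
    chi3.comp (Matrix.SpecialLinearGroup.map (Int.castRingHom (ZMod 3))) with hχ
  set e : ℕ := (Multiplicative.toAdd (ψ T)).val with he
  have h43 : Nat.Coprime 4 3 := by decide
  have hS : ψ S = 1 :=
    eq_one_of_pow_eq_one (n := 4) _ h43 (by rw [← map_pow, S_pow_four, map_one])
  have hχS : χ S = 1 :=
    eq_one_of_pow_eq_one (n := 4) _ h43 (by rw [← map_pow, S_pow_four, map_one])
  have hχT : χ T = Multiplicative.ofAdd 1 := by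
    have e00 : (Matrix.SpecialLinearGroup.map (Int.castRingHom (ZMod 3)) T) 0 0 = 1 := by
      rw [Matrix.SpecialLinearGroup.map_apply_coe, RingHom.mapMatrix_apply, Matrix.map_apply]
      simp [ModularGroup.T]
    have e01 : (Matrix.SpecialLinearGroup.map (Int.castRingHom (ZMod 3)) T) 0 1 = 1 := by
      rw [Matrix.SpecialLinearGroup.map_apply_coe, RingHom.mapMatrix_apply, Matrix.map_apply]
      simp [ModularGroup.T]
    have e10 : (Matrix.SpecialLinearGroup.map (Int.castRingHom (ZMod 3)) T) 1 0 = 0 := by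
      rw [Matrix.SpecialLinearGroup.map_apply_coe, RingHom.mapMatrix_apply, Matrix.map_apply]
      simp [ModularGroup.T]
    have e11 : (Matrix.SpecialLinearGroup.map (Int.castRingHom (ZMod 3)) T) 1 1 = 1 := by
      rw [Matrix.SpecialLinearGroup.map_apply_coe, RingHom.mapMatrix_apply, Matrix.map_apply]
      simp [ModularGroup.T]
    show Multiplicative.ofAdd (chi3F _ _ _ _) = _
    rw [e00, e01, e10, e11]
    simp [chi3F]
  have hψ : ψ = χ ^ e := by
    refine MonoidHom.eq_of_eqOn_dense SpecialLinearGroup.SL2Z_generators ?_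
    intro x hx
    rcases hx with rfl | rfl
    · rw [MonoidHom.pow_apply, hS, hχS, one_pow]
    · rw [MonoidHom.pow_apply, hχT, ← ofAdd_nsmul, he]
      apply Multiplicative.toAdd.injective
      simp
  rw [hψ, MonoidHom.pow_apply]
  have : χ k = 1 := by
    rw [hχ, MonoidHom.comp_apply, (Gamma_mem'.mp hk), map_one]
  rw [this, one_pow]

/-- **every homomorphism `SL₂(ℤ) → 𝔽_p`, `p` an odd prime, is trivial on `Γ(m)` if `p ∣ m`.** -/
theorem hom_SL2Z_eq_one_of_mem_Gamma {p m : ℕ} (hp : p.Prime) (hp2 : p ≠ 2) (hpm : p ∣ m)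
    (ψ : SL(2, ℤ) →* Multiplicative (ZMod p)) {k : SL(2, ℤ)} (hk : k ∈ Gamma m) : ψ k = 1 := by
  by_cases hp3 : p = 3
  · subst hp3
    refine hom_SL2Z_three ψ ?_
    rw [Gamma_mem] at hk ⊢
    obtain ⟨h1, h2, h3, h4⟩ := hk
    have key : ∀ z : ℤ, ∀ c : ℤ, ((z : ZMod m) = (c : ZMod m)) → ((z : ZMod 3) = (c : ZMod 3)) := by
      intro z c hz
      rw [ZMod.intCast_eq_intCast_iff_dvd_sub] at hz ⊢
      exact dvd_trans (by exact_mod_cast hpm) hz
    refine ⟨?_, ?_, ?_, ?_⟩
    · simpa using key _ 1 (by simpa using h1)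
    · simpa using key _ 0 (by simpa using h2)
    · simpa using key _ 0 (by simpa using h3)
    · simpa using key _ 1 (by simpa using h4)
  · refine hom_SL2Z_eq_one ?_ ψ k
    have h2 : Nat.Coprime 2 p := (Nat.coprime_primes Nat.prime_two hp).mpr (Ne.symm hp2)
    have h3 : Nat.Coprime 3 p := (Nat.coprime_primes Nat.prime_three hp).mpr (Ne.symm hp3)
    exact Nat.Coprime.mul_left h2 h3

end Fermat.Agent.LR.EisG
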