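/-
LR (level raising, S41) — helper9 — [EIS]: **a congruence homomorphism is Eisenstein**.
If `φ : Γ₀(N) → A` kills `Γ₀(N) ∩ Γ(D)` and `ℓ ∤ N` is a prime with `ℓ ≡ 1 mod D`, then
`T_ℓ φ = (ℓ + 1) φ`.  Proof: replace the representatives `(1 b; 0 ℓ)` of the Hecke cosets by
`(1 b; 0 1)⁻¹ (1 b; 0 ℓ) ≡ 1 mod D`; then every `γᵢ` (`αᵢ γ = γᵢ α_{σ i}`) is `≡ γ mod D`.
-/
import Mathlib
import Fermat.Agent.GR.MULT1_helper2_Ops

set_option autoImplicit false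
set_option linter.unusedSectionVars false

open Matrix CongruenceSubgroup Fermat.Agent.GR

open scoped MatrixGroups

namespace Fermat.Agent.LR

noncomputable section

section Corr

variable (ℓ : ℕ)

/-- the correcting elements: `1` for `(ℓ 0; 0 1)`, `(1 b; 0 1)` for `(1 b; 0 ℓ)`. -/
def eisCorr : Option (Fin ℓ) → SL(2, ℤ)
  | none => 1
  | some b => ⟨!![1, ((b : ℕ) : ℤ); 0, 1], by rw [Matrix.det_fin_two_of]; ring⟩

theorem eisCorr_mem (N : ℕ) (i : Option (Fin ℓ)) : eisCorr ℓ i ∈ Gamma0 N := by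
  cases i with
  | none => exact one_mem _
  | some b =>
    rw [Gamma0_mem]
    show (((0 : ℤ)) : ZMod N) = 0
    simp

/-- modulo `D` (with `ℓ ≡ 1 mod D`) the Hecke representatives are the correcting elements. -/
theorem map_heckeRepZ_eq {D : ℕ} (hℓD : ((ℓ : ℤ) : ZMod D) = 1) (i : Option (Fin ℓ)) :
    (heckeRepZ ℓ i).map (Int.castRingHom (ZMod D)) =
      ((eisCorr ℓ i : SL(2, ℤ)) : Matrix (Fin 2) (Fin 2) ℤ).map (Int.castRingHom (ZMod D)) := by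
  cases i with
  | none =>
    ext a b
    fin_cases a <;> fin_cases b <;>
      simp [heckeRepZ, utZ, repA, repB, repD, eisCorr]
    simpa using hℓD
  | some c =>
    ext a b
    fin_cases a <;> fin_cases b <;>
      simp [heckeRepZ, utZ, repA, repB, repD, eisCorr]
    simpa using hℓD

/-- **the key congruence**: if `αᵢ γ = δ αⱼ` then `cᵢ⁻¹ δ cⱼ ≡ γ mod D`. -/
theorem corr_mul_mem_Gamma {D : ℕ} (hℓD : ((ℓ : ℤ) : ZMod D) = 1) {i j : Option (Fin ℓ)}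
    {γ δ : SL(2, ℤ)}
    (h : heckeRepZ ℓ i * (γ : Matrix (Fin 2) (Fin 2) ℤ) =
      (δ : Matrix (Fin 2) (Fin 2) ℤ) * heckeRepZ ℓ j) :
    (eisCorr ℓ i)⁻¹ * δ * eisCorr ℓ j * γ⁻¹ ∈ Gamma D := by
  rw [Gamma_mem']
  set r := Matrix.SpecialLinearGroup.map (n := Fin 2) (Int.castRingHom (ZMod D)) with hr
  have h1 := congrArg (fun M : Matrix (Fin 2) (Fin 2) ℤ => M.map (Int.castRingHom (ZMod D))) h
  simp only [Matrix.map_mul] at h1
  rw [map_heckeRepZ_eq ℓ hℓD, map_heckeRepZ_eq ℓ hℓD] at h1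
  have h2 : r (eisCorr ℓ i) * r γ = r δ * r (eisCorr ℓ j) := by
    apply Subtype.ext
    exact h1
  rw [map_mul, map_mul, map_mul, map_inv, map_inv]
  calc (r (eisCorr ℓ i))⁻¹ * r δ * r (eisCorr ℓ j) * (r γ)⁻¹
      = (r (eisCorr ℓ i))⁻¹ * (r δ * r (eisCorr ℓ j)) * (r γ)⁻¹ := by group
    _ = (r (eisCorr ℓ i))⁻¹ * (r (eisCorr ℓ i) * r γ) * (r γ)⁻¹ := by rw [h2]
    _ = 1 := by group

end Corr

section Main

variable {N D : ℕ} {A : Type*} [AddCommGroup A]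

/-- **[EIS]**: a homomorphism `Γ₀(N) → A` which kills `Γ₀(N) ∩ Γ(D)` is an eigenvector of `T_ℓ`
with eigenvalue `ℓ + 1` for every prime `ℓ ∤ N`, `ℓ ≡ 1 mod D`. -/
theorem heckeGrpP_eq_smul_of_congruence (φ : Additive ↥(Gamma0 N) →+ A)
    (hφ : ∀ γ : ↥(Gamma0 N), (γ : SL(2, ℤ)) ∈ Gamma D → φ (Additive.ofMul γ) = 0)
    (ℓ : Nat.Primes) (hℓN : ¬ (ℓ : ℕ) ∣ N) (hℓD : (ℓ : ℕ) ≡ 1 [MOD D]) :
    heckeGrpP N ℓ A φ = ((ℓ : ℕ) + 1) • φ := by
  have hℓD' : (((ℓ : ℕ) : ℤ) : ZMod D) = 1 := by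
    have := (ZMod.natCast_eq_natCast_iff _ _ D).mpr hℓD
    simpa using this
  rw [heckeGrpP_of_not_dvd A hℓN]
  set Dt := heckeDatumT N ℓ ℓ.2 hℓN with hDt
  refine AddMonoidHom.ext fun γ' => ?_
  obtain ⟨γ, rfl⟩ : ∃ γ : ↥(Gamma0 N), Additive.ofMul γ = γ' := ⟨Additive.toMul γ', rfl⟩
  rw [HeckeDatum.heckeGrp_apply]
  -- the corrected cocycle
  let c : Option (Fin (ℓ : ℕ)) → ↥(Gamma0 N) := fun i => ⟨eisCorr ℓ i, eisCorr_mem ℓ N i⟩
  have hkey : ∀ i, φ (Additive.ofMul (Dt.cocycle γ i)) =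
      φ (Additive.ofMul γ) + (φ (Additive.ofMul (c i)) -
        φ (Additive.ofMul (c (Dt.perm γ i)))) := by
    intro i
    have hspec := Dt.spec γ i
    have hspec' : heckeRep ℓ i * (((γ : SL(2, ℤ)) : GL (Fin 2) ℝ)) =
        (((Dt.cocycle γ i : ↥(Gamma0 N)) : SL(2, ℤ)) : GL (Fin 2) ℝ) *
          heckeRep ℓ (Dt.perm γ i) := hspec
    have hZ := (heckeRep_mul_eq_iff ℓ.2.ne_zero i (Dt.perm γ i) _ _).mp hspec'
    have hmem := corr_mul_mem_Gamma (ℓ : ℕ) hℓD' hZ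
    have hmem' : (((c i)⁻¹ * Dt.cocycle γ i * c (Dt.perm γ i) * γ⁻¹ : ↥(Gamma0 N)) : SL(2, ℤ)) ∈
        Gamma D := hmem
    have h0 := hφ _ hmem'
    rw [ofMul_mul, ofMul_mul, ofMul_mul, ofMul_inv, ofMul_inv, map_add, map_add, map_add,
      map_neg, map_neg] at h0
    have : φ (Additive.ofMul (Dt.cocycle γ i)) =
        φ (Additive.ofMul γ) + φ (Additive.ofMul (c i)) -
          φ (Additive.ofMul (c (Dt.perm γ i))) := by
      rw [eq_sub_iff_add_eq, ← sub_eq_zero]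
      rw [← h0]
      abel
    rw [this]
    abel
  rw [Finset.sum_congr rfl fun i _ => hkey i, Finset.sum_add_distrib, Finset.sum_sub_distrib]
  have hperm : ∑ i, φ (Additive.ofMul (c (Dt.perm γ i))) = ∑ i, φ (Additive.ofMul (c i)) :=
    Equiv.sum_comp (Dt.permEquiv γ) (fun i => φ (Additive.ofMul (c i)))
  rw [hperm, sub_self, add_zero, Finset.sum_const, Finset.card_univ, Fintype.card_option,
    Fintype.card_fin]
  rfl

end Main

end

end Fermat.Agent.LR
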