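/-
LR (level raising, S41) — helper3 — [EISG], the application of Lemma E to `SL₂(ℤ) ⊵ Γ(m)`.

If `x : Γ₀(N) → A` is a homomorphism whose restriction to `Γ(m)` (`N ∣ m`) is invariant under
conjugation by `SL₂(ℤ)`, and every homomorphism `SL₂(ℤ) → A` kills `Γ(m)`, then for every prime
`ℓ ∤ N`, `ℓ ≡ 1 mod m`, the homomorphism `T_ℓ x - (ℓ + 1) x` kills `Γ₀(N) ∩ Γ(m)`; hence (helper9's
[EIS]) it is an eigenvector of every `T_ℓ'`, `ℓ' ≡ 1 mod m`, with eigenvalue `ℓ' + 1`.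
-/
import Mathlib
import Fermat.Agent.LR.EISG_helper3_Abstract
import Fermat.Agent.LR.EIS_helper9_Cong

set_option autoImplicit false
set_option linter.unusedSectionVars false
set_option linter.style.haveILetI false

open Matrix CongruenceSubgroup Fermat.Agent.GR

open scoped MatrixGroups

namespace Fermat.Agent.LR.EisG

noncomputable section

/-- the Hecke datum of `T_ℓ` in level one. -/
def datumOne (ℓ : ℕ) (hℓ : ℓ.Prime) : HeckeDatum SL(2, ℤ) (GL (Fin 2) ℝ) (Option (Fin ℓ)) where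
  e := Matrix.SpecialLinearGroup.mapGL ℝ
  e_inj := Matrix.SpecialLinearGroup.mapGL_injective
  α := heckeRep ℓ
  exists_eq γ i := by
    obtain ⟨j, δ, h⟩ := exists_heckeRepZ_mul hℓ i γ
    exact ⟨j, δ, (heckeRep_mul_eq_iff hℓ.ne_zero i j _ _).mpr h⟩
  index_eq i j γ' h := by
    have h1 : heckeRep ℓ i * ((1 : SL(2, ℤ)) : GL (Fin 2) ℝ) =
        ((γ' : SL(2, ℤ)) : GL (Fin 2) ℝ) * heckeRep ℓ j := by
      have h0 : ((1 : SL(2, ℤ)) : GL (Fin 2) ℝ) = 1 :=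
        map_one (Matrix.SpecialLinearGroup.mapGL ℝ)
      rw [h0, mul_one]
      exact h
    have h2 := (heckeRep_mul_eq_iff hℓ.ne_zero i j _ _).mp h1
    rw [Matrix.SpecialLinearGroup.coe_one, mul_one] at h2
    exact eq_of_heckeRepZ_eq hℓ.one_lt h2

/-- the level one datum with the representatives corrected to be `≡ 1 mod m` (`ℓ ≡ 1 mod m`). -/
def datumOneC (ℓ : ℕ) (hℓ : ℓ.Prime) : HeckeDatum SL(2, ℤ) (GL (Fin 2) ℝ) (Option (Fin ℓ)) :=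
  twistDatum (datumOne ℓ hℓ) (eisCorr ℓ)

theorem datumOneC_cocycle (ℓ : ℕ) (hℓ : ℓ.Prime) (g : SL(2, ℤ)) (i : Option (Fin ℓ)) :
    (datumOneC ℓ hℓ).cocycle g i =
      (eisCorr ℓ i)⁻¹ * (datumOne ℓ hℓ).cocycle g i * eisCorr ℓ ((datumOne ℓ hℓ).perm g i) :=
  twistDatum_cocycle _ _ g i

theorem datumOneC_perm (ℓ : ℕ) (hℓ : ℓ.Prime) (g : SL(2, ℤ)) (i : Option (Fin ℓ)) :
    (datumOneC ℓ hℓ).perm g i = (datumOne ℓ hℓ).perm g i :=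
  twistDatum_perm _ _ g i

/-- hypothesis (H) of Lemma E. -/
theorem datumOneC_cocycle_mul_inv_mem {ℓ m : ℕ} (hℓ : ℓ.Prime) (hℓm : ℓ ≡ 1 [MOD m])
    (g : SL(2, ℤ)) (i : Option (Fin ℓ)) : (datumOneC ℓ hℓ).cocycle g i * g⁻¹ ∈ Gamma m := by
  have hℓm' : (((ℓ : ℕ) : ℤ) : ZMod m) = 1 := by
    have := (ZMod.natCast_eq_natCast_iff _ _ m).mpr hℓm
    simpa using this
  rw [datumOneC_cocycle]
  have hspec := (datumOne ℓ hℓ).spec g i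
  have hspec' : heckeRep ℓ i * ((g : SL(2, ℤ)) : GL (Fin 2) ℝ) =
      ((((datumOne ℓ hℓ).cocycle g i : SL(2, ℤ))) : GL (Fin 2) ℝ) *
        heckeRep ℓ ((datumOne ℓ hℓ).perm g i) := hspec
  have hZ := (heckeRep_mul_eq_iff hℓ.ne_zero i _ _ _).mp hspec'
  exact corr_mul_mem_Gamma ℓ hℓm' hZ

theorem Gamma_le_Gamma0_of_dvd {N m : ℕ} (hNm : N ∣ m) : Gamma m ≤ Gamma0 N := by
  intro k hk
  rw [Gamma_mem] at hk
  rw [Gamma0_mem, ZMod.intCast_zmod_eq_zero_iff_dvd]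
  have h1 : (m : ℤ) ∣ k 1 0 := (ZMod.intCast_zmod_eq_zero_iff_dvd _ _).mp hk.2.2.1
  exact dvd_trans (by exact_mod_cast hNm) h1

variable {N m : ℕ} {A : Type*} [AddCommGroup A]

/-- the restriction of `x` to `Γ(m)`, multiplicatively. -/
def kappa (x : Additive ↥(Gamma0 N) →+ A) (hNm : N ∣ m) : ↥(Gamma m) →* Multiplicative A :=
  (AddMonoidHom.toMultiplicativeRight x).comp (Subgroup.inclusion (Gamma_le_Gamma0_of_dvd hNm))

theorem kappa_apply (x : Additive ↥(Gamma0 N) →+ A) (hNm : N ∣ m) (k : ↥(Gamma m)) :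
    kappa x hNm k = Multiplicative.ofAdd
      (x (Additive.ofMul ⟨(k : SL(2, ℤ)), Gamma_le_Gamma0_of_dvd hNm k.2⟩)) := rfl

/-- **[EISG]**: `T_ℓ x = (ℓ + 1) x` on `Γ₀(N) ∩ Γ(m)`. -/
theorem heckeGrpP_apply_eq_smul_of_invariant (x : Additive ↥(Gamma0 N) →+ A) (hNm : N ∣ m)
    (hinv : ∀ (g k : SL(2, ℤ)) (hk : k ∈ Gamma0 N) (hk' : g * k * g⁻¹ ∈ Gamma0 N), k ∈ Gamma m →
      x (Additive.ofMul ⟨g * k * g⁻¹, hk'⟩) = x (Additive.ofMul ⟨k, hk⟩))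
    (hhom : ∀ ψ : SL(2, ℤ) →* Multiplicative A, ∀ k ∈ Gamma m, ψ k = 1)
    (ℓ : Nat.Primes) (hℓN : ¬ (ℓ : ℕ) ∣ N) (hℓm : (ℓ : ℕ) ≡ 1 [MOD m])
    (γ : ↥(Gamma0 N)) (hγ : (γ : SL(2, ℤ)) ∈ Gamma m) :
    heckeGrpP N ℓ A x (Additive.ofMul γ) = ((ℓ : ℕ) + 1) • x (Additive.ofMul γ) := by
  haveI : (Gamma m).Normal := Gamma_normal m
  set D1 := datumOne ℓ ℓ.2 with hD1
  set DC := datumOneC ℓ ℓ.2 with hDC
  set Dt := heckeDatumT N ℓ ℓ.2 hℓN with hDt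
  have hH : ∀ (g : SL(2, ℤ)) (i : Option (Fin (ℓ : ℕ))), DC.cocycle g i * g⁻¹ ∈ Gamma m :=
    fun g i => datumOneC_cocycle_mul_inv_mem ℓ.2 hℓm g i
  have hκ : ∀ (g : SL(2, ℤ)) (k : ↥(Gamma m)),
      kappa x hNm ⟨g * (k : SL(2, ℤ)) * g⁻¹, (Gamma_normal m).conj_mem k k.2 g⟩ =
        kappa x hNm k := by
    intro g k
    rw [kappa_apply, kappa_apply]
    congr 1
    exact hinv g k _ _ k.2
  have hmain := prod_cocycle_eq_pow DC (Gamma m) (kappa x hNm) hκ hH hhom ⟨γ, hγ⟩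
  -- compare the level `N` cocycle with the level one cocycle
  have hcmp : ∀ i, D1.perm (γ : SL(2, ℤ)) i = Dt.perm γ i ∧
      D1.cocycle (γ : SL(2, ℤ)) i = ((Dt.cocycle γ i : ↥(Gamma0 N)) : SL(2, ℤ)) := by
    intro i
    exact D1.eq_of_eq (Dt.spec γ i)
  let c : Option (Fin (ℓ : ℕ)) → ↥(Gamma0 N) := fun i => ⟨eisCorr ℓ i, eisCorr_mem ℓ N i⟩
  rw [heckeGrpP_of_not_dvd A hℓN, HeckeDatum.heckeGrp_apply]
  have hkey : ∀ i, x (Additive.ofMul (Dt.cocycle γ i)) =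
      Multiplicative.toAdd (kappa x hNm ⟨DC.cocycle (γ : SL(2, ℤ)) i,
        cocycle_mem_of_mem DC (Gamma m) hH hγ i⟩) +
      (x (Additive.ofMul (c i)) - x (Additive.ofMul (c (Dt.perm γ i)))) := by
    intro i
    rw [kappa_apply, toAdd_ofAdd]
    have e : (⟨DC.cocycle (γ : SL(2, ℤ)) i, Gamma_le_Gamma0_of_dvd hNm
        (cocycle_mem_of_mem DC (Gamma m) hH hγ i)⟩ : ↥(Gamma0 N)) =
        (c i)⁻¹ * Dt.cocycle γ i * c (Dt.perm γ i) := by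
      apply Subtype.ext
      show DC.cocycle (γ : SL(2, ℤ)) i = _
      rw [hDC, datumOneC_cocycle, (hcmp i).1, (hcmp i).2]
      rfl
    rw [e, ofMul_mul, ofMul_mul, ofMul_inv, map_add, map_add, map_neg]
    abel
  rw [Finset.sum_congr rfl fun i _ => hkey i, Finset.sum_add_distrib, Finset.sum_sub_distrib]
  have hperm : ∑ i, x (Additive.ofMul (c (Dt.perm γ i))) = ∑ i, x (Additive.ofMul (c i)) :=
    Equiv.sum_comp (Dt.permEquiv γ) (fun i => x (Additive.ofMul (c i)))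
  rw [hperm, sub_self, add_zero, ← toAdd_prod, hmain, toAdd_pow, kappa_apply, toAdd_ofAdd,
    Fintype.card_option, Fintype.card_fin]

/-- **[EISG], final form**: the homomorphism `T_ℓ x - (ℓ + 1) x` is an eigenvector of `T_ℓ'` with
eigenvalue `ℓ' + 1` for all primes `ℓ, ℓ' ∤ N`, `ℓ ≡ ℓ' ≡ 1 mod m`. -/
theorem heckeGrpP_heckeGrpP_sub_of_invariant (x : Additive ↥(Gamma0 N) →+ A) (hNm : N ∣ m)
    (hinv : ∀ (g k : SL(2, ℤ)) (hk : k ∈ Gamma0 N) (hk' : g * k * g⁻¹ ∈ Gamma0 N), k ∈ Gamma m →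
      x (Additive.ofMul ⟨g * k * g⁻¹, hk'⟩) = x (Additive.ofMul ⟨k, hk⟩))
    (hhom : ∀ ψ : SL(2, ℤ) →* Multiplicative A, ∀ k ∈ Gamma m, ψ k = 1)
    (ℓ ℓ' : Nat.Primes) (hℓN : ¬ (ℓ : ℕ) ∣ N) (hℓm : (ℓ : ℕ) ≡ 1 [MOD m])
    (hℓN' : ¬ (ℓ' : ℕ) ∣ N) (hℓm' : (ℓ' : ℕ) ≡ 1 [MOD m]) :
    heckeGrpP N ℓ' A (heckeGrpP N ℓ A x - ((ℓ : ℕ) + 1) • x) =
      ((ℓ' : ℕ) + 1) • (heckeGrpP N ℓ A x - ((ℓ : ℕ) + 1) • x) := by
  refine heckeGrpP_eq_smul_of_congruence (D := m) _ (fun γ hγ => ?_) ℓ' hℓN' hℓm'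
  rw [AddMonoidHom.sub_apply, AddMonoidHom.smul_apply,
    heckeGrpP_apply_eq_smul_of_invariant x hNm hinv hhom ℓ hℓN hℓm γ hγ, sub_self]

end

end Fermat.Agent.LR.EisG
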