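/-
LR (level raising, S41) — helper3 — [EISG], top: for an odd prime `p`, a homomorphism
`x : Γ₀(N) → 𝔽_p` whose restriction to `Γ(m)` (`N ∣ m`, `p ∣ m`) is invariant under conjugation by
`SL₂(ℤ)` is a *generalised Eisenstein* vector: `(T_ℓ' - ℓ' - 1) (T_ℓ - ℓ - 1) x = 0` for all primes
`ℓ, ℓ' ∤ N` with `ℓ ≡ ℓ' ≡ 1 mod m`.
-/
import Mathlib
import Fermat.Agent.LR.EISG_helper3_SL2Z
import Fermat.Agent.LR.EISG_helper3_Hom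

set_option autoImplicit false
set_option linter.unusedSectionVars false

open Matrix CongruenceSubgroup Fermat.Agent.GR

open scoped MatrixGroups

namespace Fermat.Agent.LR.EisG

/-- **[EISG] with coefficients `𝔽_p`**: on `Γ₀(N) ∩ Γ(m)`, `T_ℓ x = (ℓ + 1) x`. -/
theorem heckeGrpP_apply_eq_smul_zmod {N m p : ℕ} (hp : p.Prime) (hp2 : p ≠ 2) (hNm : N ∣ m)
    (hpm : p ∣ m) (x : Additive ↥(Gamma0 N) →+ ZMod p)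
    (hinv : ∀ (g k : SL(2, ℤ)) (hk : k ∈ Gamma0 N) (hk' : g * k * g⁻¹ ∈ Gamma0 N), k ∈ Gamma m →
      x (Additive.ofMul ⟨g * k * g⁻¹, hk'⟩) = x (Additive.ofMul ⟨k, hk⟩))
    (ℓ : Nat.Primes) (hℓN : ¬ (ℓ : ℕ) ∣ N) (hℓm : (ℓ : ℕ) ≡ 1 [MOD m])
    (γ : ↥(Gamma0 N)) (hγ : (γ : SL(2, ℤ)) ∈ Gamma m) :
    heckeGrpP N ℓ (ZMod p) x (Additive.ofMul γ) = ((ℓ : ℕ) + 1) • x (Additive.ofMul γ) :=
  heckeGrpP_apply_eq_smul_of_invariant x hNm hinv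
    (fun ψ _ hk => hom_SL2Z_eq_one_of_mem_Gamma hp hp2 hpm ψ hk) ℓ hℓN hℓm γ hγ

/-- **[EISG] with coefficients `𝔽_p`, final form.** -/
theorem heckeGrpP_heckeGrpP_sub_zmod {N m p : ℕ} (hp : p.Prime) (hp2 : p ≠ 2) (hNm : N ∣ m)
    (hpm : p ∣ m) (x : Additive ↥(Gamma0 N) →+ ZMod p)
    (hinv : ∀ (g k : SL(2, ℤ)) (hk : k ∈ Gamma0 N) (hk' : g * k * g⁻¹ ∈ Gamma0 N), k ∈ Gamma m →
      x (Additive.ofMul ⟨g * k * g⁻¹, hk'⟩) = x (Additive.ofMul ⟨k, hk⟩))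
    (ℓ ℓ' : Nat.Primes) (hℓN : ¬ (ℓ : ℕ) ∣ N) (hℓm : (ℓ : ℕ) ≡ 1 [MOD m])
    (hℓN' : ¬ (ℓ' : ℕ) ∣ N) (hℓm' : (ℓ' : ℕ) ≡ 1 [MOD m]) :
    heckeGrpP N ℓ' (ZMod p) (heckeGrpP N ℓ (ZMod p) x - ((ℓ : ℕ) + 1) • x) =
      ((ℓ' : ℕ) + 1) • (heckeGrpP N ℓ (ZMod p) x - ((ℓ : ℕ) + 1) • x) :=
  heckeGrpP_heckeGrpP_sub_of_invariant x hNm hinv
    (fun ψ _ hk => hom_SL2Z_eq_one_of_mem_Gamma hp hp2 hpm ψ hk) ℓ ℓ' hℓN hℓm hℓN' hℓm'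

end Fermat.Agent.LR.EisG
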