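/-
PROJECT LR (S41), package [NONEIS] (helper3), part 3: "the determinant of Frobenius is `ℓ`" at the
level of the `p`-torsion, in the scalar case.

* `dvd_of_endo_charpoly` (abstract Tate module of S58 [TMOD]): if the transport `F.endo f` of an
  endomorphism `f` has characteristic polynomial `X² - aX + q` and `f = c` on `J[p]` then
  `p ∣ c² - q` and `p ∣ 2c - a`;
* `dvd_of_frobenius_scalar`: for an integral Weierstrass model `W`, a good prime `ℓ ≠ p` and a
  Frobenius element `σ` at `ℓ` acting on `E[p](ℚ̄)` as the integer `c`: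
  `p ∣ c² - ℓ` and `p ∣ 2c - a_ℓ`.
-/
import Mathlib
import Fermat.Agent.S58.ECTATE_helper9_Fin

set_option autoImplicit false
set_option linter.style.haveILetI false
set_option linter.unusedSectionVars false

namespace Fermat.Agent.LR.NonEis

open Polynomial Fermat.Agent.S58 Fermat.Agent.GR

/-- `Ω = AlgebraicClosure ℚ`. -/
local notation "Ω" => AlgebraicClosure ℚ
/-- `GQ = Gal(Ω/ℚ)`. -/
local notation "GQ" => (AlgebraicClosure ℚ ≃ₐ[ℚ] AlgebraicClosure ℚ)

section Abstract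

variable {J : Type*} [AddCommGroup J] {p : ℕ} [hp : Fact p.Prime]

/-- congruence: if `f = c` on `J[p^k]` then `F.endo f v ≡ c v mod p^k` -/
theorem endo_sub_zsmul_eq_smul (F : TmodFrame J p) (f : AddMonoid.End J) (k : ℕ) (c : ℤ)
    (h : ∀ x : J, p ^ k • x = 0 → f x = c • x) (v : Fin 2 → ℤ_[p]) :
    ∃ v' : Fin 2 → ℤ_[p], F.endo f v - c • v = (p : ℤ_[p]) ^ k • v' := by
  apply F.exists_eq_smul_of_psi_comp_eq_zero
  rw [map_sub, map_zsmul]
  show (F.psi (F.endo f v)).1 k - c • (F.psi v).1 k = 0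
  rw [TmodFrame.psi_endo_apply, h _ (TateSeq.pow_smul (F.psi v) k), sub_self]

/-- **the characteristic polynomial modulo `p` in the scalar case** -/
theorem dvd_of_endo_charpoly (F : TmodFrame J p) (f : AddMonoid.End J) (a q c : ℤ)
    (hchar : LinearMap.charpoly (F.endo f) =
      X ^ 2 - C ((a : ℤ) : ℤ_[p]) * X + C ((q : ℤ) : ℤ_[p]))
    (hc : ∀ x : J, p • x = 0 → f x = c • x) :
    (p : ℤ) ∣ c ^ 2 - q ∧ (p : ℤ) ∣ 2 * c - a := by
  set M : Matrix (Fin 2) (Fin 2) ℤ_[p] := LinearMap.toMatrix' (F.endo f) with hM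
  have hMchar : M.charpoly = X ^ 2 - C ((a : ℤ) : ℤ_[p]) * X + C ((q : ℤ) : ℤ_[p]) := by
    rw [hM, ← LinearMap.toMatrix_eq_toMatrix', LinearMap.charpoly_toMatrix, hchar]
  rw [Matrix.charpoly_fin_two] at hMchar
  have htr : M.trace = (a : ℤ_[p]) := by
    have := congrArg (fun P : ℤ_[p][X] => P.coeff 1) hMchar
    simp only [coeff_add, coeff_sub, coeff_X_pow, coeff_C_mul, coeff_X_one, coeff_C] at this
    simpa using this
  have hdet : M.det = (q : ℤ_[p]) := by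
    have := congrArg (fun P : ℤ_[p][X] => P.coeff 0) hMchar
    simp only [coeff_add, coeff_sub, coeff_X_pow, coeff_C_mul, coeff_X_zero, coeff_C_zero] at this
    simpa using this
  -- the entries modulo `p`
  have hent : ∀ i j : Fin 2, ∃ r : ℤ_[p],
      M i j = (if i = j then (c : ℤ_[p]) else 0) + (p : ℤ_[p]) * r := by
    intro i j
    obtain ⟨v', hv'⟩ := endo_sub_zsmul_eq_smul F f 1 c (by simpa using hc) (Pi.single j 1)
    refine ⟨v' i, ?_⟩
    have h1 := congrFun hv' i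
    simp only [Pi.sub_apply, Pi.smul_apply, pow_one, smul_eq_mul, zsmul_eq_mul, Pi.mul_apply,
      Pi.intCast_apply] at h1
    rw [hM, LinearMap.toMatrix'_apply]
    have h3 : F.endo f (Pi.single j 1) i =
        (c : ℤ_[p]) * (Pi.single j (1 : ℤ_[p]) : Fin 2 → ℤ_[p]) i + (p : ℤ_[p]) * v' i := by
      linear_combination h1
    rw [h3, Pi.single_apply]
    split_ifs <;> simp
  obtain ⟨r00, h00⟩ := hent 0 0
  obtain ⟨r01, h01⟩ := hent 0 1
  obtain ⟨r10, h10⟩ := hent 1 0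
  obtain ⟨r11, h11⟩ := hent 1 1
  simp only [if_true] at h00 h11
  rw [if_neg (by decide), zero_add] at h01 h10
  constructor
  · have h1 : ((c ^ 2 - q : ℤ) : ℤ_[p]) = (p : ℤ_[p]) *
        (-(c : ℤ_[p]) * r11 - r00 * c - p * r00 * r11 + p * r01 * r10) := by
      push_cast
      rw [← hdet, Matrix.det_fin_two, h00, h01, h10, h11]
      ring
    have h2 : (p : ℤ_[p]) ^ 1 ∣ ((c ^ 2 - q : ℤ) : ℤ_[p]) := by
      rw [pow_one, h1]
      exact dvd_mul_right _ _
    have := (PadicInt.pow_p_dvd_int_iff 1 _).mp h2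
    simpa using this
  · have h1 : ((2 * c - a : ℤ) : ℤ_[p]) = (p : ℤ_[p]) * (-r00 - r11) := by
      push_cast
      rw [← htr, Matrix.trace_fin_two, h00, h11]
      ring
    have h2 : (p : ℤ_[p]) ^ 1 ∣ ((2 * c - a : ℤ) : ℤ_[p]) := by
      rw [pow_one, h1]
      exact dvd_mul_right _ _
    have := (PadicInt.pow_p_dvd_int_iff 1 _).mp h2
    simpa using this

end Abstract

section Concrete

open WeierstrassCurve WeierstrassCurve.Affine
open scoped WeierstrassCurve.Affine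

/-- **"`det ρ̄(Frob_ℓ) = ℓ`" in the scalar case**: a Frobenius element at a good prime `ℓ ≠ lam`
acting on `E[lam](ℚ̄)` as the integer `c` has `c² ≡ ℓ` and `2c ≡ a_ℓ` modulo `lam`. -/
theorem dvd_of_frobenius_scalar (W : WeierstrassCurve ℤ) (hΔ : W.Δ ≠ 0) {lam : ℕ}
    [Fact lam.Prime] (hlam2 : lam ≠ 2) {ℓ : ℕ} (hℓ : ℓ.Prime) (hℓlam : ℓ ≠ lam)
    (hgood : W.IsGoodPrimeFor ℓ) (A : ValuationSubring Ω) (hA : A.LiesOverPrime ℓ) (σ : GQ)
    (hσ : A.IsFrobeniusAt σ ℓ) (c : ℤ)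
    (hc : ∀ P : (W⁄Ω).Point, lam • P = 0 → σ • P = c • P) :
    (lam : ℤ) ∣ c ^ 2 - ℓ ∧ (lam : ℤ) ∣ 2 * c - W.apOfModel ℓ := by
  classical
  have hlam : lam.Prime := Fact.out
  have hΔΩ : (W⁄Ω).Δ ≠ 0 := by
    have h1 : (W⁄Ω).Δ = ((W.Δ : ℤ) : Ω) := by
      simp [WeierstrassCurve.baseChange, WeierstrassCurve.map_Δ]
    rw [h1]
    exact_mod_cast hΔ
  have hcard1 : Nat.card {P : (W⁄Ω).Point // lam • P = 0} = lam ^ 2 :=
    Fermat.Agent.EC.card_torsion_eq hΔΩ hlam hlam2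
  have hdiv : ∀ P : (W⁄Ω).Point, ∃ Q : (W⁄Ω).Point, lam • Q = P :=
    fun P => Fermat.Agent.EC.qbar_divisible W hΔ hlam hlam2 P
  have hoddpow : ∀ n : ℕ, Odd (lam ^ n) := fun n => (hlam.odd_of_ne_two hlam2).pow
  have hndvd : ∀ n : ℕ, ¬ ℓ ∣ lam ^ n := fun n h =>
    hℓlam ((Nat.prime_dvd_prime_iff_eq hℓ hlam).mp (hℓ.dvd_of_dvd_pow h))
  obtain ⟨F⟩ := tmod_exists_frame (J := (W⁄Ω).Point) (p := lam) hcard1 (fun P _ => hdiv P)
  set act : GQ →* AddMonoid.End (W⁄Ω).Point :=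
    DistribMulAction.toAddMonoidEnd GQ (W⁄Ω).Point with hact
  have hcont : TmodCont lam act := fun P _ => asm58_exists_fixingField W P
  have hrel : ∀ P : (W⁄Ω).Point, (∃ n : ℕ, lam ^ n • P = 0) →
      act σ (act σ P) - (W.apOfModel ℓ) • act σ P + (ℓ : ℤ) • P = 0 := by
    rintro P ⟨n, hP⟩
    exact e2_frobenius_relation_Qbar W hℓ hgood (asm58_e2FrobRel W hℓ hgood) A hA hσ
      (hoddpow n) (hndvd n) hP
  have hns : ¬ IsScalarEnd ((F.rep act hcont).ρ σ) := fun hs =>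
    e2_frobenius_not_scalar_Qbar' W hℓ hgood (e2KerBound_of_good W hℓ hgood) A hA hσ hlam hlam2
      (Ne.symm hℓlam) hcard1 hdiv (F.rep_scalar act hcont σ hs)
  have hchar := charpoly_eq_of_quadratic (F.rep act hcont).finrank_eq
    (F.rep_quadratic act hcont σ (W.apOfModel ℓ) (ℓ : ℤ) hrel) hns
  exact dvd_of_endo_charpoly F (act σ) (W.apOfModel ℓ) (ℓ : ℤ) c hchar hc

end Concrete

end Fermat.Agent.LR.NonEis
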