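/-
PROJECT LR (S41), package [RAISE] (helper2), part 7: the bridge from the parabolic form `CSPHypPar`
of the congruence subgroup hypothesis (helper9's `ihara_par_of_cspPar`) to `EisHyp1`, and `S41` from
`CSPHypPar`.
-/
import Mathlib
import Fermat.Agent.LR.RAISE_helper2_Final
import Fermat.Agent.LR.CSP_helper9_Par

set_option autoImplicit false
set_option linter.unusedSectionVars false
set_option linter.style.haveILetI false

namespace Fermat.Agent.LR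

open MvPolynomial CongruenceSubgroup ModularCurve.Period Fermat.Agent.GR
open scoped MatrixGroups

/-- helper9's `ihara_par_of_cspPar` in the form `EisHyp1`. -/
theorem eisHyp1_of_cspPar {N q p : ℕ} [NeZero q] (hq : q.Prime) (hqN : ¬ q ∣ N) (hp : p ≠ 0)
    (hcsp : CSPHypPar N q p) : EisHyp1 N q p hq := by
  intro φ₁ φ₂ y hy
  obtain ⟨D, hD, hDℓ⟩ := ihara_par_of_cspPar hq hqN hp hcsp φ₁ φ₂ y hy
  refine ⟨D, hD, fun ℓ hℓ hℓD => ?_⟩
  obtain ⟨ψ₁, ψ₂, h1, h2⟩ := hDℓ ℓ hℓ hℓD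
  exact ⟨ψ₁, ψ₂, by rw [eisOp_apply]; exact h1, by rw [eisOp_apply]; exact h2⟩

section Final

open WeierstrassCurve WeierstrassCurve.Affine WeierstrassCurve.Affine.Point

/-- **level raising from `CSPHypPar`**: the statement of `S41`. -/
theorem s41_of_cspPar
    (E : WeierstrassCurve ℚ) [E.IsElliptic] {W : WeierstrassCurve ℤ} (hW : W.IsIntegralModelOf E)
    {p N q : ℕ} [NeZero q] (hp : p.Prime) (hp2 : p ≠ 2) (hN : 0 < N) (hq : q.Prime)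
    (hqN : ¬ q ∣ N)
    (hirr : GaloisRepIsIrreducible (K := AlgebraicClosure ℚ) ℚ E p)
    (f : CuspForm (CongruenceSubgroup.Gamma0 N) 2) (𝔪 : Ideal (integralClosure ℤ ℂ))
    (hf : f.IsNormalizedEigenform) (hmax : 𝔪.IsMaximal) (hpm : (p : integralClosure ℤ ℂ) ∈ 𝔪)
    (hcong : ∀ ℓ : ℕ, ℓ.Prime → W.IsGoodPrimeFor ℓ → ¬ ℓ ∣ N → ℓ ≠ p →
      ∃ a : integralClosure ℤ ℂ, (a : ℂ) = ModularFormClass.qCoeff f ℓ ∧
        a - ((W.apOfModel ℓ : ℤ) : integralClosure ℤ ℂ) ∈ 𝔪)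
    (hLR : ∃ a : integralClosure ℤ ℂ, (a : ℂ) = ModularFormClass.qCoeff f q ∧
      a ^ 2 - ((q : integralClosure ℤ ℂ) + 1) ^ 2 ∈ 𝔪)
    (hcsp : CSPHypPar N q p) :
    ∃ (g : CuspForm (CongruenceSubgroup.Gamma0 (N * q)) 2)
      (𝔪' : Ideal (integralClosure ℤ ℂ)),
      g.IsNormalizedEigenform ∧ 𝔪'.IsMaximal ∧ (p : integralClosure ℤ ℂ) ∈ 𝔪' ∧
      (∀ ℓ : ℕ, ℓ.Prime → W.IsGoodPrimeFor ℓ → ¬ ℓ ∣ N * q → ℓ ≠ p →
        ∃ a : integralClosure ℤ ℂ, (a : ℂ) = ModularFormClass.qCoeff g ℓ ∧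
          a - ((W.apOfModel ℓ : ℤ) : integralClosure ℤ ℂ) ∈ 𝔪') ∧
      g.IsNewAt q :=
  s41_of_eisHyp2 E hW hp hp2 hN hq hqN hirr f 𝔪 hf hmax hpm hcong hLR
    (eisHyp1_of_cspPar hq hqN hp.ne_zero hcsp).eisHyp2

end Final

end Fermat.Agent.LR
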